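import Mathlib
import Fermat.Statements.S16
import Fermat.Prelude.Def_ModularCurve_PeriodHomPair
import Fermat.Prelude.Def_ModularForm_HeckeOperatorForms

/-!
# S16 (Eisenstein ideal index): shared definitions

`piHom p : HeckeAlg →+* 𝕋`, `evE p : HeckeAlg →+* ℤ`, `sigmaStar`, `IsIntValued`, the local ring
`locInt ℓ ⊆ ℂ`, the elements `gT`, `gT'` of `Γ₀(N)`, the Fricke map `frickeW` on `ℍ` and the
Eisenstein primitive `eisPrim`.
-/

set_option autoImplicit false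

namespace Fermat.Agent.S16

open ModularCurve CuspForm CongruenceSubgroup UpperHalfPlane ModularForm
open scoped MatrixGroups ModularForm Manifold

/-- The composite `HeckeAlg → heckeAlgebra p 2 ∅ → 𝕋 = heckeLatticeAlgebra p ∅`
(this is the ring hom appearing in the frozen statement). -/
noncomputable def piHom (p : ℕ) [NeZero p] : HeckeAlg →+* ↥(heckeLatticeAlgebra p ∅) :=
  (latticeRestrictHom p ∅).toRingHom.comp (heckeEvalForms p 2)

/-- Evaluation at the Eisenstein system `ℓ ↦ 1 + ℓ` (`ℓ ∤ p`), `p ↦ 1`. Its kernel is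
`eisensteinIdeal p` by definition. -/
noncomputable def evE (p : ℕ) : HeckeAlg →+* ℤ :=
  (MvPolynomial.aeval (R := ℤ) (eisensteinSystem p)).toRingHom

/-- `σ*(k) = ∑_{d ∣ k, p ∤ d} d`. -/
def sigmaStar (p k : ℕ) : ℕ := ∑ d ∈ k.divisors with ¬ p ∣ d, d

/-- a `ℂ`-valued character of `Γ₀(N)` with integer values -/
def IsIntValued {N : ℕ} (χ : Additive (Gamma0 N) →+ ℂ) : Prop :=
  ∀ γ : Additive (Gamma0 N), ∃ m : ℤ, χ γ = (m : ℂ)

/-- The set of `ℓ`-integral algebraic numbers: `x ∈ ℂ` with `d • x` an algebraic integer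
for some integer `d` prime to `ℓ`. (A subring of `ℂ`, see `LocInt.lean`.) -/
def IsLocInt (ℓ : ℕ) (x : ℂ) : Prop :=
  ∃ d : ℤ, ¬ (ℓ : ℤ) ∣ d ∧ IsIntegral ℤ ((d : ℂ) * x)

/-- `x ≡ 0 mod ℓ^s` in the ring of `ℓ`-integral algebraic numbers. -/
def IsLocDvd (ℓ s : ℕ) (x : ℂ) : Prop :=
  ∃ y : ℂ, IsLocInt ℓ y ∧ x = (ℓ : ℂ) ^ s * y

/-- `T = [1 1; 0 1]` as an element of `Γ₀(N)`. -/
def gT (N : ℕ) : Gamma0 N :=
  ⟨ModularGroup.T, by rw [Gamma0_mem]; simp [ModularGroup.T]⟩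

/-- `[1 0; N 1]` in `SL(2,ℤ)`. -/
def sT' (N : ℕ) : SL(2, ℤ) := ⟨!![1, 0; (N : ℤ), 1], by simp [Matrix.det_fin_two]⟩

/-- `T' = [1 0; N 1]` as an element of `Γ₀(N)`. -/
def gT' (N : ℕ) : Gamma0 N :=
  ⟨sT' N, by
    rw [Gamma0_mem]
    change (((!![1, 0; (N : ℤ), 1] : Matrix (Fin 2) (Fin 2) ℤ) 1 0 : ℤ) : ZMod N) = 0
    simp⟩

/-- the Fricke involution `z ↦ -1/(N z)` on `ℍ` -/
noncomputable def frickeW (N : ℕ) [NeZero N] (z : ℍ) : ℍ :=
  ⟨-1 / ((N : ℂ) * z), by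
    have hN : (0 : ℝ) < N := Nat.cast_pos.mpr (NeZero.pos N)
    have hz := z.im_pos
    have hne : ((N : ℂ) * (z : ℂ)) ≠ 0 :=
      mul_ne_zero (by exact_mod_cast (NeZero.ne N)) z.ne_zero
    rw [neg_div, Complex.neg_im, one_div, Complex.inv_im]
    have him : ((N : ℂ) * (z : ℂ)).im = N * z.im := by simp
    rw [him, neg_div, neg_neg]
    exact div_pos (mul_pos hN hz) (Complex.normSq_pos.mpr hne)⟩

theorem coe_frickeW (N : ℕ) [NeZero N] (z : ℍ) : ((frickeW N z : ℍ) : ℂ) = -1 / ((N : ℂ) * z) := rfl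

/-- `H'` is a *companion* of `H` (weight `k`, level `p`): the translates of `H` by the
non-trivial cosets `Γ₀(p) S T^j` (`j < p`) are `z ↦ H' ((z + j) / p)`. -/
def IsCompanion (p : ℕ) (k : ℤ) (H H' : ℍ → ℂ) : Prop :=
  ∀ j : ℕ, j < p → ∀ z : ℍ,
    (H ∣[k] (ModularGroup.S * ModularGroup.T ^ j)) z = H' (heckeMatrix p j • z)

/-- The Eisenstein primitive: a holomorphic `F` on `ℍ` with `exp(2πi F) = Δ(p z)/Δ(z)`:
`F(z) = (p-1) z + (24/(2πi)) ∑_{k ≥ 1} (log(1 - q^{pk}) - log(1 - q^k))`, `q = exp(2πi z)`. -/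
noncomputable def eisPrim (p : ℕ) (z : ℍ) : ℂ :=
  ((p : ℂ) - 1) * z + (24 / (2 * Real.pi * Complex.I)) *
    ∑' k : ℕ, (Complex.log (1 - Complex.exp (2 * Real.pi * Complex.I * p * (k + 1) * z))
      - Complex.log (1 - Complex.exp (2 * Real.pi * Complex.I * (k + 1) * z)))

end Fermat.Agent.S16
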