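import Mathlib
import Fermat.Agent.S16.Defs
import Fermat.Agent.S22.Esymm

/-!
# S16 (M4): cosets of `Γ₀(p)` in `SL(2,ℤ)`, norm and trace to level one

`exists_ST_rep`: `SL(2,ℤ) = Γ₀(p) ⊔ ⨆_{j<p} Γ₀(p) S T^j`.
`CosetsP.sum_quotientFunc`, `CosetsP.prod_quotientFunc`: the translates of a form `H` on `Γ₀(p)`
over `SL(2,ℤ)/Γ₀(p)` are `H` and `H ∣ S T^j`, `j < p`.
`exists_normForm`, `exists_traceForm`: norm and trace as level one forms.
-/

set_option autoImplicit false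

namespace Fermat.Agent.S16

open ModularCurve CuspForm CongruenceSubgroup UpperHalfPlane ModularForm
open scoped MatrixGroups ModularForm Manifold
open Fermat.Agent.S22

namespace CosetsP

/-- entries of `S * T ^ j` -/
theorem coe_ST (j : ℕ) :
    ((ModularGroup.S * ModularGroup.T ^ j : SL(2, ℤ)) : Matrix (Fin 2) (Fin 2) ℤ)
      = !![0, -1; 1, (j : ℤ)] := by
  rw [Matrix.SpecialLinearGroup.coe_mul, ← zpow_natCast, ModularGroup.coe_T_zpow]
  simp [ModularGroup.S]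

/-- entries of `(S * T ^ j)⁻¹` -/
theorem coe_ST_inv (j : ℕ) :
    (((ModularGroup.S * ModularGroup.T ^ j)⁻¹ : SL(2, ℤ)) : Matrix (Fin 2) (Fin 2) ℤ)
      = !![(j : ℤ), 1; -1, 0] := by
  have h := coe_ST j
  rw [Matrix.SpecialLinearGroup.SL2_inv_expl]
  change !![(ModularGroup.S * ModularGroup.T ^ j : SL(2, ℤ)) 1 1,
      -(ModularGroup.S * ModularGroup.T ^ j : SL(2, ℤ)) 0 1;
      -(ModularGroup.S * ModularGroup.T ^ j : SL(2, ℤ)) 1 0,
      (ModularGroup.S * ModularGroup.T ^ j : SL(2, ℤ)) 0 0] = _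
  have e00 : (ModularGroup.S * ModularGroup.T ^ j : SL(2, ℤ)) 0 0 = 0 := by
    have := congrFun (congrFun h 0) 0; simpa using this
  have e01 : (ModularGroup.S * ModularGroup.T ^ j : SL(2, ℤ)) 0 1 = -1 := by
    have := congrFun (congrFun h 0) 1; simpa using this
  have e10 : (ModularGroup.S * ModularGroup.T ^ j : SL(2, ℤ)) 1 0 = 1 := by
    have := congrFun (congrFun h 1) 0; simpa using this
  have e11 : (ModularGroup.S * ModularGroup.T ^ j : SL(2, ℤ)) 1 1 = j := by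
    have := congrFun (congrFun h 1) 1; simpa using this
  rw [e00, e01, e10, e11]
  simp

theorem lowerLeft_mul_ST_inv (γ : SL(2, ℤ)) (j : ℕ) :
    ((γ * (ModularGroup.S * ModularGroup.T ^ j)⁻¹ : SL(2, ℤ)) : Matrix (Fin 2) (Fin 2) ℤ) 1 0
      = γ 1 0 * j - γ 1 1 := by
  rw [Matrix.SpecialLinearGroup.coe_mul, coe_ST_inv, Matrix.mul_apply]
  simp [Fin.sum_univ_two]
  ring

theorem lowerLeft_ST_mul_ST_inv (i j : ℕ) :
    (((ModularGroup.S * ModularGroup.T ^ i) * (ModularGroup.S * ModularGroup.T ^ j)⁻¹ : SL(2, ℤ)) :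
        Matrix (Fin 2) (Fin 2) ℤ) 1 0 = (j : ℤ) - i := by
  rw [lowerLeft_mul_ST_inv, coe_ST]
  simp

theorem ST_inv_not_mem (p : ℕ) (hp : 2 ≤ p) (j : ℕ) :
    (ModularGroup.S * ModularGroup.T ^ j)⁻¹ ∉ Gamma0 p := by
  rw [Gamma0_mem, coe_ST_inv]
  have : Fact (1 < p) := ⟨hp⟩
  simp

theorem ST_mul_ST_inv_mem_iff (p : ℕ) (i j : ℕ) (hi : i < p) (hj : j < p) :
    (ModularGroup.S * ModularGroup.T ^ i) * (ModularGroup.S * ModularGroup.T ^ j)⁻¹ ∈ Gamma0 p
      ↔ i = j := by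
  rw [Gamma0_mem, lowerLeft_ST_mul_ST_inv]
  constructor
  · intro h
    have h1 : ((j : ℤ) : ZMod p) = ((i : ℤ) : ZMod p) := by
      have := h
      push_cast at this ⊢
      exact sub_eq_zero.mp this
    rw [Int.cast_natCast, Int.cast_natCast, ZMod.natCast_eq_natCast_iff'] at h1
    rw [Nat.mod_eq_of_lt hi, Nat.mod_eq_of_lt hj] at h1
    exact h1.symm
  · rintro rfl
    simp

end CosetsP

/-- (M4) coset representatives of `Γ₀(p) \ SL(2,ℤ)`: every `γ ∉ Γ₀(p)` lies in `Γ₀(p) S T^j` for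
some `j < p`. -/
theorem exists_ST_rep (p : ℕ) [Fact p.Prime] (γ : SL(2, ℤ)) (hγ : γ ∉ Gamma0 p) :
    ∃ j : ℕ, j < p ∧ ∃ β : SL(2, ℤ), β ∈ Gamma0 p ∧
      γ = β * ModularGroup.S * ModularGroup.T ^ j := by
  have hp : p.Prime := Fact.out
  have : NeZero p := ⟨hp.ne_zero⟩
  rw [Gamma0_mem] at hγ
  set c : ZMod p := ((γ 1 0 : ℤ) : ZMod p) with hc
  set d : ZMod p := ((γ 1 1 : ℤ) : ZMod p) with hd
  refine ⟨(d * c⁻¹).val, ZMod.val_lt _, γ * (ModularGroup.S * ModularGroup.T ^ (d * c⁻¹).val)⁻¹,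
    ?_, ?_⟩
  · rw [Gamma0_mem, CosetsP.lowerLeft_mul_ST_inv]
    push_cast
    rw [ZMod.natCast_zmod_val, ← hc, ← hd, mul_comm d, ← mul_assoc, mul_inv_cancel₀ hγ, one_mul,
      sub_self]
  · rw [mul_assoc, inv_mul_cancel_right]

namespace CosetsP

/-- `SL(2,ℤ) → 𝒮ℒ` -/
noncomputable def toSL : SL(2, ℤ) →* 𝒮ℒ := (Matrix.SpecialLinearGroup.mapGL ℝ).rangeRestrict

theorem toSL_val (x : SL(2, ℤ)) :
    ((toSL x : 𝒮ℒ) : GL (Fin 2) ℝ) = Matrix.SpecialLinearGroup.mapGL ℝ x :=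
  rfl

theorem toSL_surjective : Function.Surjective toSL :=
  MonoidHom.rangeRestrict_surjective _

theorem mk_toSL_eq_iff (N : ℕ) (x y : SL(2, ℤ)) :
    (QuotientGroup.mk (toSL x) : Q N) = QuotientGroup.mk (toSL y) ↔ x⁻¹ * y ∈ Gamma0 N := by
  rw [QuotientGroup.eq, Subgroup.mem_subgroupOf]
  constructor
  · rintro ⟨g, hg, hg'⟩
    have h1 : Matrix.SpecialLinearGroup.mapGL ℝ g
        = Matrix.SpecialLinearGroup.mapGL ℝ (x⁻¹ * y) := by
      rw [hg']
      simp [toSL_val]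
    have h2 : g = x⁻¹ * y := Matrix.SpecialLinearGroup.mapGL_injective h1
    rw [← h2]
    exact hg
  · intro h
    exact ⟨x⁻¹ * y, h, by simp [toSL_val]⟩

theorem quotientFunc_mk_toSL {N : ℕ} {k : ℤ} (H : ModularForm (Gamma0 N) k) (x : SL(2, ℤ)) :
    SlashInvariantForm.quotientFunc H (QuotientGroup.mk (toSL x) : Q N)
      = (H : ℍ → ℂ) ∣[k] x⁻¹ := by
  have hinv : ((x⁻¹ : SL(2, ℤ)) : GL (Fin 2) ℝ) = (Matrix.SpecialLinearGroup.mapGL ℝ x)⁻¹ :=
    map_inv (Matrix.SpecialLinearGroup.mapGL ℝ) x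
  change SlashInvariantForm.quotientFunc H ⟦toSL x⟧ = _
  rw [SlashInvariantForm.quotientFunc_mk, SL_slash, hinv]
  rfl

/-- the coset representatives of `SL(2,ℤ)/Γ₀(p)`: `1` and `(S T^j)⁻¹`, `j < p`. -/
noncomputable def rep (p : ℕ) : Option (Fin p) → Q p
  | none => QuotientGroup.mk (toSL 1)
  | some j => QuotientGroup.mk (toSL (ModularGroup.S * ModularGroup.T ^ (j : ℕ))⁻¹)

theorem rep_bijective (p : ℕ) [Fact p.Prime] : Function.Bijective (rep p) := by
  have hp : p.Prime := Fact.out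
  constructor
  · rintro (_ | i) (_ | j) h
    · rfl
    · exfalso
      rw [rep, rep, mk_toSL_eq_iff, inv_one, one_mul] at h
      exact ST_inv_not_mem p hp.two_le _ h
    · exfalso
      rw [rep, rep, mk_toSL_eq_iff, inv_inv, mul_one] at h
      have h2 := (Gamma0 p).inv_mem h
      exact ST_inv_not_mem p hp.two_le _ h2
    · rw [rep, rep, mk_toSL_eq_iff, inv_inv, ST_mul_ST_inv_mem_iff p _ _ i.2 j.2] at h
      exact congrArg some (Fin.ext h)
  · intro q
    induction q using QuotientGroup.induction_on with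
    | H h =>
      obtain ⟨x, rfl⟩ := toSL_surjective h
      by_cases hx : x⁻¹ ∈ Gamma0 p
      · refine ⟨none, ?_⟩
        rw [rep, mk_toSL_eq_iff, inv_one, one_mul]
        exact (Gamma0 p).inv_mem_iff.mp hx
      · obtain ⟨j, hj, β, hβ, hxβ⟩ := exists_ST_rep p x⁻¹ hx
        refine ⟨some ⟨j, hj⟩, ?_⟩
        rw [rep, mk_toSL_eq_iff, inv_inv]
        have hx' : x = (ModularGroup.S * ModularGroup.T ^ j)⁻¹ * β⁻¹ := by
          rw [← mul_inv_rev, ← mul_assoc, ← hxβ, inv_inv]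
        rw [hx', ← mul_assoc, mul_inv_cancel, one_mul]
        exact (Gamma0 p).inv_mem hβ


/-- the coset representatives as an equivalence -/
noncomputable def repEquiv (p : ℕ) [Fact p.Prime] : Option (Fin p) ≃ Q p :=
  Equiv.ofBijective (rep p) (rep_bijective p)

theorem neZero_of_prime (p : ℕ) [Fact p.Prime] : NeZero p := ⟨(Fact.out : p.Prime).ne_zero⟩

attribute [local instance] neZero_of_prime

theorem card_Q (p : ℕ) [Fact p.Prime] : Fintype.card (Q p) = p + 1 := by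
  rw [← Fintype.card_congr (repEquiv p), Fintype.card_option, Fintype.card_fin]

theorem sum_Q (p : ℕ) [Fact p.Prime] {M : Type*} [AddCommMonoid M] (F : Q p → M) :
    ∑ q : Q p, F q = F (QuotientGroup.mk (toSL 1)) +
      ∑ j ∈ Finset.range p,
        F (QuotientGroup.mk (toSL (ModularGroup.S * ModularGroup.T ^ j)⁻¹)) := by
  rw [← (repEquiv p).sum_comp F, Fintype.sum_option,
    ← Fin.sum_univ_eq_sum_range
      (fun j => F (QuotientGroup.mk (toSL (ModularGroup.S * ModularGroup.T ^ j)⁻¹))) p]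
  rfl

theorem prod_Q (p : ℕ) [Fact p.Prime] {M : Type*} [CommMonoid M] (F : Q p → M) :
    ∏ q : Q p, F q = F (QuotientGroup.mk (toSL 1)) *
      ∏ j ∈ Finset.range p,
        F (QuotientGroup.mk (toSL (ModularGroup.S * ModularGroup.T ^ j)⁻¹)) := by
  rw [← (repEquiv p).prod_comp F, Fintype.prod_option,
    ← Fin.prod_univ_eq_prod_range
      (fun j => F (QuotientGroup.mk (toSL (ModularGroup.S * ModularGroup.T ^ j)⁻¹))) p]
  rfl

theorem quotientFunc_one {N : ℕ} {k : ℤ} (H : ModularForm (Gamma0 N) k) :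
    SlashInvariantForm.quotientFunc H (QuotientGroup.mk (toSL 1) : Q N) = (H : ℍ → ℂ) := by
  rw [quotientFunc_mk_toSL, inv_one, SL_slash]
  simp

theorem quotientFunc_ST {N : ℕ} {k : ℤ} (H : ModularForm (Gamma0 N) k) (j : ℕ) :
    SlashInvariantForm.quotientFunc H
        (QuotientGroup.mk (toSL (ModularGroup.S * ModularGroup.T ^ j)⁻¹) : Q N)
      = (H : ℍ → ℂ) ∣[k] (ModularGroup.S * ModularGroup.T ^ j) := by
  rw [quotientFunc_mk_toSL, inv_inv]

/-- the sum over the cosets of the translates of `H` -/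
theorem sum_quotientFunc (p : ℕ) [Fact p.Prime] {k : ℤ} (H : ModularForm (Gamma0 p) k) (z : ℍ) :
    ∑ q : Q p, SlashInvariantForm.quotientFunc H q z =
      H z + ∑ j ∈ Finset.range p,
        ((H : ℍ → ℂ) ∣[k] (ModularGroup.S * ModularGroup.T ^ j)) z := by
  rw [sum_Q p (fun q => SlashInvariantForm.quotientFunc H q z), quotientFunc_one]
  simp only [quotientFunc_ST]

/-- the product over the cosets of the translates of `H` -/
theorem prod_quotientFunc (p : ℕ) [Fact p.Prime] {k : ℤ} (H : ModularForm (Gamma0 p) k) (z : ℍ) :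
    ∏ q : Q p, SlashInvariantForm.quotientFunc H q z =
      H z * ∏ j ∈ Finset.range p,
        ((H : ℍ → ℂ) ∣[k] (ModularGroup.S * ModularGroup.T ^ j)) z := by
  rw [prod_Q p (fun q => SlashInvariantForm.quotientFunc H q z), quotientFunc_one]
  simp only [quotientFunc_ST]

end CosetsP

open CosetsP in
/-- (M4) the norm to level one (via `S22.esymmForm H (p+1)`). -/
theorem exists_normForm (p : ℕ) [Fact p.Prime] {k : ℕ} (H : ModularForm (Gamma0 p) k) :
    ∃ N : ModularForm 𝒮ℒ (((p + 1 : ℕ) : ℤ) * k), ∀ z : ℍ,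
      N z = H z * ∏ j ∈ Finset.range p,
        ((H : ℍ → ℂ) ∣[(k : ℤ)] (ModularGroup.S * ModularGroup.T ^ j)) z := by
  have : NeZero p := neZero_of_prime p
  refine ⟨esymmForm H (p + 1), fun z => ?_⟩
  rw [esymmForm_apply, ← prod_quotientFunc p H z]
  have hcard : (Finset.univ : Finset (Q p)).card = p + 1 := by
    rw [Finset.card_univ]
    exact card_Q p
  rw [← hcard, Finset.powersetCard_self, Finset.sum_singleton]

open CosetsP in
/-- (M4) the trace to level one. -/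
theorem exists_traceForm (p : ℕ) [Fact p.Prime] {k : ℕ} (H : ModularForm (Gamma0 p) k) :
    ∃ N : ModularForm 𝒮ℒ k, ∀ z : ℍ,
      N z = H z + ∑ j ∈ Finset.range p,
        ((H : ℍ → ℂ) ∣[(k : ℤ)] (ModularGroup.S * ModularGroup.T ^ j)) z := by
  have : NeZero p := neZero_of_prime p
  refine ⟨ModularForm.trace 𝒮ℒ H, fun z => ?_⟩
  rw [ModularForm.coe_trace, Finset.sum_apply, ← sum_quotientFunc p H z]

end Fermat.Agent.S16
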