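import Mathlib
import Fermat.Agent.S16.CosetsP

/-!
# S16 (M5): the Fricke involution and `U_p` on `M₂(Γ₀(p))`

For `G ∈ M₂(Γ₀(p))` the trace to level one vanishes (`M₂(SL(2,ℤ)) = 0`). Applied to the Fricke
transform `G ∣[2] W`, `W = [0, 1; -p, 0]`, this gives `U_p G = -(G ∣[2] W)`, hence
`slash_ST_eq : (G ∣[2] S T^j) z = -(1/p) (U_p G) ((z + j)/p)` and `heckeU_heckeU : U_p² G = G`.
-/

set_option autoImplicit false

namespace Fermat.Agent.S16

open ModularCurve CuspForm CongruenceSubgroup UpperHalfPlane ModularForm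
open scoped MatrixGroups ModularForm Manifold
open Fermat.Agent.S22

namespace Fricke

/-- the Fricke matrix `[0, 1; -p, 0]` -/
noncomputable def W (p : ℕ) [NeZero p] : GL (Fin 2) ℝ :=
  Matrix.GeneralLinearGroup.mkOfDetNeZero !![0, 1; -(p : ℝ), 0]
    (by
      rw [Matrix.det_fin_two_of]
      have : (p : ℝ) ≠ 0 := by exact_mod_cast NeZero.ne p
      simpa using this)

theorem val_W (p : ℕ) [NeZero p] :
    ((W p : GL (Fin 2) ℝ) : Matrix (Fin 2) (Fin 2) ℝ) = !![0, 1; -(p : ℝ), 0] := rfl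

/-- the real matrix of an element of `SL(2,ℤ)` -/
theorem val_coe_SL (g : SL(2, ℤ)) :
    (((g : SL(2, ℤ)) : GL (Fin 2) ℝ) : Matrix (Fin 2) (Fin 2) ℝ)
      = !![(g 0 0 : ℝ), (g 0 1 : ℝ); (g 1 0 : ℝ), (g 1 1 : ℝ)] := by
  ext i j
  fin_cases i <;> fin_cases j <;> simp

theorem val_coe_ST (j : ℕ) :
    (((ModularGroup.S * ModularGroup.T ^ j : SL(2, ℤ)) : GL (Fin 2) ℝ) :
        Matrix (Fin 2) (Fin 2) ℝ) = !![0, -1; 1, (j : ℝ)] := by
  rw [val_coe_SL]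
  have h := CosetsP.coe_ST j
  have e00 : (ModularGroup.S * ModularGroup.T ^ j : SL(2, ℤ)) 0 0 = 0 := by
    have := congrFun (congrFun h 0) 0; simpa using this
  have e01 : (ModularGroup.S * ModularGroup.T ^ j : SL(2, ℤ)) 0 1 = -1 := by
    have := congrFun (congrFun h 0) 1; simpa using this
  have e10 : (ModularGroup.S * ModularGroup.T ^ j : SL(2, ℤ)) 1 0 = 1 := by
    have := congrFun (congrFun h 1) 0; simpa using this
  have e11 : (ModularGroup.S * ModularGroup.T ^ j : SL(2, ℤ)) 1 1 = j := by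
    have := congrFun (congrFun h 1) 1; simpa using this
  rw [e00, e01, e10, e11]
  simp

theorem W_mul_ST (p : ℕ) [NeZero p] (j : ℕ) :
    W p * ((ModularGroup.S * ModularGroup.T ^ j : SL(2, ℤ)) : GL (Fin 2) ℝ) = heckeMatrix p j := by
  apply Matrix.GeneralLinearGroup.ext
  intro a b
  rw [Matrix.GeneralLinearGroup.coe_mul, val_W, val_coe_ST, val_heckeMatrix (NeZero.ne p)]
  fin_cases a <;> fin_cases b <;> simp [Matrix.mul_apply, Fin.sum_univ_two]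

theorem val_W_mul_heckeMatrix (p : ℕ) [NeZero p] (j : ℕ) :
    ((W p * heckeMatrix p j : GL (Fin 2) ℝ) : Matrix (Fin 2) (Fin 2) ℝ) =
      (-(p : ℝ)) • (((ModularGroup.S * ModularGroup.T ^ j : SL(2, ℤ)) : GL (Fin 2) ℝ) :
        Matrix (Fin 2) (Fin 2) ℝ) := by
  rw [Matrix.GeneralLinearGroup.coe_mul, val_W, val_coe_ST, val_heckeMatrix (NeZero.ne p)]
  ext a b
  fin_cases a <;> fin_cases b <;> simp [Matrix.mul_apply, Fin.sum_univ_two]

theorem val_W_mul_W (p : ℕ) [NeZero p] :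
    ((W p * W p : GL (Fin 2) ℝ) : Matrix (Fin 2) (Fin 2) ℝ) =
      (-(p : ℝ)) • ((1 : GL (Fin 2) ℝ) : Matrix (Fin 2) (Fin 2) ℝ) := by
  rw [Matrix.GeneralLinearGroup.coe_mul, val_W]
  ext a b
  fin_cases a <;> fin_cases b <;> simp [Matrix.mul_apply, Fin.sum_univ_two]


theorem det_of_smul {M N : GL (Fin 2) ℝ} {c : ℝ}
    (h : (N : Matrix (Fin 2) (Fin 2) ℝ) = c • (M : Matrix (Fin 2) (Fin 2) ℝ)) :
    (N.det : ℝ) = c ^ 2 * (M.det : ℝ) := by
  rw [Matrix.GeneralLinearGroup.val_det_apply, Matrix.GeneralLinearGroup.val_det_apply, h,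
    Matrix.det_smul]
  simp

theorem σ_of_smul {M N : GL (Fin 2) ℝ} {c : ℝ} (hc : c ≠ 0)
    (h : (N : Matrix (Fin 2) (Fin 2) ℝ) = c • (M : Matrix (Fin 2) (Fin 2) ℝ)) :
    σ N = σ M := by
  have hd := det_of_smul h
  have hc2 : 0 < c ^ 2 := by positivity
  unfold σ
  have : (0 < (N.det : ℝ)) ↔ (0 < (M.det : ℝ)) := by
    rw [hd]
    constructor
    · intro h1
      by_contra h2
      have := mul_nonpos_of_nonneg_of_nonpos hc2.le (not_lt.mp h2)
      linarith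
    · intro h1
      exact mul_pos hc2 h1
  simp only [this]

theorem denom_of_smul {M N : GL (Fin 2) ℝ} {c : ℝ}
    (h : (N : Matrix (Fin 2) (Fin 2) ℝ) = c • (M : Matrix (Fin 2) (Fin 2) ℝ)) (z : ℂ) :
    denom N z = c * denom M z := by
  simp only [denom, h, Matrix.smul_apply, smul_eq_mul]
  push_cast
  ring

theorem num_of_smul {M N : GL (Fin 2) ℝ} {c : ℝ}
    (h : (N : Matrix (Fin 2) (Fin 2) ℝ) = c • (M : Matrix (Fin 2) (Fin 2) ℝ)) (z : ℂ) :
    num N z = c * num M z := by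
  simp only [num, h, Matrix.smul_apply, smul_eq_mul]
  push_cast
  ring

theorem smul_of_smul {M N : GL (Fin 2) ℝ} {c : ℝ} (hc : c ≠ 0)
    (h : (N : Matrix (Fin 2) (Fin 2) ℝ) = c • (M : Matrix (Fin 2) (Fin 2) ℝ)) (τ : ℍ) :
    N • τ = M • τ := by
  apply UpperHalfPlane.ext
  rw [UpperHalfPlane.coe_smul, UpperHalfPlane.coe_smul, σ_of_smul hc h, num_of_smul h,
    denom_of_smul h]
  have hcC : (c : ℂ) ≠ 0 := by exact_mod_cast hc
  rw [mul_div_mul_left _ _ hcC]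

/-- in weight `2`, slashing by a nonzero real multiple of a matrix is the same as slashing by
the matrix. -/
theorem slash_two_of_smul (f : ℍ → ℂ) {M N : GL (Fin 2) ℝ} {c : ℝ} (hc : c ≠ 0)
    (h : (N : Matrix (Fin 2) (Fin 2) ℝ) = c • (M : Matrix (Fin 2) (Fin 2) ℝ)) :
    f ∣[(2 : ℤ)] N = f ∣[(2 : ℤ)] M := by
  ext τ
  rw [ModularForm.slash_apply, ModularForm.slash_apply, σ_of_smul hc h, smul_of_smul hc h,
    denom_of_smul h, det_of_smul h]
  have hcC : (c : ℂ) ≠ 0 := by exact_mod_cast hc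
  have habs : |c ^ 2 * (M.det : ℝ)| = c ^ 2 * |(M.det : ℝ)| := by
    rw [abs_mul, abs_of_nonneg (by positivity)]
  rw [habs]
  push_cast
  have hz : ((c : ℂ) * denom M τ) ^ (-(2 : ℤ)) = (c : ℂ) ^ (-(2 : ℤ)) * denom M τ ^ (-(2 : ℤ)) :=
    mul_zpow _ _ _
  rw [hz]
  rw [zpow_one, zpow_one]
  have h2 : (c : ℂ) ^ 2 * (c : ℂ) ^ (-(2 : ℤ)) = 1 := by
    rw [zpow_neg, zpow_ofNat]
    exact mul_inv_cancel₀ (pow_ne_zero 2 hcC)
  linear_combination
    (σ M (f (M • τ)) * ((|(M.det : ℝ)| : ℝ) : ℂ) * denom M τ ^ (-(2 : ℤ))) * h2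

open scoped Pointwise in
theorem gamma0_le_conj (p : ℕ) [NeZero p] :
    (Gamma0 p : Subgroup (GL (Fin 2) ℝ)) ≤
      ConjAct.toConjAct (W p)⁻¹ • (Gamma0 p : Subgroup (GL (Fin 2) ℝ)) := by
  intro γ hγ
  obtain ⟨g, hg, rfl⟩ := hγ
  rw [SetLike.mem_coe, Gamma0_mem] at hg
  obtain ⟨e, he⟩ : (p : ℤ) ∣ g 1 0 := (ZMod.intCast_zmod_eq_zero_iff_dvd _ _).mp hg
  have hdet : g 0 0 * g 1 1 - g 0 1 * g 1 0 = 1 := by
    have := g.det_coe
    rw [Matrix.det_fin_two] at this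
    exact this
  let g' : SL(2, ℤ) := ⟨!![g 1 1, -e; -(p : ℤ) * g 0 1, g 0 0], by
    rw [Matrix.det_fin_two_of]
    rw [he] at hdet
    linear_combination hdet⟩
  rw [map_inv, Subgroup.mem_inv_pointwise_smul_iff, ConjAct.toConjAct_smul]
  refine ⟨g', ?_, ?_⟩
  · rw [SetLike.mem_coe, Gamma0_mem]
    change (((-(p : ℤ) * g 0 1 : ℤ)) : ZMod p) = 0
    simp
  · rw [eq_mul_inv_iff_mul_eq]
    apply Matrix.GeneralLinearGroup.ext
    intro a b
    rw [Matrix.GeneralLinearGroup.coe_mul, Matrix.GeneralLinearGroup.coe_mul, val_W]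
    have e1 : ((Matrix.SpecialLinearGroup.mapGL ℝ g' : GL (Fin 2) ℝ) : Matrix (Fin 2) (Fin 2) ℝ)
        = !![(g' 0 0 : ℝ), (g' 0 1 : ℝ); (g' 1 0 : ℝ), (g' 1 1 : ℝ)] := val_coe_SL g'
    have e2 : ((Matrix.SpecialLinearGroup.mapGL ℝ g : GL (Fin 2) ℝ) : Matrix (Fin 2) (Fin 2) ℝ)
        = !![(g 0 0 : ℝ), (g 0 1 : ℝ); (g 1 0 : ℝ), (g 1 1 : ℝ)] := val_coe_SL g
    rw [e1, e2]
    have he' : ((g 1 0 : ℤ) : ℝ) = (p : ℝ) * (e : ℝ) := by exact_mod_cast he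
    fin_cases a <;> fin_cases b <;>
      simp [Matrix.mul_apply, Fin.sum_univ_two, g', he', mul_comm]

/-- the Fricke transform `G ∣[2] W` of a form on `Γ₀(p)`, as a form on `Γ₀(p)` -/
noncomputable def frickeForm (p : ℕ) [NeZero p] (G : ModularForm (Gamma0 p) 2) :
    ModularForm (Gamma0 p) 2 where
  toFun := (G : ℍ → ℂ) ∣[(2 : ℤ)] W p
  slash_action_eq' γ hγ :=
    (ModularForm.translate G (W p)).slash_action_eq' γ (gamma0_le_conj p hγ)
  holo' := (ModularForm.translate G (W p)).holo'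
  bdd_at_cusps' hc :=
    (ModularForm.translate G (W p)).bdd_at_cusps' (hc.mono (gamma0_le_conj p))

theorem frickeForm_coe (p : ℕ) [NeZero p] (G : ModularForm (Gamma0 p) 2) :
    (frickeForm p G : ℍ → ℂ) = (G : ℍ → ℂ) ∣[(2 : ℤ)] W p := rfl


theorem neZero_of_prime (p : ℕ) [Fact p.Prime] : NeZero p := ⟨(Fact.out : p.Prime).ne_zero⟩

attribute [local instance] neZero_of_prime

/-- the trace to level one of a weight `2` form on `Γ₀(p)` vanishes -/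
theorem trace_zero (p : ℕ) [Fact p.Prime] (H : ModularForm (Gamma0 p) 2) (z : ℍ) :
    H z + ∑ j ∈ Finset.range p,
      ((H : ℍ → ℂ) ∣[(2 : ℤ)] (ModularGroup.S * ModularGroup.T ^ j)) z = 0 := by
  obtain ⟨N, hN⟩ := exists_traceForm p (k := 2) H
  have h0 : N = 0 := rank_zero_iff_forall_zero.mp levelOne_weight_two_rank_zero N
  have h1 := hN z
  rw [h0] at h1
  exact h1.symm

/-- `U_p G = -(G ∣[2] W)` on `M₂(Γ₀(p))`. -/
theorem heckeU_eq_neg_fricke (p : ℕ) [Fact p.Prime] (G : ModularForm (Gamma0 p) 2) :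
    heckeU 2 p (G : ℍ → ℂ) = -((G : ℍ → ℂ) ∣[(2 : ℤ)] W p) := by
  funext z
  have h := trace_zero p (frickeForm p G) z
  have hj : ∀ j : ℕ, ((frickeForm p G : ℍ → ℂ) ∣[(2 : ℤ)]
      (ModularGroup.S * ModularGroup.T ^ j)) = (G : ℍ → ℂ) ∣[(2 : ℤ)] heckeMatrix p j := by
    intro j
    rw [frickeForm_coe, SL_slash, ← SlashAction.slash_mul]
    congr 1
    exact W_mul_ST p j
  simp only [hj] at h
  rw [heckeU_def, Finset.sum_apply, Pi.neg_apply, ← frickeForm_coe]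
  exact eq_neg_of_add_eq_zero_right h

end Fricke

open Fricke in
/-- (M5) the translates of `G ∈ M₂(Γ₀(p))` by the nontrivial cosets are given by `U_p G`. -/
theorem slash_ST_eq (p : ℕ) [Fact p.Prime] (G : ModularForm (Gamma0 p) 2) (j : ℕ) (z : ℍ) :
    ((G : ℍ → ℂ) ∣[(2 : ℤ)] (ModularGroup.S * ModularGroup.T ^ j)) z =
      -((p : ℂ)⁻¹) * heckeU 2 p (G : ℍ → ℂ) (heckeMatrix p j • z) := by
  have hp : p ≠ 0 := (Fact.out : p.Prime).ne_zero
  have hpR : (-(p : ℝ)) ≠ 0 := neg_ne_zero.mpr (by exact_mod_cast hp)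
  rw [heckeU_eq_neg_fricke, Pi.neg_apply, neg_mul_neg, ← slash_heckeMatrix_apply 2 hp,
    ← SlashAction.slash_mul, slash_two_of_smul _ hpR (val_W_mul_heckeMatrix p j), ← SL_slash]

open Fricke in
/-- (M5) `U_p² = 1` on `M₂(Γ₀(p))`. -/
theorem heckeU_heckeU (p : ℕ) [Fact p.Prime] (G : ModularForm (Gamma0 p) 2) :
    heckeU 2 p (heckeU 2 p (G : ℍ → ℂ)) = (G : ℍ → ℂ) := by
  have hp : p ≠ 0 := (Fact.out : p.Prime).ne_zero
  have hpR : (-(p : ℝ)) ≠ 0 := neg_ne_zero.mpr (by exact_mod_cast hp)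
  have h1 : heckeU 2 p (G : ℍ → ℂ) = -(frickeForm p G : ℍ → ℂ) := heckeU_eq_neg_fricke p G
  have h2 : heckeU 2 p (frickeForm p G : ℍ → ℂ) = -(G : ℍ → ℂ) := by
    rw [heckeU_eq_neg_fricke, frickeForm_coe, ← SlashAction.slash_mul,
      slash_two_of_smul _ hpR (val_W_mul_W p)]
    simp
  rw [h1, heckeU_def]
  simp only [SlashAction.neg_slash, Finset.sum_neg_distrib]
  rw [← heckeU_def, h2, neg_neg]

end Fermat.Agent.S16
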