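import Mathlib
import Fermat.Agent.S16.Defs
import Fermat.Agent.S16.CosetsP
import Fermat.Agent.S16.Fricke
import Fermat.Agent.S23
import Fermat.Agent.S22.Esymm
import Fermat.Agent.S49.QCoeff
import Fermat.Prelude.Thm_UpperHalfPlane_qCoeff_heckeU
import Fermat.Prelude.Thm_ModularForm_isBoundedAtImInfty_heckeU
import Fermat.Prelude.Thm_ModularForm_mdifferentiable_heckeU
import Fermat.Prelude.Thm_ModularForm_periodic_heckeU_comp_ofComplex
import Fermat.Prelude.Thm_ModularForm_levelOne_eq_zero_of_lt_order_qExpansion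

/-!
# S16 (M6): the cheap bound `(p + 1) a₀(g) ∈ ℤ`

For `g ∈ M₂(Γ₀(p))` with `a_k(g) ∈ ℤ` for `k ≥ 1` and `S₂(Γ₀(p)) ≠ 0`, the number
`(p + 1) a₀(g)` is an integer: for an integral cusp form `f₀` the trace of `g f₀` to level one
is a cusp form of weight `4`, hence zero.
-/

set_option autoImplicit false

namespace Fermat.Agent.S16.CheapBound

open ModularCurve CuspForm CongruenceSubgroup UpperHalfPlane ModularForm ModularFormClass
open scoped MatrixGroups ModularForm Manifold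

/-- `1`-periodic, holomorphic, bounded at `i∞`. -/
def Good (f : ℍ → ℂ) : Prop :=
  Function.Periodic (f ∘ ofComplex) 1 ∧ MDiff f ∧ IsBoundedAtImInfty f

theorem Good.analytic {f : ℍ → ℂ} (hf : Good f) : AnalyticAt ℂ (cuspFunction 1 f) 0 :=
  analyticAt_cuspFunction_zero one_pos hf.1 hf.2.1 hf.2.2

theorem Good.mul {f g : ℍ → ℂ} (hf : Good f) (hg : Good g) : Good (f * g) := by
  refine ⟨?_, hf.2.1.mul hg.2.1, hf.2.2.mul hg.2.2⟩
  intro x
  have h1 := hf.1 x
  have h2 := hg.1 x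
  simp only [Function.comp_apply, Pi.mul_apply] at h1 h2 ⊢
  rw [h1, h2]

theorem Good.add {f g : ℍ → ℂ} (hf : Good f) (hg : Good g) : Good (f + g) := by
  refine ⟨?_, hf.2.1.add hg.2.1, hf.2.2.add hg.2.2⟩
  intro x
  have h1 := hf.1 x
  have h2 := hg.1 x
  simp only [Function.comp_apply, Pi.add_apply] at h1 h2 ⊢
  rw [h1, h2]

theorem Good.heckeU {f : ℍ → ℂ} (hf : Good f) (k : ℤ) (p : ℕ) : Good (heckeU k p f) :=
  ⟨ModularForm.periodic_heckeU_comp_ofComplex hf.1 k p, ModularForm.mdifferentiable_heckeU hf.2.1 k p,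
    ModularForm.isBoundedAtImInfty_heckeU hf.2.2 k p⟩

theorem good_of_modularForm {Γ : Subgroup (GL (Fin 2) ℝ)} {k : ℤ} (hΓ : (1 : ℝ) ∈ Γ.strictPeriods)
    (f : ModularForm Γ k) : Good (f : ℍ → ℂ) := by
  have : Fact (IsCusp OnePoint.infty Γ) := ⟨Subgroup.isCusp_of_mem_strictPeriods one_pos hΓ⟩
  exact ⟨SlashInvariantFormClass.periodic_comp_ofComplex f hΓ, ModularFormClass.holo f,
    ModularFormClass.bdd_at_infty f⟩

theorem qCoeff_mul {f g : ℍ → ℂ} (hf : Good f) (hg : Good g) (n : ℕ) :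
    qCoeff (f * g) n = ∑ x ∈ Finset.HasAntidiagonal.antidiagonal n, qCoeff f x.1 * qCoeff g x.2 := by
  simp only [qCoeff]
  rw [qExpansion_mul hf.analytic hg.analytic, PowerSeries.coeff_mul]

theorem qCoeff_add {f g : ℍ → ℂ} (hf : Good f) (hg : Good g) (n : ℕ) :
    qCoeff (f + g) n = qCoeff f n + qCoeff g n := by
  simp only [qCoeff]
  rw [qExpansion_add hf.analytic hg.analytic, map_add]

theorem qCoeff_smul {f : ℍ → ℂ} (hf : Good f) (c : ℂ) (n : ℕ) :
    qCoeff (c • f) n = c * qCoeff f n := by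
  simp only [qCoeff]
  rw [qExpansion_smul hf.analytic c]
  simp

theorem qCoeff_heckeU {f : ℍ → ℂ} (hf : Good f) (k : ℤ) {p : ℕ} (hp : p ≠ 0) (n : ℕ) :
    qCoeff (heckeU k p f) n = qCoeff f (n * p) := by
  rw [UpperHalfPlane.qCoeff_heckeU hf.1 hf.2.1 hf.2.2 k hp n]
  rfl

theorem good_const (c : ℂ) : Good (fun _ : ℍ => c) :=
  ⟨fun _ => rfl, mdifferentiable_const, Filter.const_boundedAtFilter _ c⟩

theorem Good.smul {f : ℍ → ℂ} (hf : Good f) (c : ℂ) : Good (c • f) := by
  have h : c • f = (fun _ : ℍ => c) * f := by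
    ext z; simp
  rw [h]
  exact (good_const c).mul hf

theorem good_zero : Good (0 : ℍ → ℂ) := good_const 0

theorem qCoeff_zero_fun (n : ℕ) : qCoeff (0 : ℍ → ℂ) n = 0 := by
  simp only [qCoeff]
  rw [UpperHalfPlane.qExpansion_zero, map_zero]

variable (p : ℕ) [Fact p.Prime]

omit [Fact p.Prime] in
theorem good_Gamma0 {k : ℤ} (f : ModularForm (Gamma0 p) k) : Good (f : ℍ → ℂ) :=
  good_of_modularForm (Fermat.Agent.S49.one_mem_sp p) f

/-- The trace identity: for `g ∈ M₂(Γ₀(p))`, `f ∈ S₂(Γ₀(p))`, all coefficients of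
`g f + p⁻¹ U_p((U_p g)(U_p f))` vanish (it is a cusp form of weight 4 and level one). -/
theorem trace_identity (g : ModularForm (Gamma0 p) 2) (f : CuspForm (Gamma0 p) 2) (n : ℕ) :
    qCoeff ((g : ℍ → ℂ) * (f : ℍ → ℂ)) n +
      (p : ℂ)⁻¹ * qCoeff (heckeU 2 p (g : ℍ → ℂ) * heckeU 2 p (f : ℍ → ℂ)) (n * p) = 0 := by
  have hp : p.Prime := Fact.out
  have hp0 : p ≠ 0 := hp.ne_zero
  have hpC : (p : ℂ) ≠ 0 := by exact_mod_cast hp0
  set f' : ModularForm (Gamma0 p) 2 := Fermat.Agent.S22.cuspToMod f with hf'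
  have hf'coe : (f' : ℍ → ℂ) = (f : ℍ → ℂ) := rfl
  set G : ℍ → ℂ := (g : ℍ → ℂ) with hGdef
  set F : ℍ → ℂ := (f : ℍ → ℂ) with hFdef
  set UG : ℍ → ℂ := heckeU 2 p G with hUG
  set UF : ℍ → ℂ := heckeU 2 p F with hUF
  have hG : Good G := good_Gamma0 p g
  have hF : Good F := good_Gamma0 p f'
  have hUGg : Good UG := hG.heckeU 2 p
  have hUFg : Good UF := hF.heckeU 2 p
  -- the product as a modular form of weight `4`
  set H : ModularForm (Gamma0 p) ((4 : ℕ) : ℤ) := ModularForm.mcast (by norm_num) (g.mul f')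
    with hH
  have hHcoe : (H : ℍ → ℂ) = G * F := rfl
  obtain ⟨N, hN⟩ := Fermat.Agent.S16.exists_traceForm p H
  -- the trace as a function
  have hNfun : (N : ℍ → ℂ) = G * F + (p : ℂ)⁻¹ • heckeU 4 p (UG * UF) := by
    ext z
    rw [hN z, hHcoe]
    simp only [Pi.add_apply, Pi.mul_apply, Pi.smul_apply, smul_eq_mul]
    congr 1
    rw [heckeU_apply 4 hp0, Finset.mul_sum, Finset.mul_sum]
    refine Finset.sum_congr rfl fun j _ => ?_
    have h4 : (((4 : ℕ) : ℤ)) = 2 + 2 := by norm_num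
    rw [h4, ModularForm.mul_slash_SL2 2 2 _ G F]
    simp only [Pi.mul_apply]
    have e1 := Fermat.Agent.S16.slash_ST_eq p g j z
    have e2 := Fermat.Agent.S16.slash_ST_eq p f' j z
    rw [hf'coe] at e2
    rw [e1, e2]
    field_simp
    rfl
  have hprod : Good (G * F) := hG.mul hF
  have hU4 : Good (heckeU 4 p (UG * UF)) := (hUGg.mul hUFg).heckeU 4 p
  have hcoeff : ∀ m, qCoeff (N : ℍ → ℂ) m =
      qCoeff (G * F) m + (p : ℂ)⁻¹ * qCoeff (UG * UF) (m * p) := by
    intro m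
    rw [hNfun, qCoeff_add hprod (hU4.smul _), qCoeff_smul hU4,
      qCoeff_heckeU (hUGg.mul hUFg) 4 hp0]
  -- the constant term vanishes
  have hF0 : qCoeff F 0 = 0 := Fermat.Agent.S49.qCoeff_cusp_zero f
  have hN0 : qCoeff (N : ℍ → ℂ) 0 = 0 := by
    rw [hcoeff 0, qCoeff_mul hG hF, zero_mul, qCoeff_mul hUGg hUFg]
    simp only [Finset.Nat.antidiagonal_zero, Finset.sum_singleton]
    rw [hF0, hUF, qCoeff_heckeU hF 2 hp0, zero_mul, hF0]
    simp
  -- hence the level-one form `N` of weight `4` is zero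
  have hNzero : N = 0 := by
    apply ModularForm.levelOne_eq_zero_of_lt_order_qExpansion 1 one_pos N
    have h1 : ((1 * ((((4 : ℕ) : ℤ)).toNat / 12) : ℕ) : ℕ∞) = 0 := by norm_num
    rw [h1]
    have h2 : (1 : ℕ∞) ≤ (qExpansion ((1 : ℕ) : ℝ) (N : ℍ → ℂ)).order := by
      apply PowerSeries.le_order
      intro i hi
      have hi0 : i = 0 := by
        have : i < 1 := by exact_mod_cast hi
        omega
      subst hi0
      have := hN0
      simp only [qCoeff] at this
      rw [Nat.cast_one]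
      exact this
    exact lt_of_lt_of_le (by norm_num) h2
  have hfin := hcoeff n
  rw [hNzero] at hfin
  have hz : qCoeff ((0 : ModularForm 𝒮ℒ ((4 : ℕ) : ℤ)) : ℍ → ℂ) n = 0 := by
    have : ((0 : ModularForm 𝒮ℒ ((4 : ℕ) : ℤ)) : ℍ → ℂ) = 0 := rfl
    rw [this, qCoeff_zero_fun]
  rw [hz] at hfin
  exact hfin.symm

/-- `U_p² = 1` on coefficients. -/
theorem qCoeff_mul_sq (f : CuspForm (Gamma0 p) 2) (n : ℕ) :
    qCoeff (f : ℍ → ℂ) (n * p * p) = qCoeff (f : ℍ → ℂ) n := by
  have hp : p.Prime := Fact.out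
  have hp0 : p ≠ 0 := hp.ne_zero
  set f' : ModularForm (Gamma0 p) 2 := Fermat.Agent.S22.cuspToMod f with hf'
  have hF : Good (f : ℍ → ℂ) := good_Gamma0 p f'
  have h := Fermat.Agent.S16.heckeU_heckeU p f'
  have hcoe : (f' : ℍ → ℂ) = (f : ℍ → ℂ) := rfl
  rw [hcoe] at h
  have h2 : qCoeff (heckeU 2 p (heckeU 2 p (f : ℍ → ℂ))) n = qCoeff (f : ℍ → ℂ) n :=
    congrArg (fun φ : ℍ → ℂ => qCoeff φ n) h
  rw [qCoeff_heckeU (hF.heckeU 2 p) 2 hp0, qCoeff_heckeU hF 2 hp0] at h2
  exact h2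

/-- being (the image of) an integer -/
def IsInt (z : ℂ) : Prop := ∃ m : ℤ, z = (m : ℂ)

theorem IsInt.add {a b : ℂ} (ha : IsInt a) (hb : IsInt b) : IsInt (a + b) := by
  obtain ⟨m, rfl⟩ := ha
  obtain ⟨n, rfl⟩ := hb
  exact ⟨m + n, by push_cast; rfl⟩

theorem IsInt.mul {a b : ℂ} (ha : IsInt a) (hb : IsInt b) : IsInt (a * b) := by
  obtain ⟨m, rfl⟩ := ha
  obtain ⟨n, rfl⟩ := hb
  exact ⟨m * n, by push_cast; rfl⟩

theorem IsInt.neg {a : ℂ} (ha : IsInt a) : IsInt (-a) := by
  obtain ⟨m, rfl⟩ := ha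
  exact ⟨-m, by push_cast; rfl⟩

theorem isInt_zero : IsInt 0 := ⟨0, by simp⟩

theorem isInt_natCast (n : ℕ) : IsInt (n : ℂ) := ⟨n, by simp⟩

theorem isInt_sum {ι : Type*} (s : Finset ι) (a : ι → ℂ) (h : ∀ i ∈ s, IsInt (a i)) :
    IsInt (∑ i ∈ s, a i) :=
  Finset.sum_induction a IsInt (fun _ _ => IsInt.add) isInt_zero h

/-- a convolution sum with integral terms away from the index `0` of the first factor -/
theorem isInt_conv (A C : ℕ → ℂ) (hA : ∀ i, 0 < i → IsInt (A i)) (hC : ∀ j, IsInt (C j)) (n : ℕ) :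
    IsInt (∑ x ∈ Finset.HasAntidiagonal.antidiagonal n, A x.1 * C x.2 - A 0 * C n) := by
  have hmem : ((0, n) : ℕ × ℕ) ∈ Finset.HasAntidiagonal.antidiagonal n := by
    simp
  rw [← Finset.add_sum_erase _ _ hmem]
  simp only [add_sub_cancel_left]
  apply isInt_sum
  intro x hx
  rw [Finset.mem_erase, Finset.HasAntidiagonal.mem_antidiagonal] at hx
  have hx1 : 0 < x.1 := by
    rcases Nat.eq_zero_or_pos x.1 with h0 | h0
    · exfalso
      apply hx.1
      have h2 : x.2 = n := by omega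
      exact Prod.ext h0 h2
    · exact h0
  exact (hA _ hx1).mul (hC _)

/-- the key integrality: `(p + 1) a₀(g) a_n(f) ∈ ℤ` for integral cusp forms `f`. -/
theorem isInt_mul_qCoeff (g : ModularForm (Gamma0 p) 2)
    (hg : ∀ k, 0 < k → IsInt (qCoeff (g : ℍ → ℂ) k))
    (f : CuspForm (Gamma0 p) 2) (hf : ∀ k, IsInt (qCoeff (f : ℍ → ℂ) k)) (n : ℕ) :
    IsInt (((p : ℂ) + 1) * qCoeff (g : ℍ → ℂ) 0 * qCoeff (f : ℍ → ℂ) n) := by
  have hp : p.Prime := Fact.out
  have hp0 : p ≠ 0 := hp.ne_zero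
  have hpC : (p : ℂ) ≠ 0 := by exact_mod_cast hp0
  set f' : ModularForm (Gamma0 p) 2 := Fermat.Agent.S22.cuspToMod f with hf'
  have hG : Good (g : ℍ → ℂ) := good_Gamma0 p g
  have hF : Good (f : ℍ → ℂ) := good_Gamma0 p f'
  have key := trace_identity p g f n
  rw [qCoeff_mul hG hF, qCoeff_mul (hG.heckeU 2 p) (hF.heckeU 2 p)] at key
  simp only [qCoeff_heckeU hG 2 hp0, qCoeff_heckeU hF 2 hp0] at key
  -- the two convolution sums
  have h1 := isInt_conv (fun i => qCoeff (g : ℍ → ℂ) i) (fun j => qCoeff (f : ℍ → ℂ) j)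
    hg hf n
  have h2 := isInt_conv (fun i => qCoeff (g : ℍ → ℂ) (i * p)) (fun j => qCoeff (f : ℍ → ℂ) (j * p))
    (fun i hi => hg _ (Nat.mul_pos hi hp.pos)) (fun j => hf _) (n * p)
  simp only [zero_mul] at h2
  rw [qCoeff_mul_sq p f n] at h2
  obtain ⟨m1, hm1⟩ := h1
  obtain ⟨m2, hm2⟩ := h2
  refine ⟨-((p : ℤ) * m1 + m2), ?_⟩
  have e1 := eq_add_of_sub_eq hm1
  have e2 := eq_add_of_sub_eq hm2
  rw [e1, e2] at key
  push_cast
  field_simp at key
  linear_combination key

/-- integral cusp forms -/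
def IntForm (f : CuspForm (Gamma0 p) 2) : Prop := ∀ k, IsInt (qCoeff (f : ℍ → ℂ) k)

omit [Fact p.Prime] in
/-- if there is a nonzero cusp form, there is a nonzero integral one (`S23`) -/
theorem exists_intForm_ne_zero [NeZero p] (hint : HasIntegralStructure p 2)
    (hS : ∃ f : CuspForm (Gamma0 p) 2, f ≠ 0) :
    ∃ f : CuspForm (Gamma0 p) 2, IntForm p f ∧ f ≠ 0 := by
  by_contra hcon
  push Not at hcon
  obtain ⟨f, hf⟩ := hS
  apply hf
  have hle : Submodule.span ℂ ((CuspForm.intLattice p 2 :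
      Submodule ℤ (CuspForm (Gamma0 p) 2)) : Set (CuspForm (Gamma0 p) 2)) ≤ ⊥ := by
    rw [Submodule.span_le]
    intro x hx
    have hx' : x ∈ CuspForm.intLattice p 2 := hx
    rw [Fermat.Agent.S49.mem_intLattice_iff] at hx'
    have : x = 0 := hcon x (fun k => by
      obtain ⟨m, hm⟩ := hx' k
      exact ⟨m, hm⟩)
    rw [this]
    exact Submodule.zero_mem _
  have htop : f ∈ Submodule.span ℂ ((CuspForm.intLattice p 2 :
      Submodule ℤ (CuspForm (Gamma0 p) 2)) : Set (CuspForm (Gamma0 p) 2)) := by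
    rw [hint]; exact Submodule.mem_top
  exact (Submodule.mem_bot ℂ).mp (hle htop)

omit [Fact p.Prime] in
/-- the descent: if `r · a_n(f) ∈ ℤ` for all integral cusp forms `f` and all `n`, and some
integral cusp form is nonzero, then `r ∈ ℤ`. -/
theorem isInt_of_forall (r : ℂ)
    (h : ∀ f : CuspForm (Gamma0 p) 2, IntForm p f → ∀ n, IsInt (r * qCoeff (f : ℍ → ℂ) n))
    (hex : ∃ f : CuspForm (Gamma0 p) 2, IntForm p f ∧ f ≠ 0) : IsInt r := by
  -- the ideal of integers `c` with `r c ∈ ℤ`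
  let I : Ideal ℤ :=
    { carrier := {c | IsInt (r * (c : ℂ))}
      add_mem' := by
        intro a b ha hb
        change IsInt (r * ((a + b : ℤ) : ℂ))
        have := IsInt.add ha hb
        rw [← mul_add] at this
        simpa using this
      zero_mem' := by
        change IsInt (r * ((0 : ℤ) : ℂ))
        simpa using isInt_zero
      smul_mem' := by
        intro c a ha
        change IsInt (r * ((c * a : ℤ) : ℂ))
        have := IsInt.mul ⟨c, rfl⟩ ha
        have e : r * ((c * a : ℤ) : ℂ) = (c : ℂ) * (r * (a : ℂ)) := by push_cast; ring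
        rw [e]; exact this }
  have hImem : ∀ c : ℤ, c ∈ I ↔ IsInt (r * (c : ℂ)) := fun c => Iff.rfl
  obtain ⟨d, hd⟩ := (IsPrincipalIdealRing.principal I).principal
  have hdvd : ∀ c : ℤ, c ∈ I → d ∣ c := by
    intro c hc
    have hc' : c ∈ Submodule.span ℤ ({d} : Set ℤ) := hd ▸ hc
    exact Ideal.mem_span_singleton.mp hc'
  by_cases hunit : d.natAbs = 1
  · -- `1 ∈ I`
    have h1 : (1 : ℤ) ∈ I := by
      have hdI : d ∈ I := by
        have : d ∈ Submodule.span ℤ ({d} : Set ℤ) := Submodule.mem_span_singleton_self d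
        exact hd ▸ this
      rcases Int.natAbs_eq d with hd1 | hd1
      · rw [hunit] at hd1
        have : d = 1 := by simpa using hd1
        rw [← this]; exact hdI
      · rw [hunit] at hd1
        have : (1 : ℤ) = -1 * d := by rw [hd1]; simp
        rw [this]
        exact I.mul_mem_left _ hdI
    have := (hImem 1).mp h1
    simpa using this
  · -- otherwise all integral cusp forms vanish
    exfalso
    have hall : ∀ m : ℕ, ∀ f : CuspForm (Gamma0 p) 2, IntForm p f → ∀ n : ℕ, ∀ c : ℤ,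
        qCoeff (f : ℍ → ℂ) n = (c : ℂ) → c.natAbs = m → c = 0 := by
      intro m
      induction m using Nat.strong_induction_on with
      | _ m ih =>
        intro f hf n c hc hcm
        by_contra hc0
        -- all coefficients of `f` lie in `I`, so they are divisible by `d`
        have hcoeffI : ∀ k, ∀ e : ℤ, qCoeff (f : ℍ → ℂ) k = (e : ℂ) → d ∣ e := by
          intro k e he
          apply hdvd
          rw [hImem, ← he]
          exact h f hf k
        obtain ⟨e, he⟩ := hcoeffI n c hc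
        have hd0 : d ≠ 0 := by
          rintro rfl
          apply hc0
          rw [he, zero_mul]
        have hdC : (d : ℂ) ≠ 0 := by exact_mod_cast hd0
        have he0 : e ≠ 0 := by
          rintro rfl
          apply hc0
          rw [he, mul_zero]
        -- the form `f / d` is integral
        set f2 : CuspForm (Gamma0 p) 2 := ((d : ℂ)⁻¹) • f with hf2
        have hf2c : ∀ k, qCoeff (f2 : ℍ → ℂ) k = (d : ℂ)⁻¹ * qCoeff (f : ℍ → ℂ) k := fun k =>
          Fermat.Agent.S49.qCoeff_smul _ f k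
        have hf2int : IntForm p f2 := by
          intro k
          obtain ⟨ck, hck⟩ := hf k
          obtain ⟨ek, hek⟩ := hcoeffI k ck hck
          refine ⟨ek, ?_⟩
          rw [hf2c, hck, hek]
          push_cast
          field_simp
        have hf2n : qCoeff (f2 : ℍ → ℂ) n = (e : ℂ) := by
          rw [hf2c, hc, he]
          push_cast
          field_simp
        have hlt : e.natAbs < m := by
          rw [← hcm, he, Int.natAbs_mul]
          have hd2 : 2 ≤ d.natAbs := by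
            have : d.natAbs ≠ 0 := Int.natAbs_ne_zero.mpr hd0
            omega
          have he1 : 1 ≤ e.natAbs := Nat.one_le_iff_ne_zero.mpr (Int.natAbs_ne_zero.mpr he0)
          nlinarith
        exact he0 (ih e.natAbs hlt f2 hf2int n e hf2n rfl)
    obtain ⟨f, hf, hf0⟩ := hex
    apply hf0
    apply Fermat.Agent.S49.eq_zero_of_qCoeff_eq_zero
    intro n
    obtain ⟨c, hc⟩ := hf n
    rw [hc, hall c.natAbs f hf n c hc rfl]
    simp

end Fermat.Agent.S16.CheapBound

namespace Fermat.Agent.S16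

open ModularCurve CuspForm CongruenceSubgroup UpperHalfPlane ModularForm ModularFormClass
open scoped MatrixGroups ModularForm Manifold

variable (p : ℕ) [Fact p.Prime]

/-- (M6) the cheap bound: `(p + 1) a₀(g) ∈ ℤ`. -/
theorem cheap_bound_int (g : ModularForm (Gamma0 p) 2)
    (hg : ∀ k, 0 < k → ∃ m : ℤ, qCoeff g k = (m : ℂ))
    (hS : ∃ f : CuspForm (Gamma0 p) 2, f ≠ 0) :
    ∃ m : ℤ, ((p : ℂ) + 1) * qCoeff g 0 = (m : ℂ) := by
  have hp : p.Prime := Fact.out
  have : NeZero p := ⟨hp.ne_zero⟩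
  have hint : HasIntegralStructure p 2 := Fermat.Agent.S23.result p
  exact CheapBound.isInt_of_forall p _
    (fun f hf n => CheapBound.isInt_mul_qCoeff p g hg f hf n)
    (CheapBound.exists_intForm_ne_zero p hint hS)

end Fermat.Agent.S16
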