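import Mathlib
import Fermat.Prelude.Def_ModularCurve_PeriodHomPair
import Fermat.Prelude.Def_ModularForm_HeckeOperator
import Fermat.Prelude.Sol.S_ModularForm_heckeT_slash_eq_self_of_mem_Gamma0
import Fermat.Agent.S16.Defs

/-!
# S16 (N1): Hecke operators on `Hom(Γ₀(N), ℂ)`

For a finite system of representatives `rep : ι → GL₂(ℝ)` with
`rep x * γ = γ_x * rep (σ_γ x)` (`γ, γ_x ∈ Γ₀(N)`, `σ_γ` a permutation of `ι`) the operator
`(Θ χ)(γ) = ∑ₓ χ(γ_x)` on `Hom(Γ₀(N), ℂ)` satisfies: if `F` is an equivariant primitive with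
period homomorphism `χ` then `z ↦ ∑ₓ F(rep x • z)` is one with period homomorphism `Θ χ`;
`Θ` commutes with the involution induced by `diag(1,-1)` and preserves integrality.
Instances: `T_ℓ` (`ℓ ∤ N`, `ι = ℙ¹(𝔽_ℓ)`) and `U_ℓ` (`ℓ ∣ N`, `ι = 𝔽_ℓ`), with the coset
lemmas of the Prelude (`heckeRep_mul`, `heckeMatrix_mul_of_dvd`).
-/

set_option autoImplicit false

namespace Fermat.Agent.S16

open ModularCurve ModularCurve.Period CongruenceSubgroup UpperHalfPlane ModularForm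
open Matrix.SpecialLinearGroup
open scoped MatrixGroups

namespace CohHecke

/-- `ε = diag(1, -1)` -/
noncomputable def eps : GL (Fin 2) ℝ :=
  Matrix.GeneralLinearGroup.mkOfDetNeZero !![1, 0; 0, -1] (by simp [Matrix.det_fin_two_of])

theorem val_eps : ((eps : GL (Fin 2) ℝ) : Matrix (Fin 2) (Fin 2) ℝ) = !![1, 0; 0, -1] := rfl

theorem eps_mul_eps : eps * eps = 1 := by
  apply Units.ext
  rw [Units.val_mul, val_eps]
  ext i j
  fin_cases i <;> fin_cases j <;> simp [Matrix.mul_apply, Fin.sum_univ_two]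

theorem eps_mapGL_eps (g : SL(2, ℤ)) : eps * mapGL ℝ g * eps = mapGL ℝ (jConjSL g) := by
  apply Units.ext
  rw [Units.val_mul, Units.val_mul, val_eps]
  ext i j
  fin_cases i <;> fin_cases j <;>
    simp [Matrix.mul_apply, Fin.sum_univ_two, jConjMat, Matrix.vecMul, dotProduct]

/-- conjugation by `ε` is multiplicative -/
theorem eps_conj_mul (A B : GL (Fin 2) ℝ) : eps * (A * B) * eps = (eps * A * eps) * (eps * B * eps) := by
  calc eps * (A * B) * eps = eps * A * 1 * B * eps := by group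
    _ = eps * A * (eps * eps) * B * eps := by rw [eps_mul_eps]
    _ = (eps * A * eps) * (eps * B * eps) := by group

theorem eps_conj_conj (A : GL (Fin 2) ℝ) : eps * (eps * A * eps) * eps = A := by
  calc eps * (eps * A * eps) * eps = (eps * eps) * A * (eps * eps) := by group
    _ = A := by rw [eps_mul_eps]; group


/-- The abstract Hecke operator on `Hom(Γ₀(N), ℂ)` attached to a finite system of coset
representatives `rep : ι → GL₂(ℝ)` with `rep x * γ = γ_x * rep (σ_γ x)`. -/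
theorem exists_coh_of_sys {N : ℕ} {ι : Type} [Fintype ι] (rep : ι → GL (Fin 2) ℝ)
    (gg : Gamma0 N → ι → Gamma0 N) (ss : Gamma0 N → ι → ι)
    (hspec : ∀ (γ : Gamma0 N) (x : ι), rep x * mapGL ℝ (γ : SL(2, ℤ)) =
      mapGL ℝ ((gg γ x : Gamma0 N) : SL(2, ℤ)) * rep (ss γ x))
    (huniq : ∀ (a b : SL(2, ℤ)) (y y' : ι), mapGL ℝ a * rep y = mapGL ℝ b * rep y' → y = y')
    (tt : ι → Gamma0 N) (bar : ι → ι)
    (hbar : ∀ x : ι, eps * rep x * eps = mapGL ℝ ((tt x : Gamma0 N) : SL(2, ℤ)) * rep (bar x)) :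
    ∃ Θ : (Additive (Gamma0 N) →+ ℂ) →+ (Additive (Gamma0 N) →+ ℂ),
      (∀ (F : ℍ → ℂ) (hF : IsEquivariantPrimitive (Gamma0 N) F) (F' : ℍ → ℂ),
        (∀ z, F' z = ∑ x, F (rep x • z)) →
        ∃ hF' : IsEquivariantPrimitive (Gamma0 N) F', hF'.periodHom = Θ hF.periodHom) ∧
      (∀ χ, Θ (charInvolution N ℂ ℂ χ) = charInvolution N ℂ ℂ (Θ χ)) ∧
      (∀ χ, IsIntValued χ → IsIntValued (Θ χ)) := by
  classical
  -- cancellation
  have hcancel : ∀ (a b : Gamma0 N) (y : ι),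
      mapGL ℝ (a : SL(2, ℤ)) * rep y = mapGL ℝ (b : SL(2, ℤ)) * rep y → a = b := by
    intro a b y h
    exact Subtype.ext (mapGL_injective (mul_right_cancel h))
  -- multiplicativity
  have hmul : ∀ (γ δ : Gamma0 N) (x : ι),
      ss (γ * δ) x = ss δ (ss γ x) ∧ gg (γ * δ) x = gg γ x * gg δ (ss γ x) := by
    intro γ δ x
    have h1 : rep x * mapGL ℝ ((γ * δ : Gamma0 N) : SL(2, ℤ)) =
        mapGL ℝ ((gg γ x * gg δ (ss γ x) : Gamma0 N) : SL(2, ℤ)) * rep (ss δ (ss γ x)) := by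
      rw [Subgroup.coe_mul, map_mul, ← mul_assoc, hspec γ x, mul_assoc, hspec δ (ss γ x),
        ← mul_assoc, Subgroup.coe_mul, map_mul]
    have h2 := hspec (γ * δ) x
    have h3 : ss (γ * δ) x = ss δ (ss γ x) := huniq _ _ _ _ (h2.symm.trans h1)
    refine ⟨h3, ?_⟩
    rw [h3] at h2
    exact hcancel _ _ _ (h2.symm.trans h1)
  have hone : ∀ x : ι, ss 1 x = x := by
    intro x
    have h2 := hspec 1 x
    have h1 : rep x * mapGL ℝ ((1 : Gamma0 N) : SL(2, ℤ)) = mapGL ℝ (1 : SL(2, ℤ)) * rep x := by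
      simp
    exact huniq _ _ _ _ (h2.symm.trans h1)
  -- the permutation attached to `γ`
  let σ : Gamma0 N → Equiv.Perm ι := fun γ =>
    { toFun := ss γ
      invFun := ss γ⁻¹
      left_inv := fun x => by rw [← (hmul γ γ⁻¹ x).1, mul_inv_cancel, hone]
      right_inv := fun x => by rw [← (hmul γ⁻¹ γ x).1, inv_mul_cancel, hone] }
  have hσ : ∀ γ x, σ γ x = ss γ x := fun _ _ => rfl
  -- the operator
  let Θ₀ : (Additive (Gamma0 N) →+ ℂ) → (Additive (Gamma0 N) →+ ℂ) := fun χ =>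
    AddMonoidHom.mk' (fun γ => ∑ x, χ (Additive.ofMul (gg (Additive.toMul γ) x))) (by
      intro γ δ
      have : ∀ x, χ (Additive.ofMul (gg (Additive.toMul (γ + δ)) x)) =
          χ (Additive.ofMul (gg (Additive.toMul γ) x)) +
            χ (Additive.ofMul (gg (Additive.toMul δ) (ss (Additive.toMul γ) x))) := by
        intro x
        rw [toMul_add, (hmul _ _ x).2, ofMul_mul, map_add]
      simp only [this, Finset.sum_add_distrib]
      congr 1
      exact Equiv.sum_comp (σ (Additive.toMul γ))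
        (fun x => χ (Additive.ofMul (gg (Additive.toMul δ) x))))
  have hΘ₀ : ∀ χ (γ : Gamma0 N), Θ₀ χ (Additive.ofMul γ) = ∑ x, χ (Additive.ofMul (gg γ x)) :=
    fun _ _ => rfl
  let Θ : (Additive (Gamma0 N) →+ ℂ) →+ (Additive (Gamma0 N) →+ ℂ) :=
    AddMonoidHom.mk' Θ₀ (by
      intro χ ψ
      refine AddMonoidHom.ext fun γ => ?_
      obtain ⟨γ, rfl⟩ := Additive.ofMul.surjective γ
      rw [AddMonoidHom.add_apply, hΘ₀, hΘ₀, hΘ₀, ← Finset.sum_add_distrib]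
      rfl)
  have hΘ : ∀ χ (γ : Gamma0 N), Θ χ (Additive.ofMul γ) = ∑ x, χ (Additive.ofMul (gg γ x)) :=
    fun _ _ => rfl
  refine ⟨Θ, ?_, ?_, ?_⟩
  · -- primitives
    intro F hF F' hF'
    have key : ∀ (γ : Gamma0 N) (z : ℍ),
        F' ((γ : SL(2, ℤ)) • z) - F' z = ∑ x, hF.period (gg γ x) := by
      intro γ z
      have h1 : ∀ x, F (rep x • ((γ : SL(2, ℤ)) • z)) =
          F (rep (ss γ x) • z) + hF.period (gg γ x) := by
        intro x
        have h2 : rep x • ((γ : SL(2, ℤ)) • z) =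
            ((gg γ x : Gamma0 N) : SL(2, ℤ)) • (rep (ss γ x) • z) := by
          rw [ModularGroup.sl_moeb, ModularGroup.sl_moeb, ← mul_smul, ← mul_smul]
          exact congrArg (· • z) (hspec γ x)
        rw [h2]
        have := hF.sub_eq_period (gg γ x) (rep (ss γ x) • z)
        linear_combination this
      rw [hF', hF']
      simp only [h1, Finset.sum_add_distrib]
      have h3 : ∑ x, F (rep (ss γ x) • z) = ∑ x, F (rep x • z) :=
        Equiv.sum_comp (σ γ) (fun x => F (rep x • z))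
      rw [h3]; ring
    have hF'' : IsEquivariantPrimitive (Gamma0 N) F' := fun γ => ⟨_, key γ⟩
    refine ⟨hF'', AddMonoidHom.ext fun γ => ?_⟩
    obtain ⟨γ, rfl⟩ := Additive.ofMul.surjective γ
    rw [IsEquivariantPrimitive.periodHom_apply, hΘ, ← hF''.sub_eq_period γ UpperHalfPlane.I,
      key γ UpperHalfPlane.I]
    rfl
  · -- the involution
    intro χ
    -- conjugated relation
    have hj : ∀ (γ : Gamma0 N) (x : ι),
        ss (jConjGamma0 N γ) (bar x) = bar (ss γ x) ∧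
          gg (jConjGamma0 N γ) (bar x) = (tt x)⁻¹ * jConjGamma0 N (gg γ x) * tt (ss γ x) := by
      intro γ x
      have h0 := congrArg (fun A => eps * A * eps) (hspec γ x)
      simp only [eps_conj_mul, eps_mapGL_eps, hbar] at h0
      have h1 : rep (bar x) * mapGL ℝ ((jConjGamma0 N γ : Gamma0 N) : SL(2, ℤ)) =
          mapGL ℝ (((tt x)⁻¹ * jConjGamma0 N (gg γ x) * tt (ss γ x) : Gamma0 N) : SL(2, ℤ)) *
            rep (bar (ss γ x)) := by
        rw [Subgroup.coe_mul, Subgroup.coe_mul, map_mul, map_mul, Subgroup.coe_inv, map_inv,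
          jConjGamma0_coe, jConjGamma0_coe, mul_assoc, mul_assoc, ← h0]
        group
      have h2 := hspec (jConjGamma0 N γ) (bar x)
      have h3 : ss (jConjGamma0 N γ) (bar x) = bar (ss γ x) := huniq _ _ _ _ (h2.symm.trans h1)
      refine ⟨h3, ?_⟩
      rw [h3] at h2
      exact hcancel _ _ _ (h2.symm.trans h1)
    -- `bar` is a bijection
    have hbar_inj : Function.Injective bar := by
      intro x x' hxx
      have h1 := hbar x
      have h2 := hbar x'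
      rw [hxx] at h1
      have h3 : eps * rep x * eps =
          mapGL ℝ ((tt x * (tt x')⁻¹ : Gamma0 N) : SL(2, ℤ)) * (eps * rep x' * eps) := by
        rw [h1, h2, Subgroup.coe_mul, map_mul, Subgroup.coe_inv, map_inv]
        group
      have h4 : eps * (eps * rep x * eps) * eps = eps * (mapGL ℝ ((tt x * (tt x')⁻¹ : Gamma0 N) :
          SL(2, ℤ)) * (eps * rep x' * eps)) * eps := by rw [h3]
      rw [eps_conj_conj, eps_conj_mul, eps_conj_conj, eps_mapGL_eps] at h4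
      refine huniq 1 (jConjSL ((tt x * (tt x')⁻¹ : Gamma0 N) : SL(2, ℤ))) _ _ ?_
      rw [map_one, one_mul]
      exact h4
    let β : Equiv.Perm ι := Equiv.ofBijective bar (Finite.injective_iff_bijective.mp hbar_inj)
    refine AddMonoidHom.ext fun γ => ?_
    obtain ⟨γ, rfl⟩ := Additive.ofMul.surjective γ
    rw [hΘ, charInvolution_apply, toMul_ofMul, hΘ]
    have e1 : ∑ x, χ (Additive.ofMul (gg (jConjGamma0 N γ) x)) =
        ∑ x, χ (Additive.ofMul (gg (jConjGamma0 N γ) (bar x))) :=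
      (Equiv.sum_comp β (fun x => χ (Additive.ofMul (gg (jConjGamma0 N γ) x)))).symm
    have e2 : ∀ x, χ (Additive.ofMul (gg (jConjGamma0 N γ) (bar x))) =
        -χ (Additive.ofMul (tt x)) + χ (Additive.ofMul (jConjGamma0 N (gg γ x))) +
          χ (Additive.ofMul (tt (ss γ x))) := by
      intro x
      rw [(hj γ x).2, ofMul_mul, ofMul_mul, ofMul_inv, map_add, map_add, map_neg]
    have e3 : ∑ x, χ (Additive.ofMul (tt (ss γ x))) = ∑ x, χ (Additive.ofMul (tt x)) :=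
      Equiv.sum_comp (σ γ) (fun x => χ (Additive.ofMul (tt x)))
    rw [e1]
    simp only [e2, Finset.sum_add_distrib, Finset.sum_neg_distrib, e3, charInvolution_apply,
      toMul_ofMul]
    ring
  · -- integrality
    intro χ hχ γ
    obtain ⟨γ, rfl⟩ := Additive.ofMul.surjective γ
    choose m hm using hχ
    refine ⟨∑ x, m (Additive.ofMul (gg γ x)), ?_⟩
    rw [hΘ]
    push_cast
    exact Finset.sum_congr rfl fun x _ => hm _


open P2MW.S_ModularForm_heckeT_slash_eq_self_of_mem_Gamma0.ModularForm.HeckeSlashInvariance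

theorem mapGL_val_apply (g : SL(2, ℤ)) (i j : Fin 2) :
    ((mapGL ℝ g : GL (Fin 2) ℝ) : Matrix (Fin 2) (Fin 2) ℝ) i j = ((g i j : ℤ) : ℝ) := by
  simp

/-- distinct representatives lie in distinct cosets -/
theorem heckeRep_uniq {ℓ : ℕ} [Fact ℓ.Prime] (a b : SL(2, ℤ)) (y y' : OnePoint (ZMod ℓ))
    (h : mapGL ℝ a * heckeRep ℓ y = mapGL ℝ b * heckeRep ℓ y') : y = y' := by
  have hℓ : ℓ.Prime := Fact.out
  have hℓ0 : ℓ ≠ 0 := hℓ.ne_zero
  have h' : mapGL ℝ (b⁻¹ * a) * heckeRep ℓ y = heckeRep ℓ y' := by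
    rw [map_mul, map_inv, mul_assoc, h, inv_mul_cancel_left]
  generalize b⁻¹ * a = g at h'
  have hdet := det_eq g
  have hm := congrArg (fun A : GL (Fin 2) ℝ => (A : Matrix (Fin 2) (Fin 2) ℝ)) h'
  simp only [Units.val_mul] at hm
  induction y using OnePoint.rec with
  | infty =>
    induction y' using OnePoint.rec with
    | infty => rfl
    | coe j' =>
      exfalso
      have e00 := congrFun (congrFun hm 0) 0
      simp only [heckeRep_infty, heckeRep_coe, val_heckeDiagMatrix hℓ0, val_heckeMatrix hℓ0,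
        Matrix.mul_apply, Fin.sum_univ_two, mapGL_val_apply] at e00
      simp at e00
      have e : g 0 0 * (ℓ : ℤ) = 1 := by exact_mod_cast e00
      have hdvd : (ℓ : ℤ) ∣ 1 := ⟨g 0 0, by linear_combination -e⟩
      have : ℓ ∣ 1 := by exact_mod_cast hdvd
      exact hℓ.one_lt.ne' (Nat.dvd_one.mp this)
  | coe j =>
    induction y' using OnePoint.rec with
    | infty =>
      exfalso
      have e00 := congrFun (congrFun hm 0) 0
      have e10 := congrFun (congrFun hm 1) 0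
      simp only [heckeRep_infty, heckeRep_coe, val_heckeDiagMatrix hℓ0, val_heckeMatrix hℓ0,
        Matrix.mul_apply, Fin.sum_univ_two, mapGL_val_apply] at e00 e10
      simp at e00 e10
      have e : g 0 0 = (ℓ : ℤ) := by exact_mod_cast e00
      have e' : g 1 0 = 0 := by exact_mod_cast e10
      rw [e, e'] at hdet
      have hdvd : (ℓ : ℤ) ∣ 1 := ⟨g 1 1, by linear_combination -hdet⟩
      have : ℓ ∣ 1 := by exact_mod_cast hdvd
      exact hℓ.one_lt.ne' (Nat.dvd_one.mp this)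
    | coe j' =>
      have e00 := congrFun (congrFun hm 0) 0
      have e01 := congrFun (congrFun hm 0) 1
      simp only [heckeRep_coe, val_heckeMatrix hℓ0,
        Matrix.mul_apply, Fin.sum_univ_two, mapGL_val_apply] at e00 e01
      simp [-ZMod.natCast_val] at e00 e01
      have e : g 0 0 = 1 := by exact_mod_cast e00
      rw [e] at e01
      have e2 : (1 : ℤ) * (j.val : ℤ) + g 0 1 * (ℓ : ℤ) = (j'.val : ℤ) := by exact_mod_cast e01
      have e3 := congrArg (fun n : ℤ => (n : ZMod ℓ)) e2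
      simp only [Int.cast_add, Int.cast_mul, Int.cast_natCast,
        ZMod.natCast_zmod_val, ZMod.natCast_self, mul_zero, add_zero, one_mul] at e3
      rw [e3]

theorem heckeDiagMatrix_eps {ℓ : ℕ} (hℓ0 : ℓ ≠ 0) :
    eps * heckeDiagMatrix ℓ * eps = mapGL ℝ (1 : SL(2, ℤ)) * heckeDiagMatrix ℓ := by
  rw [map_one, one_mul]
  apply Units.ext
  rw [Units.val_mul, Units.val_mul, val_eps, val_heckeDiagMatrix hℓ0]
  ext a b
  fin_cases a <;> fin_cases b <;> simp [Matrix.mul_apply, Fin.sum_univ_two]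

theorem heckeMatrix_eps {ℓ : ℕ} [NeZero ℓ] (N : ℕ) (j : ZMod ℓ) :
    ∃ t : Gamma0 N, eps * heckeMatrix ℓ j.val * eps =
      mapGL ℝ (t : SL(2, ℤ)) * heckeMatrix ℓ (-j).val := by
  have hℓ0 : ℓ ≠ 0 := NeZero.ne ℓ
  obtain ⟨m, hm⟩ : ℓ ∣ (-j).val + j.val := by
    rw [← ZMod.natCast_eq_zero_iff]
    push_cast
    rw [ZMod.natCast_zmod_val, ZMod.natCast_zmod_val]
    ring
  let t₀ : SL(2, ℤ) := ⟨!![1, -(m : ℤ); 0, 1], by simp [Matrix.det_fin_two_of]⟩
  have ht₀ : t₀ ∈ Gamma0 N := by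
    rw [Gamma0_mem]
    change (((!![1, -(m : ℤ); 0, 1] : Matrix (Fin 2) (Fin 2) ℤ) 1 0 : ℤ) : ZMod N) = 0
    simp
  have e00 : (t₀ 0 0 : ℤ) = 1 := rfl
  have e01 : (t₀ 0 1 : ℤ) = -(m : ℤ) := rfl
  have e10 : (t₀ 1 0 : ℤ) = 0 := rfl
  have e11 : (t₀ 1 1 : ℤ) = 1 := rfl
  refine ⟨⟨t₀, ht₀⟩, ?_⟩
  apply Units.ext
  rw [Units.val_mul, Units.val_mul, Units.val_mul, val_eps, val_heckeMatrix hℓ0,
    val_heckeMatrix hℓ0]
  have hm' : (((-j).val : ℕ) : ℝ) + (j.val : ℝ) = (ℓ : ℝ) * (m : ℝ) := by exact_mod_cast hm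
  ext a b
  fin_cases a <;> fin_cases b <;>
    simp [-ZMod.natCast_val, Matrix.mul_apply, Fin.sum_univ_two, e00, e01, e10, e11]
  linarith

end CohHecke

open CohHecke P2MW.S_ModularForm_heckeT_slash_eq_self_of_mem_Gamma0.ModularForm.HeckeSlashInvariance in
/-- (N1) the Hecke operator `T_ℓ` on `Hom(Γ₀(N), ℂ)` -/
theorem exists_cohT (N : ℕ) [NeZero N] (ℓ : ℕ) (hℓ : ℓ.Prime) (hℓN : ¬ ℓ ∣ N) :
    ∃ Θ : (Additive (Gamma0 N) →+ ℂ) →+ (Additive (Gamma0 N) →+ ℂ),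
      (∀ (F : ℍ → ℂ) (hF : IsEquivariantPrimitive (Gamma0 N) F),
        ∃ hF' : IsEquivariantPrimitive (Gamma0 N)
            (fun z => (∑ j ∈ Finset.range ℓ, F (heckeMatrix ℓ j • z)) + F (heckeDiagMatrix ℓ • z)),
          hF'.periodHom = Θ hF.periodHom) ∧
      (∀ χ, Θ (charInvolution N ℂ ℂ χ) = charInvolution N ℂ ℂ (Θ χ)) ∧
      (∀ χ, IsIntValued χ → IsIntValued (Θ χ)) := by
  have : Fact ℓ.Prime := ⟨hℓ⟩
  have : NeZero ℓ := ⟨hℓ.ne_zero⟩
  have hℓ0 : ℓ ≠ 0 := hℓ.ne_zero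
  have hex : ∀ (γ : Gamma0 N) (x : OnePoint (ZMod ℓ)), ∃ (γ' : Gamma0 N) (y : OnePoint (ZMod ℓ)),
      heckeRep ℓ x * mapGL ℝ (γ : SL(2, ℤ)) = mapGL ℝ (γ' : SL(2, ℤ)) * heckeRep ℓ y := by
    intro γ x
    have hγ : (N : ℤ) ∣ (γ : SL(2, ℤ)) 1 0 :=
      (ZMod.intCast_zmod_eq_zero_iff_dvd _ _).mp (Gamma0_mem.mp γ.2)
    obtain ⟨g', hg', hmul⟩ := heckeRep_mul hℓN (γ : SL(2, ℤ)) hγ x
    exact ⟨⟨g', Gamma0_mem.mpr ((ZMod.intCast_zmod_eq_zero_iff_dvd _ _).mpr hg')⟩, _, hmul⟩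
  choose gg ss hspec using hex
  have hbar : ∀ x : OnePoint (ZMod ℓ), ∃ (t : Gamma0 N) (y : OnePoint (ZMod ℓ)),
      eps * heckeRep ℓ x * eps = mapGL ℝ (t : SL(2, ℤ)) * heckeRep ℓ y := by
    intro x
    induction x using OnePoint.rec with
    | infty => exact ⟨1, OnePoint.infty, heckeDiagMatrix_eps hℓ0⟩
    | coe j =>
      obtain ⟨t, ht⟩ := heckeMatrix_eps N j
      exact ⟨t, ((-j : ZMod ℓ) : OnePoint (ZMod ℓ)), ht⟩
  choose tt bar hbar' using hbar
  obtain ⟨Θ, h1, h2, h3⟩ :=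
    exists_coh_of_sys (heckeRep ℓ) gg ss hspec heckeRep_uniq tt bar hbar'
  refine ⟨Θ, ?_, h2, h3⟩
  intro F hF
  refine h1 F hF _ ?_
  intro z
  rw [sum_range_eq_sum_zmod (fun j => F (heckeMatrix ℓ j • z)), add_comm]
  exact (Fintype.sum_option (fun x : OnePoint (ZMod ℓ) => F (heckeRep ℓ x • z))).symm

open CohHecke P2MW.S_ModularForm_heckeT_slash_eq_self_of_mem_Gamma0.ModularForm.HeckeSlashInvariance in
/-- (N1) the Hecke operator `U_ℓ` on `Hom(Γ₀(N), ℂ)` -/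
theorem exists_cohU (N : ℕ) [NeZero N] (ℓ : ℕ) (hℓ : ℓ.Prime) (hℓN : ℓ ∣ N) :
    ∃ Θ : (Additive (Gamma0 N) →+ ℂ) →+ (Additive (Gamma0 N) →+ ℂ),
      (∀ (F : ℍ → ℂ) (hF : IsEquivariantPrimitive (Gamma0 N) F),
        ∃ hF' : IsEquivariantPrimitive (Gamma0 N)
            (fun z => ∑ j ∈ Finset.range ℓ, F (heckeMatrix ℓ j • z)),
          hF'.periodHom = Θ hF.periodHom) ∧
      (∀ χ, Θ (charInvolution N ℂ ℂ χ) = charInvolution N ℂ ℂ (Θ χ)) ∧
      (∀ χ, IsIntValued χ → IsIntValued (Θ χ)) := by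
  have : Fact ℓ.Prime := ⟨hℓ⟩
  have : NeZero ℓ := ⟨hℓ.ne_zero⟩
  have hex : ∀ (γ : Gamma0 N) (x : ZMod ℓ), ∃ (γ' : Gamma0 N) (y : ZMod ℓ),
      heckeMatrix ℓ x.val * mapGL ℝ (γ : SL(2, ℤ)) =
        mapGL ℝ (γ' : SL(2, ℤ)) * heckeMatrix ℓ y.val := by
    intro γ x
    have hγ : (N : ℤ) ∣ (γ : SL(2, ℤ)) 1 0 :=
      (ZMod.intCast_zmod_eq_zero_iff_dvd _ _).mp (Gamma0_mem.mp γ.2)
    have hc : (ℓ : ℤ) ∣ (γ : SL(2, ℤ)) 1 0 := (Int.natCast_dvd_natCast.mpr hℓN).trans hγ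
    obtain ⟨g', hg', hmul⟩ := heckeMatrix_mul_of_dvd (γ : SL(2, ℤ)) hc x
    refine ⟨⟨g', ?_⟩, _, hmul⟩
    rw [Gamma0_mem, hg']
    push_cast
    rw [Gamma0_mem.mp γ.2, mul_zero]
  choose gg ss hspec using hex
  have huniq : ∀ (a b : SL(2, ℤ)) (y y' : ZMod ℓ),
      mapGL ℝ a * heckeMatrix ℓ y.val = mapGL ℝ b * heckeMatrix ℓ y'.val → y = y' := by
    intro a b y y' h
    exact OnePoint.coe_injective (heckeRep_uniq a b (y : OnePoint (ZMod ℓ)) y' h)
  have hbar := fun x : ZMod ℓ => heckeMatrix_eps N x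
  choose tt hbar' using hbar
  obtain ⟨Θ, h1, h2, h3⟩ :=
    exists_coh_of_sys (fun x : ZMod ℓ => heckeMatrix ℓ x.val) gg ss hspec huniq tt
      (fun x => -x) hbar'
  refine ⟨Θ, ?_, h2, h3⟩
  intro F hF
  refine h1 F hF _ ?_
  intro z
  exact sum_range_eq_sum_zmod (fun j => F (heckeMatrix ℓ j • z))



end Fermat.Agent.S16
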