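import Mathlib
import Fermat.Agent.S16.Defs
import Fermat.Agent.S21.Primitive

/-!
# S16 (N2, function level): primitives and Hecke operators

If `F` is a primitive of `f` on `ℍ` and `G` a primitive of `T_ℓ f` (weight `2`), then
`z ↦ ∑_j F(α_j z) + F(α_∞ z) - G z` is constant; same for `U_ℓ` without the `α_∞` term.
-/

set_option autoImplicit false

namespace Fermat.Agent.S16

open ModularCurve CuspForm CongruenceSubgroup UpperHalfPlane ModularForm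
open scoped MatrixGroups ModularForm Manifold Topology

namespace CohPrim

/-- the functions `w ↦ F (α • ofComplex w)` and `w ↦ (F ∘ ofComplex) (φ w)` agree near `τ` as
soon as `φ` computes the action of `α` on `ℍ` -/
theorem eventuallyEq_comp (F : ℍ → ℂ) (α : GL (Fin 2) ℝ) (φ : ℂ → ℂ)
    (hφ : ∀ z : ℍ, ((α • z : ℍ) : ℂ) = φ z) (τ : ℍ) :
    (fun w : ℂ => F (α • ofComplex w)) =ᶠ[𝓝 (τ : ℂ)] (F ∘ ofComplex) ∘ φ := by
  have hopen : {w : ℂ | 0 < w.im} ∈ 𝓝 (τ : ℂ) :=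
    (isOpen_lt continuous_const Complex.continuous_im).mem_nhds τ.2
  filter_upwards [hopen] with w hw
  have h1 : φ w = ((α • ofComplex w : ℍ) : ℂ) := by
    rw [hφ (ofComplex w), ofComplex_apply_of_im_pos hw]
  simp only [Function.comp_apply]
  rw [h1, ofComplex_apply]

/-- chain rule for `w ↦ F (α • ofComplex w)` when `α` acts by the holomorphic map `φ` -/
theorem hasDerivAt_comp_smul (F f : ℍ → ℂ)
    (hF : ∀ τ : ℍ, HasDerivAt (F ∘ ofComplex) (f τ) τ)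
    (α : GL (Fin 2) ℝ) (φ : ℂ → ℂ) (c : ℂ)
    (hφ : ∀ z : ℍ, ((α • z : ℍ) : ℂ) = φ z) (τ : ℍ) (hφ' : HasDerivAt φ c τ) :
    HasDerivAt (fun w : ℂ => F (α • ofComplex w)) (f (α • τ) * c) τ := by
  have h1 : HasDerivAt (F ∘ ofComplex) (f (α • τ)) (φ τ) := by
    rw [← hφ τ]; exact hF (α • τ)
  exact (h1.comp (τ : ℂ) hφ').congr_of_eventuallyEq (eventuallyEq_comp F α φ hφ τ)

theorem hasDerivAt_heckeMatrix (ℓ : ℕ) (hℓ : ℓ ≠ 0) (F f : ℍ → ℂ)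
    (hF : ∀ τ : ℍ, HasDerivAt (F ∘ ofComplex) (f τ) τ) (j : ℕ) (τ : ℍ) :
    HasDerivAt (fun w : ℂ => F (heckeMatrix ℓ j • ofComplex w))
      (f (heckeMatrix ℓ j • τ) * (ℓ : ℂ)⁻¹) τ := by
  refine hasDerivAt_comp_smul F f hF (heckeMatrix ℓ j) (fun w => (w + j) / ℓ) _
    (fun z => coe_heckeMatrix_smul hℓ j z) τ ?_
  have := ((hasDerivAt_id (τ : ℂ)).add_const (j : ℂ)).div_const (ℓ : ℂ)
  simpa [one_div] using this

theorem hasDerivAt_heckeDiagMatrix (ℓ : ℕ) (hℓ : ℓ ≠ 0) (F f : ℍ → ℂ)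
    (hF : ∀ τ : ℍ, HasDerivAt (F ∘ ofComplex) (f τ) τ) (τ : ℍ) :
    HasDerivAt (fun w : ℂ => F (heckeDiagMatrix ℓ • ofComplex w))
      (f (heckeDiagMatrix ℓ • τ) * (ℓ : ℂ)) τ := by
  refine hasDerivAt_comp_smul F f hF (heckeDiagMatrix ℓ) (fun w => (ℓ : ℂ) * w) _
    (fun z => coe_heckeDiagMatrix_smul hℓ z) τ ?_
  have := (hasDerivAt_id (τ : ℂ)).const_mul (ℓ : ℂ)
  simpa using this

theorem hasDerivAt_sum_heckeMatrix (ℓ : ℕ) (hℓ : ℓ ≠ 0) (F f : ℍ → ℂ)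
    (hF : ∀ τ : ℍ, HasDerivAt (F ∘ ofComplex) (f τ) τ) (τ : ℍ) :
    HasDerivAt (fun w : ℂ => ∑ j ∈ Finset.range ℓ, F (heckeMatrix ℓ j • ofComplex w))
      (heckeU 2 ℓ f τ) τ := by
  have h := HasDerivAt.fun_sum (u := Finset.range ℓ)
    (fun j _ => hasDerivAt_heckeMatrix ℓ hℓ F f hF j τ)
  have he : heckeU 2 ℓ f τ = ∑ j ∈ Finset.range ℓ, f (heckeMatrix ℓ j • τ) * (ℓ : ℂ)⁻¹ := by
    rw [heckeU_apply 2 hℓ, Finset.mul_sum]
    exact Finset.sum_congr rfl fun j _ => mul_comm _ _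
  rw [he]
  exact h

end CohPrim

open CohPrim in
/-- (N2) primitives and the Hecke operator `T_ℓ` (function level). -/
theorem heckeT_primitive_const (ℓ : ℕ) (hℓ : ℓ ≠ 0) (F f G : ℍ → ℂ)
    (hF : ∀ τ : ℍ, HasDerivAt (F ∘ ofComplex) (f τ) τ)
    (hG : ∀ τ : ℍ, HasDerivAt (G ∘ ofComplex) (heckeT 2 ℓ f τ) τ) :
    ∃ c : ℂ, ∀ z : ℍ,
      (∑ j ∈ Finset.range ℓ, F (heckeMatrix ℓ j • z)) + F (heckeDiagMatrix ℓ • z) - G z = c := by
  set Φ : ℍ → ℂ := fun z =>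
    (∑ j ∈ Finset.range ℓ, F (heckeMatrix ℓ j • z)) + F (heckeDiagMatrix ℓ • z) - G z with hΦ
  have hd : ∀ τ : ℍ, HasDerivAt (Φ ∘ ofComplex) 0 τ := by
    intro τ
    have h1 := ((hasDerivAt_sum_heckeMatrix ℓ hℓ F f hF τ).add
      (hasDerivAt_heckeDiagMatrix ℓ hℓ F f hF τ)).sub (hG τ)
    have h0 : heckeU 2 ℓ f τ + f (heckeDiagMatrix ℓ • τ) * (ℓ : ℂ) - heckeT 2 ℓ f τ = 0 := by
      rw [heckeT_apply 2 hℓ, heckeU_apply 2 hℓ]
      norm_num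
      ring
    rw [h0] at h1
    exact h1
  exact ⟨Φ UpperHalfPlane.I, fun z => S21.Primitive.const_of_hasDerivAt_zero hd z _⟩

open CohPrim in
/-- (N2) primitives and the Hecke operator `U_ℓ` (function level). -/
theorem heckeU_primitive_const (ℓ : ℕ) (hℓ : ℓ ≠ 0) (F f G : ℍ → ℂ)
    (hF : ∀ τ : ℍ, HasDerivAt (F ∘ ofComplex) (f τ) τ)
    (hG : ∀ τ : ℍ, HasDerivAt (G ∘ ofComplex) (heckeU 2 ℓ f τ) τ) :
    ∃ c : ℂ, ∀ z : ℍ, (∑ j ∈ Finset.range ℓ, F (heckeMatrix ℓ j • z)) - G z = c := by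
  set Φ : ℍ → ℂ := fun z => (∑ j ∈ Finset.range ℓ, F (heckeMatrix ℓ j • z)) - G z with hΦ
  have hd : ∀ τ : ℍ, HasDerivAt (Φ ∘ ofComplex) 0 τ := by
    intro τ
    have h1 := (hasDerivAt_sum_heckeMatrix ℓ hℓ F f hF τ).sub (hG τ)
    rw [sub_self] at h1
    exact h1
  exact ⟨Φ UpperHalfPlane.I, fun z => S21.Primitive.const_of_hasDerivAt_zero hd z _⟩

end Fermat.Agent.S16
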