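import Mathlib
import Fermat.Agent.S16.Defs
import Fermat.Agent.S16.CohPrim
import Fermat.Agent.S16.CohHecke
import Fermat.Agent.S21

/-!
# S16, module (N2): Hecke operators on `Hom(Γ₀(p), ℂ)` and the period map

`exists_coh_operator`: for every `Q : HeckeAlg` there is an additive operator `Θ` on
`Hom(Γ₀(p), ℂ)` which is compatible with `periodHomPair` (S21) and the action of `Q` on cusp
forms, acts on the period homomorphism of an Eisenstein-eigen primitive by `evE p Q`, and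
preserves integer-valued characters. Built from the operators of module (N1) (`CohHecke.lean`)
and the function-level statements of `CohPrim.lean` by induction on `Q`.
-/

set_option autoImplicit false

namespace Fermat.Agent.S16

open ModularCurve ModularCurve.Period CuspForm CongruenceSubgroup UpperHalfPlane ModularForm
open scoped MatrixGroups ModularForm Manifold

namespace CohEquiv

/-! ### Period homomorphisms of primitives -/

/-- the period map is the period homomorphism of the equivariant primitive -/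
theorem periodMap_eq_periodHom {N : ℕ} {f : CuspForm (Gamma0 N) 2} {F : ℍ → ℂ}
    (hF : HasEquivariantPrimitive N f F) : periodMap N f = hF.2.2.1.periodHom := by
  refine AddMonoidHom.ext fun γ => ?_
  obtain ⟨γ, rfl⟩ := Additive.ofMul.surjective γ
  rw [Fermat.Agent.S21.periodMap_apply hF γ UpperHalfPlane.I,
    IsEquivariantPrimitive.periodHom_apply]
  rfl

/-- primitives differing by a constant have the same period homomorphism -/
theorem periodHom_eq_of_sub_const {Γ : Subgroup SL(2, ℤ)} {F G : ℍ → ℂ}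
    (hF : IsEquivariantPrimitive Γ F) (hG : IsEquivariantPrimitive Γ G) (c : ℂ)
    (h : ∀ z : ℍ, F z - G z = c) : hF.periodHom = hG.periodHom := by
  refine AddMonoidHom.ext fun γ => ?_
  obtain ⟨γ, rfl⟩ := Additive.ofMul.surjective γ
  rw [IsEquivariantPrimitive.periodHom_apply, IsEquivariantPrimitive.periodHom_apply,
    IsEquivariantPrimitive.period, IsEquivariantPrimitive.period]
  have h1 := h ((γ : SL(2, ℤ)) • UpperHalfPlane.I)
  have h2 := h UpperHalfPlane.I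
  linear_combination h1 - h2

/-- `F - m G` constant (`m` an integer) gives `periodHom F = m • periodHom G` -/
theorem periodHom_eq_zsmul_of_sub_const {Γ : Subgroup SL(2, ℤ)} {F G : ℍ → ℂ}
    (hF : IsEquivariantPrimitive Γ F) (hG : IsEquivariantPrimitive Γ G) (m : ℤ) (c : ℂ)
    (h : ∀ z : ℍ, F z - (m : ℂ) * G z = c) : hF.periodHom = m • hG.periodHom := by
  refine AddMonoidHom.ext fun γ => ?_
  obtain ⟨γ, rfl⟩ := Additive.ofMul.surjective γ
  rw [AddMonoidHom.smul_apply, IsEquivariantPrimitive.periodHom_apply,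
    IsEquivariantPrimitive.periodHom_apply,
    IsEquivariantPrimitive.period, IsEquivariantPrimitive.period, zsmul_eq_mul]
  have h1 := h ((γ : SL(2, ℤ)) • UpperHalfPlane.I)
  have h2 := h UpperHalfPlane.I
  linear_combination h1 - h2

/-! ### Good operators -/

/-- the three properties of a cohomological operator `Θ` attached to an endomorphism `A` of
the space of cusp forms with Eisenstein eigenvalue `m` -/
def Good (N : ℕ) {F : ℍ → ℂ} (hF : IsEquivariantPrimitive (Gamma0 N) F)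
    (Θ : (Additive (Gamma0 N) →+ ℂ) →+ (Additive (Gamma0 N) →+ ℂ))
    (A : Module.End ℂ (CuspForm (Gamma0 N) 2)) (m : ℤ) : Prop :=
  (∀ f g : CuspForm (Gamma0 N) 2, Θ (periodHomPair N (f, g)) = periodHomPair N (A f, A g)) ∧
    Θ hF.periodHom = m • hF.periodHom ∧
    (∀ χ, IsIntValued χ → IsIntValued (Θ χ))

theorem isIntValued_zsmul {N : ℕ} (a : ℤ) {χ : Additive (Gamma0 N) →+ ℂ} (h : IsIntValued χ) :
    IsIntValued (a • χ) := by
  intro γ
  obtain ⟨m, hm⟩ := h γ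
  refine ⟨a * m, ?_⟩
  rw [AddMonoidHom.smul_apply, hm, zsmul_eq_mul]
  push_cast
  ring

theorem isIntValued_add {N : ℕ} {χ ψ : Additive (Gamma0 N) →+ ℂ} (h : IsIntValued χ)
    (h' : IsIntValued ψ) : IsIntValued (χ + ψ) := by
  intro γ
  obtain ⟨m, hm⟩ := h γ
  obtain ⟨m', hm'⟩ := h' γ
  refine ⟨m + m', ?_⟩
  rw [AddMonoidHom.add_apply, hm, hm']
  push_cast
  ring

theorem good_const (N : ℕ) {F : ℍ → ℂ} (hF : IsEquivariantPrimitive (Gamma0 N) F) (a : ℤ) :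
    Good N hF (a • AddMonoidHom.id _) (a • (1 : Module.End ℂ (CuspForm (Gamma0 N) 2))) a := by
  refine ⟨fun f g => ?_, ?_, fun χ hχ => ?_⟩
  · rw [AddMonoidHom.smul_apply, AddMonoidHom.id_apply, LinearMap.smul_apply,
      LinearMap.smul_apply, Module.End.one_apply, Module.End.one_apply, ← Prod.smul_mk,
      map_zsmul]
  · rw [AddMonoidHom.smul_apply, AddMonoidHom.id_apply]
  · rw [AddMonoidHom.smul_apply, AddMonoidHom.id_apply]
    exact isIntValued_zsmul a hχ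

theorem good_add (N : ℕ) {F : ℍ → ℂ} (hF : IsEquivariantPrimitive (Gamma0 N) F)
    {Θ₁ Θ₂ : (Additive (Gamma0 N) →+ ℂ) →+ (Additive (Gamma0 N) →+ ℂ)}
    {A₁ A₂ : Module.End ℂ (CuspForm (Gamma0 N) 2)} {m₁ m₂ : ℤ}
    (h₁ : Good N hF Θ₁ A₁ m₁) (h₂ : Good N hF Θ₂ A₂ m₂) :
    Good N hF (Θ₁ + Θ₂) (A₁ + A₂) (m₁ + m₂) := by
  refine ⟨fun f g => ?_, ?_, fun χ hχ => ?_⟩
  · rw [AddMonoidHom.add_apply, h₁.1, h₂.1, LinearMap.add_apply, LinearMap.add_apply,
      ← Prod.mk_add_mk, map_add]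
  · rw [AddMonoidHom.add_apply, h₁.2.1, h₂.2.1, add_smul]
  · rw [AddMonoidHom.add_apply]
    exact isIntValued_add (h₁.2.2 χ hχ) (h₂.2.2 χ hχ)

theorem good_mul (N : ℕ) {F : ℍ → ℂ} (hF : IsEquivariantPrimitive (Gamma0 N) F)
    {Θ₁ Θ₂ : (Additive (Gamma0 N) →+ ℂ) →+ (Additive (Gamma0 N) →+ ℂ)}
    {A₁ A₂ : Module.End ℂ (CuspForm (Gamma0 N) 2)} {m₁ m₂ : ℤ}
    (h₁ : Good N hF Θ₁ A₁ m₁) (h₂ : Good N hF Θ₂ A₂ m₂) :
    Good N hF (Θ₁.comp Θ₂) (A₁ * A₂) (m₁ * m₂) := by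
  refine ⟨fun f g => ?_, ?_, fun χ hχ => ?_⟩
  · rw [AddMonoidHom.comp_apply, h₂.1, h₁.1, Module.End.mul_apply, Module.End.mul_apply]
  · rw [AddMonoidHom.comp_apply, h₂.2.1, map_zsmul, h₁.2.1, smul_smul, mul_comm]
  · rw [AddMonoidHom.comp_apply]
    exact h₁.2.2 _ (h₂.2.2 χ hχ)

/-- a `Θ` commuting with the period map and with `charInvolution` commutes with
`periodHomPair` -/
theorem periodHomPair_comm (N : ℕ) [NeZero N]
    (Θ : (Additive (Gamma0 N) →+ ℂ) →+ (Additive (Gamma0 N) →+ ℂ))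
    (A : Module.End ℂ (CuspForm (Gamma0 N) 2))
    (h1 : ∀ f : CuspForm (Gamma0 N) 2, Θ (periodMap N f) = periodMap N (A f))
    (h2 : ∀ χ, Θ (charInvolution N ℂ ℂ χ) = charInvolution N ℂ ℂ (Θ χ))
    (f g : CuspForm (Gamma0 N) 2) :
    Θ (periodHomPair N (f, g)) = periodHomPair N (A f, A g) := by
  obtain ⟨pml, hpml, hp⟩ := periodHomPair_def N (Fermat.Agent.S21.existsPeriodMapLinear N)
  rw [hp, LinearMap.coprod_apply, LinearMap.coprod_apply]
  simp only [LinearMap.coe_comp, Function.comp_apply, LinearMap.add_apply, LinearMap.sub_apply,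
    LinearMap.id_coe, id_eq, hpml, map_add, map_sub, h1, h2]


/-! ### The base operators -/

/-- the operator `T_ℓ` on `Hom(Γ₀(N), ℂ)` (shape of module (N1)) is good -/
theorem good_T (N : ℕ) [NeZero N] {F : ℍ → ℂ} (hF : IsEquivariantPrimitive (Gamma0 N) F)
    {ℓ : ℕ} (hℓ : ℓ.Prime) (hℓN : ¬ ℓ ∣ N)
    (Θ : (Additive (Gamma0 N) →+ ℂ) →+ (Additive (Gamma0 N) →+ ℂ))
    (hΘ1 : ∀ (F : ℍ → ℂ) (hF : IsEquivariantPrimitive (Gamma0 N) F),
        ∃ hF' : IsEquivariantPrimitive (Gamma0 N)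
            (fun z => (∑ j ∈ Finset.range ℓ, F (heckeMatrix ℓ j • z)) + F (heckeDiagMatrix ℓ • z)),
          hF'.periodHom = Θ hF.periodHom)
    (hΘ2 : ∀ χ, Θ (charInvolution N ℂ ℂ χ) = charInvolution N ℂ ℂ (Θ χ))
    (hΘ3 : ∀ χ, IsIntValued χ → IsIntValued (Θ χ))
    (c : ℂ) (hc : ∀ z : ℍ, (∑ j ∈ Finset.range ℓ, F (heckeMatrix ℓ j • z)) +
        F (heckeDiagMatrix ℓ • z) - ((ℓ : ℂ) + 1) * F z = c) :
    Good N hF Θ (CuspForm.heckeTLin 2 hℓ hℓN) ((ℓ : ℤ) + 1) := by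
  refine ⟨fun f g => periodHomPair_comm N Θ _ (fun f => ?_) hΘ2 f g, ?_, hΘ3⟩
  · obtain ⟨Ff, hFf⟩ := Fermat.Agent.S21.exists_hasEquivariantPrimitive N f
    obtain ⟨Gf, hGf⟩ := Fermat.Agent.S21.exists_hasEquivariantPrimitive N
      (CuspForm.heckeTLin 2 hℓ hℓN f)
    obtain ⟨hF', hF'eq⟩ := hΘ1 Ff hFf.2.2.1
    obtain ⟨d, hd⟩ := heckeT_primitive_const ℓ hℓ.ne_zero Ff f Gf hFf.1 hGf.1
    rw [periodMap_eq_periodHom hFf, periodMap_eq_periodHom hGf, ← hF'eq]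
    exact periodHom_eq_of_sub_const hF' hGf.2.2.1 d hd
  · obtain ⟨hF', hF'eq⟩ := hΘ1 F hF
    rw [← hF'eq]
    refine periodHom_eq_zsmul_of_sub_const hF' hF _ c fun z => ?_
    have := hc z
    push_cast
    exact this

/-- the operator `U_q` on `Hom(Γ₀(N), ℂ)` (shape of module (N1)) is good -/
theorem good_U (N : ℕ) [NeZero N] {F : ℍ → ℂ} (hF : IsEquivariantPrimitive (Gamma0 N) F)
    {q : ℕ} (hq : q.Prime) (hqN : q ∣ N)
    (Θ : (Additive (Gamma0 N) →+ ℂ) →+ (Additive (Gamma0 N) →+ ℂ))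
    (hΘ1 : ∀ (F : ℍ → ℂ) (hF : IsEquivariantPrimitive (Gamma0 N) F),
        ∃ hF' : IsEquivariantPrimitive (Gamma0 N)
            (fun z => ∑ j ∈ Finset.range q, F (heckeMatrix q j • z)),
          hF'.periodHom = Θ hF.periodHom)
    (hΘ2 : ∀ χ, Θ (charInvolution N ℂ ℂ χ) = charInvolution N ℂ ℂ (Θ χ))
    (hΘ3 : ∀ χ, IsIntValued χ → IsIntValued (Θ χ))
    (c : ℂ) (hc : ∀ z : ℍ, (∑ j ∈ Finset.range q, F (heckeMatrix q j • z)) - F z = c) :
    Good N hF Θ (CuspForm.heckeULin 2 hqN) 1 := by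
  refine ⟨fun f g => periodHomPair_comm N Θ _ (fun f => ?_) hΘ2 f g, ?_, hΘ3⟩
  · obtain ⟨Ff, hFf⟩ := Fermat.Agent.S21.exists_hasEquivariantPrimitive N f
    obtain ⟨Gf, hGf⟩ := Fermat.Agent.S21.exists_hasEquivariantPrimitive N
      (CuspForm.heckeULin 2 hqN f)
    obtain ⟨hF', hF'eq⟩ := hΘ1 Ff hFf.2.2.1
    obtain ⟨d, hd⟩ := heckeU_primitive_const q hq.ne_zero Ff f Gf hFf.1 hGf.1
    rw [periodMap_eq_periodHom hFf, periodMap_eq_periodHom hGf, ← hF'eq]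
    exact periodHom_eq_of_sub_const hF' hGf.2.2.1 d hd
  · obtain ⟨hF', hF'eq⟩ := hΘ1 F hF
    rw [← hF'eq]
    refine periodHom_eq_zsmul_of_sub_const hF' hF _ c fun z => ?_
    have := hc z
    push_cast
    rw [one_mul]
    exact this

/-! ### The operator attached to `Q : HeckeAlg` -/

/-- (N2), relative to the existence of the Hecke operators on `Hom(Γ₀(p), ℂ)` (module (N1)) -/
theorem coh_operator_of (p : ℕ) [Fact p.Prime]
    (hcohT : ∀ ℓ : ℕ, ℓ.Prime → ¬ ℓ ∣ p →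
      ∃ Θ : (Additive (Gamma0 p) →+ ℂ) →+ (Additive (Gamma0 p) →+ ℂ),
        (∀ (F : ℍ → ℂ) (hF : IsEquivariantPrimitive (Gamma0 p) F),
          ∃ hF' : IsEquivariantPrimitive (Gamma0 p)
              (fun z => (∑ j ∈ Finset.range ℓ, F (heckeMatrix ℓ j • z)) +
                F (heckeDiagMatrix ℓ • z)),
            hF'.periodHom = Θ hF.periodHom) ∧
        (∀ χ, Θ (charInvolution p ℂ ℂ χ) = charInvolution p ℂ ℂ (Θ χ)) ∧
        (∀ χ, IsIntValued χ → IsIntValued (Θ χ)))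
    (hcohU : ∀ ℓ : ℕ, ℓ.Prime → ℓ ∣ p →
      ∃ Θ : (Additive (Gamma0 p) →+ ℂ) →+ (Additive (Gamma0 p) →+ ℂ),
        (∀ (F : ℍ → ℂ) (hF : IsEquivariantPrimitive (Gamma0 p) F),
          ∃ hF' : IsEquivariantPrimitive (Gamma0 p)
              (fun z => ∑ j ∈ Finset.range ℓ, F (heckeMatrix ℓ j • z)),
            hF'.periodHom = Θ hF.periodHom) ∧
        (∀ χ, Θ (charInvolution p ℂ ℂ χ) = charInvolution p ℂ ℂ (Θ χ)) ∧
        (∀ χ, IsIntValued χ → IsIntValued (Θ χ)))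
    (F : ℍ → ℂ) (hF : IsEquivariantPrimitive (Gamma0 p) F)
    (hT : ∀ ℓ : ℕ, ℓ.Prime → ℓ ≠ p → ∃ c : ℂ, ∀ z : ℍ,
      (∑ j ∈ Finset.range ℓ, F (heckeMatrix ℓ j • z)) + F (heckeDiagMatrix ℓ • z)
        - ((ℓ : ℂ) + 1) * F z = c)
    (hU : ∃ c : ℂ, ∀ z : ℍ, (∑ j ∈ Finset.range p, F (heckeMatrix p j • z)) - F z = c)
    (Q : HeckeAlg) :
    ∃ Θ : (Additive (Gamma0 p) →+ ℂ) →+ (Additive (Gamma0 p) →+ ℂ),
      Good p hF Θ ((heckeEvalForms p 2 Q : ↥(heckeAlgebra p 2 ∅)) :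
        Module.End ℂ (CuspForm (Gamma0 p) 2)) (evE p Q) := by
  have hp : p.Prime := Fact.out
  have hU' : ∀ q : ℕ, q.Prime → q ∣ p → ∃ c : ℂ, ∀ z : ℍ,
      (∑ j ∈ Finset.range q, F (heckeMatrix q j • z)) - F z = c := by
    intro q hq hqp
    obtain rfl : q = p := (Nat.prime_dvd_prime_iff_eq hq hp).mp hqp
    exact hU
  induction Q using MvPolynomial.induction_on with
  | C a =>
    refine ⟨a • AddMonoidHom.id _, ?_⟩
    have h1 : ((heckeEvalForms p 2 (MvPolynomial.C a) : ↥(heckeAlgebra p 2 ∅)) :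
        Module.End ℂ (CuspForm (Gamma0 p) 2)) = a • 1 := by
      rw [heckeEvalForms_C, Subalgebra.coe_algebraMap, Algebra.algebraMap_eq_smul_one]
    have h2 : evE p (MvPolynomial.C a) = a := by simp [evE]
    rw [h1, h2]
    exact good_const p hF a
  | add Q₁ Q₂ ih₁ ih₂ =>
    obtain ⟨Θ₁, h₁⟩ := ih₁
    obtain ⟨Θ₂, h₂⟩ := ih₂
    refine ⟨Θ₁ + Θ₂, ?_⟩
    rw [map_add, map_add, Subalgebra.coe_add]
    exact good_add p hF h₁ h₂
  | mul_X Q n ih =>
    obtain ⟨Θ₁, h₁⟩ := ih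
    have hX : heckeEvalForms p 2 (MvPolynomial.X n) = heckeFormsGen p 2 n :=
      heckeEvalForms_heckeGen p 2 n
    have hE : evE p (MvPolynomial.X n) = eisensteinSystem p n := by simp [evE]
    rw [map_mul, map_mul, Subalgebra.coe_mul, hX, hE]
    by_cases hn : (n : ℕ) ∣ p
    · obtain ⟨Θ₂, hΘ1, hΘ2, hΘ3⟩ := hcohU n n.2 hn
      obtain ⟨c, hc⟩ := hU' n n.2 hn
      refine ⟨Θ₁.comp Θ₂, ?_⟩
      rw [heckeFormsGen_of_dvd hn, heckeAlgebra.coe_U, eisensteinSystem_of_dvd hn]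
      exact good_mul p hF h₁ (good_U p hF n.2 hn Θ₂ hΘ1 hΘ2 hΘ3 c hc)
    · obtain ⟨Θ₂, hΘ1, hΘ2, hΘ3⟩ := hcohT n n.2 hn
      obtain ⟨c, hc⟩ := hT n n.2 (fun h => hn (h ▸ dvd_rfl))
      refine ⟨Θ₁.comp Θ₂, ?_⟩
      rw [heckeFormsGen_of_not_dvd hn, heckeAlgebra.coe_T, eisensteinSystem_of_not_dvd hn]
      have hg := good_T p hF n.2 hn Θ₂ hΘ1 hΘ2 hΘ3 c hc
      have hm : ((n : ℕ) : ℤ) + 1 = 1 + ((n : ℕ) : ℤ) := add_comm _ _
      rw [hm] at hg
      exact good_mul p hF h₁ hg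

end CohEquiv

/-- (N2) for every `Q` a cohomological operator compatible with the period
map (S21), acting on an Eisenstein-eigen primitive by `evE Q`, and preserving integrality. -/
theorem exists_coh_operator (p : ℕ) [Fact p.Prime] (F : ℍ → ℂ)
    (hF : IsEquivariantPrimitive (Gamma0 p) F)
    (hT : ∀ ℓ : ℕ, ℓ.Prime → ℓ ≠ p → ∃ c : ℂ, ∀ z : ℍ,
      (∑ j ∈ Finset.range ℓ, F (heckeMatrix ℓ j • z)) + F (heckeDiagMatrix ℓ • z)
        - ((ℓ : ℂ) + 1) * F z = c)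
    (hU : ∃ c : ℂ, ∀ z : ℍ, (∑ j ∈ Finset.range p, F (heckeMatrix p j • z)) - F z = c)
    (Q : HeckeAlg) :
    ∃ Θ : (Additive (Gamma0 p) →+ ℂ) →+ (Additive (Gamma0 p) →+ ℂ),
      (∀ f g : CuspForm (Gamma0 p) 2, Θ (periodHomPair p (f, g)) =
        periodHomPair p
          (((heckeEvalForms p 2 Q : ↥(heckeAlgebra p 2 ∅)) :
              Module.End ℂ (CuspForm (Gamma0 p) 2)) f,
           ((heckeEvalForms p 2 Q : ↥(heckeAlgebra p 2 ∅)) :
              Module.End ℂ (CuspForm (Gamma0 p) 2)) g)) ∧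
      Θ hF.periodHom = (evE p Q : ℤ) • hF.periodHom ∧
      (∀ χ, IsIntValued χ → IsIntValued (Θ χ)) :=
  CohEquiv.coh_operator_of p (fun ℓ hℓ hℓp => exists_cohT p ℓ hℓ hℓp)
    (fun ℓ hℓ hℓp => exists_cohU p ℓ hℓ hℓp) F hF hT hU Q

end Fermat.Agent.S16
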