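import Mathlib
import Fermat.Agent.S22.LevelOne

/-!
# The integral Sturm bound in level one

Every `q`-expansion coefficient of a level one modular form of weight `K` is a `ℤ`-linear
combination of the coefficients `a_i` with `12 i ≤ K`.  Stated for an arbitrary additive
subgroup `I` of `ℂ`: if `a_i ∈ I` for all `i` with `12 i ≤ K`, then `a_n ∈ I` for all `n`.
-/

set_option autoImplicit false

namespace Fermat.Agent.S16

open UpperHalfPlane ModularForm CongruenceSubgroup SlashInvariantForm
open scoped MatrixGroups ModularForm Manifold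

namespace SturmInt

open Fermat.Agent.S22 Fermat.Agent.S22.LevelOne Fermat.Agent.S22.TauInt

theorem constantCoeff_serA : PowerSeries.constantCoeff serA = 0 := by
  rw [← PowerSeries.coeff_zero_eq_constantCoeff_apply, serA, PowerSeries.coeff_mk]
  simp

theorem constantCoeff_serB : PowerSeries.constantCoeff serB = 0 := by
  rw [← PowerSeries.coeff_zero_eq_constantCoeff_apply, serB, PowerSeries.coeff_mk]
  simp

/-- For every even weight `K ≥ 4` there is a level one form with integral `q`-expansion and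
constant term `1`. -/
theorem exists_int_monomial {K : ℤ} (hK : 4 ≤ K) (hK2 : Even K) :
    ∃ (E : ModularForm 𝒮ℒ K) (s : PowerSeries ℤ), PowerSeries.constantCoeff s = 1 ∧
      qExpansion 1 E = PowerSeries.map (Int.castRingHom ℂ) s := by
  obtain ⟨r, hr⟩ := hK2
  rcases Int.even_or_odd r with ⟨t, ht⟩ | ⟨t, ht⟩
  · obtain ⟨n, rfl⟩ : ∃ n : ℕ, t = n + 1 := ⟨(t - 1).toNat, by omega⟩
    refine ⟨mcast (by omega) (E₄.pow (n + 1)), (1 + 240 * serA) ^ (n + 1), ?_, ?_⟩
    · simp [constantCoeff_serA]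
    · rw [ModularForm.qExpansion_mcast, ModularForm.qExpansion_pow one_pos one_mem_strictPeriods_SL,
        qExpansion_E4, map_pow]
  · obtain ⟨n, rfl⟩ : ∃ n : ℕ, t = n + 1 := ⟨(t - 1).toNat, by omega⟩
    refine ⟨mcast (by omega) (E₆.mul (E₄.pow n)), (1 - 504 * serB) * (1 + 240 * serA) ^ n, ?_, ?_⟩
    · simp [constantCoeff_serA, constantCoeff_serB]
    · rw [ModularForm.qExpansion_mcast, ModularForm.qExpansion_mul one_pos one_mem_strictPeriods_SL,
        ModularForm.qExpansion_pow one_pos one_mem_strictPeriods_SL,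
        qExpansion_E4, qExpansion_E6, map_mul, map_pow]

theorem coeff_zero_of_eq_zero {K : ℤ} (g : ModularForm 𝒮ℒ K) (hg : g = 0) (n : ℕ) :
    (qExpansion 1 g).coeff n = 0 := by
  rw [hg]
  simp [qExpansion_zero]

theorem tau_zero' : (qExpansion 1 ModularForm.discriminant).coeff 0 = 0 := by
  have h := CuspFormClass.qExpansion_coeff_zero CuspForm.discriminant one_pos
    one_mem_strictPeriods_SL
  rwa [CuspForm.coe_discriminant] at h

/-- **Integral Sturm bound in level one.** If the `q`-coefficients `a_i` with `12 i ≤ K` of a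
level one form of weight `K` lie in an additive subgroup `I` of `ℂ`, then all of them do. -/
theorem coeff_mem {K : ℤ} (g : ModularForm 𝒮ℒ K) (I : AddSubgroup ℂ)
    (h : ∀ i : ℕ, 12 * (i : ℤ) ≤ K → (qExpansion 1 g).coeff i ∈ I) (n : ℕ) :
    (qExpansion 1 g).coeff n ∈ I := by
  induction' hm : K.toNat using Nat.strong_induction_on with m ih generalizing K n
  rcases lt_or_ge K 0 with hneg | hnn
  · rw [coeff_zero_of_eq_zero g
      (rank_zero_iff_forall_zero.mp (ModularForm.levelOne_neg_weight_rank_zero hneg) g)]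
    exact I.zero_mem
  rcases Int.even_or_odd K with hev | hodd
  swap
  · rw [coeff_zero_of_eq_zero g (ModularForm.levelOne_odd_weight_eq_zero hodd g)]
    exact I.zero_mem
  by_cases h4 : 4 ≤ K
  swap
  · -- `K = 0` or `K = 2`
    have hK : K = 0 ∨ K = 2 := by
      obtain ⟨r, hr⟩ := hev
      omega
    rcases hK with rfl | rfl
    · obtain ⟨c, hc⟩ := ModularFormClass.levelOne_weight_zero_const g
      have h1 : (g : ℍ → ℂ) = c • (1 : ℍ → ℂ) := by
        rw [hc]; ext z; simp
      have h2 : qExpansion 1 (g : ℍ → ℂ) = c • (1 : PowerSeries ℂ) := by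
        rw [h1, ← ModularForm.one_coe_eq_one (Γ := 𝒮ℒ),
          ModularForm.qExpansion_smul one_pos one_mem_strictPeriods_SL, ModularForm.qExpansion_one]
      by_cases hn : n = 0
      · subst hn
        exact h 0 (by norm_num)
      · rw [h2]
        simp [hn, PowerSeries.coeff_one]
    · rw [coeff_zero_of_eq_zero g
        (rank_zero_iff_forall_zero.mp ModularForm.levelOne_weight_two_rank_zero g)]
      exact I.zero_mem
  · obtain ⟨E, s, hs0, hs⟩ := exists_int_monomial h4 hev
    have hE0 : (qExpansion 1 E).coeff 0 = 1 := by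
      rw [hs, PowerSeries.coeff_map, PowerSeries.coeff_zero_eq_constantCoeff_apply, hs0]
      simp
    have hEn : ∀ i : ℕ, (qExpansion 1 E).coeff i = ((PowerSeries.coeff i s : ℤ) : ℂ) := by
      intro i
      rw [hs, PowerSeries.coeff_map]
      rfl
    obtain ⟨t, ht⟩ : ∃ t : ℕ → ℤ, ∀ i : ℕ,
        (qExpansion 1 ModularForm.discriminant).coeff i = (t i : ℂ) :=
      ⟨fun i => (discriminant_qExpansion_coeff_int i).choose,
        fun i => (discriminant_qExpansion_coeff_int i).choose_spec⟩
    have ht0 : t 0 = 0 := by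
      have := tau_zero'
      rw [ht] at this
      exact_mod_cast this
    have ht1 : t 1 = 1 := by
      have := ModularForm.discriminant_qExpansion_coeff_one
      rw [ht] at this
      exact_mod_cast this
    have h0 : (qExpansion 1 g).coeff 0 ∈ I := h 0 (by omega)
    have hmulE : ∀ i : ℕ, (qExpansion 1 g).coeff 0 * (qExpansion 1 E).coeff i ∈ I := by
      intro i
      rw [hEn, mul_comm, ← zsmul_eq_mul]
      exact I.zsmul_mem h0 _
    set g' := divMap K E hE0 g with hg'
    have hformula := coeff_eq_divMap K E hE0 g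
    -- the low coefficients of `g'` lie in `I`
    have hlow : ∀ j : ℕ, 12 * (j : ℤ) ≤ K - 12 → (qExpansion 1 g').coeff j ∈ I := by
      intro j
      induction' j using Nat.strong_induction_on with j ihj
      intro hj
      have hf := hformula (j + 1)
      have hmem : ((1 : ℕ), j) ∈ Finset.HasAntidiagonal.antidiagonal (j + 1) := by
        rw [Finset.HasAntidiagonal.mem_antidiagonal]; omega
      rw [← Finset.add_sum_erase _ _ hmem] at hf
      simp only [ht, ht1, Int.cast_one, one_mul] at hf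
      have hrest : ∑ p ∈ (Finset.HasAntidiagonal.antidiagonal (j + 1)).erase ((1 : ℕ), j),
          (t p.1 : ℂ) * (qExpansion 1 g').coeff p.2 ∈ I := by
        refine I.sum_mem fun p hp => ?_
        rw [Finset.mem_erase, Finset.HasAntidiagonal.mem_antidiagonal] at hp
        obtain ⟨hne, hsum⟩ := hp
        rcases Nat.eq_zero_or_pos p.1 with h1 | h1
        · rw [h1, ht0]
          simp
        · have hlt : p.2 < j := by
            by_contra hcon
            apply hne
            ext <;> simp <;> omega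
          rw [← zsmul_eq_mul]
          exact I.zsmul_mem (ihj p.2 hlt (by omega)) _
      have hj1 : (qExpansion 1 g).coeff (j + 1) ∈ I := h (j + 1) (by push_cast; omega)
      have : (qExpansion 1 g').coeff j = (qExpansion 1 g).coeff (j + 1) -
          (qExpansion 1 g).coeff 0 * (qExpansion 1 E).coeff (j + 1) -
          ∑ p ∈ (Finset.HasAntidiagonal.antidiagonal (j + 1)).erase ((1 : ℕ), j),
            (t p.1 : ℂ) * (qExpansion 1 g').coeff p.2 := by
        rw [hf]; ring
      rw [this]
      exact I.sub_mem (I.sub_mem hj1 (hmulE _)) hrest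
    have hall : ∀ j : ℕ, (qExpansion 1 g').coeff j ∈ I := by
      intro j
      refine ih (K - 12).toNat ?_ g' hlow j rfl
      omega
    rw [hformula n]
    refine I.add_mem (hmulE n) (I.sum_mem fun p _ => ?_)
    rw [ht, ← zsmul_eq_mul]
    exact I.zsmul_mem (hall _) _


/-! ### `l`-integral algebraic numbers -/

/-- The ring of `l`-integral algebraic numbers: `x` such that `m * x` is an algebraic integer for
some natural number `m` prime to `l`. -/
def lInt (l : ℕ) [Fact l.Prime] : Subring ℂ where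
  carrier := {x | ∃ m : ℕ, ¬ l ∣ m ∧ IsIntegral ℤ ((m : ℂ) * x)}
  mul_mem' := by
    rintro x y ⟨m, hm, hx⟩ ⟨m', hm', hy⟩
    refine ⟨m * m', fun h => ?_, ?_⟩
    · rcases (Nat.Prime.dvd_mul (Fact.out : l.Prime)).mp h with h | h
      · exact hm h
      · exact hm' h
    · have : ((m * m' : ℕ) : ℂ) * (x * y) = ((m : ℂ) * x) * ((m' : ℂ) * y) := by
        push_cast; ring
      rw [this]
      exact hx.mul hy
  one_mem' := ⟨1, fun h => (Fact.out : l.Prime).one_lt.ne' (Nat.dvd_one.mp h), by simpa using isIntegral_one⟩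
  add_mem' := by
    rintro x y ⟨m, hm, hx⟩ ⟨m', hm', hy⟩
    refine ⟨m * m', fun h => ?_, ?_⟩
    · rcases (Nat.Prime.dvd_mul (Fact.out : l.Prime)).mp h with h | h
      · exact hm h
      · exact hm' h
    · have : ((m * m' : ℕ) : ℂ) * (x + y) = (m' : ℂ) * ((m : ℂ) * x) + (m : ℂ) * ((m' : ℂ) * y) := by
        push_cast; ring
      rw [this]
      have h1 : IsIntegral ℤ ((m' : ℂ)) := by
        simpa using (isIntegral_algebraMap (R := ℤ) (A := ℂ) (x := (m' : ℤ)))
      have h2 : IsIntegral ℤ ((m : ℂ)) := by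
        simpa using (isIntegral_algebraMap (R := ℤ) (A := ℂ) (x := (m : ℤ)))
      exact (h1.mul hx).add (h2.mul hy)
  zero_mem' := ⟨1, fun h => (Fact.out : l.Prime).one_lt.ne' (Nat.dvd_one.mp h), by simpa using isIntegral_zero⟩
  neg_mem' := by
    rintro x ⟨m, hm, hx⟩
    refine ⟨m, hm, ?_⟩
    rw [mul_neg]
    exact hx.neg

variable (l : ℕ) [Fact l.Prime]

theorem mem_lInt_iff (x : ℂ) : x ∈ lInt l ↔ ∃ m : ℕ, ¬ l ∣ m ∧ IsIntegral ℤ ((m : ℂ) * x) :=
  Iff.rfl

theorem mem_lInt_of_isIntegral {x : ℂ} (hx : IsIntegral ℤ x) : x ∈ lInt l :=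
  ⟨1, fun h => (Fact.out : l.Prime).one_lt.ne' (Nat.dvd_one.mp h), by simpa using hx⟩

theorem intCast_mem_lInt (n : ℤ) : (n : ℂ) ∈ lInt l :=
  mem_lInt_of_isIntegral l (isIntegral_algebraMap (R := ℤ) (A := ℂ) (x := n))

theorem natCast_mem_lInt (n : ℕ) : (n : ℂ) ∈ lInt l := by
  exact_mod_cast intCast_mem_lInt l (n : ℤ)

/-- Division by a natural number prime to `l` stays inside `lInt l`. -/
theorem mem_lInt_of_natCast_mul_mem {m : ℕ} (hm : ¬ l ∣ m) {x : ℂ} (hx : (m : ℂ) * x ∈ lInt l) :
    x ∈ lInt l := by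
  obtain ⟨m', hm', h⟩ := hx
  refine ⟨m' * m, fun h => ?_, ?_⟩
  · rcases (Nat.Prime.dvd_mul (Fact.out : l.Prime)).mp h with h | h
    · exact hm' h
    · exact hm h
  · have : ((m' * m : ℕ) : ℂ) * x = (m' : ℂ) * ((m : ℂ) * x) := by push_cast; ring
    rw [this]
    exact h

theorem inv_natCast_mem_lInt {m : ℕ} (hm : ¬ l ∣ m) : ((m : ℂ))⁻¹ ∈ lInt l := by
  refine mem_lInt_of_natCast_mul_mem l hm ?_
  have hm0 : (m : ℂ) ≠ 0 := by
    have : m ≠ 0 := fun h => hm (h ▸ dvd_zero l)
    exact_mod_cast this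
  rw [mul_inv_cancel₀ hm0]
  exact (lInt l).one_mem

theorem mem_lInt_of_pow_eq_one {ζ : ℂ} {n : ℕ} (hn : 0 < n) (hζ : ζ ^ n = 1) : ζ ∈ lInt l :=
  mem_lInt_of_isIntegral l (IsIntegral.of_pow hn (by rw [hζ]; exact isIntegral_one))

/-- The additive subgroup `a • R` of `ℂ`. -/
def smulIdeal (R : Subring ℂ) (a : ℂ) : AddSubgroup ℂ where
  carrier := {x | ∃ r ∈ R, x = a * r}
  add_mem' := by
    rintro x y ⟨r, hr, rfl⟩ ⟨r', hr', rfl⟩
    exact ⟨r + r', R.add_mem hr hr', by ring⟩
  zero_mem' := ⟨0, R.zero_mem, by ring⟩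
  neg_mem' := by
    rintro x ⟨r, hr, rfl⟩
    exact ⟨-r, R.neg_mem hr, by ring⟩

theorem mem_smulIdeal_iff (R : Subring ℂ) (a x : ℂ) : x ∈ smulIdeal R a ↔ ∃ r ∈ R, x = a * r :=
  Iff.rfl

/-- `I` is an ideal of the subring `R` of `ℂ`. -/
structure IsIdealIn (R : Subring ℂ) (I : AddSubgroup ℂ) : Prop where
  le : ∀ a ∈ I, a ∈ R
  mul_mem : ∀ r ∈ R, ∀ a ∈ I, r * a ∈ I

theorem isIdealIn_smulIdeal (R : Subring ℂ) {a : ℂ} (ha : a ∈ R) : IsIdealIn R (smulIdeal R a) where
  le := by
    rintro x ⟨r, hr, rfl⟩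
    exact R.mul_mem ha hr
  mul_mem := by
    rintro r hr x ⟨r', hr', rfl⟩
    exact ⟨r * r', R.mul_mem hr hr', by ring⟩

/-- An integer lies in `l^t • lInt l` iff it is divisible by `l^t`. -/
theorem intCast_mem_smulIdeal_iff (t : ℕ) (u : ℤ) :
    (u : ℂ) ∈ smulIdeal (lInt l) ((l : ℂ) ^ t) ↔ ((l : ℤ) ^ t) ∣ u := by
  have hlp : l.Prime := Fact.out
  constructor
  · rintro ⟨r, ⟨m, hm, hint⟩, hr⟩
    have hl0 : ((l : ℂ) ^ t) ≠ 0 := pow_ne_zero _ (by exact_mod_cast hlp.ne_zero)
    -- `m * r = m * u / l^t` is rational and integral, hence an integer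
    have hq : (m : ℂ) * r = ((((m : ℤ) * u : ℤ) : ℚ) / ((l : ℚ) ^ t) : ℚ) := by
      push_cast
      field_simp
      rw [hr]; ring
    rw [hq] at hint
    have hint' : IsIntegral ℤ ((((m : ℤ) * u : ℤ) : ℚ) / ((l : ℚ) ^ t) : ℚ) := by
      have hinj : Function.Injective (algebraMap ℚ ℂ) := (algebraMap ℚ ℂ).injective
      exact (isIntegral_algebraMap_iff hinj).mp (by simpa using hint)
    obtain ⟨z, hz⟩ := IsIntegrallyClosed.isIntegral_iff.mp hint'
    have hlq : ((l : ℚ) ^ t) ≠ 0 := pow_ne_zero _ (by exact_mod_cast hlp.ne_zero)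
    have hz' : ((m : ℤ) * u : ℤ) = z * (l : ℤ) ^ t := by
      have : (((m : ℤ) * u : ℤ) : ℚ) = (z : ℚ) * (l : ℚ) ^ t := by
        rw [eq_div_iff hlq] at hz
        simpa using hz.symm
      exact_mod_cast this
    have hdvd : ((l : ℤ) ^ t) ∣ (m : ℤ) * u := ⟨z, by rw [hz']; ring⟩
    have hcop : IsCoprime ((l : ℤ) ^ t) (m : ℤ) := by
      refine IsCoprime.pow_left ?_
      rw [Int.isCoprime_iff_gcd_eq_one, Int.gcd_natCast_natCast]
      exact (Nat.Prime.coprime_iff_not_dvd hlp).mpr hm
    exact hcop.dvd_of_dvd_mul_left hdvd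
  · rintro ⟨v, rfl⟩
    exact ⟨(v : ℂ), intCast_mem_lInt l v, by push_cast; ring⟩

/-! ### Leading terms of power series modulo an ideal -/

/-- `f ≡ c * X ^ d` modulo `(I, X ^ (d + 1))`, and all coefficients of `f` lie in `R`. -/
structure LeadMod (R : Subring ℂ) (I : AddSubgroup ℂ) (f : PowerSeries ℂ) (d : ℕ) (c : ℂ) :
    Prop where
  mem : ∀ i, PowerSeries.coeff i f ∈ R
  low : ∀ i, i < d → PowerSeries.coeff i f ∈ I
  lead : PowerSeries.coeff d f - c ∈ I

variable {R : Subring ℂ} {I : AddSubgroup ℂ}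

theorem LeadMod.const_mem (hRI : IsIdealIn R I) {f : PowerSeries ℂ} {d : ℕ} {c : ℂ}
    (hf : LeadMod R I f d c) : c ∈ R := by
  have := R.sub_mem (hf.mem d) (hRI.le _ hf.lead)
  simpa using this

theorem LeadMod.one (R : Subring ℂ) (I : AddSubgroup ℂ) : LeadMod R I 1 0 1 where
  mem i := by
    rw [PowerSeries.coeff_one]
    split_ifs
    · exact R.one_mem
    · exact R.zero_mem
  low i hi := absurd hi (Nat.not_lt_zero _)
  lead := by simp

theorem LeadMod.mul (hRI : IsIdealIn R I) {f g : PowerSeries ℂ} {d e : ℕ} {c c' : ℂ}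
    (hf : LeadMod R I f d c) (hg : LeadMod R I g e c') : LeadMod R I (f * g) (d + e) (c * c') := by
  have hterm : ∀ i j : ℕ, (i < d ∨ j < e) →
      PowerSeries.coeff i f * PowerSeries.coeff j g ∈ I := by
    rintro i j (hi | hj)
    · rw [mul_comm]
      exact hRI.mul_mem _ (hg.mem j) _ (hf.low i hi)
    · exact hRI.mul_mem _ (hf.mem i) _ (hg.low j hj)
  refine ⟨fun n => ?_, fun n hn => ?_, ?_⟩
  · rw [PowerSeries.coeff_mul]
    exact R.sum_mem fun p _ => R.mul_mem (hf.mem _) (hg.mem _)
  · rw [PowerSeries.coeff_mul]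
    refine I.sum_mem fun p hp => hterm _ _ ?_
    rw [Finset.HasAntidiagonal.mem_antidiagonal] at hp
    omega
  · rw [PowerSeries.coeff_mul]
    have hmem : (d, e) ∈ Finset.HasAntidiagonal.antidiagonal (d + e) := by
      rw [Finset.HasAntidiagonal.mem_antidiagonal]
    rw [← Finset.add_sum_erase _ _ hmem]
    have h1 : PowerSeries.coeff d f * PowerSeries.coeff e g - c * c' ∈ I := by
      have : PowerSeries.coeff d f * PowerSeries.coeff e g - c * c' =
          PowerSeries.coeff e g * (PowerSeries.coeff d f - c) +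
            c * (PowerSeries.coeff e g - c') := by ring
      rw [this]
      exact I.add_mem (hRI.mul_mem _ (hg.mem e) _ hf.lead)
        (hRI.mul_mem _ (hf.const_mem hRI) _ hg.lead)
    have h2 : ∑ p ∈ (Finset.HasAntidiagonal.antidiagonal (d + e)).erase (d, e),
        PowerSeries.coeff p.1 f * PowerSeries.coeff p.2 g ∈ I := by
      refine I.sum_mem fun p hp => hterm _ _ ?_
      rw [Finset.mem_erase, Finset.HasAntidiagonal.mem_antidiagonal] at hp
      obtain ⟨hne, hsum⟩ := hp
      by_contra hcon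
      rw [not_or, not_lt, not_lt] at hcon
      apply hne
      ext <;> simp <;> omega
    have : PowerSeries.coeff d f * PowerSeries.coeff e g +
        ∑ p ∈ (Finset.HasAntidiagonal.antidiagonal (d + e)).erase (d, e),
          PowerSeries.coeff p.1 f * PowerSeries.coeff p.2 g - c * c' =
        (PowerSeries.coeff d f * PowerSeries.coeff e g - c * c') +
        ∑ p ∈ (Finset.HasAntidiagonal.antidiagonal (d + e)).erase (d, e),
          PowerSeries.coeff p.1 f * PowerSeries.coeff p.2 g := by ring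
    rw [this]
    exact I.add_mem h1 h2

theorem LeadMod.prod (hRI : IsIdealIn R I) {ι : Type*} (s : Finset ι) (f : ι → PowerSeries ℂ)
    (d : ι → ℕ) (c : ι → ℂ) (h : ∀ i ∈ s, LeadMod R I (f i) (d i) (c i)) :
    LeadMod R I (∏ i ∈ s, f i) (∑ i ∈ s, d i) (∏ i ∈ s, c i) := by
  classical
  induction s using Finset.induction_on with
  | empty => simpa using LeadMod.one R I
  | insert a s ha ih =>
    rw [Finset.prod_insert ha, Finset.sum_insert ha, Finset.prod_insert ha]
    exact (h a (Finset.mem_insert_self a s)).mul hRI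
      (ih fun i hi => h i (Finset.mem_insert_of_mem hi))

/-- Coefficients below the leading index lie in `I`; the leading coefficient lies in `I`
iff the constant `c` does. -/
theorem LeadMod.coeff_mem_iff {f : PowerSeries ℂ} {d : ℕ} {c : ℂ} (hf : LeadMod R I f d c) :
    PowerSeries.coeff d f ∈ I ↔ c ∈ I := by
  constructor
  · intro h
    have := I.sub_mem h hf.lead
    simpa using this
  · intro h
    have := I.add_mem hf.lead h
    simpa using this

end SturmInt

end Fermat.Agent.S16
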