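import Mathlib
import Fermat.Agent.S16.Defs
import Fermat.Agent.S16.SturmInt

/-!
# S16 (L0): the local ring of `ℓ`-integral algebraic numbers

Closure properties of `IsLocInt ℓ` (a subring of `ℂ` for `ℓ` prime) and of `IsLocDvd ℓ s`
(the ideal `ℓ^s • IsLocInt`), in the vocabulary of `Defs.lean`, and
`int_dvd_of_isLocDvd`: a rational integer divisible by `ℓ^s` in this ring is divisible by `ℓ^s`
in `ℤ`.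
-/

set_option autoImplicit false

namespace Fermat.Agent.S16

open SturmInt

variable {ℓ : ℕ}

/-- bridge to `SturmInt.lInt` -/
theorem isLocInt_iff_mem_lInt (hℓ : ℓ.Prime) (x : ℂ) :
    IsLocInt ℓ x ↔ x ∈ @lInt ℓ ⟨hℓ⟩ := by
  constructor
  · rintro ⟨d, hd, hint⟩
    refine ⟨d.natAbs, fun h => hd ?_, ?_⟩
    · exact Int.natCast_dvd.mpr h
    · rcases Int.natAbs_eq d with h | h
      · have e : ((d.natAbs : ℕ) : ℂ) = (d : ℂ) := by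
          have h' := congrArg (fun z : ℤ => (z : ℂ)) h.symm
          simpa only [Int.cast_natCast] using h'
        rw [e]
        exact hint
      · have e : ((d.natAbs : ℕ) : ℂ) = -(d : ℂ) := by
          have h' := congrArg (fun z : ℤ => (z : ℂ)) h
          simp only [Int.cast_neg, Int.cast_natCast] at h'
          rw [h', neg_neg]
        rw [e, neg_mul]
        exact hint.neg
  · rintro ⟨m, hm, hint⟩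
    exact ⟨(m : ℤ), fun h => hm (Int.natCast_dvd_natCast.mp h), by simpa using hint⟩

/-- bridge to `SturmInt.smulIdeal` -/
theorem isLocDvd_iff_mem (hℓ : ℓ.Prime) (s : ℕ) (x : ℂ) :
    IsLocDvd ℓ s x ↔ x ∈ smulIdeal (@lInt ℓ ⟨hℓ⟩) ((ℓ : ℂ) ^ s) := by
  constructor
  · rintro ⟨y, hy, rfl⟩
    exact ⟨y, (isLocInt_iff_mem_lInt hℓ y).mp hy, rfl⟩
  · rintro ⟨y, hy, rfl⟩
    exact ⟨y, (isLocInt_iff_mem_lInt hℓ y).mpr hy, rfl⟩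

/-! ### `IsLocInt` -/

theorem isLocInt_zero (hℓ : ℓ.Prime) : IsLocInt ℓ 0 :=
  (isLocInt_iff_mem_lInt hℓ 0).mpr (Subring.zero_mem _)

theorem isLocInt_one (hℓ : ℓ.Prime) : IsLocInt ℓ 1 :=
  (isLocInt_iff_mem_lInt hℓ 1).mpr (Subring.one_mem _)

theorem IsLocInt.add (hℓ : ℓ.Prime) {x y : ℂ} (hx : IsLocInt ℓ x) (hy : IsLocInt ℓ y) :
    IsLocInt ℓ (x + y) :=
  (isLocInt_iff_mem_lInt hℓ _).mpr
    (Subring.add_mem _ ((isLocInt_iff_mem_lInt hℓ x).mp hx) ((isLocInt_iff_mem_lInt hℓ y).mp hy))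

theorem IsLocInt.mul (hℓ : ℓ.Prime) {x y : ℂ} (hx : IsLocInt ℓ x) (hy : IsLocInt ℓ y) :
    IsLocInt ℓ (x * y) :=
  (isLocInt_iff_mem_lInt hℓ _).mpr
    (Subring.mul_mem _ ((isLocInt_iff_mem_lInt hℓ x).mp hx) ((isLocInt_iff_mem_lInt hℓ y).mp hy))

theorem IsLocInt.neg (hℓ : ℓ.Prime) {x : ℂ} (hx : IsLocInt ℓ x) : IsLocInt ℓ (-x) :=
  (isLocInt_iff_mem_lInt hℓ _).mpr (Subring.neg_mem _ ((isLocInt_iff_mem_lInt hℓ x).mp hx))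

theorem IsLocInt.sub (hℓ : ℓ.Prime) {x y : ℂ} (hx : IsLocInt ℓ x) (hy : IsLocInt ℓ y) :
    IsLocInt ℓ (x - y) :=
  (isLocInt_iff_mem_lInt hℓ _).mpr
    (Subring.sub_mem _ ((isLocInt_iff_mem_lInt hℓ x).mp hx) ((isLocInt_iff_mem_lInt hℓ y).mp hy))

theorem IsLocInt.pow (hℓ : ℓ.Prime) {x : ℂ} (hx : IsLocInt ℓ x) (n : ℕ) : IsLocInt ℓ (x ^ n) :=
  (isLocInt_iff_mem_lInt hℓ _).mpr (Subring.pow_mem _ ((isLocInt_iff_mem_lInt hℓ x).mp hx) n)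

theorem IsLocInt.sum (hℓ : ℓ.Prime) {ι : Type*} (s : Finset ι) (f : ι → ℂ)
    (h : ∀ i ∈ s, IsLocInt ℓ (f i)) : IsLocInt ℓ (∑ i ∈ s, f i) :=
  (isLocInt_iff_mem_lInt hℓ _).mpr
    (Subring.sum_mem _ fun i hi => (isLocInt_iff_mem_lInt hℓ _).mp (h i hi))

theorem IsLocInt.prod (hℓ : ℓ.Prime) {ι : Type*} (s : Finset ι) (f : ι → ℂ)
    (h : ∀ i ∈ s, IsLocInt ℓ (f i)) : IsLocInt ℓ (∏ i ∈ s, f i) :=
  (isLocInt_iff_mem_lInt hℓ _).mpr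
    (Subring.prod_mem _ fun i hi => (isLocInt_iff_mem_lInt hℓ _).mp (h i hi))

theorem isLocInt_of_isIntegral (hℓ : ℓ.Prime) {x : ℂ} (hx : IsIntegral ℤ x) : IsLocInt ℓ x :=
  (isLocInt_iff_mem_lInt hℓ _).mpr (@mem_lInt_of_isIntegral ℓ ⟨hℓ⟩ x hx)

theorem isLocInt_intCast (hℓ : ℓ.Prime) (n : ℤ) : IsLocInt ℓ (n : ℂ) :=
  (isLocInt_iff_mem_lInt hℓ _).mpr (@intCast_mem_lInt ℓ ⟨hℓ⟩ n)

theorem isLocInt_natCast (hℓ : ℓ.Prime) (n : ℕ) : IsLocInt ℓ (n : ℂ) :=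
  (isLocInt_iff_mem_lInt hℓ _).mpr (@natCast_mem_lInt ℓ ⟨hℓ⟩ n)

theorem isLocInt_ofNat (hℓ : ℓ.Prime) (n : ℕ) [n.AtLeastTwo] : IsLocInt ℓ (OfNat.ofNat n : ℂ) :=
  isLocInt_natCast hℓ n

/-- roots of unity are `ℓ`-integral -/
theorem isLocInt_of_pow_eq_one (hℓ : ℓ.Prime) {ζ : ℂ} {n : ℕ} (hn : 0 < n) (hζ : ζ ^ n = 1) :
    IsLocInt ℓ ζ :=
  (isLocInt_iff_mem_lInt hℓ _).mpr (@mem_lInt_of_pow_eq_one ℓ ⟨hℓ⟩ ζ n hn hζ)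

/-- `1/m` is `ℓ`-integral for `m` prime to `ℓ` -/
theorem isLocInt_inv_natCast (hℓ : ℓ.Prime) {m : ℕ} (hm : ¬ ℓ ∣ m) : IsLocInt ℓ ((m : ℂ))⁻¹ :=
  (isLocInt_iff_mem_lInt hℓ _).mpr (@inv_natCast_mem_lInt ℓ ⟨hℓ⟩ m hm)

/-- division by a natural number prime to `ℓ` -/
theorem isLocInt_of_natCast_mul (hℓ : ℓ.Prime) {m : ℕ} (hm : ¬ ℓ ∣ m) {x : ℂ}
    (hx : IsLocInt ℓ ((m : ℂ) * x)) : IsLocInt ℓ x :=
  (isLocInt_iff_mem_lInt hℓ _).mpr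
    (@mem_lInt_of_natCast_mul_mem ℓ ⟨hℓ⟩ m hm x ((isLocInt_iff_mem_lInt hℓ _).mp hx))

theorem IsLocInt.div_natCast (hℓ : ℓ.Prime) {m : ℕ} (hm : ¬ ℓ ∣ m) {x : ℂ}
    (hx : IsLocInt ℓ x) : IsLocInt ℓ (x / (m : ℂ)) := by
  rw [div_eq_mul_inv]
  exact hx.mul hℓ (isLocInt_inv_natCast hℓ hm)

/-- rational numbers with denominator prime to `ℓ` -/
theorem isLocInt_ratCast (hℓ : ℓ.Prime) (q : ℚ) (hq : ¬ ℓ ∣ q.den) : IsLocInt ℓ (q : ℂ) := by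
  have h : (q : ℂ) = (q.num : ℂ) / (q.den : ℂ) := by
    rw [Rat.cast_def]
  rw [h]
  exact (isLocInt_intCast hℓ q.num).div_natCast hℓ hq

/-! ### `IsLocDvd` -/

theorem IsLocDvd.isLocInt (hℓ : ℓ.Prime) {s : ℕ} {x : ℂ} (hx : IsLocDvd ℓ s x) : IsLocInt ℓ x := by
  obtain ⟨y, hy, rfl⟩ := hx
  exact ((isLocInt_natCast hℓ ℓ).pow hℓ s).mul hℓ hy

theorem isLocDvd_zero_iff (x : ℂ) : IsLocDvd ℓ 0 x ↔ IsLocInt ℓ x := by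
  constructor
  · rintro ⟨y, hy, rfl⟩
    simpa using hy
  · intro h
    exact ⟨x, h, by simp⟩

theorem isLocDvd_zero (hℓ : ℓ.Prime) (s : ℕ) : IsLocDvd ℓ s 0 :=
  ⟨0, isLocInt_zero hℓ, by simp⟩

theorem IsLocDvd.add (hℓ : ℓ.Prime) {s : ℕ} {x y : ℂ} (hx : IsLocDvd ℓ s x)
    (hy : IsLocDvd ℓ s y) : IsLocDvd ℓ s (x + y) :=
  (isLocDvd_iff_mem hℓ s _).mpr
    (AddSubgroup.add_mem _ ((isLocDvd_iff_mem hℓ s x).mp hx) ((isLocDvd_iff_mem hℓ s y).mp hy))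

theorem IsLocDvd.neg (hℓ : ℓ.Prime) {s : ℕ} {x : ℂ} (hx : IsLocDvd ℓ s x) : IsLocDvd ℓ s (-x) :=
  (isLocDvd_iff_mem hℓ s _).mpr (AddSubgroup.neg_mem _ ((isLocDvd_iff_mem hℓ s x).mp hx))

theorem IsLocDvd.sub (hℓ : ℓ.Prime) {s : ℕ} {x y : ℂ} (hx : IsLocDvd ℓ s x)
    (hy : IsLocDvd ℓ s y) : IsLocDvd ℓ s (x - y) :=
  (isLocDvd_iff_mem hℓ s _).mpr
    (AddSubgroup.sub_mem _ ((isLocDvd_iff_mem hℓ s x).mp hx) ((isLocDvd_iff_mem hℓ s y).mp hy))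

theorem IsLocDvd.sum (hℓ : ℓ.Prime) {s : ℕ} {ι : Type*} (t : Finset ι) (f : ι → ℂ)
    (h : ∀ i ∈ t, IsLocDvd ℓ s (f i)) : IsLocDvd ℓ s (∑ i ∈ t, f i) :=
  (isLocDvd_iff_mem hℓ s _).mpr
    (AddSubgroup.sum_mem _ fun i hi => (isLocDvd_iff_mem hℓ s _).mp (h i hi))

/-- `IsLocDvd ℓ s` is stable under multiplication by `ℓ`-integral numbers. -/
theorem IsLocDvd.mul_left (hℓ : ℓ.Prime) {s : ℕ} {x y : ℂ} (hx : IsLocInt ℓ x)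
    (hy : IsLocDvd ℓ s y) : IsLocDvd ℓ s (x * y) := by
  obtain ⟨z, hz, rfl⟩ := hy
  exact ⟨x * z, hx.mul hℓ hz, by ring⟩

theorem IsLocDvd.mul_right (hℓ : ℓ.Prime) {s : ℕ} {x y : ℂ} (hx : IsLocDvd ℓ s x)
    (hy : IsLocInt ℓ y) : IsLocDvd ℓ s (x * y) := by
  rw [mul_comm]
  exact hx.mul_left hℓ hy

theorem IsLocDvd.mul (hℓ : ℓ.Prime) {s t : ℕ} {x y : ℂ} (hx : IsLocDvd ℓ s x)
    (hy : IsLocDvd ℓ t y) : IsLocDvd ℓ (s + t) (x * y) := by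
  obtain ⟨z, hz, rfl⟩ := hx
  obtain ⟨w, hw, rfl⟩ := hy
  exact ⟨z * w, hz.mul hℓ hw, by ring⟩

theorem IsLocDvd.pow (hℓ : ℓ.Prime) {s : ℕ} {x : ℂ} (hx : IsLocDvd ℓ s x) (n : ℕ) :
    IsLocDvd ℓ (s * n) (x ^ n) := by
  obtain ⟨z, hz, rfl⟩ := hx
  exact ⟨z ^ n, hz.pow hℓ n, by ring⟩

theorem IsLocDvd.mono (hℓ : ℓ.Prime) {s t : ℕ} (hts : t ≤ s) {x : ℂ} (hx : IsLocDvd ℓ s x) :
    IsLocDvd ℓ t x := by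
  obtain ⟨z, hz, rfl⟩ := hx
  obtain ⟨r, rfl⟩ := Nat.exists_eq_add_of_le hts
  exact ⟨(ℓ : ℂ) ^ r * z, ((isLocInt_natCast hℓ ℓ).pow hℓ r).mul hℓ hz, by ring⟩

theorem isLocDvd_pow_mul (s : ℕ) {y : ℂ} (hy : IsLocInt ℓ y) : IsLocDvd ℓ s ((ℓ : ℂ) ^ s * y) :=
  ⟨y, hy, rfl⟩

theorem isLocDvd_intCast (hℓ : ℓ.Prime) {s : ℕ} {m : ℤ} (h : (ℓ : ℤ) ^ s ∣ m) :
    IsLocDvd ℓ s (m : ℂ) := by
  obtain ⟨v, rfl⟩ := h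
  exact ⟨(v : ℂ), isLocInt_intCast hℓ v, by push_cast; ring⟩

/-- if `m * x ≡ 0 mod ℓ^s` with `m` prime to `ℓ` then `x ≡ 0 mod ℓ^s` -/
theorem isLocDvd_of_natCast_mul (hℓ : ℓ.Prime) {s : ℕ} {m : ℕ} (hm : ¬ ℓ ∣ m) {x : ℂ}
    (hx : IsLocDvd ℓ s ((m : ℂ) * x)) : IsLocDvd ℓ s x := by
  have hm0 : (m : ℂ) ≠ 0 := by
    have : m ≠ 0 := fun h => hm (h ▸ dvd_zero ℓ)
    exact_mod_cast this
  have h := IsLocDvd.mul_left hℓ (isLocInt_inv_natCast hℓ hm) hx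
  have h2 : ((m : ℂ))⁻¹ * ((m : ℂ) * x) = x := by
    rw [← mul_assoc, inv_mul_cancel₀ hm0, one_mul]
  rw [h2] at h
  exact h

/-- (L0) A rational integer divisible by `ℓ^s` in the ring of `ℓ`-integral algebraic numbers is
divisible by `ℓ^s` in `ℤ`. -/
theorem int_dvd_of_isLocDvd (ℓ : ℕ) (hℓ : ℓ.Prime) (s : ℕ) (m : ℤ)
    (h : IsLocDvd ℓ s (m : ℂ)) : (ℓ : ℤ) ^ s ∣ m :=
  (@intCast_mem_smulIdeal_iff ℓ ⟨hℓ⟩ s m).mp ((isLocDvd_iff_mem hℓ s _).mp h)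

theorem isLocDvd_intCast_iff (hℓ : ℓ.Prime) (s : ℕ) (m : ℤ) :
    IsLocDvd ℓ s (m : ℂ) ↔ (ℓ : ℤ) ^ s ∣ m :=
  ⟨int_dvd_of_isLocDvd ℓ hℓ s m, isLocDvd_intCast hℓ⟩

/-- an integer prime to `ℓ` is not `≡ 0 mod ℓ` -/
theorem not_isLocDvd_intCast (hℓ : ℓ.Prime) {u : ℤ} (hu : ¬ (ℓ : ℤ) ∣ u) :
    ¬ IsLocDvd ℓ 1 (u : ℂ) := fun h => hu (by simpa using int_dvd_of_isLocDvd ℓ hℓ 1 u h)

end Fermat.Agent.S16
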