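import Mathlib
import Fermat.Agent.S16.Defs
import Fermat.Agent.S16.LocInt
import Fermat.Agent.S49.QCoeff

/-!
# S16 (M12): Mazur's constant-term bound -- arithmetic core

`const_term_bound_of`: for `g ∈ M₂(Γ₀(p))` with integral higher `q`-coefficients and
`(p + 1) a₀(g) ∈ ℤ` (the cheap bound, M6), and every prime `ℓ`, there is `d` prime to `ℓ` with
`d · (24 / gcd (p - 1, 12)) · a₀(g) ∈ ℤ` -- given the three "no unit form" statements
(M9, M10, M11) as hypotheses (exactly the skeleton shapes of `no_unit_form_ge5`,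
`no_unit_form_three`, `no_unit_form_two`).
-/

set_option autoImplicit false

namespace Fermat.Agent.S16.ConstTermCore

open ModularCurve CuspForm CongruenceSubgroup UpperHalfPlane ModularForm
open ModularFormClass
open scoped MatrixGroups ModularForm Manifold

theorem qCoeff_mf_smul {N : ℕ} {k : ℤ} (c : ℂ) (f : ModularForm (Gamma0 N) k) (n : ℕ) :
    qCoeff ⇑(c • f) n = c * qCoeff ⇑f n := by
  have h1 : ⇑(c • f) = c • ⇑f := rfl
  simp only [qCoeff, h1]
  rw [ModularForm.qExpansion_smul one_pos (Fermat.Agent.S49.one_mem_sp N) c f]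
  simp

/-- `gcd n 12` only depends on `n % 12`. -/
theorem gcd_eq (n : ℕ) : Nat.gcd n 12 = Nat.gcd (n % 12) 12 := by
  rw [Nat.gcd_comm, Nat.gcd_rec 12 n, Nat.gcd_comm]

theorem three_dvd_e (p : ℕ) (hp : 1 ≤ p) (h : 3 ∣ p + 1) : 3 ∣ 24 / Nat.gcd (p - 1) 12 := by
  rw [gcd_eq]
  have h12 : (p - 1) % 12 < 12 := Nat.mod_lt _ (by norm_num)
  have h3 : (p - 1) % 12 % 3 = 1 := by omega
  interval_cases hq : (p - 1) % 12 <;> first | omega | decide

theorem four_dvd_e (p : ℕ) (h : p % 4 = 3) : 4 ∣ 24 / Nat.gcd (p - 1) 12 := by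
  rw [gcd_eq]
  have h12 : (p - 1) % 12 < 12 := Nat.mod_lt _ (by norm_num)
  have h3 : (p - 1) % 12 % 4 = 2 := by omega
  interval_cases hq : (p - 1) % 12 <;> first | omega | decide

theorem two_dvd_e (p : ℕ) (h : p % 4 = 1) : 2 ∣ 24 / Nat.gcd (p - 1) 12 := by
  rw [gcd_eq]
  have h12 : (p - 1) % 12 < 12 := Nat.mod_lt _ (by norm_num)
  have h3 : (p - 1) % 12 % 4 = 0 := by omega
  interval_cases hq : (p - 1) % 12 <;> first | omega | decide

/-- Mazur's constant-term bound, from the cheap bound and the three "no unit form" cases. -/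
theorem const_term_bound_of (p : ℕ) [Fact p.Prime]
    (h5 : ∀ ℓ : ℕ, ℓ.Prime → 5 ≤ ℓ → ℓ ∣ p + 1 → ∀ G : ModularForm (Gamma0 p) 2,
      qCoeff G 0 = 1 → (∀ k, 0 < k → IsLocDvd ℓ 1 (qCoeff G k)) → False)
    (h3 : 9 ∣ p + 1 → ∀ G : ModularForm (Gamma0 p) 2,
      qCoeff G 0 = 1 → (∀ k, 0 < k → IsLocDvd 3 2 (qCoeff G k)) → False)
    (h2 : 8 ∣ p + 1 → ∀ G : ModularForm (Gamma0 p) 2,
      qCoeff G 0 = 1 → (∀ k, 0 < k → IsLocDvd 2 3 (qCoeff G k)) → False)
    (ℓ : ℕ) (hℓ : ℓ.Prime) (g : ModularForm (Gamma0 p) 2)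
    (hg : ∀ k, 0 < k → ∃ m : ℤ, qCoeff g k = (m : ℂ))
    (hr : ∃ m : ℤ, ((p : ℂ) + 1) * qCoeff g 0 = (m : ℂ)) :
    ∃ d m : ℤ, ¬ (ℓ : ℤ) ∣ d ∧
      (d : ℂ) * ((24 / Nat.gcd (p - 1) 12 : ℕ) : ℂ) * qCoeff g 0 = (m : ℂ) := by
  have hp : p.Prime := Fact.out
  obtain ⟨r, hr⟩ := hr
  have hℓZ : Prime (ℓ : ℤ) := Nat.prime_iff_prime_int.mp hℓ
  have hp1 : ((p : ℂ) + 1) ≠ 0 := by
    have : ((p + 1 : ℕ) : ℂ) ≠ 0 := Nat.cast_ne_zero.mpr (by omega)
    simpa using this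
  set e : ℕ := 24 / Nat.gcd (p - 1) 12 with he
  by_cases hr0 : r = 0
  · refine ⟨1, 0, fun h => hℓZ.not_dvd_one h, ?_⟩
    have h0 : qCoeff g 0 = 0 := by
      rw [hr0] at hr
      simpa [hp1] using hr
    simp [h0]
  -- decompositions `p + 1 = ℓ ^ w * u`, `r = ℓ ^ v * r'`
  obtain ⟨w, u, hu, hpu⟩ := Nat.exists_eq_pow_mul_and_not_dvd (n := p + 1) (by omega) ℓ hℓ.ne_one
  obtain ⟨v, r₀, hr₀, hrr⟩ := Nat.exists_eq_pow_mul_and_not_dvd (n := r.natAbs)
    (Int.natAbs_ne_zero.mpr hr0) ℓ hℓ.ne_one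
  obtain ⟨r', hr'r, hr'⟩ : ∃ r' : ℤ, r = (ℓ : ℤ) ^ v * r' ∧ ¬ (ℓ : ℤ) ∣ r' := by
    rcases Int.natAbs_eq r with h | h
    · refine ⟨(r₀ : ℤ), ?_, fun hd => hr₀ (by exact_mod_cast hd)⟩
      rw [h, hrr]; push_cast; ring
    · refine ⟨-(r₀ : ℤ), ?_, fun hd => hr₀ ?_⟩
      · rw [h, hrr]; push_cast; ring
      · rw [dvd_neg] at hd; exact_mod_cast hd
  have hℓC : (ℓ : ℂ) ≠ 0 := Nat.cast_ne_zero.mpr hℓ.ne_zero
  have hpuC : ((p : ℂ) + 1) = (ℓ : ℂ) ^ w * u := by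
    have := congrArg (fun n : ℕ => (n : ℂ)) hpu
    simpa using this
  by_cases hdiv : (ℓ : ℤ) ^ w ∣ (e : ℤ) * r
  · obtain ⟨c, hc⟩ := hdiv
    refine ⟨(u : ℤ), c, fun hd => hu (by exact_mod_cast hd), ?_⟩
    have hcC : ((e : ℂ)) * (r : ℂ) = (ℓ : ℂ) ^ w * (c : ℂ) := by exact_mod_cast hc
    have h1 : (ℓ : ℂ) ^ w * (((u : ℤ) : ℂ) * (e : ℂ) * qCoeff g 0) = (ℓ : ℂ) ^ w * (c : ℂ) := by
      rw [← hcC, ← hr, hpuC]; push_cast; ring
    exact mul_left_cancel₀ (pow_ne_zero w hℓC) h1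
  · exfalso
    -- `v + t + 1 ≤ w` whenever `ℓ ^ t ∣ e`
    have key : ∀ t : ℕ, ℓ ^ t ∣ e → v + t + 1 ≤ w := by
      intro t ht
      by_contra hlt
      apply hdiv
      have h1 : (ℓ : ℤ) ^ w ∣ (ℓ : ℤ) ^ (v + t) := pow_dvd_pow _ (by omega)
      refine h1.trans ?_
      obtain ⟨c, hc⟩ := ht
      refine ⟨c * r', ?_⟩
      rw [hr'r, hc]; push_cast; ring
    have hvw : v + 1 ≤ w := by simpa using key 0 (by simp)
    have hℓp : ℓ ∣ p + 1 := by
      rw [hpu]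
      exact Dvd.dvd.mul_right (dvd_pow_self ℓ (by omega)) u
    have ha0 : qCoeff g 0 ≠ 0 := by
      intro h0
      rw [h0, mul_zero] at hr
      exact hr0 (by exact_mod_cast hr.symm)
    set G : ModularForm (Gamma0 p) 2 := (qCoeff g 0)⁻¹ • g with hG
    have hG0 : qCoeff G 0 = 1 := by
      rw [hG, qCoeff_mf_smul, inv_mul_cancel₀ ha0]
    have hr'C : (r' : ℂ) ≠ 0 := by
      intro h0
      have : r' = 0 := by exact_mod_cast h0
      exact hr' (this ▸ dvd_zero _)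
    have hGk : ∀ k, 0 < k → IsLocDvd ℓ (w - v) (qCoeff G k) := by
      intro k hk
      obtain ⟨m, hm⟩ := hg k hk
      refine ⟨(u : ℂ) * m / r', ⟨r', hr', ?_⟩, ?_⟩
      · have : (r' : ℂ) * ((u : ℂ) * m / r') = (((u : ℤ) * m : ℤ) : ℂ) := by
          field_simp
          push_cast; ring
        rw [this]
        exact isIntegral_algebraMap (R := ℤ) (A := ℂ) (x := (u : ℤ) * m)
      · rw [hG, qCoeff_mf_smul, hm]
        have ha : qCoeff g 0 = (r : ℂ) / ((p : ℂ) + 1) := by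
          field_simp
          rw [← hr]; ring
        rw [ha, hpuC]
        have hrC : (r : ℂ) = (ℓ : ℂ) ^ v * r' := by exact_mod_cast hr'r
        rw [hrC]
        have hwv : w = (w - v) + v := by omega
        have huC : (u : ℂ) ≠ 0 := by
          intro h0
          have : u = 0 := by exact_mod_cast h0
          exact hu (this ▸ dvd_zero _)
        conv_lhs => rw [hwv, pow_add]
        field_simp
    rcases Nat.lt_or_ge ℓ 5 with hlt | h5'
    · have h23 : ℓ = 2 ∨ ℓ = 3 := by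
        have := hℓ.two_le
        interval_cases ℓ
        · left; rfl
        · right; rfl
        · exact absurd hℓ (by decide)
      rcases h23 with rfl | rfl
      · -- ℓ = 2
        have hodd : p % 2 = 1 := by omega
        have h4 : p % 4 = 1 ∨ p % 4 = 3 := by omega
        rcases h4 with h4 | h4
        · have := key 1 (by simpa using two_dvd_e p h4)
          have h4' : 2 ^ 2 ∣ p + 1 := by
            rw [hpu]
            exact Dvd.dvd.mul_right (pow_dvd_pow 2 (by omega)) u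
          omega
        · have := key 2 (by simpa using four_dvd_e p h4)
          have h8 : 8 ∣ p + 1 := by
            rw [hpu]
            exact Dvd.dvd.mul_right (pow_dvd_pow 2 (by omega : 3 ≤ w)) u
          exact h2 h8 G hG0 fun k hk => IsLocDvd.mono hℓ (by omega) (hGk k hk)
      · -- ℓ = 3
        have := key 1 (by simpa using three_dvd_e p hp.one_le hℓp)
        have h9 : 9 ∣ p + 1 := by
          rw [hpu]
          exact Dvd.dvd.mul_right (pow_dvd_pow 3 (by omega : 2 ≤ w)) u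
        exact h3 h9 G hG0 fun k hk => IsLocDvd.mono hℓ (by omega) (hGk k hk)
    · exact h5 ℓ hℓ h5' hℓp G hG0 fun k hk => IsLocDvd.mono hℓ (by omega) (hGk k hk)

end Fermat.Agent.S16.ConstTermCore
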