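import Mathlib
import Fermat.Agent.S16.Defs

/-!
# S16: every character of `Γ₀(p)` takes the same value at `T = [1 1; 0 1]` and `T' = [1 0; p 1]`

The transfer `SL(2,ℤ) → Γ₀(p)^ab` composed with a character `ϕ` with values in a torsion-free
abelian group is trivial (`SL(2,ℤ)` is generated by elements of finite order); its value at `T`
is `ϕ(T) · ϕ(T')⁻¹` (the two cusps of `Γ₀(p)`, of widths `1` and `p`).  Hence `ϕ(T') = ϕ(T)`.
-/

set_option autoImplicit false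

open CongruenceSubgroup MulAction
open scoped MatrixGroups

namespace Fermat.Agent.S16.TransferT

local notation "S" => (ModularGroup.S : SL(2, ℤ))
local notation "T" => (ModularGroup.T : SL(2, ℤ))

theorem S_pow_four : S ^ 4 = 1 := by decide

theorem ST_pow_six : (S * T) ^ 6 = 1 := by decide

theorem T_mem (N : ℕ) : T ∈ Gamma0 N := (gT N).2

theorem T_zpow_mem (N : ℕ) (m : ℤ) : T ^ m ∈ Gamma0 N := zpow_mem (T_mem N) m

/-- `T^n · S · T' = S` with `T' = [1 0; n 1]`. -/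
theorem T_pow_mul_S_mul (n : ℕ) : T ^ n * S * sT' n = S := by
  rw [← zpow_natCast]
  apply Subtype.ext
  rw [Matrix.SpecialLinearGroup.coe_mul, Matrix.SpecialLinearGroup.coe_mul,
    ModularGroup.coe_T_zpow, ModularGroup.coe_S]
  show !![1, ((n : ℕ) : ℤ); 0, 1] * !![0, -1; 1, 0] * !![1, 0; (n : ℤ), 1] = !![0, -1; 1, 0]
  rw [Matrix.mul_fin_two, Matrix.mul_fin_two]
  simp

theorem S_inv_T_pow_S (n : ℕ) : S⁻¹ * T ^ n * S = (sT' n)⁻¹ := by
  have h := T_pow_mul_S_mul n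
  rw [eq_inv_iff_mul_eq_one, mul_assoc, mul_assoc, ← mul_assoc (T ^ n), h, inv_mul_cancel]

theorem S_notMem (p : ℕ) [Fact p.Prime] : S ∉ Gamma0 p := by
  intro h
  rw [Gamma0_mem] at h
  have e : (S 1 0 : ℤ) = 1 := by decide
  rw [e, Int.cast_one] at h
  exact one_ne_zero h

theorem sT'_inv_one_notMem (p : ℕ) [Fact p.Prime] : S⁻¹ * T * S ∉ Gamma0 p := by
  intro h
  rw [Gamma0_mem] at h
  have e : ((S⁻¹ * T * S) 1 0 : ℤ) = -1 := by decide
  rw [e, Int.cast_neg, Int.cast_one, neg_eq_zero] at h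
  exact one_ne_zero h

/-- cosets outside `Γ₀(p)` are of the form `T^j S Γ₀(p)`. -/
theorem exists_TS_rep (p : ℕ) [Fact p.Prime] (k : SL(2, ℤ)) (hk : k ∉ Gamma0 p) :
    ∃ (j : ℤ) (h : SL(2, ℤ)), h ∈ Gamma0 p ∧ k = T ^ j * S * h := by
  have hc : ((k 1 0 : ℤ) : ZMod p) ≠ 0 := fun h0 => hk (Gamma0_mem.mpr h0)
  obtain ⟨j, hj⟩ : ∃ j : ℤ, (j : ZMod p) = ((k 0 0 : ℤ) : ZMod p) * ((k 1 0 : ℤ) : ZMod p)⁻¹ :=
    ZMod.intCast_surjective _
  refine ⟨j, S⁻¹ * T ^ (-j) * k, ?_, by group⟩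
  rw [Gamma0_mem]
  have e : (S⁻¹ * T ^ (-j) * k) 1 0 = -(k 0 0 - j * k 1 0) := by
    show ((S⁻¹ * T ^ (-j) * k : SL(2, ℤ)) : Matrix (Fin 2) (Fin 2) ℤ) 1 0 = _
    rw [Matrix.SpecialLinearGroup.coe_mul, Matrix.SpecialLinearGroup.coe_mul,
      Matrix.SpecialLinearGroup.coe_inv, ModularGroup.coe_S, ModularGroup.coe_T_zpow,
      Matrix.adjugate_fin_two_of]
    simp [Matrix.mul_apply, Fin.sum_univ_two]
    ring
  rw [e]
  push_cast
  rw [hj, mul_assoc, inv_mul_cancel₀ hc, mul_one, sub_self, neg_zero]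

variable {A : Type*} [CommGroup A]

/-- the factor of the transfer of `T` attached to a coset. -/
noncomputable def fac (p : ℕ) (ϕ : Gamma0 p →* A) (ω : SL(2, ℤ) ⧸ Gamma0 p) : A :=
  ϕ ⟨ω.out⁻¹ * T ^ Function.minimalPeriod (T • ·) ω * ω.out,
    QuotientGroup.out_conj_pow_minimalPeriod_mem (Gamma0 p) T ω⟩

theorem smul_coe (p : ℕ) (g k : SL(2, ℤ)) :
    g • ((k : SL(2, ℤ)) : SL(2, ℤ) ⧸ Gamma0 p) = ((g * k : SL(2, ℤ)) : SL(2, ℤ) ⧸ Gamma0 p) := rfl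

theorem fac_one (p : ℕ) (ϕ : Gamma0 p →* A) :
    fac p ϕ ((1 : SL(2, ℤ)) : SL(2, ℤ) ⧸ Gamma0 p) = ϕ (gT p) := by
  set ω : SL(2, ℤ) ⧸ Gamma0 p := ((1 : SL(2, ℤ)) : SL(2, ℤ) ⧸ Gamma0 p) with hω
  have hk : ω.out ∈ Gamma0 p := by
    have h1 : ((ω.out : SL(2, ℤ)) : SL(2, ℤ) ⧸ Gamma0 p) = ((1 : SL(2, ℤ)) : SL(2, ℤ) ⧸ Gamma0 p) :=
      QuotientGroup.out_eq' ω
    rw [QuotientGroup.eq, mul_one] at h1
    exact inv_mem_iff.mp h1
  have hfix : Function.IsFixedPt (T • ·) ω := by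
    show T • ω = ω
    rw [hω, smul_coe, QuotientGroup.eq]
    simp only [mul_one]
    exact inv_mem (T_mem p)
  have hmp : Function.minimalPeriod (T • ·) ω = 1 :=
    Function.minimalPeriod_eq_one_iff_isFixedPt.mpr hfix
  have e : (⟨ω.out⁻¹ * T ^ Function.minimalPeriod (T • ·) ω * ω.out,
      QuotientGroup.out_conj_pow_minimalPeriod_mem (Gamma0 p) T ω⟩ : Gamma0 p)
      = (⟨ω.out, hk⟩ : Gamma0 p)⁻¹ * gT p * ⟨ω.out, hk⟩ := by
    apply Subtype.ext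
    show ω.out⁻¹ * T ^ Function.minimalPeriod (T • ·) ω * ω.out = ω.out⁻¹ * T * ω.out
    rw [hmp, pow_one]
  unfold fac
  rw [e, map_mul, map_mul, map_inv, mul_right_comm, inv_mul_cancel, one_mul]

theorem fac_TS (p : ℕ) [Fact p.Prime] (ϕ : Gamma0 p →* A) (m : ℤ) :
    fac p ϕ ((T ^ m * S : SL(2, ℤ)) : SL(2, ℤ) ⧸ Gamma0 p) = (ϕ (gT' p))⁻¹ := by
  set ω : SL(2, ℤ) ⧸ Gamma0 p := ((T ^ m * S : SL(2, ℤ)) : SL(2, ℤ) ⧸ Gamma0 p) with hω
  -- a representative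
  have h1 : ((ω.out : SL(2, ℤ)) : SL(2, ℤ) ⧸ Gamma0 p) = ω := QuotientGroup.out_eq' ω
  have hh : (T ^ m * S)⁻¹ * ω.out ∈ Gamma0 p := by
    rw [hω, QuotientGroup.eq] at h1
    have := inv_mem h1
    rwa [mul_inv_rev, inv_inv] at this
  set h : SL(2, ℤ) := (T ^ m * S)⁻¹ * ω.out with hh_def
  have hk : ω.out = T ^ m * S * h := by rw [hh_def]; group
  -- the period
  have hper : Function.IsPeriodicPt (T • ·) p ω := by
    show (T • ·)^[p] ω = ω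
    rw [smul_iterate_apply, hω, smul_coe, QuotientGroup.eq]
    have e : (T ^ p * (T ^ m * S))⁻¹ * (T ^ m * S) = (S⁻¹ * T ^ p * S)⁻¹ := by group
    rw [e, S_inv_T_pow_S, inv_inv]
    exact (gT' p).2
  have hnfix : ¬ Function.IsFixedPt (T • ·) ω := by
    intro hfix
    have h2 : T • ω = ω := hfix
    rw [hω, smul_coe, QuotientGroup.eq] at h2
    have e : (T * (T ^ m * S))⁻¹ * (T ^ m * S) = (S⁻¹ * T * S)⁻¹ := by group
    rw [e] at h2
    exact sT'_inv_one_notMem p (inv_mem_iff.mp h2)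
  have hmp : Function.minimalPeriod (T • ·) ω = p := Function.minimalPeriod_eq_prime hper hnfix
  have e : (⟨ω.out⁻¹ * T ^ Function.minimalPeriod (T • ·) ω * ω.out,
      QuotientGroup.out_conj_pow_minimalPeriod_mem (Gamma0 p) T ω⟩ : Gamma0 p)
      = (⟨h, hh⟩ : Gamma0 p)⁻¹ * (gT' p)⁻¹ * ⟨h, hh⟩ := by
    apply Subtype.ext
    show ω.out⁻¹ * T ^ Function.minimalPeriod (T • ·) ω * ω.out = h⁻¹ * (sT' p)⁻¹ * h
    rw [hmp, ← S_inv_T_pow_S]
    conv_lhs => rw [hk]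
    group
  unfold fac
  rw [e, map_mul, map_mul, map_inv, map_inv, mul_right_comm, inv_mul_cancel, one_mul]

/-- **Transfer**: a character of `Γ₀(p)` with values in a torsion-free abelian group takes the
same value at `T' = [1 0; p 1]` and at `T = [1 1; 0 1]`. -/
theorem map_gT'_eq (p : ℕ) [Fact p.Prime] (ϕ : Gamma0 p →* A)
    (htf : ∀ (x : A) (n : ℕ), n ≠ 0 → x ^ n = 1 → x = 1) : ϕ (gT' p) = ϕ (gT p) := by
  classical
  have h1 : MonoidHom.transfer ϕ T = 1 := by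
    have hS : MonoidHom.transfer ϕ S = 1 :=
      htf _ 4 (by norm_num) (by rw [← map_pow, S_pow_four, map_one])
    have hST : MonoidHom.transfer ϕ (S * T) = 1 :=
      htf _ 6 (by norm_num) (by rw [← map_pow, ST_pow_six, map_one])
    rw [map_mul, hS, one_mul] at hST
    exact hST
  let _ : Fintype (Quotient (orbitRel (Subgroup.zpowers T) (SL(2, ℤ) ⧸ Gamma0 p))) :=
    Fintype.ofFinite _
  rw [MonoidHom.transfer_eq_prod_quotient_orbitRel_zpowers_quot] at h1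
  change ∏ q : Quotient (orbitRel (Subgroup.zpowers T) (SL(2, ℤ) ⧸ Gamma0 p)),
    fac p ϕ q.out = 1 at h1
  -- the two orbits
  set q₁ : Quotient (orbitRel (Subgroup.zpowers T) (SL(2, ℤ) ⧸ Gamma0 p)) :=
    Quotient.mk _ ((1 : SL(2, ℤ)) : SL(2, ℤ) ⧸ Gamma0 p) with hq₁
  set q₂ : Quotient (orbitRel (Subgroup.zpowers T) (SL(2, ℤ) ⧸ Gamma0 p)) :=
    Quotient.mk _ ((S : SL(2, ℤ)) : SL(2, ℤ) ⧸ Gamma0 p) with hq₂
  -- the orbit of the trivial coset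
  have horb1 : ∀ ω : SL(2, ℤ) ⧸ Gamma0 p,
      ω ∈ orbit (Subgroup.zpowers T) ((1 : SL(2, ℤ)) : SL(2, ℤ) ⧸ Gamma0 p) →
        ω = ((1 : SL(2, ℤ)) : SL(2, ℤ) ⧸ Gamma0 p) := by
    rintro ω ⟨⟨t, ht⟩, rfl⟩
    obtain ⟨m, rfl⟩ := Subgroup.mem_zpowers_iff.mp ht
    show (T ^ m) • ((1 : SL(2, ℤ)) : SL(2, ℤ) ⧸ Gamma0 p) = _
    rw [smul_coe, QuotientGroup.eq, mul_one, mul_one]
    exact inv_mem (T_zpow_mem p m)
  have horb2 : ∀ ω : SL(2, ℤ) ⧸ Gamma0 p,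
      ω ∈ orbit (Subgroup.zpowers T) ((S : SL(2, ℤ)) : SL(2, ℤ) ⧸ Gamma0 p) →
        ∃ m : ℤ, ω = ((T ^ m * S : SL(2, ℤ)) : SL(2, ℤ) ⧸ Gamma0 p) := by
    rintro ω ⟨⟨t, ht⟩, rfl⟩
    obtain ⟨m, rfl⟩ := Subgroup.mem_zpowers_iff.mp ht
    exact ⟨m, rfl⟩
  have hne : q₁ ≠ q₂ := by
    intro h
    have h2 : ((S : SL(2, ℤ)) : SL(2, ℤ) ⧸ Gamma0 p)
        ∈ orbit (Subgroup.zpowers T) ((1 : SL(2, ℤ)) : SL(2, ℤ) ⧸ Gamma0 p) :=
      orbitRel_apply.mp (Quotient.exact h.symm)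
    have h3 := horb1 _ h2
    rw [QuotientGroup.eq, mul_one] at h3
    exact S_notMem p (inv_mem_iff.mp h3)
  have hall : ∀ q : Quotient (orbitRel (Subgroup.zpowers T) (SL(2, ℤ) ⧸ Gamma0 p)),
      q ≠ q₁ ∧ q ≠ q₂ → fac p ϕ q.out = 1 := by
    intro q hq
    exfalso
    induction q using Quotient.inductionOn with
    | h ω =>
      obtain ⟨k, rfl⟩ := QuotientGroup.mk_surjective ω
      by_cases hk : k ∈ Gamma0 p
      · apply hq.1
        rw [hq₁]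
        congr 1
        rw [QuotientGroup.eq, mul_one]
        exact inv_mem hk
      · apply hq.2
        obtain ⟨j, h, hh, rfl⟩ := exists_TS_rep p k hk
        rw [hq₂]
        apply Quotient.sound
        show (orbitRel (Subgroup.zpowers T) (SL(2, ℤ) ⧸ Gamma0 p)) _ _
        rw [orbitRel_apply]
        refine ⟨⟨T ^ j, zpow_mem (Subgroup.mem_zpowers T) j⟩, ?_⟩
        show (T ^ j) • ((S : SL(2, ℤ)) : SL(2, ℤ) ⧸ Gamma0 p) = _
        rw [smul_coe, QuotientGroup.eq]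
        have e : (T ^ j * S)⁻¹ * (T ^ j * S * h) = h := by group
        rw [e]
        exact hh
  rw [Fintype.prod_eq_mul q₁ q₂ hne hall] at h1
  have e1 : q₁.out = ((1 : SL(2, ℤ)) : SL(2, ℤ) ⧸ Gamma0 p) :=
    horb1 _ (orbitRel_apply.mp (Quotient.exact (Quotient.out_eq q₁)))
  obtain ⟨m, e2⟩ := horb2 _ (orbitRel_apply.mp (Quotient.exact (Quotient.out_eq q₂)))
  rw [e1, e2, fac_one, fac_TS] at h1
  exact (mul_inv_eq_one.mp h1).symm

/-- additive form, for `ℂ`-valued characters. -/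
theorem hom_gT'_eq (p : ℕ) [Fact p.Prime] (χ : Additive (Gamma0 p) →+ ℂ) :
    χ (Additive.ofMul (gT' p)) = χ (Additive.ofMul (gT p)) := by
  have h := map_gT'_eq p (AddMonoidHom.toMultiplicativeRight χ) (by
    intro x n hn hx
    have h1 : n • Multiplicative.toAdd x = 0 := by
      rw [← toAdd_pow, hx]; rfl
    rw [nsmul_eq_mul] at h1
    have h2 : Multiplicative.toAdd x = 0 := by
      rcases mul_eq_zero.mp h1 with h | h
      · exact absurd (by exact_mod_cast h) hn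
      · exact h
    exact Multiplicative.toAdd.injective h2)
  exact Multiplicative.ofAdd.injective h

end Fermat.Agent.S16.TransferT
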