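import Mathlib
import Fermat.Agent.S16.Defs
import Fermat.Agent.S16.TransferT

/-!
# S16 (N6): the crossing-count homomorphism `ψ : Γ₀(p) → ℤ`

For `z, w` in the upper half plane let `cross p z w` be the signed number of `Γ₀(p)`-translates
of the imaginary axis (the geodesic from the cusp `0` to the cusp `∞`) separating `z` from `w`.
It is additive and `Γ₀(p)`-invariant, so `γ ↦ cross p z₀ (γ z₀)` is a homomorphism; each geodesic
is counted twice (`δ` and `-δ`), and `psi p` is half of it.  `psi_T`: the value at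
`T = [[1,1],[0,1]]` is `1` (for `p ≥ 2`).  The value at `T' = [[1,0],[p,1]]` is then `1` as well
by the transfer argument of `TransferT.lean`; `exists_crossing_hom` is the exported statement.
-/

set_option autoImplicit false

open UpperHalfPlane CongruenceSubgroup
open scoped MatrixGroups

namespace Fermat.Agent.S16.Crossing

/-- side of the imaginary axis. -/
noncomputable def side (z : ℍ) : ℤ := if 0 < z.re then 1 else 0

/-- the sign form: `Re (g⁻¹ z) · |-cz + a|²` for `g = [[a,b],[c,d]]`. -/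
noncomputable def nu (g : SL(2, ℤ)) (z : ℍ) : ℝ :=
  -(((g 1 0 : ℝ) * z.re - g 0 0) * ((g 1 1 : ℝ) * z.re - g 0 1)) - (g 1 0 : ℝ) * g 1 1 * z.im ^ 2

theorem re_inv_smul_pos_iff (g : SL(2, ℤ)) (z : ℍ) : 0 < (g⁻¹ • z).re ↔ 0 < nu g z := by
  have h := coe_specialLinearGroup_apply g⁻¹ z
  have e : (g⁻¹ : SL(2, ℤ)) = ⟨![![g.1 1 1, -g.1 0 1], ![-g.1 1 0, g.1 0 0]],
      Matrix.SpecialLinearGroup.SL2_inv_expl_det g⟩ := Matrix.SpecialLinearGroup.SL2_inv_expl g
  have e00 : (g⁻¹ : SL(2, ℤ)) 0 0 = g 1 1 := by rw [e]; rfl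
  have e01 : (g⁻¹ : SL(2, ℤ)) 0 1 = -g 0 1 := by rw [e]; rfl
  have e10 : (g⁻¹ : SL(2, ℤ)) 1 0 = -g 1 0 := by rw [e]; rfl
  have e11 : (g⁻¹ : SL(2, ℤ)) 1 1 = g 0 0 := by rw [e]; rfl
  rw [e00, e01, e10, e11] at h
  simp only [eq_intCast, Int.cast_neg, Complex.ofReal_intCast, Complex.ofReal_neg] at h
  have him : 0 < ((g⁻¹ • z : ℍ) : ℂ).im := (g⁻¹ • z).im_pos
  have hw : (-(g 1 0 : ℂ) * (z : ℂ) + (g 0 0 : ℂ)) ≠ 0 := by
    intro h0
    rw [h, h0, div_zero] at him
    simp at him
  have hpos : 0 < Complex.normSq (-(g 1 0 : ℂ) * (z : ℂ) + (g 0 0 : ℂ)) :=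
    Complex.normSq_pos.mpr hw
  have hre : (g⁻¹ • z).re = ((g⁻¹ • z : ℍ) : ℂ).re := rfl
  rw [hre, h, Complex.div_re, ← add_div, div_pos_iff_of_pos_right hpos]
  have hnum : ((g 1 1 : ℂ) * (z : ℂ) + -(g 0 1 : ℂ)).re * (-(g 1 0 : ℂ) * (z : ℂ) + (g 0 0 : ℂ)).re
      + ((g 1 1 : ℂ) * (z : ℂ) + -(g 0 1 : ℂ)).im * (-(g 1 0 : ℂ) * (z : ℂ) + (g 0 0 : ℂ)).im
      = nu g z := by
    simp only [nu, Complex.add_re, Complex.mul_re, Complex.intCast_re, Complex.intCast_im,
      Complex.neg_re, Complex.neg_im, Complex.add_im, Complex.mul_im, UpperHalfPlane.coe_re,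
      UpperHalfPlane.coe_im]
    ring
  rw [hnum]

theorem side_inv_smul (g : SL(2, ℤ)) (z : ℍ) :
    side (g⁻¹ • z) = if 0 < nu g z then 1 else 0 := by
  unfold side
  by_cases h : 0 < nu g z
  · rw [if_pos h, if_pos ((re_inv_smul_pos_iff g z).mpr h)]
  · rw [if_neg h, if_neg (fun h' => h ((re_inv_smul_pos_iff g z).mp h'))]

theorem det_entries (g : SL(2, ℤ)) :
    (g 0 0 : ℝ) * g 1 1 - (g 0 1 : ℝ) * g 1 0 = 1 := by
  have h := g.det_coe
  rw [Matrix.det_fin_two] at h
  exact_mod_cast h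

theorem one_le_abs_cast {n : ℤ} (h : n ≠ 0) : (1 : ℝ) ≤ |(n : ℝ)| := by
  have := Int.one_le_abs h
  exact_mod_cast this

/-! ### the real inequalities -/

/-- "abnormal sign" forces a small bottom row and `z` close to the end points. -/
theorem abnormal_bounds {a b c d x y : ℝ} (hdet : a * d - b * c = 1) (hc : 1 ≤ |c|)
    (hd : 1 ≤ |d|) (hy : 0 < y)
    (habn : 0 ≤ c * d * (-((c * x - a) * (d * x - b)) - c * d * y ^ 2)) :
    |c| * y ≤ 1 / 2 ∧ |d| * y ≤ 1 / 2 ∧ |c * x - a| ≤ 1 ∧ |d * x - b| ≤ 1 := by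
  set U := d * (c * x - a) with hU
  set V := c * (d * x - b) with hV
  have hUV : U = V - 1 := by rw [hU, hV]; linarith
  have h1 : V * (V - 1) + (c * d * y) ^ 2 ≤ 0 := by
    have : c * d * (-((c * x - a) * (d * x - b)) - c * d * y ^ 2) = -(U * V) - (c * d * y) ^ 2 := by
      rw [hU, hV]; ring
    rw [this, hUV] at habn
    nlinarith
  have hsq : (c * d * y) ^ 2 ≤ 1 / 4 := by nlinarith [sq_nonneg (V - 1 / 2)]
  have hV0 : 0 ≤ V := by nlinarith [sq_nonneg (c * d * y)]
  have hV1 : V ≤ 1 := by nlinarith [sq_nonneg (c * d * y)]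
  have hcdy : |c * d * y| ≤ 1 / 2 := by
    have : |c * d * y| ^ 2 ≤ (1 / 2) ^ 2 := by rw [sq_abs]; linarith
    exact (abs_le_of_sq_le_sq' this (by norm_num)).2
  have hcdy' : |c| * |d| * y ≤ 1 / 2 := by
    rw [abs_mul, abs_mul, abs_of_pos hy] at hcdy
    exact hcdy
  have hc0 : 0 ≤ |c| := abs_nonneg c
  have hd0 : 0 ≤ |d| := abs_nonneg d
  refine ⟨?_, ?_, ?_, ?_⟩
  · nlinarith
  · nlinarith
  · have hUabs : |U| ≤ 1 := by rw [hUV]; rw [abs_le]; constructor <;> linarith
    have : |d| * |c * x - a| ≤ 1 := by rw [← abs_mul]; exact hUabs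
    nlinarith [abs_nonneg (c * x - a)]
  · have hVabs : |V| ≤ 1 := by rw [abs_le]; constructor <;> linarith
    have : |c| * |d * x - b| ≤ 1 := by rw [← abs_mul]; exact hVabs
    nlinarith [abs_nonneg (d * x - b)]

/-- the bound on the entries of a matrix whose translate of the imaginary axis separates
`z` and `w`. -/
noncomputable def bound (z w : ℍ) : ℝ :=
  (max |z.re| |w.re| + 1) * (1 / (2 * min z.im w.im) + 1) + 1

theorem entries_le_of_abnormal {a b c d x y X m : ℝ} (hdet : a * d - b * c = 1) (hc : 1 ≤ |c|)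
    (hd : 1 ≤ |d|) (hm : 0 < m) (hmy : m ≤ y) (hxX : |x| ≤ X)
    (habn : 0 ≤ c * d * (-((c * x - a) * (d * x - b)) - c * d * y ^ 2)) :
    |a| ≤ (X + 1) * (1 / (2 * m) + 1) + 1 ∧ |b| ≤ (X + 1) * (1 / (2 * m) + 1) + 1 ∧
      |c| ≤ (X + 1) * (1 / (2 * m) + 1) + 1 ∧ |d| ≤ (X + 1) * (1 / (2 * m) + 1) + 1 := by
  have hy : 0 < y := lt_of_lt_of_le hm hmy
  obtain ⟨h1, h2, h3, h4⟩ := abnormal_bounds hdet hc hd hy habn
  have hX : 0 ≤ X := le_trans (abs_nonneg x) hxX
  set κ := 1 / (2 * m) with hκ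
  have hκ0 : 0 < κ := by positivity
  have hcκ : |c| ≤ κ := by
    rw [hκ, le_div_iff₀ (by positivity)]
    nlinarith [abs_nonneg c]
  have hdκ : |d| ≤ κ := by
    rw [hκ, le_div_iff₀ (by positivity)]
    nlinarith [abs_nonneg d]
  have ha : |a| ≤ κ * X + 1 := by
    have e : a = c * x - (c * x - a) := by ring
    calc |a| = |c * x - (c * x - a)| := by rw [← e]
      _ ≤ |c * x| + |c * x - a| := abs_sub _ _
      _ ≤ κ * X + 1 := by
        rw [abs_mul]
        have := mul_le_mul hcκ hxX (abs_nonneg x) hκ0.le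
        linarith
  have hb : |b| ≤ κ * X + 1 := by
    have e : b = d * x - (d * x - b) := by ring
    calc |b| = |d * x - (d * x - b)| := by rw [← e]
      _ ≤ |d * x| + |d * x - b| := abs_sub _ _
      _ ≤ κ * X + 1 := by
        rw [abs_mul]
        have := mul_le_mul hdκ hxX (abs_nonneg x) hκ0.le
        linarith
  refine ⟨?_, ?_, ?_, ?_⟩ <;> nlinarith

theorem abs_le_max_of_lt_iff {t x1 x2 : ℝ} (h : ¬ (t < x1 ↔ t < x2)) : |t| ≤ max |x1| |x2| := by
  by_cases h1 : t < x1 <;> by_cases h2 : t < x2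
  · exact absurd (iff_of_true h1 h2) h
  · rw [abs_le]
    constructor
    · have := neg_abs_le x2
      have := le_max_right |x1| |x2|
      linarith
    · have := le_abs_self x1
      have := le_max_left |x1| |x2|
      linarith
  · rw [abs_le]
    constructor
    · have := neg_abs_le x1
      have := le_max_left |x1| |x2|
      linarith
    · have := le_abs_self x2
      have := le_max_right |x1| |x2|
      linarith
  · exact absurd (iff_of_false h1 h2) h

theorem abs_le_max_of_gt_iff {t x1 x2 : ℝ} (h : ¬ (x1 < t ↔ x2 < t)) : |t| ≤ max |x1| |x2| := by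
  have h' : ¬ (-t < -x1 ↔ -t < -x2) := by
    intro hh
    apply h
    constructor
    · intro h1; have := hh.mp (by linarith); linarith
    · intro h1; have := hh.mpr (by linarith); linarith
  have := abs_le_max_of_lt_iff h'
  rwa [abs_neg, abs_neg, abs_neg] at this

/-- if the translate of the imaginary axis by `g` separates `z` and `w`, the entries of `g` are
bounded. -/
theorem entries_bounded_of_flip (g : SL(2, ℤ)) (z w : ℍ)
    (h : ¬ ((0 < nu g z) ↔ (0 < nu g w))) (i j : Fin 2) : |(g i j : ℝ)| ≤ bound z w := by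
  have hdet := det_entries g
  have hm : 0 < min z.im w.im := lt_min z.im_pos w.im_pos
  have hX0 : 0 ≤ max |z.re| |w.re| := le_max_of_le_left (abs_nonneg _)
  have hκ : 0 < 1 / (2 * min z.im w.im) := by positivity
  have hM1 : 1 ≤ bound z w := by unfold bound; nlinarith
  have hMX : max |z.re| |w.re| ≤ bound z w := by unfold bound; nlinarith
  suffices H : |(g 0 0 : ℝ)| ≤ bound z w ∧ |(g 0 1 : ℝ)| ≤ bound z w ∧
      |(g 1 0 : ℝ)| ≤ bound z w ∧ |(g 1 1 : ℝ)| ≤ bound z w by
    fin_cases i <;> fin_cases j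
    · exact H.1
    · exact H.2.1
    · exact H.2.2.1
    · exact H.2.2.2
  have hdetZ : g 0 0 * g 1 1 - g 0 1 * g 1 0 = 1 := by
    have h := g.det_coe
    rwa [Matrix.det_fin_two] at h
  by_cases hc : g 1 0 = 0
  · -- `c = 0`
    have hi : g 0 0 * g 1 1 = 1 := by rw [hc] at hdetZ; linarith
    have hcR : (g 1 0 : ℝ) = 0 := by exact_mod_cast hc
    rcases Int.eq_one_or_neg_one_of_mul_eq_one' hi with ⟨ha, hd⟩ | ⟨ha, hd⟩
    · have haR : (g 0 0 : ℝ) = 1 := by exact_mod_cast ha
      have hdR : (g 1 1 : ℝ) = 1 := by exact_mod_cast hd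
      have hnu : ∀ u : ℍ, nu g u = u.re - g 0 1 := fun u => by
        unfold nu; rw [hcR, haR, hdR]; ring
      rw [hnu, hnu] at h
      have hb : |(g 0 1 : ℝ)| ≤ max |z.re| |w.re| :=
        abs_le_max_of_lt_iff (fun hh => h (by
          constructor
          · intro h1; have := hh.mp (by linarith); linarith
          · intro h1; have := hh.mpr (by linarith); linarith))
      rw [haR, hcR, hdR]
      simp only [abs_one, abs_zero]
      exact ⟨hM1, hb.trans hMX, by linarith, hM1⟩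
    · have haR : (g 0 0 : ℝ) = -1 := by exact_mod_cast ha
      have hdR : (g 1 1 : ℝ) = -1 := by exact_mod_cast hd
      have hnu : ∀ u : ℍ, nu g u = u.re + g 0 1 := fun u => by
        unfold nu; rw [hcR, haR, hdR]; ring
      rw [hnu, hnu] at h
      have hb : |(-(g 0 1 : ℝ))| ≤ max |z.re| |w.re| :=
        abs_le_max_of_lt_iff (fun hh => h (by
          constructor
          · intro h1; have := hh.mp (by linarith); linarith
          · intro h1; have := hh.mpr (by linarith); linarith))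
      rw [abs_neg] at hb
      rw [haR, hcR, hdR]
      simp only [abs_neg, abs_one, abs_zero]
      exact ⟨hM1, hb.trans hMX, by linarith, hM1⟩
  by_cases hd : g 1 1 = 0
  · -- `d = 0`
    have hi : g 0 1 * -g 1 0 = 1 := by rw [hd] at hdetZ; linarith
    have hdR : (g 1 1 : ℝ) = 0 := by exact_mod_cast hd
    rcases Int.eq_one_or_neg_one_of_mul_eq_one' hi with ⟨hb, hc'⟩ | ⟨hb, hc'⟩
    · have hbR : (g 0 1 : ℝ) = 1 := by exact_mod_cast hb
      have hcR : (g 1 0 : ℝ) = -1 := by
        have : g 1 0 = -1 := by linarith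
        exact_mod_cast this
      have hnu : ∀ u : ℍ, nu g u = -u.re - g 0 0 := fun u => by
        unfold nu; rw [hcR, hbR, hdR]; ring
      rw [hnu, hnu] at h
      have ha : |(-(g 0 0 : ℝ))| ≤ max |z.re| |w.re| :=
        abs_le_max_of_gt_iff (fun hh => h (by
          constructor
          · intro h1; have := hh.mp (by linarith); linarith
          · intro h1; have := hh.mpr (by linarith); linarith))
      rw [abs_neg] at ha
      rw [hbR, hcR, hdR]
      simp only [abs_neg, abs_one, abs_zero]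
      exact ⟨ha.trans hMX, hM1, hM1, by linarith⟩
    · have hbR : (g 0 1 : ℝ) = -1 := by exact_mod_cast hb
      have hcR : (g 1 0 : ℝ) = 1 := by
        have : g 1 0 = 1 := by linarith
        exact_mod_cast this
      have hnu : ∀ u : ℍ, nu g u = g 0 0 - u.re := fun u => by
        unfold nu; rw [hcR, hbR, hdR]; ring
      rw [hnu, hnu] at h
      have ha : |(g 0 0 : ℝ)| ≤ max |z.re| |w.re| :=
        abs_le_max_of_gt_iff (fun hh => h (by
          constructor
          · intro h1; have := hh.mp (by linarith); linarith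
          · intro h1; have := hh.mpr (by linarith); linarith))
      rw [hbR, hcR, hdR]
      simp only [abs_neg, abs_one, abs_zero]
      exact ⟨ha.trans hMX, hM1, hM1, by linarith⟩
  · -- both nonzero
    have hc1 := one_le_abs_cast hc
    have hd1 := one_le_abs_cast hd
    by_cases hz : 0 ≤ (g 1 0 : ℝ) * g 1 1 * nu g z
    · exact entries_le_of_abnormal hdet hc1 hd1 hm (min_le_left _ _) (le_max_left _ _) hz
    by_cases hw : 0 ≤ (g 1 0 : ℝ) * g 1 1 * nu g w
    · exact entries_le_of_abnormal hdet hc1 hd1 hm (min_le_right _ _) (le_max_right _ _) hw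
    · exfalso
      apply h
      have key : ∀ u : ℍ, (g 1 0 : ℝ) * g 1 1 * nu g u < 0 →
          (0 < nu g u ↔ (g 1 0 : ℝ) * g 1 1 < 0) := by
        intro u hu
        constructor
        · intro h1
          by_contra h2
          have := mul_nonneg (not_lt.mp h2) h1.le
          linarith
        · intro h1
          by_contra h2
          have := mul_nonneg_of_nonpos_of_nonpos h1.le (not_lt.mp h2)
          linarith
      rw [key z (not_le.mp hz), key w (not_le.mp hw)]

/-- matrices in `SL(2, ℤ)` with bounded entries form a finite set. -/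
theorem finite_bounded (M : ℝ) : {g : SL(2, ℤ) | ∀ i j, |(g i j : ℝ)| ≤ M}.Finite := by
  have hfin : (Set.pi Set.univ fun _ : Fin 2 => Set.pi Set.univ fun _ : Fin 2 =>
      Set.Icc (-⌊M⌋) ⌊M⌋ : Set (Fin 2 → Fin 2 → ℤ)).Finite :=
    Set.Finite.pi fun _ => Set.Finite.pi fun _ => Set.finite_Icc _ _
  have hinj : Function.Injective (fun (g : SL(2, ℤ)) (i j : Fin 2) => g i j) :=
    fun a b h => Matrix.SpecialLinearGroup.ext a b fun i j => congrFun (congrFun h i) j
  refine (hfin.preimage (Set.injOn_of_injective hinj)).subset ?_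
  intro g hg
  rw [Set.mem_preimage, Set.mem_pi]
  intro i _
  rw [Set.mem_pi]
  intro j _
  rw [Set.mem_Icc]
  have h : |((g i j : ℤ) : ℝ)| ≤ M := hg i j
  rw [abs_le] at h
  constructor
  · have h3 : ((-(g i j) : ℤ) : ℝ) ≤ M := by push_cast; linarith [h.1]
    have h4 : -(g i j) ≤ ⌊M⌋ := Int.le_floor.mpr h3
    linarith
  · exact Int.le_floor.mpr h.2

/-! ### the crossing sum -/

variable (p : ℕ)

/-- one term of the crossing sum: `±1` if the translate by `δ` of the imaginary axis separates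
`z` from `w`, and `0` otherwise. -/
noncomputable def term (δ : Gamma0 p) (z w : ℍ) : ℤ :=
  side ((δ : SL(2, ℤ))⁻¹ • w) - side ((δ : SL(2, ℤ))⁻¹ • z)

theorem flip_of_term_ne_zero (δ : Gamma0 p) (z w : ℍ) (h : term p δ z w ≠ 0) :
    ¬ ((0 < nu (δ : SL(2, ℤ)) z) ↔ (0 < nu (δ : SL(2, ℤ)) w)) := by
  intro hiff
  apply h
  unfold term
  rw [side_inv_smul, side_inv_smul]
  by_cases h1 : 0 < nu (δ : SL(2, ℤ)) z
  · rw [if_pos h1, if_pos (hiff.mp h1)]; ring
  · rw [if_neg h1, if_neg (fun h2 => h1 (hiff.mpr h2))]; ring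

theorem finite_support_term (z w : ℍ) :
    (Function.support fun δ : Gamma0 p => term p δ z w).Finite := by
  have hfin := finite_bounded (bound z w)
  refine (hfin.preimage (f := fun δ : Gamma0 p => (δ : SL(2, ℤ)))
    (Set.injOn_of_injective Subtype.val_injective)).subset ?_
  intro δ hδ
  exact fun i j => entries_bounded_of_flip _ z w (flip_of_term_ne_zero p δ z w hδ) i j

/-- the signed number of `Γ₀(p)`-translates of the imaginary axis separating `z` from `w`
(each translate counted twice, for `δ` and `-δ`). -/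
noncomputable def cross (z w : ℍ) : ℤ := ∑ᶠ δ : Gamma0 p, term p δ z w

theorem term_add (δ : Gamma0 p) (z w u : ℍ) : term p δ z w + term p δ w u = term p δ z u := by
  unfold term; ring

theorem cross_add (z w u : ℍ) : cross p z w + cross p w u = cross p z u := by
  unfold cross
  rw [← finsum_add_distrib (finite_support_term p z w) (finite_support_term p w u)]
  exact finsum_congr fun δ => term_add p δ z w u

theorem term_smul (γ δ : Gamma0 p) (z w : ℍ) :
    term p δ ((γ : SL(2, ℤ)) • z) ((γ : SL(2, ℤ)) • w) = term p (γ⁻¹ * δ) z w := by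
  unfold term
  have e : ((γ⁻¹ * δ : Gamma0 p) : SL(2, ℤ))⁻¹ = (δ : SL(2, ℤ))⁻¹ * (γ : SL(2, ℤ)) := by
    rw [Subgroup.coe_mul, Subgroup.coe_inv, mul_inv_rev, inv_inv]
  rw [e, mul_smul, mul_smul]

theorem cross_smul (γ : Gamma0 p) (z w : ℍ) :
    cross p ((γ : SL(2, ℤ)) • z) ((γ : SL(2, ℤ)) • w) = cross p z w := by
  unfold cross
  simp_rw [term_smul]
  exact finsum_comp_equiv (Equiv.mulLeft γ⁻¹) (f := fun δ => term p δ z w)

/-- twice the crossing homomorphism, as a function. -/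
noncomputable def psi2Fun (γ : Gamma0 p) : ℤ :=
  cross p UpperHalfPlane.I ((γ : SL(2, ℤ)) • UpperHalfPlane.I)

theorem psi2Fun_mul (γ γ' : Gamma0 p) : psi2Fun p (γ * γ') = psi2Fun p γ + psi2Fun p γ' := by
  unfold psi2Fun
  rw [Subgroup.coe_mul, mul_smul,
    ← cross_add p UpperHalfPlane.I ((γ : SL(2, ℤ)) • UpperHalfPlane.I), cross_smul]

theorem psi2Fun_one : psi2Fun p 1 = 0 := by
  have h := psi2Fun_mul p 1 1
  rw [mul_one] at h
  linarith

/-! ### evenness -/

theorem neg_mem_Gamma0 (δ : Gamma0 p) : -(δ : SL(2, ℤ)) ∈ Gamma0 p := by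
  have h := δ.2
  rw [Gamma0_mem] at h ⊢
  have e : (-(δ : SL(2, ℤ))) 1 0 = -((δ : SL(2, ℤ)) 1 0) := by
    simp [Matrix.SpecialLinearGroup.coe_neg]
  rw [e, Int.cast_neg, h, neg_zero]

/-- `δ ↦ -δ` on `Γ₀(p)`. -/
def negG (δ : Gamma0 p) : Gamma0 p := ⟨-(δ : SL(2, ℤ)), neg_mem_Gamma0 p δ⟩

theorem nu_neg (g : SL(2, ℤ)) (z : ℍ) : nu (-g) z = nu g z := by
  unfold nu
  have e : ∀ i j, ((-g) i j : ℤ) = -(g i j) := fun i j => by
    simp [Matrix.SpecialLinearGroup.coe_neg]
  rw [e, e, e, e]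
  push_cast
  ring

theorem term_negG (δ : Gamma0 p) (z w : ℍ) : term p (negG p δ) z w = term p δ z w := by
  unfold term negG
  rw [side_inv_smul, side_inv_smul, side_inv_smul, side_inv_smul]
  simp only [nu_neg]

theorem negG_negG (δ : Gamma0 p) : negG p (negG p δ) = δ := by
  apply Subtype.ext
  show -(-(δ : SL(2, ℤ))) = δ
  rw [neg_neg]

theorem negG_ne (δ : Gamma0 p) : negG p δ ≠ δ := by
  intro h
  have h1 : -(δ : SL(2, ℤ)) = δ := congrArg Subtype.val h
  have e : ∀ i j, (δ : SL(2, ℤ)) i j = 0 := fun i j => by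
    have h2 : (-(δ : SL(2, ℤ))) i j = (δ : SL(2, ℤ)) i j := by rw [h1]
    have h3 : (-(δ : SL(2, ℤ))) i j = -((δ : SL(2, ℤ)) i j) := by
      simp [Matrix.SpecialLinearGroup.coe_neg]
    rw [h3] at h2
    omega
  have hdet := (δ : SL(2, ℤ)).det_coe
  rw [Matrix.det_fin_two, e, e, e, e] at hdet
  norm_num at hdet

theorem two_dvd_cross (z w : ℍ) : (2 : ℤ) ∣ cross p z w := by
  classical
  unfold cross
  rw [finsum_eq_sum_of_support_subset_of_finite _ (le_refl _) (finite_support_term p z w)]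
  suffices key : ((∑ δ ∈ (finite_support_term p z w).toFinset, term p δ z w : ℤ) : ZMod 2) = 0 by
    exact_mod_cast (ZMod.intCast_zmod_eq_zero_iff_dvd _ 2).mp key
  rw [Int.cast_sum]
  refine Finset.sum_involution (fun δ _ => negG p δ) ?_ ?_ ?_ ?_
  · intro δ _
    rw [term_negG]
    exact CharTwo.add_self_eq_zero _
  · intro δ _ _
    exact negG_ne p δ
  · intro δ hδ
    rw [Set.Finite.mem_toFinset, Function.mem_support] at hδ ⊢
    rwa [term_negG]
  · intro δ _
    exact negG_negG p δ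

/-- **The crossing-count homomorphism** `ψ : Γ₀(p) → ℤ`. -/
noncomputable def psi : Additive (Gamma0 p) →+ ℤ where
  toFun γ := psi2Fun p (Additive.toMul γ) / 2
  map_zero' := by
    show psi2Fun p 1 / 2 = 0
    rw [psi2Fun_one]
    rfl
  map_add' γ γ' := by
    show psi2Fun p (Additive.toMul γ * Additive.toMul γ') / 2 = _
    have h2 : (2 : ℤ) ∣ psi2Fun p (Additive.toMul γ) := two_dvd_cross p _ _
    rw [psi2Fun_mul, Int.add_ediv_of_dvd_left h2]

theorem psi_apply (γ : Gamma0 p) : psi p (Additive.ofMul γ) = psi2Fun p γ / 2 := rfl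

theorem two_mul_psi (γ : Gamma0 p) : 2 * psi p (Additive.ofMul γ) = psi2Fun p γ := by
  rw [psi_apply]
  exact Int.mul_ediv_cancel' (two_dvd_cross p _ _)

/-! ### the value at `T` -/

/-- `T = [[1,1],[0,1]]` as an element of `Γ₀(p)`. -/
abbrev Tg : Gamma0 p := gT p

theorem coe_negG_one : ((negG p 1 : Gamma0 p) : SL(2, ℤ)) = -1 := rfl

theorem eq_one_of_entries (δ : Gamma0 p) (ha : (δ : SL(2, ℤ)) 0 0 = 1)
    (hb : (δ : SL(2, ℤ)) 0 1 = 0) (hc : (δ : SL(2, ℤ)) 1 0 = 0) (hd : (δ : SL(2, ℤ)) 1 1 = 1) :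
    δ = 1 := by
  apply Subtype.ext
  apply Matrix.SpecialLinearGroup.ext
  intro i j
  fin_cases i <;> fin_cases j <;> simp [ha, hb, hc, hd]

theorem eq_negG_one_of_entries (δ : Gamma0 p) (ha : (δ : SL(2, ℤ)) 0 0 = -1)
    (hb : (δ : SL(2, ℤ)) 0 1 = 0) (hc : (δ : SL(2, ℤ)) 1 0 = 0) (hd : (δ : SL(2, ℤ)) 1 1 = -1) :
    δ = negG p 1 := by
  apply Subtype.ext
  rw [coe_negG_one]
  apply Matrix.SpecialLinearGroup.ext
  intro i j
  fin_cases i <;> fin_cases j <;> simp [ha, hb, hc, hd, Matrix.SpecialLinearGroup.coe_neg]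

theorem term_T_eq_zero (hp : 2 ≤ p) (δ : Gamma0 p) (h1 : δ ≠ 1) (h2 : δ ≠ negG p 1) :
    term p δ UpperHalfPlane.I ((ModularGroup.T : SL(2, ℤ)) • UpperHalfPlane.I) = 0 := by
  by_contra hne
  have hflip := flip_of_term_ne_zero p δ _ _ hne
  set g : SL(2, ℤ) := (δ : SL(2, ℤ)) with hg
  have hzre : (UpperHalfPlane.I).re = 0 := UpperHalfPlane.I_re
  have hzim : (UpperHalfPlane.I).im = 1 := UpperHalfPlane.I_im
  have hwre : ((ModularGroup.T : SL(2, ℤ)) • UpperHalfPlane.I).re = 1 := by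
    rw [UpperHalfPlane.modular_T_smul, UpperHalfPlane.vadd_re, hzre, add_zero]
  have hwim : ((ModularGroup.T : SL(2, ℤ)) • UpperHalfPlane.I).im = 1 := by
    rw [UpperHalfPlane.modular_T_smul, UpperHalfPlane.vadd_im, hzim]
  have hdetZ : g 0 0 * g 1 1 - g 0 1 * g 1 0 = 1 := by
    have h := g.det_coe
    rwa [Matrix.det_fin_two] at h
  have hdet := det_entries g
  by_cases hc : g 1 0 = 0
  · have hi : g 0 0 * g 1 1 = 1 := by rw [hc] at hdetZ; linarith
    have hcR : (g 1 0 : ℝ) = 0 := by exact_mod_cast hc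
    rcases Int.eq_one_or_neg_one_of_mul_eq_one' hi with ⟨ha, hd⟩ | ⟨ha, hd⟩
    · have haR : (g 0 0 : ℝ) = 1 := by exact_mod_cast ha
      have hdR : (g 1 1 : ℝ) = 1 := by exact_mod_cast hd
      have hnu : ∀ u : ℍ, nu g u = u.re - g 0 1 := fun u => by
        unfold nu; rw [hcR, haR, hdR]; ring
      rw [hnu, hnu, hzre, hwre] at hflip
      have hflipZ : ¬ ((0 : ℤ) < 0 - g 0 1 ↔ (0 : ℤ) < 1 - g 0 1) := by
        intro hh
        apply hflip
        constructor
        · intro h; have := hh.mp (by exact_mod_cast h); exact_mod_cast this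
        · intro h; have := hh.mpr (by exact_mod_cast h); exact_mod_cast this
      have hb : g 0 1 = 0 := by omega
      exact h1 (eq_one_of_entries p δ ha hb hc hd)
    · have haR : (g 0 0 : ℝ) = -1 := by exact_mod_cast ha
      have hdR : (g 1 1 : ℝ) = -1 := by exact_mod_cast hd
      have hnu : ∀ u : ℍ, nu g u = u.re + g 0 1 := fun u => by
        unfold nu; rw [hcR, haR, hdR]; ring
      rw [hnu, hnu, hzre, hwre] at hflip
      have hflipZ : ¬ ((0 : ℤ) < 0 + g 0 1 ↔ (0 : ℤ) < 1 + g 0 1) := by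
        intro hh
        apply hflip
        constructor
        · intro h; have := hh.mp (by exact_mod_cast h); exact_mod_cast this
        · intro h; have := hh.mpr (by exact_mod_cast h); exact_mod_cast this
      have hb : g 0 1 = 0 := by omega
      exact h2 (eq_negG_one_of_entries p δ ha hb hc hd)
  · have hd : g 1 1 ≠ 0 := by
      intro hd
      have hi : g 0 1 * -g 1 0 = 1 := by rw [hd] at hdetZ; linarith
      have hpc : (p : ℤ) ∣ g 1 0 := by
        have := δ.2
        rw [Gamma0_mem] at this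
        exact (ZMod.intCast_zmod_eq_zero_iff_dvd _ _).mp this
      have hunit : IsUnit (g 1 0) := by
        rcases Int.eq_one_or_neg_one_of_mul_eq_one' hi with ⟨-, h⟩ | ⟨-, h⟩
        · have : g 1 0 = -1 := by linarith
          rw [this]; exact isUnit_one.neg
        · have : g 1 0 = 1 := by linarith
          rw [this]; exact isUnit_one
      have hp1 : IsUnit (p : ℤ) := isUnit_of_dvd_unit hpc hunit
      have := Int.isUnit_iff.mp hp1
      omega
    have hc1 := one_le_abs_cast hc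
    have hd1 := one_le_abs_cast hd
    have hnormal : ∀ u : ℍ, u.im = 1 → (g 1 0 : ℝ) * g 1 1 * nu g u < 0 := by
      intro u hu
      by_contra hcon
      have habn : 0 ≤ (g 1 0 : ℝ) * g 1 1 * nu g u := not_lt.mp hcon
      obtain ⟨h3, -, -, -⟩ := abnormal_bounds hdet hc1 hd1 (by rw [hu]; exact one_pos) habn
      rw [hu] at h3
      linarith
    have key : ∀ u : ℍ, (g 1 0 : ℝ) * g 1 1 * nu g u < 0 →
        (0 < nu g u ↔ (g 1 0 : ℝ) * g 1 1 < 0) := by
      intro u hu
      constructor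
      · intro h1
        by_contra h2
        have := mul_nonneg (not_lt.mp h2) h1.le
        linarith
      · intro h1
        by_contra h2
        have := mul_nonneg_of_nonpos_of_nonpos h1.le (not_lt.mp h2)
        linarith
    apply hflip
    rw [key _ (hnormal _ hzim), key _ (hnormal _ hwim)]

theorem term_T_one :
    term p 1 UpperHalfPlane.I ((ModularGroup.T : SL(2, ℤ)) • UpperHalfPlane.I) = 1 := by
  unfold term
  rw [Subgroup.coe_one, inv_one, one_smul, one_smul]
  unfold side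
  rw [UpperHalfPlane.modular_T_smul, UpperHalfPlane.vadd_re, UpperHalfPlane.I_re]
  norm_num

theorem psi2Fun_T (hp : 2 ≤ p) : psi2Fun p (Tg p) = 2 := by
  classical
  unfold psi2Fun cross
  have hne : (1 : Gamma0 p) ≠ negG p 1 := (negG_ne p 1).symm
  have hsub : (Function.support fun δ : Gamma0 p =>
      term p δ UpperHalfPlane.I (((Tg p : Gamma0 p) : SL(2, ℤ)) • UpperHalfPlane.I))
        ⊆ (({1, negG p 1} : Finset (Gamma0 p)) : Set (Gamma0 p)) := by
    intro δ hδ
    rw [Function.mem_support] at hδ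
    by_contra hcon
    simp only [Finset.coe_insert, Finset.coe_singleton, Set.mem_insert_iff,
      Set.mem_singleton_iff, not_or] at hcon
    exact hδ (term_T_eq_zero p hp δ hcon.1 hcon.2)
  rw [finsum_eq_sum_of_support_subset _ hsub, Finset.sum_pair hne, term_negG]
  have h1 : term p 1 UpperHalfPlane.I (((Tg p : Gamma0 p) : SL(2, ℤ)) • UpperHalfPlane.I) = 1 :=
    term_T_one p
  rw [h1]
  rfl

/-- **`ψ(T) = 1`.** -/
theorem psi_T (hp : 2 ≤ p) : psi p (Additive.ofMul (Tg p)) = 1 := by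
  have h := two_mul_psi p (Tg p)
  rw [psi2Fun_T p hp] at h
  linarith

end Fermat.Agent.S16.Crossing

namespace Fermat.Agent.S16

open Fermat.Agent.S16.Crossing

/-- the crossing-number homomorphism: an integer-valued character of `Γ₀(p)` with value
`1` at `T = [1 1; 0 1]` and at `T' = [1 0; p 1]`. -/
theorem Crossing.exists_crossing_hom_both (p : ℕ) [Fact p.Prime] :
    ∃ ψ : Additive (Gamma0 p) →+ ℂ, IsIntValued ψ ∧
      ψ (Additive.ofMul (gT p)) = 1 ∧ ψ (Additive.ofMul (gT' p)) = 1 := by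
  have hp : 2 ≤ p := (Fact.out : p.Prime).two_le
  set ψ : Additive (Gamma0 p) →+ ℂ := (Int.castAddHom ℂ).comp (psi p) with hψ
  have hT : ψ (Additive.ofMul (gT p)) = 1 := by
    show ((psi p (Additive.ofMul (gT p)) : ℤ) : ℂ) = 1
    rw [psi_T p hp, Int.cast_one]
  refine ⟨ψ, fun γ => ⟨psi p γ, rfl⟩, hT, ?_⟩
  rw [TransferT.hom_gT'_eq, hT]

/-- **(N6)** the crossing-number homomorphism: an integer-valued character of `Γ₀(p)` with value
`1` at `T = [1 1; 0 1]` (skeleton v2 statement). -/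
theorem exists_crossing_hom (p : ℕ) [Fact p.Prime] :
    ∃ ψ : Additive (Gamma0 p) →+ ℂ, IsIntValued ψ ∧ ψ (Additive.ofMul (gT p)) = 1 := by
  obtain ⟨ψ, h1, h2, -⟩ := Crossing.exists_crossing_hom_both p
  exact ⟨ψ, h1, h2⟩

end Fermat.Agent.S16
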