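import Mathlib
import Fermat.Prelude.Def_CuspForm_HeckeLocal
import Fermat.Prelude.Def_CuspForm_HeckeEvalForms
import Fermat.Prelude.Def_HeckeGalois_EichlerShimura
import Fermat.Prelude.Def_ModularCurve_ModularUnit
import Fermat.Agent.S23

/-!
# S16: the algebraic reduction

`TT = heckeLatticeAlgebra p ∅`, `piHom : HeckeAlg → TT` (surjective), `ev : HeckeAlg → ℤ` the
Eisenstein evaluation.  The quotient of `TT` by the image of the Eisenstein ideal has
cardinality `n` as soon as `ev (ker piHom) = n ℤ`.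
-/

set_option autoImplicit false

open ModularCurve CuspForm CongruenceSubgroup

namespace Fermat.Agent.S16.Reduce

variable (p : ℕ) [NeZero p]

/-- The structure map from the abstract Hecke algebra to the Hecke algebra of the lattice. -/
noncomputable def piHom : HeckeAlg →+* ↥(heckeLatticeAlgebra p ∅) :=
  (latticeRestrictHom p ∅).toRingHom.comp (heckeEvalForms p 2)

/-- The Eisenstein evaluation. -/
noncomputable def ev (p : ℕ) : HeckeAlg →ₐ[ℤ] ℤ := MvPolynomial.aeval (eisensteinSystem p)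

omit [NeZero p] in
theorem eisensteinIdeal_eq : eisensteinIdeal p = RingHom.ker (ev p) := rfl

omit [NeZero p] in
theorem ev_C (a : ℤ) : ev p (MvPolynomial.C a) = a := by
  simp [ev]

omit [NeZero p] in
theorem ev_heckeGen (ℓ : Nat.Primes) : ev p (heckeGen ℓ) = eisensteinSystem p ℓ := by
  simp [ev]

omit [NeZero p] in
theorem ev_X (ℓ : Nat.Primes) : ev p (MvPolynomial.X ℓ) = eisensteinSystem p ℓ := by
  simp [ev]

theorem heckeEvalForms_surjective (k : ℤ) : Function.Surjective (heckeEvalForms p k) := by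
  rintro ⟨x, hx⟩
  have key : ∀ y (hy : y ∈ Algebra.adjoin ℤ (heckeGenerators p k ∅)),
      ∃ Q, heckeEvalForms p k Q = ⟨y, hy⟩ := by
    intro y hy
    induction hy using Algebra.adjoin_induction with
    | mem y hy =>
      rcases hy with ⟨ℓ, hℓ, hℓN, hS, rfl⟩ | ⟨q, hqN, hq, hS, rfl⟩
      · refine ⟨heckeGen ⟨ℓ, hℓ⟩, ?_⟩
        rw [heckeEvalForms_heckeGen_of_not_dvd (ℓ := ⟨ℓ, hℓ⟩) hℓN]
        rfl
      · refine ⟨heckeGen ⟨q, hq⟩, ?_⟩
        rw [heckeEvalForms_heckeGen_of_dvd (q := ⟨q, hq⟩) hqN]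
        rfl
    | algebraMap r =>
      refine ⟨MvPolynomial.C r, ?_⟩
      rw [heckeEvalForms_C]
      rfl
    | add x y hx hy ihx ihy =>
      obtain ⟨Q₁, h₁⟩ := ihx
      obtain ⟨Q₂, h₂⟩ := ihy
      refine ⟨Q₁ + Q₂, ?_⟩
      rw [map_add, h₁, h₂]
      rfl
    | mul x y hx hy ihx ihy =>
      obtain ⟨Q₁, h₁⟩ := ihx
      obtain ⟨Q₂, h₂⟩ := ihy
      refine ⟨Q₁ * Q₂, ?_⟩
      rw [map_mul, h₁, h₂]
      rfl
  exact key x hx

theorem piHom_surjective : Function.Surjective (piHom p) := by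
  intro t
  obtain ⟨s, rfl⟩ := latticeRestrictHom_surjective p ∅ t
  obtain ⟨Q, rfl⟩ := heckeEvalForms_surjective p 2 s
  exact ⟨Q, rfl⟩

theorem mem_ker_piHom_iff (Q : HeckeAlg) :
    Q ∈ RingHom.ker (piHom p) ↔
      ∀ f : CuspForm (Gamma0 p) 2,
        ((heckeEvalForms p 2 Q : heckeAlgebra p 2 ∅) :
          Module.End ℂ (CuspForm (Gamma0 p) 2)) f = 0 := by
  have hint : HasIntegralStructure p 2 := Fermat.Agent.S23.result p
  have hbij := latticeRestrictHom_bijective p ∅ hint
  rw [RingHom.mem_ker]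
  constructor
  · intro h f
    have h0 : heckeEvalForms p 2 Q = 0 := by
      apply hbij.1
      rw [map_zero]
      exact h
    rw [h0]
    rfl
  · intro h
    have h0 : heckeEvalForms p 2 Q = 0 := by
      apply Subtype.ext
      apply LinearMap.ext
      intro f
      exact h f
    show latticeRestrictHom p ∅ (heckeEvalForms p 2 Q) = 0
    rw [h0, map_zero]

/-- The reduction: if `ev (ker piHom) = n ℤ` then the Eisenstein quotient has `n` elements. -/
theorem card_eq (n : ℕ) (hn : 0 < n)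
    (h1 : ∀ Q ∈ RingHom.ker (piHom p), (n : ℤ) ∣ ev p Q)
    (h2 : ∃ Q ∈ RingHom.ker (piHom p), ev p Q = n) :
    Nat.card (↥(heckeLatticeAlgebra p ∅) ⧸
        Ideal.map ((latticeRestrictHom p ∅).toRingHom.comp (heckeEvalForms p 2))
          (eisensteinIdeal p)) = n := by
  have : NeZero n := ⟨hn.ne'⟩
  have hπ := piHom_surjective p
  -- the map `ev mod n` factors through `TT`
  let ψ : HeckeAlg ⧸ RingHom.ker (piHom p) →+* ZMod n :=
    Ideal.Quotient.lift (RingHom.ker (piHom p))
      ((Int.castRingHom (ZMod n)).comp (ev p).toRingHom) (by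
        intro Q hQ
        have := h1 Q hQ
        show ((ev p Q : ℤ) : ZMod n) = 0
        exact (ZMod.intCast_zmod_eq_zero_iff_dvd _ _).mpr this)
  let e : HeckeAlg ⧸ RingHom.ker (piHom p) ≃+* ↥(heckeLatticeAlgebra p ∅) :=
    RingHom.quotientKerEquivOfSurjective hπ
  let φ : ↥(heckeLatticeAlgebra p ∅) →+* ZMod n := ψ.comp e.symm.toRingHom
  have hφ : ∀ Q, φ (piHom p Q) = ((ev p Q : ℤ) : ZMod n) := by
    intro Q
    have h3 : e.symm (piHom p Q) = Ideal.Quotient.mk _ Q := by
      rw [RingEquiv.symm_apply_eq]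
      rfl
    show ψ (e.symm (piHom p Q)) = _
    rw [h3]
    rfl
  have hφsurj : Function.Surjective φ := by
    intro z
    obtain ⟨a, rfl⟩ := ZMod.intCast_surjective z
    refine ⟨piHom p (MvPolynomial.C a), ?_⟩
    rw [hφ, ev_C]
  have hker : RingHom.ker φ =
      Ideal.map ((latticeRestrictHom p ∅).toRingHom.comp (heckeEvalForms p 2))
        (eisensteinIdeal p) := by
    obtain ⟨Q₀, hQ₀, hev₀⟩ := h2
    apply le_antisymm
    · intro t ht
      obtain ⟨Q, rfl⟩ := hπ t
      rw [RingHom.mem_ker, hφ, ZMod.intCast_zmod_eq_zero_iff_dvd] at ht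
      obtain ⟨c, hc⟩ := ht
      have h4 : piHom p Q = piHom p (Q - MvPolynomial.C c * Q₀) := by
        rw [map_sub, map_mul, (RingHom.mem_ker).mp hQ₀, mul_zero, sub_zero]
      rw [h4]
      apply Ideal.mem_map_of_mem
      rw [eisensteinIdeal_eq, RingHom.mem_ker, map_sub, map_mul, ev_C, hev₀, hc]
      ring
    · rw [Ideal.map_le_iff_le_comap]
      intro Q hQ
      rw [eisensteinIdeal_eq, RingHom.mem_ker] at hQ
      rw [Ideal.mem_comap, RingHom.mem_ker]
      have h5 := hφ Q
      rw [hQ, Int.cast_zero] at h5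
      exact h5
  rw [← hker]
  rw [Nat.card_congr (RingHom.quotientKerEquivOfSurjective hφsurj).toEquiv, Nat.card_zmod]

omit [NeZero p] in
theorem eisensteinNumerator_pos (hp : p.Prime) : 0 < eisensteinNumerator p := by
  unfold eisensteinNumerator
  have h1 : 0 < p - 1 := by have := hp.two_le; omega
  exact Nat.div_pos (Nat.le_of_dvd h1 (Nat.gcd_dvd_left _ _)) (Nat.gcd_pos_of_pos_left _ h1)

end Fermat.Agent.S16.Reduce
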