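import Mathlib
import Fermat.Agent.S16.Defs
import Fermat.Agent.S16.Reduce
import Fermat.Agent.S49.QCoeff
import Fermat.Agent.S23

/-!
# S16 (M1) + (M2): duality between the Hecke ring and the lattice of integral cusp forms

* `exists_form_of_functional`: `L → Hom(𝕋, ℤ)`, `f ↦ (t ↦ a₁(t f))` is surjective.
* `exists_congruent_form`: if `M` divides `evE Q` for every `Q` in the kernel of `piHom`, there is
  an integral cusp form congruent to the Eisenstein series modulo `M`.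
-/

set_option autoImplicit false

namespace Fermat.Agent.S16

open ModularCurve CuspForm CongruenceSubgroup ModularFormClass

namespace Duality

variable (p : ℕ)

/-- The `n`-th `q`-coefficient of an element of the integral lattice, as an integer. -/
noncomputable def aInt (n : ℕ) (f : ↥(intLattice p 2)) : ℤ :=
  Classical.choose
    ((Fermat.Agent.S49.mem_intLattice_iff (f : CuspForm (Gamma0 p) 2)).mp f.2 n)

theorem aInt_spec (n : ℕ) (f : ↥(intLattice p 2)) :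
    qCoeff ((f : CuspForm (Gamma0 p) 2)) n = (aInt p n f : ℂ) :=
  Classical.choose_spec
    ((Fermat.Agent.S49.mem_intLattice_iff (f : CuspForm (Gamma0 p) 2)).mp f.2 n)

theorem aInt_add (n : ℕ) (f g : ↥(intLattice p 2)) :
    aInt p n (f + g) = aInt p n f + aInt p n g := by
  apply Int.cast_injective (α := ℂ)
  rw [← aInt_spec, Int.cast_add, ← aInt_spec, ← aInt_spec]
  exact Fermat.Agent.S49.qCoeff_add _ _ _

theorem aInt_smul (n : ℕ) (c : ℤ) (f : ↥(intLattice p 2)) :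
    aInt p n (c • f) = c * aInt p n f := by
  apply Int.cast_injective (α := ℂ)
  rw [← aInt_spec, Int.cast_mul, ← aInt_spec]
  exact Fermat.Agent.S49.qCoeff_zsmul _ _ _

theorem aInt_zero (f : ↥(intLattice p 2)) : aInt p 0 f = 0 := by
  apply Int.cast_injective (α := ℂ)
  rw [← aInt_spec, Int.cast_zero]
  exact Fermat.Agent.S49.qCoeff_cusp_zero _

theorem eq_zero_of_aInt (f : ↥(intLattice p 2)) (h : ∀ n, 1 ≤ n → aInt p n f = 0) : f = 0 := by
  apply Subtype.ext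
  apply Fermat.Agent.S49.eq_zero_of_qCoeff_eq_zero
  intro n
  rw [aInt_spec]
  rcases Nat.eq_zero_or_pos n with h0 | h0
  · subst h0
    rw [aInt_zero, Int.cast_zero]
  · rw [h n h0, Int.cast_zero]

variable [NeZero p]

/-- The pairing `(f, t) ↦ a₁(t f)`. -/
noncomputable def Psi : ↥(intLattice p 2) →ₗ[ℤ] (↥(heckeLatticeAlgebra p ∅) →ₗ[ℤ] ℤ) :=
  LinearMap.mk₂ ℤ (fun f t => aInt p 1 ((t : Module.End ℤ ↥(intLattice p 2)) f))
    (fun f g t => by
      show aInt p 1 ((t : Module.End ℤ ↥(intLattice p 2)) (f + g)) = _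
      rw [map_add, aInt_add])
    (fun c f t => by
      show aInt p 1 ((t : Module.End ℤ ↥(intLattice p 2)) (c • f)) = _
      rw [map_smul, aInt_smul]; rfl)
    (fun f t t' => by
      show aInt p 1 (((t + t' : ↥(heckeLatticeAlgebra p ∅)) : Module.End ℤ ↥(intLattice p 2)) f) = _
      rw [Subalgebra.coe_add, LinearMap.add_apply, aInt_add])
    (fun c f t => by
      show aInt p 1 (((c • t : ↥(heckeLatticeAlgebra p ∅)) : Module.End ℤ ↥(intLattice p 2)) f) = _
      rw [Subalgebra.coe_smul, LinearMap.smul_apply, aInt_smul]; rfl)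

theorem Psi_apply (f : ↥(intLattice p 2)) (t : ↥(heckeLatticeAlgebra p ∅)) :
    Psi p f t = aInt p 1 ((t : Module.End ℤ ↥(intLattice p 2)) f) := rfl

/-- The `n`-th Hecke operator in the Hecke ring of the lattice. -/
theorem exists_Tn (n : ℕ) (hn : 1 ≤ n) : ∃ t : ↥(heckeLatticeAlgebra p ∅),
    ∀ g : ↥(intLattice p 2), aInt p 1 ((t : Module.End ℤ ↥(intLattice p 2)) g) = aInt p n g := by
  obtain ⟨t, ht, h⟩ := Fermat.Agent.S23.Reduce.exists_hecke_qCoeff p 2 (by norm_num) n hn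
  refine ⟨latticeRestrictHom p ∅ ⟨t, ht⟩, fun g => ?_⟩
  apply Int.cast_injective (α := ℂ)
  rw [← aInt_spec, ← aInt_spec]
  exact h g

theorem Psi_injective : Function.Injective (Psi p) := by
  rw [injective_iff_map_eq_zero]
  intro f hf
  apply eq_zero_of_aInt
  intro n hn
  obtain ⟨t, ht⟩ := exists_Tn p n hn
  rw [← ht f, ← Psi_apply, hf]
  rfl

/-- The other side of the pairing. -/
noncomputable def Phi : ↥(heckeLatticeAlgebra p ∅) →ₗ[ℤ] (↥(intLattice p 2) →ₗ[ℤ] ℤ) :=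
  (Psi p).flip

theorem Phi_injective : Function.Injective (Phi p) := by
  rw [injective_iff_map_eq_zero]
  intro t ht
  apply Subtype.ext
  apply LinearMap.ext
  intro f
  show (t : Module.End ℤ ↥(intLattice p 2)) f = 0
  apply eq_zero_of_aInt
  intro n hn
  obtain ⟨s, hs⟩ := exists_Tn p n hn
  rw [← hs]
  have hcomm : (s : Module.End ℤ ↥(intLattice p 2)) ((t : Module.End ℤ ↥(intLattice p 2)) f)
      = (t : Module.End ℤ ↥(intLattice p 2)) ((s : Module.End ℤ ↥(intLattice p 2)) f) := by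
    have h1 : s * t = t * s := mul_comm s t
    have h2 := congrArg (fun u : ↥(heckeLatticeAlgebra p ∅) =>
      (u : Module.End ℤ ↥(intLattice p 2)) f) h1
    simpa using h2
  rw [hcomm]
  have h3 : Phi p t ((s : Module.End ℤ ↥(intLattice p 2)) f) = 0 := by rw [ht]; rfl
  exact h3

/-- The image of `L` in `Hom(𝕋, ℤ)` has finite index. -/
theorem exists_smul_mem_range (φ : ↥(heckeLatticeAlgebra p ∅) →ₗ[ℤ] ℤ) :
    ∃ k : ℤ, k ≠ 0 ∧ ∃ f : ↥(intLattice p 2), Psi p f = k • φ := by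
  have := intLattice.moduleFinite p
  have := intLattice.moduleFree p
  have h1 : Module.finrank ℤ ↥(intLattice p 2) ≤
      Module.finrank ℤ (↥(heckeLatticeAlgebra p ∅) →ₗ[ℤ] ℤ) :=
    LinearMap.finrank_le_finrank_of_injective (Psi_injective p)
  have h2 : Module.finrank ℤ ↥(heckeLatticeAlgebra p ∅) ≤
      Module.finrank ℤ (↥(intLattice p 2) →ₗ[ℤ] ℤ) :=
    LinearMap.finrank_le_finrank_of_injective (Phi_injective p)
  have h3 : Module.finrank ℤ (↥(heckeLatticeAlgebra p ∅) →ₗ[ℤ] ℤ) =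
      Module.finrank ℤ ↥(heckeLatticeAlgebra p ∅) := by
    rw [Module.finrank_linearMap]; simp
  have h4 : Module.finrank ℤ (↥(intLattice p 2) →ₗ[ℤ] ℤ) =
      Module.finrank ℤ ↥(intLattice p 2) := by
    rw [Module.finrank_linearMap]; simp
  have h5 : Module.finrank ℤ (LinearMap.range (Psi p)) =
      Module.finrank ℤ (↥(heckeLatticeAlgebra p ∅) →ₗ[ℤ] ℤ) := by
    rw [LinearMap.finrank_range_of_inj (Psi_injective p)]; omega
  have h6 := Submodule.finrank_quotient_add_finrank (LinearMap.range (Psi p))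
  have h7 : Module.finrank ℤ
      ((↥(heckeLatticeAlgebra p ∅) →ₗ[ℤ] ℤ) ⧸ LinearMap.range (Psi p)) = 0 := by omega
  have h8 := (Module.finrank_eq_zero_iff_isTorsion).mp h7
  obtain ⟨a, ha⟩ := h8 (x := Submodule.Quotient.mk φ)
  refine ⟨(a : ℤ), nonZeroDivisors.coe_ne_zero a, ?_⟩
  have h9 : Submodule.Quotient.mk ((a : ℤ) • φ) =
      (0 : (↥(heckeLatticeAlgebra p ∅) →ₗ[ℤ] ℤ) ⧸ LinearMap.range (Psi p)) := ha
  rw [Submodule.Quotient.mk_eq_zero] at h9
  obtain ⟨f, hf⟩ := h9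
  exact ⟨f, hf⟩

/-- `L → Hom(𝕋, ℤ)` is surjective (saturation of the lattice). -/
theorem Psi_surjective : Function.Surjective (Psi p) := by
  intro φ
  obtain ⟨k, hk, f, hf⟩ := exists_smul_mem_range p φ
  have hdiv : ∀ n, ∃ c : ℤ, aInt p n f = k * c := by
    intro n
    rcases Nat.eq_zero_or_pos n with h0 | h0
    · subst h0
      exact ⟨0, by rw [aInt_zero]; ring⟩
    · obtain ⟨t, ht⟩ := exists_Tn p n h0
      refine ⟨φ t, ?_⟩
      rw [← ht f, ← Psi_apply, hf]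
      rfl
  have hkC : (k : ℂ) ≠ 0 := by exact_mod_cast hk
  let g : CuspForm (Gamma0 p) 2 := ((k : ℂ)⁻¹) • (f : CuspForm (Gamma0 p) 2)
  have hg : g ∈ intLattice p 2 := by
    rw [Fermat.Agent.S49.mem_intLattice_iff]
    intro n
    obtain ⟨c, hc⟩ := hdiv n
    refine ⟨c, ?_⟩
    rw [Fermat.Agent.S49.qCoeff_smul, aInt_spec, hc]
    push_cast
    field_simp
  have hkg : k • (⟨g, hg⟩ : ↥(intLattice p 2)) = f := by
    apply Subtype.ext
    show k • g = (f : CuspForm (Gamma0 p) 2)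
    rw [← Int.cast_smul_eq_zsmul ℂ k, smul_smul, mul_inv_cancel₀ hkC, one_smul]
  refine ⟨⟨g, hg⟩, ?_⟩
  have h1 : k • Psi p ⟨g, hg⟩ = k • φ := by rw [← map_smul, hkg, hf]
  apply LinearMap.ext
  intro t
  have h2 := LinearMap.congr_fun h1 t
  simp only [LinearMap.smul_apply, smul_eq_mul] at h2
  exact mul_left_cancel₀ hk h2

/-! ### Arithmetic of `sigmaStar` -/

/-- The divisor sum over `n ℓ` for a prime `ℓ`. -/
theorem sum_divisors_mul_prime {ℓ : ℕ} (hℓ : ℓ.Prime) {n : ℕ} (hn : n ≠ 0) (g : ℕ → ℤ) :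
    ∑ d ∈ (n * ℓ).divisors, g d + (if ℓ ∣ n then ∑ d ∈ (n / ℓ).divisors, g (d * ℓ) else 0)
      = ∑ d ∈ n.divisors, g d + ∑ d ∈ n.divisors, g (d * ℓ) := by
  classical
  have hℓ0 : ℓ ≠ 0 := hℓ.ne_zero
  -- the divisors of `n ℓ` not dividing `n`
  have hsplit : (n * ℓ).divisors = n.divisors ∪
      (n.divisors.filter (fun d => ¬ d * ℓ ∣ n)).image (· * ℓ) := by
    ext d
    simp only [Nat.mem_divisors, Finset.mem_union, Finset.mem_image, Finset.mem_filter]
    constructor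
    · rintro ⟨hd, -⟩
      by_cases hdn : d ∣ n
      · exact Or.inl ⟨hdn, hn⟩
      · right
        have hℓd : ℓ ∣ d := by
          by_contra hcon
          have hcop : Nat.Coprime d ℓ := (Nat.Coprime.symm ((Nat.Prime.coprime_iff_not_dvd hℓ).mpr hcon))
          exact hdn (hcop.dvd_of_dvd_mul_right hd)
        obtain ⟨d', rfl⟩ := hℓd
        refine ⟨d', ⟨⟨?_, hn⟩, ?_⟩, by ring⟩
        · have : ℓ * d' ∣ ℓ * n := by rwa [mul_comm ℓ n]
          exact (Nat.mul_dvd_mul_iff_left hℓ.pos).mp this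
        · rwa [mul_comm]
    · rintro (⟨hd, -⟩ | ⟨d', ⟨⟨hd', -⟩, -⟩, rfl⟩)
      · exact ⟨Dvd.dvd.mul_right hd ℓ, mul_ne_zero hn hℓ0⟩
      · exact ⟨Nat.mul_dvd_mul_right hd' ℓ, mul_ne_zero hn hℓ0⟩
  have hdisj : Disjoint n.divisors
      ((n.divisors.filter (fun d => ¬ d * ℓ ∣ n)).image (· * ℓ)) := by
    rw [Finset.disjoint_left]
    intro d hd hd2
    simp only [Finset.mem_image, Finset.mem_filter, Nat.mem_divisors] at hd hd2
    obtain ⟨d', ⟨-, hnd⟩, rfl⟩ := hd2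
    exact hnd hd.1
  have hinj : Set.InjOn (· * ℓ) (n.divisors.filter (fun d => ¬ d * ℓ ∣ n) : Set ℕ) := by
    intro a _ b _ hab
    exact Nat.eq_of_mul_eq_mul_right hℓ.pos hab
  rw [hsplit, Finset.sum_union hdisj, Finset.sum_image hinj]
  have h2 : ∑ d ∈ n.divisors, g (d * ℓ) =
      ∑ d ∈ n.divisors.filter (fun d => d * ℓ ∣ n), g (d * ℓ) +
        ∑ d ∈ n.divisors.filter (fun d => ¬ d * ℓ ∣ n), g (d * ℓ) :=
    (Finset.sum_filter_add_sum_filter_not _ _ _).symm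
  have h3 : (if ℓ ∣ n then ∑ d ∈ (n / ℓ).divisors, g (d * ℓ) else 0) =
      ∑ d ∈ n.divisors.filter (fun d => d * ℓ ∣ n), g (d * ℓ) := by
    split_ifs with hdvd
    · apply Finset.sum_congr _ (fun _ _ => rfl)
      ext d
      simp only [Nat.mem_divisors, Finset.mem_filter]
      obtain ⟨m, rfl⟩ := hdvd
      have hm : m ≠ 0 := by rintro rfl; simp at hn
      rw [Nat.mul_div_cancel_left _ hℓ.pos]
      constructor
      · rintro ⟨hdm, -⟩
        refine ⟨⟨Dvd.dvd.mul_left hdm ℓ, hn⟩, ?_⟩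
        rw [mul_comm d ℓ]
        exact Nat.mul_dvd_mul_left ℓ hdm
      · rintro ⟨-, h⟩
        rw [mul_comm d ℓ] at h
        exact ⟨(Nat.mul_dvd_mul_iff_left hℓ.pos).mp h, hm⟩
    · symm
      apply Finset.sum_eq_zero
      intro d hd
      simp only [Finset.mem_filter] at hd
      exact absurd ((Dvd.intro_left d rfl).trans hd.2) hdvd
  rw [h2, h3]
  ring

theorem sigmaStar_eq (p n : ℕ) :
    (sigmaStar p n : ℤ) = ∑ d ∈ n.divisors, (if p ∣ d then (0 : ℤ) else (d : ℤ)) := by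
  unfold sigmaStar
  rw [Finset.sum_filter]
  push_cast
  apply Finset.sum_congr rfl
  intro d _
  by_cases h : p ∣ d <;> simp [h]

theorem sigmaStar_one (p : ℕ) (hp : p.Prime) : sigmaStar p 1 = 1 := by
  unfold sigmaStar
  have h1 : ¬ p ∣ 1 := hp.one_lt.ne' ∘ Nat.dvd_one.mp
  rw [Nat.divisors_one, Finset.filter_singleton, if_pos h1, Finset.sum_singleton]

/-- `σ*(n p) = σ*(n)`. -/
theorem sigmaStar_mul_self (p : ℕ) (hp : p.Prime) {n : ℕ} (hn : n ≠ 0) :
    (sigmaStar p (n * p) : ℤ) = sigmaStar p n := by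
  have h := sum_divisors_mul_prime hp hn (fun d => if p ∣ d then (0 : ℤ) else (d : ℤ))
  have h0 : ∀ d : ℕ, (if p ∣ d * p then (0 : ℤ) else ((d * p : ℕ) : ℤ)) = 0 := by
    intro d
    rw [if_pos (Dvd.intro_left d rfl)]
  simp only [h0, Finset.sum_const_zero, ite_self, add_zero] at h
  rw [sigmaStar_eq, sigmaStar_eq]
  exact h

/-- `σ*(n ℓ) + [ℓ ∣ n] ℓ σ*(n / ℓ) = (1 + ℓ) σ*(n)` for a prime `ℓ ≠ p`. -/
theorem sigmaStar_mul_prime (p : ℕ) (hp : p.Prime) {ℓ : ℕ} (hℓ : ℓ.Prime) (hℓp : ℓ ≠ p)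
    {n : ℕ} (hn : n ≠ 0) :
    (sigmaStar p (n * ℓ) : ℤ) + (if ℓ ∣ n then (ℓ : ℤ) * sigmaStar p (n / ℓ) else 0) =
      (1 + (ℓ : ℤ)) * sigmaStar p n := by
  have h := sum_divisors_mul_prime hℓ hn (fun d => if p ∣ d then (0 : ℤ) else (d : ℤ))
  have h0 : ∀ d : ℕ, (if p ∣ d * ℓ then (0 : ℤ) else ((d * ℓ : ℕ) : ℤ)) =
      (ℓ : ℤ) * (if p ∣ d then (0 : ℤ) else (d : ℤ)) := by
    intro d
    have hiff : p ∣ d * ℓ ↔ p ∣ d := by
      constructor
      · intro hd
        rcases (Nat.Prime.dvd_mul hp).mp hd with h1 | h1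
        · exact h1
        · exact absurd ((Nat.prime_dvd_prime_iff_eq hp hℓ).mp h1).symm hℓp
      · intro hd
        exact Dvd.dvd.mul_right hd ℓ
    by_cases hd : p ∣ d
    · rw [if_pos (hiff.mpr hd), if_pos hd, mul_zero]
    · rw [if_neg (fun h' => hd (hiff.mp h')), if_neg hd]
      push_cast
      ring
  simp only [h0, ← Finset.mul_sum] at h
  simp only [sigmaStar_eq]
  by_cases hdvd : ℓ ∣ n
  · rw [if_pos hdvd] at h ⊢
    linear_combination h
  · rw [if_neg hdvd] at h ⊢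
    linear_combination h

/-! ### The Eisenstein character modulo `M` and its lift -/

theorem piHom_surjective' : Function.Surjective (piHom p) := Reduce.piHom_surjective p

/-- `evE mod M` factors through the Hecke ring when `M` divides `evE` on the kernel. -/
theorem exists_theta (M : ℕ) (h : ∀ Q ∈ RingHom.ker (piHom p), (M : ℤ) ∣ evE p Q) :
    ∃ θ : ↥(heckeLatticeAlgebra p ∅) →+* ZMod M,
      ∀ Q, θ (piHom p Q) = ((evE p Q : ℤ) : ZMod M) := by
  have hπ := piHom_surjective' p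
  let ψ : HeckeAlg ⧸ RingHom.ker (piHom p) →+* ZMod M :=
    Ideal.Quotient.lift (RingHom.ker (piHom p))
      ((Int.castRingHom (ZMod M)).comp (evE p)) (by
        intro Q hQ
        show ((evE p Q : ℤ) : ZMod M) = 0
        exact (ZMod.intCast_zmod_eq_zero_iff_dvd _ _).mpr (h Q hQ))
  let e : HeckeAlg ⧸ RingHom.ker (piHom p) ≃+* ↥(heckeLatticeAlgebra p ∅) :=
    RingHom.quotientKerEquivOfSurjective hπ
  refine ⟨ψ.comp e.symm.toRingHom, fun Q => ?_⟩
  have h3 : e.symm (piHom p Q) = Ideal.Quotient.mk _ Q := by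
    rw [RingEquiv.symm_apply_eq]
    rfl
  show ψ (e.symm (piHom p Q)) = _
  rw [h3]
  rfl

/-- Every additive map from the (free) Hecke ring to `ZMod M` lifts to a linear form. -/
theorem exists_lift (M : ℕ) (θ : ↥(heckeLatticeAlgebra p ∅) →+ ZMod M) :
    ∃ φ : ↥(heckeLatticeAlgebra p ∅) →ₗ[ℤ] ℤ, ∀ t, ((φ t : ℤ) : ZMod M) = θ t := by
  let b := Module.Free.chooseBasis ℤ ↥(heckeLatticeAlgebra p ∅)
  choose c hc using fun i => ZMod.intCast_surjective (θ (b i))
  refine ⟨b.constr ℤ c, fun t => ?_⟩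
  have h1 : (Int.castAddHom (ZMod M)).toIntLinearMap ∘ₗ (b.constr ℤ c) = θ.toIntLinearMap := by
    apply b.ext
    intro i
    simp [hc]
  exact LinearMap.congr_fun h1 t

theorem coe_piHom_apply (Q : HeckeAlg) (g : ↥(intLattice p 2)) :
    ((((piHom p Q : ↥(heckeLatticeAlgebra p ∅)) : Module.End ℤ ↥(intLattice p 2)) g :
        ↥(intLattice p 2)) : CuspForm (Gamma0 p) 2) =
      ((heckeEvalForms p 2 Q : heckeAlgebra p 2 ∅) :
        Module.End ℂ (CuspForm (Gamma0 p) 2)) (g : CuspForm (Gamma0 p) 2) := rfl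

/-- coefficients of `U_ℓ g` (`ℓ ∣ p`) -/
theorem aInt_U {ℓ : ℕ} (hℓ : ℓ.Prime) (hℓp : ℓ ∣ p) (g : ↥(intLattice p 2)) (n : ℕ) :
    aInt p n (((piHom p (MvPolynomial.X ⟨ℓ, hℓ⟩) : ↥(heckeLatticeAlgebra p ∅)) :
      Module.End ℤ ↥(intLattice p 2)) g) = aInt p (n * ℓ) g := by
  apply Int.cast_injective (α := ℂ)
  rw [← aInt_spec, ← aInt_spec, coe_piHom_apply]
  have h1 : heckeEvalForms p 2 (MvPolynomial.X ⟨ℓ, hℓ⟩) =
      heckeAlgebra.U hℓ hℓp (Set.notMem_empty _) :=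
    heckeEvalForms_heckeGen_of_dvd (N := p) (k := 2) (q := ⟨ℓ, hℓ⟩) hℓp
  rw [h1, heckeAlgebra.coe_U]
  exact Fermat.Agent.S49.qCoeff_heckeULin hℓ hℓp _ n

/-- coefficients of `T_ℓ g` (`ℓ ∤ p`) -/
theorem aInt_T {ℓ : ℕ} (hℓ : ℓ.Prime) (hℓp : ¬ ℓ ∣ p) (g : ↥(intLattice p 2)) (n : ℕ) :
    aInt p n (((piHom p (MvPolynomial.X ⟨ℓ, hℓ⟩) : ↥(heckeLatticeAlgebra p ∅)) :
      Module.End ℤ ↥(intLattice p 2)) g) =
      aInt p (n * ℓ) g + (if ℓ ∣ n then (ℓ : ℤ) * aInt p (n / ℓ) g else 0) := by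
  apply Int.cast_injective (α := ℂ)
  rw [← aInt_spec, coe_piHom_apply]
  have h1 : heckeEvalForms p 2 (MvPolynomial.X ⟨ℓ, hℓ⟩) =
      heckeAlgebra.T hℓ hℓp (Set.notMem_empty _) :=
    heckeEvalForms_heckeGen_of_not_dvd (N := p) (k := 2) (ℓ := ⟨ℓ, hℓ⟩) hℓp
  rw [h1, heckeAlgebra.coe_T, Fermat.Agent.S49.qCoeff_heckeTLin hℓ hℓp _ n]
  rw [aInt_spec]
  by_cases hdvd : ℓ ∣ n
  · rw [if_pos hdvd, if_pos hdvd, aInt_spec]
    push_cast
    norm_num
  · rw [if_neg hdvd, if_neg hdvd]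
    push_cast
    ring

omit [NeZero p] in
theorem evE_X (ℓ : Nat.Primes) : evE p (MvPolynomial.X ℓ) = eisensteinSystem p ℓ := by
  simp [evE]

/-- The key congruence: `a_n(t f) ≡ σ*(n) θ(t)` for the form `f` dual to a lift of `θ`. -/
theorem aInt_congr (hp : p.Prime) (M : ℕ) (θ : ↥(heckeLatticeAlgebra p ∅) →+* ZMod M)
    (hθ : ∀ Q, θ (piHom p Q) = ((evE p Q : ℤ) : ZMod M))
    (f : ↥(intLattice p 2))
    (hf : ∀ t : ↥(heckeLatticeAlgebra p ∅),
      ((aInt p 1 ((t : Module.End ℤ ↥(intLattice p 2)) f) : ℤ) : ZMod M) = θ t) :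
    ∀ n : ℕ, 1 ≤ n → ∀ t : ↥(heckeLatticeAlgebra p ∅),
      ((aInt p n ((t : Module.End ℤ ↥(intLattice p 2)) f) : ℤ) : ZMod M) =
        ((sigmaStar p n : ℤ) : ZMod M) * θ t := by
  intro n
  induction n using Nat.strong_induction_on with
  | _ n ih =>
    intro hn t
    rcases Nat.lt_or_ge 1 n with h1 | h1
    swap
    · have hn1 : n = 1 := le_antisymm h1 hn
      subst hn1
      rw [hf t, sigmaStar_one p hp]
      simp
    · set ℓ := n.minFac with hℓ_def
      have hℓ : ℓ.Prime := Nat.minFac_prime (by omega)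
      obtain ⟨n', hn'⟩ : ℓ ∣ n := Nat.minFac_dvd n
      have hn'0 : n' ≠ 0 := by rintro rfl; omega
      have hn'lt : n' < n := by
        rw [hn']
        exact lt_mul_of_one_lt_left (Nat.pos_of_ne_zero hn'0) hℓ.one_lt
      have hnn : n = n' * ℓ := by rw [hn', mul_comm]
      -- the Hecke operator at `ℓ`, applied after `t`
      set X : ↥(heckeLatticeAlgebra p ∅) := piHom p (MvPolynomial.X ⟨ℓ, hℓ⟩) with hX
      have hmul : ((X * t : ↥(heckeLatticeAlgebra p ∅)) : Module.End ℤ ↥(intLattice p 2)) f =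
          (X : Module.End ℤ ↥(intLattice p 2)) ((t : Module.End ℤ ↥(intLattice p 2)) f) := rfl
      have ih1 := ih n' hn'lt (Nat.pos_of_ne_zero hn'0) (X * t)
      rw [hmul, map_mul, hθ, evE_X] at ih1
      by_cases hℓp : ℓ ∣ p
      · -- `ℓ = p`
        have hℓeq : ℓ = p := (Nat.prime_dvd_prime_iff_eq hℓ hp).mp hℓp
        rw [aInt_U p hℓ hℓp] at ih1
        rw [eisensteinSystem_of_dvd (N := p) (ℓ := ⟨ℓ, hℓ⟩) hℓp] at ih1
        have h2 : (sigmaStar p (n' * ℓ) : ℤ) = sigmaStar p n' := by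
          rw [hℓeq]
          exact sigmaStar_mul_self p hp hn'0
        rw [hnn, ih1, h2]
        push_cast
        ring
      · have hℓne : ℓ ≠ p := fun h => hℓp (h ▸ dvd_rfl)
        rw [aInt_T p hℓ hℓp] at ih1
        rw [eisensteinSystem_of_not_dvd (N := p) (ℓ := ⟨ℓ, hℓ⟩) hℓp] at ih1
        have h2 := sigmaStar_mul_prime p hp hℓ hℓne hn'0
        have h2' := congrArg (fun x : ℤ => (x : ZMod M)) h2
        by_cases hdvd : ℓ ∣ n'
        · rw [if_pos hdvd] at ih1 h2'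
          have hlt2 : n' / ℓ < n := lt_of_le_of_lt (Nat.div_le_self _ _) hn'lt
          have hpos2 : 1 ≤ n' / ℓ := by
            obtain ⟨m, rfl⟩ := hdvd
            rw [Nat.mul_div_cancel_left _ hℓ.pos]
            rcases Nat.eq_zero_or_pos m with h0 | h0
            · subst h0; simp at hn'0
            · exact h0
          have ih2 := ih (n' / ℓ) hlt2 hpos2 t
          rw [hnn]
          push_cast at ih1 ih2 h2' ⊢
          rw [ih2] at ih1
          linear_combination ih1 - θ t * h2'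
        · rw [if_neg hdvd] at ih1 h2'
          rw [hnn]
          push_cast at ih1 h2' ⊢
          linear_combination ih1 - θ t * h2'

end Duality

variable (p : ℕ) [Fact p.Prime]

/-- (M1) `L → Hom(𝕋, ℤ)`, `f ↦ (t ↦ a₁(t f))` is surjective. -/
theorem exists_form_of_functional (φ : ↥(heckeLatticeAlgebra p ∅) →ₗ[ℤ] ℤ) :
    ∃ f : ↥(intLattice p 2), ∀ t : ↥(heckeLatticeAlgebra p ∅),
      qCoeff (((t : Module.End ℤ ↥(intLattice p 2)) f : ↥(intLattice p 2)) :
        CuspForm (Gamma0 p) 2) 1 = ((φ t : ℤ) : ℂ) := by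
  obtain ⟨f, hf⟩ := Duality.Psi_surjective p φ
  refine ⟨f, fun t => ?_⟩
  rw [Duality.aInt_spec, ← Duality.Psi_apply, hf]

/-- (M2) an integral cusp form congruent to the Eisenstein series modulo `M`. -/
theorem exists_congruent_form (M : ℕ) (_hM : 0 < M)
    (h : ∀ Q ∈ RingHom.ker (piHom p), (M : ℤ) ∣ evE p Q) :
    ∃ (f : CuspForm (Gamma0 p) 2) (a : ℕ → ℤ), (∀ k, qCoeff f k = (a k : ℂ)) ∧
      ∀ k, 0 < k → (M : ℤ) ∣ a k - (sigmaStar p k : ℤ) := by
  have hp : p.Prime := Fact.out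
  obtain ⟨θ, hθ⟩ := Duality.exists_theta p M h
  obtain ⟨φ, hφ⟩ := Duality.exists_lift p M θ.toAddMonoidHom
  obtain ⟨f, hf⟩ := Duality.Psi_surjective p φ
  have hf' : ∀ t : ↥(heckeLatticeAlgebra p ∅),
      ((Duality.aInt p 1 ((t : Module.End ℤ ↥(intLattice p 2)) f) : ℤ) : ZMod M) = θ t := by
    intro t
    rw [← Duality.Psi_apply, hf]
    exact hφ t
  have hcong := Duality.aInt_congr p hp M θ hθ f hf'
  refine ⟨(f : CuspForm (Gamma0 p) 2), fun k => Duality.aInt p k f,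
    fun k => Duality.aInt_spec p k f, fun k hk => ?_⟩
  have h1 := hcong k hk 1
  rw [map_one, mul_one] at h1
  have h2 : ((1 : ↥(heckeLatticeAlgebra p ∅)) : Module.End ℤ ↥(intLattice p 2)) f = f := rfl
  rw [h2] at h1
  rw [← ZMod.intCast_zmod_eq_zero_iff_dvd]
  push_cast
  rw [h1]
  simp

end Fermat.Agent.S16
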