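import Mathlib
import Fermat.Agent.S16.Defs
import Fermat.Agent.S22.ConjDef
import Fermat.Prelude.Thm_CongruenceSubgroup_one_mem_strictPeriods_Gamma0

/-!
# S16 (M3): the Eisenstein series of weight 2 on `Γ₀(p)`

`EisSeries.eisForm p : ModularForm (Gamma0 p) 2` with `eisForm p z = (p E₂(p z) - E₂(z)) / 24`
(`EisSeries.eisForm_apply`), and its `q`-expansion `(p - 1)/24 + ∑ σ*(n) qⁿ`
(`EisSeries.qCoeff_eisForm_zero`, `EisSeries.qCoeff_eisForm_pos`), giving `exists_eisenstein`.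

Invariance: `E₂ ∣ γ = E₂ - κ D₂ γ` and `D₂ γ' ∣ diag(p,1) = D₂ γ` when `diag(p,1) γ = γ' diag(p,1)`.
Boundedness at all cusps: `diag(p,1) γ = γ' [a b; 0 d]` for every `γ ∈ SL(2,ℤ)`, and `D₂ γ'` is
bounded at `i∞`.
-/

set_option autoImplicit false

namespace Fermat.Agent.S16

open ModularCurve CuspForm CongruenceSubgroup UpperHalfPlane ModularForm ModularFormClass
open EisensteinSeries
open scoped MatrixGroups ModularForm Manifold

namespace EisSeries

open P2MW.S_ModularForm_heckeT_slash_eq_self_of_mem_Gamma0.ModularForm.HeckeSlashInvariance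

/-- `D₂ γ` is bounded at `i∞`. -/
theorem isBoundedAtImInfty_D2 (γ : SL(2, ℤ)) : IsBoundedAtImInfty (D2 γ) := by
  rw [isBoundedAtImInfty_iff]
  refine ⟨2 * Real.pi, 1, fun z hz => ?_⟩
  simp only [D2]
  by_cases hc : γ 1 0 = 0
  · simp [hc]; positivity
  · have h1 : (1 : ℝ) ≤ |((γ 1 0 : ℤ) : ℝ)| := by
      have : (1 : ℤ) ≤ |γ 1 0| := Int.one_le_abs hc
      exact_mod_cast this
    have him : (denom γ z).im = ((γ 1 0 : ℤ) : ℝ) * z.im := by
      rw [ModularGroup.denom_apply]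
      simp
    have h2 : |((γ 1 0 : ℤ) : ℝ)| * z.im ≤ ‖denom γ z‖ := by
      calc |((γ 1 0 : ℤ) : ℝ)| * z.im = |(denom γ z).im| := by
            rw [him, abs_mul, abs_of_pos z.im_pos]
        _ ≤ ‖denom γ z‖ := Complex.abs_im_le_norm _
    have hpos : 0 < |((γ 1 0 : ℤ) : ℝ)| * z.im := by
      have := z.im_pos
      positivity
    rw [norm_div]
    have hnum : ‖2 * (Real.pi : ℂ) * Complex.I * ((γ 1 0 : ℤ) : ℂ)‖ =
        2 * Real.pi * |((γ 1 0 : ℤ) : ℝ)| := by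
      simp [abs_of_pos Real.pi_pos]
    rw [hnum, div_le_iff₀ (lt_of_lt_of_le hpos h2)]
    have : |((γ 1 0 : ℤ) : ℝ)| * 1 ≤ |((γ 1 0 : ℤ) : ℝ)| * z.im := by
      apply mul_le_mul_of_nonneg_left hz (abs_nonneg _)
    nlinarith [Real.pi_pos]

/-- `E₂ ∣ γ` is bounded at `i∞` for every `γ ∈ SL(2,ℤ)`. -/
theorem isBoundedAtImInfty_E2_slash (γ : SL(2, ℤ)) :
    IsBoundedAtImInfty (E2 ∣[(2 : ℤ)] γ) := by
  rw [E2_slash_action]
  exact isBoundedAtImInfty_E2.sub ((isBoundedAtImInfty_D2 γ).const_smul_left _)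

/-- the function `(p E₂(pz) - E₂(z)) / 24` -/
noncomputable def eisFun (p : ℕ) : ℍ → ℂ :=
  (24 : ℂ)⁻¹ • (E2 ∣[(2 : ℤ)] heckeDiagMatrix p - E2)

theorem eisFun_apply {p : ℕ} (hp : p ≠ 0) (z : ℍ) :
    eisFun p z = ((p : ℂ) * E2 (heckeDiagMatrix p • z) - E2 z) / 24 := by
  simp only [eisFun, Pi.smul_apply, Pi.sub_apply, smul_eq_mul,
    slash_heckeDiagMatrix_apply 2 hp]
  norm_num
  ring

theorem eisFun_mdiff (p : ℕ) : MDiff (eisFun p) := by
  have h1 : MDiff (E2 ∣[(2 : ℤ)] heckeDiagMatrix p) := E2_mdifferentiable.slash 2 _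
  exact (h1.sub E2_mdifferentiable).const_smul _

theorem D2_slash_diag {p : ℕ} (hp : p ≠ 0) (g g' : SL(2, ℤ)) (e : ℤ) (he : g 1 0 = p * e)
    (h10 : g' 1 0 = e)
    (hmat : heckeDiagMatrix p * Matrix.SpecialLinearGroup.mapGL ℝ g =
      Matrix.SpecialLinearGroup.mapGL ℝ g' * heckeDiagMatrix p) :
    D2 g' ∣[(2 : ℤ)] heckeDiagMatrix p = D2 g := by
  have h11 : g' 1 1 = g 1 1 := by
    have := congrArg (fun M : GL (Fin 2) ℝ => (M : Matrix (Fin 2) (Fin 2) ℝ) 1 1) hmat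
    simp [Matrix.mul_apply, Fin.sum_univ_two, hp] at this
    exact_mod_cast this.symm
  funext z
  rw [slash_heckeDiagMatrix_apply 2 hp]
  simp only [D2]
  rw [ModularGroup.denom_apply, ModularGroup.denom_apply, coe_heckeDiagMatrix_smul hp, h10, h11,
    he]
  have hp' : (p : ℂ) ≠ 0 := by exact_mod_cast hp
  have hden : ((g 1 0 : ℤ) : ℂ) * (z : ℂ) + ((g 1 1 : ℤ) : ℂ) ≠ 0 := by
    have := UpperHalfPlane.denom_ne_zero (g : GL (Fin 2) ℝ) z
    rwa [← ModularGroup.denom_apply]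
  rw [he] at hden
  push_cast at hden ⊢
  have hden' : (e : ℂ) * ((p : ℂ) * (z : ℂ)) + ((g 1 1 : ℤ) : ℂ) ≠ 0 := by
    convert hden using 1; ring
  field_simp

theorem eisFun_slash {p : ℕ} (hp : p ≠ 0) (g : SL(2, ℤ)) (hg : g ∈ Gamma0 p) :
    eisFun p ∣[(2 : ℤ)] g = eisFun p := by
  obtain ⟨e, he⟩ : (p : ℤ) ∣ g 1 0 :=
    (ZMod.intCast_zmod_eq_zero_iff_dvd _ _).mp (Gamma0_mem.mp hg)
  obtain ⟨g', h10, hmat⟩ := heckeDiagMatrix_mul_of_eq' hp g e he
  have hD := D2_slash_diag hp g g' e he h10 hmat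
  have h1 : (E2 ∣[(2 : ℤ)] heckeDiagMatrix p) ∣[(2 : ℤ)] g =
      E2 ∣[(2 : ℤ)] heckeDiagMatrix p - (1 / (2 * riemannZeta 2)) • D2 g := by
    rw [ModularForm.SL_slash, ← SlashAction.slash_mul]
    change E2 ∣[(2 : ℤ)] (heckeDiagMatrix p * Matrix.SpecialLinearGroup.mapGL ℝ g) = _
    rw [hmat, SlashAction.slash_mul]
    change (E2 ∣[(2 : ℤ)] g') ∣[(2 : ℤ)] heckeDiagMatrix p = _
    rw [E2_slash_action, sub_eq_add_neg, SlashAction.add_slash, SlashAction.neg_slash,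
      ModularForm.smul_slash, σ_heckeDiagMatrix, hD]
    simp [sub_eq_add_neg]
  rw [eisFun, ModularForm.SL_smul_slash, sub_eq_add_neg, SlashAction.add_slash,
    SlashAction.neg_slash, h1, E2_slash_action]
  congr 1
  abel

/-- `eisFun p ∣ γ` is bounded at `i∞` for every `γ ∈ SL(2,ℤ)`. -/
theorem isBoundedAtImInfty_eisFun_slash (p : ℕ) [NeZero p] (γ : SL(2, ℤ)) :
    IsBoundedAtImInfty (eisFun p ∣[(2 : ℤ)] γ) := by
  obtain ⟨a, d, b, γ', had, ha, hd, -, h00, h01, h10, h11⟩ :=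
    Fermat.Agent.S22.ConjDef.exists_decomp p γ
  have haR : (0 : ℝ) < a := by exact_mod_cast ha
  have hdR : (0 : ℝ) < d := by exact_mod_cast hd
  have hmat : ModularForm.heckeDiagMatrix p * Matrix.SpecialLinearGroup.mapGL ℝ γ =
      Matrix.SpecialLinearGroup.mapGL ℝ γ' *
        ModularForm.upperTriangularGL a b d (mul_pos haR hdR).ne' := by
    have e00 := congrArg (Int.cast : ℤ → ℝ) h00
    have e01 := congrArg (Int.cast : ℤ → ℝ) h01
    have e10 := congrArg (Int.cast : ℤ → ℝ) h10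
    have e11 := congrArg (Int.cast : ℤ → ℝ) h11
    push_cast at e00 e01 e10 e11
    ext i j
    fin_cases i <;> fin_cases j <;>
      simp [NeZero.ne p, Matrix.mul_apply, Fin.sum_univ_two]
    · linear_combination e00
    · linear_combination e01
    · linear_combination e10
    · linear_combination e11
  have h1 : (E2 ∣[(2 : ℤ)] heckeDiagMatrix p) ∣[(2 : ℤ)] γ =
      (E2 ∣[(2 : ℤ)] γ') ∣[(2 : ℤ)] ModularForm.upperTriangularGL a b d (mul_pos haR hdR).ne' := by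
    rw [ModularForm.SL_slash, ← SlashAction.slash_mul]
    change E2 ∣[(2 : ℤ)] (heckeDiagMatrix p * Matrix.SpecialLinearGroup.mapGL ℝ γ) = _
    rw [hmat, SlashAction.slash_mul]
    rfl
  have h2 : IsBoundedAtImInfty ((E2 ∣[(2 : ℤ)] heckeDiagMatrix p) ∣[(2 : ℤ)] γ) := by
    rw [h1]
    refine (isBoundedAtImInfty_E2_slash γ').slash 2 ?_
    simp [ModularForm.upperTriangularGL]
  rw [eisFun, ModularForm.SL_smul_slash, sub_eq_add_neg, SlashAction.add_slash,
    SlashAction.neg_slash, ← sub_eq_add_neg]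
  exact (h2.sub (isBoundedAtImInfty_E2_slash γ)).const_smul_left _

theorem gamma0_le_SL (p : ℕ) : (Gamma0 p : Subgroup (GL (Fin 2) ℝ)) ≤ 𝒮ℒ := by
  rintro _ ⟨g, -, rfl⟩
  exact ⟨g, rfl⟩

/-- The Eisenstein series `(p E₂(pz) - E₂(z))/24` as a modular form of weight 2 on `Γ₀(p)`. -/
noncomputable def eisForm (p : ℕ) [NeZero p] : ModularForm (Gamma0 p) 2 where
  toFun := eisFun p
  slash_action_eq' γ hγ := by
    obtain ⟨g, hg, rfl⟩ := hγ
    exact eisFun_slash (NeZero.ne p) g hg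
  holo' := eisFun_mdiff p
  bdd_at_cusps' {c} hc := by
    have hc' : IsCusp c 𝒮ℒ := hc.mono (gamma0_le_SL p)
    rw [OnePoint.isBoundedAt_iff_forall_SL2Z hc']
    intro γ _
    exact isBoundedAtImInfty_eisFun_slash p γ

theorem eisForm_apply (p : ℕ) [NeZero p] (z : ℍ) :
    eisForm p z = ((p : ℂ) * E2 (heckeDiagMatrix p • z) - E2 z) / 24 :=
  eisFun_apply (NeZero.ne p) z

open scoped ArithmeticFunction.sigma in
/-- `σ(n) = σ*(n) + p σ(n/p)` (the last term only if `p ∣ n`). -/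
theorem sigma_eq_sigmaStar_add {p : ℕ} (hp : p ≠ 0) (n : ℕ) :
    σ 1 n = sigmaStar p n + if p ∣ n then p * σ 1 (n / p) else 0 := by
  rw [ArithmeticFunction.sigma_one_apply, sigmaStar,
    ← Finset.sum_filter_not_add_sum_filter n.divisors (fun d => p ∣ d)]
  congr 1
  split_ifs with hpn
  · obtain ⟨m, rfl⟩ := hpn
    rw [Nat.mul_div_cancel_left m (Nat.pos_of_ne_zero hp), ArithmeticFunction.sigma_one_apply,
      Finset.mul_sum]
    rcases Nat.eq_zero_or_pos m with rfl | hm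
    · simp
    have himg : (p * m).divisors.filter (fun d => p ∣ d) = m.divisors.image (fun d => p * d) := by
      ext d
      simp only [Finset.mem_filter, Nat.mem_divisors, Finset.mem_image]
      constructor
      · rintro ⟨⟨hd, hne⟩, e, rfl⟩
        exact ⟨e, ⟨(Nat.mul_dvd_mul_iff_left (Nat.pos_of_ne_zero hp)).mp hd, hm.ne'⟩, rfl⟩
      · rintro ⟨e, ⟨he, -⟩, rfl⟩
        exact ⟨⟨Nat.mul_dvd_mul_left p he, Nat.mul_ne_zero hp hm.ne'⟩, Dvd.intro _ rfl⟩
    rw [himg, Finset.sum_image]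
    intro x _ y _ hxy
    exact Nat.eq_of_mul_eq_mul_left (Nat.pos_of_ne_zero hp) hxy
  · apply Finset.sum_eq_zero
    intro d hd
    rw [Finset.mem_filter, Nat.mem_divisors] at hd
    exact absurd (hd.2.trans hd.1.1) hpn

open scoped ArithmeticFunction.sigma in
/-- coefficients of `E₂` -/
noncomputable def cE2 (m : ℕ) : ℂ := if m = 0 then 1 else -24 * (σ 1 m : ℂ)

/-- coefficients of `E₂(p z)` -/
noncomputable def cE2p (p : ℕ) (n : ℕ) : ℂ := if p ∣ n then cE2 (n / p) else 0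

theorem hasSum_E2 (τ : ℍ) :
    HasSum (fun m : ℕ => cE2 m • Function.Periodic.qParam 1 τ ^ m) (E2 τ) := by
  have := hasSum_qExpansion_E2 (z := τ)
  simpa only [Function.Periodic.qParam, Complex.ofReal_one, div_one, cE2] using this

theorem hasSum_E2_diag {p : ℕ} (hp : p ≠ 0) (τ : ℍ) :
    HasSum (fun n : ℕ => cE2p p n • Function.Periodic.qParam 1 τ ^ n)
      (E2 (heckeDiagMatrix p • τ)) := by
  have h := hasSum_E2 (heckeDiagMatrix p • τ)
  have hq : Function.Periodic.qParam 1 ((heckeDiagMatrix p • τ : ℍ) : ℂ) =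
      Function.Periodic.qParam 1 τ ^ p := by
    rw [coe_heckeDiagMatrix_smul hp]
    simp only [Function.Periodic.qParam, Complex.ofReal_one, div_one]
    rw [← Complex.exp_nat_mul]
    congr 1
    ring
  have hinj : Function.Injective (fun m : ℕ => p * m) := fun a b hab =>
    Nat.eq_of_mul_eq_mul_left (Nat.pos_of_ne_zero hp) hab
  rw [← hinj.hasSum_iff]
  · convert h using 2 with m
    simp only [Function.comp_apply, cE2p, dvd_mul_right, if_true,
      Nat.mul_div_cancel_left m (Nat.pos_of_ne_zero hp)]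
    rw [hq, ← pow_mul]
  · intro n hn
    have : ¬ p ∣ n := by
      rintro ⟨m, rfl⟩
      exact hn ⟨m, rfl⟩
    simp [cE2p, this]

/-- the coefficients of `eisForm p` -/
noncomputable def cEis (p : ℕ) (n : ℕ) : ℂ := ((p : ℂ) * cE2p p n - cE2 n) / 24

theorem hasSum_eisForm (p : ℕ) [NeZero p] (τ : ℍ) :
    HasSum (fun n : ℕ => cEis p n • Function.Periodic.qParam 1 τ ^ n) (eisForm p τ) := by
  rw [eisForm_apply]
  have h1 := (hasSum_E2_diag (NeZero.ne p) τ).mul_left (p : ℂ)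
  have h2 := (h1.sub (hasSum_E2 τ)).div_const 24
  have h3 : (fun n : ℕ => cEis p n • Function.Periodic.qParam 1 (τ : ℂ) ^ n) =
      fun n : ℕ => ((p : ℂ) * (cE2p p n • Function.Periodic.qParam 1 (τ : ℂ) ^ n) -
        cE2 n • Function.Periodic.qParam 1 (τ : ℂ) ^ n) / 24 := by
    funext n
    simp only [cEis, smul_eq_mul]
    ring
  rw [h3]
  exact h2

theorem cEis_zero (p : ℕ) : cEis p 0 = ((p : ℂ) - 1) / 24 := by
  simp [cEis, cE2p, cE2]

theorem cEis_pos {p : ℕ} (hp : p ≠ 0) {n : ℕ} (hn : 0 < n) : cEis p n = (sigmaStar p n : ℂ) := by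
  have hs := sigma_eq_sigmaStar_add hp n
  have hs' : ((ArithmeticFunction.sigma 1 n : ℕ) : ℂ) =
      (sigmaStar p n : ℂ) + ((if p ∣ n then p * ArithmeticFunction.sigma 1 (n / p) else 0 : ℕ) : ℂ) := by
    exact_mod_cast congrArg (Nat.cast : ℕ → ℂ) hs
  simp only [cEis, cE2p, cE2, hn.ne', if_false]
  rw [hs']
  split_ifs with hpn h0
  · exfalso
    obtain ⟨m, rfl⟩ := hpn
    rw [Nat.mul_div_cancel_left m (Nat.pos_of_ne_zero hp)] at h0
    subst h0
    simp at hn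
  · push_cast
    ring
  · push_cast
    ring

theorem qCoeff_eisForm_zero (p : ℕ) [NeZero p] : qCoeff (eisForm p) 0 = ((p : ℂ) - 1) / 24 := by
  rw [qCoeff, ← ModularFormClass.qExpansion_coeff_unique one_pos
    (CongruenceSubgroup.one_mem_strictPeriods_Gamma0 p) (hasSum_eisForm p) 0, cEis_zero]

theorem qCoeff_eisForm_pos (p : ℕ) [NeZero p] {n : ℕ} (hn : 0 < n) :
    qCoeff (eisForm p) n = (sigmaStar p n : ℂ) := by
  rw [qCoeff, ← ModularFormClass.qExpansion_coeff_unique one_pos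
    (CongruenceSubgroup.one_mem_strictPeriods_Gamma0 p) (hasSum_eisForm p) n,
    cEis_pos (NeZero.ne p) hn]

end EisSeries

/-- (M3) the Eisenstein series of weight 2 on `Γ₀(p)` with its `q`-expansion. -/
theorem exists_eisenstein (p : ℕ) [Fact p.Prime] : ∃ E : ModularForm (Gamma0 p) 2,
    qCoeff E 0 = ((p : ℂ) - 1) / 24 ∧ ∀ k, 0 < k → qCoeff E k = (sigmaStar p k : ℂ) := by
  have : NeZero p := ⟨(Fact.out : p.Prime).ne_zero⟩
  exact ⟨EisSeries.eisForm p, EisSeries.qCoeff_eisForm_zero p,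
    fun k hk => EisSeries.qCoeff_eisForm_pos p hk⟩

end Fermat.Agent.S16
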