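import Mathlib
import Fermat.Prelude.Def_ModularForm_HeckeOperator
import Fermat.Prelude.Thm_UpperHalfPlane_qCoeff_heckeT
import Fermat.Prelude.Thm_UpperHalfPlane_qCoeff_heckeU
import Fermat.Prelude.Thm_UpperHalfPlane_eq_of_forall_qCoeff_eq
import Fermat.Prelude.Thm_ModularForm_mdifferentiable_heckeT
import Fermat.Prelude.Thm_ModularForm_mdifferentiable_heckeU
import Fermat.Prelude.Thm_ModularForm_periodic_heckeT_comp_ofComplex
import Fermat.Prelude.Thm_ModularForm_periodic_heckeU_comp_ofComplex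
import Fermat.Prelude.Thm_ModularForm_isBoundedAtImInfty_heckeT
import Fermat.Prelude.Thm_ModularForm_isBoundedAtImInfty_heckeU

/-!
# The weight two Eisenstein function of prime level: `q`-expansion and Hecke eigenvalues

`Ep p z = p * E2 (p z) - E2 z`, its `q`-expansion, holomorphy, periodicity, boundedness at
infinity, and the Hecke eigenvalue relations `T_l Ep = (1 + l) Ep`, `U_p Ep = Ep`.
-/

namespace Fermat.Agent.S16.EpBase

open UpperHalfPlane hiding I
open ModularForm EisensteinSeries Complex CongruenceSubgroup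
open scoped MatrixGroups ModularForm Real Manifold Topology ArithmeticFunction.sigma

/-! ### The Hecke relation for `σ₁` -/

theorem geom_hecke (l e : ℕ) :
    (∑ k ∈ Finset.range (e + 2 + 1), l ^ k) + l * ∑ k ∈ Finset.range (e + 1), l ^ k
      = (1 + l) * ∑ k ∈ Finset.range (e + 1 + 1), l ^ k := by
  rw [Finset.sum_range_succ _ (e + 2), Finset.sum_range_succ _ (e + 1)]
  ring

theorem sigma_hecke {l : ℕ} (hl : l.Prime) {n : ℕ} (hn : n ≠ 0) :
    σ 1 (n * l) + (if l ∣ n then l * σ 1 (n / l) else 0) = (1 + l) * σ 1 n := by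
  obtain ⟨e, m, hm, rfl⟩ := Nat.exists_eq_pow_mul_and_not_dvd hn l hl.ne_one
  have hcop : ∀ k : ℕ, Nat.Coprime (l ^ k) m := fun k =>
    Nat.Coprime.pow_left k ((Nat.Prime.coprime_iff_not_dvd hl).2 hm)
  have hmul : ∀ k : ℕ, σ 1 (l ^ k * m) = σ 1 (l ^ k) * σ 1 m := fun k =>
    ArithmeticFunction.isMultiplicative_sigma.map_mul_of_coprime (hcop k)
  have h1 : l ^ e * m * l = l ^ (e + 1) * m := by ring
  rw [h1, hmul, hmul]
  rcases e with _ | e
  · have hnd : ¬ l ∣ l ^ 0 * m := by simpa using hm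
    rw [if_neg hnd]
    have h0 : σ 1 (l ^ (0 + 1)) = 1 + l := by
      rw [ArithmeticFunction.sigma_one_apply_prime_pow hl]
      simp [Finset.sum_range_succ]
    have h00 : σ 1 (l ^ 0) = 1 := by simp
    rw [h0, h00]
    ring
  · have hd : l ∣ l ^ (e + 1) * m := Dvd.intro_left _ (by ring : l ^ e * m * l = l ^ (e + 1) * m) |>.trans (dvd_refl _)
    rw [if_pos hd]
    have h2 : l ^ (e + 1) * m / l = l ^ e * m := by
      rw [show l ^ (e + 1) * m = l * (l ^ e * m) by ring]
      exact Nat.mul_div_cancel_left _ hl.pos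
    rw [h2, hmul, ArithmeticFunction.sigma_one_apply_prime_pow hl,
      ArithmeticFunction.sigma_one_apply_prime_pow hl,
      ArithmeticFunction.sigma_one_apply_prime_pow hl]
    have := geom_hecke l e
    calc (∑ k ∈ Finset.range (e + 1 + 1 + 1), l ^ k) * σ 1 m
          + l * ((∑ k ∈ Finset.range (e + 1), l ^ k) * σ 1 m)
        = ((∑ k ∈ Finset.range (e + 2 + 1), l ^ k) + l * ∑ k ∈ Finset.range (e + 1), l ^ k)
            * σ 1 m := by ring
      _ = (1 + l) * ((∑ k ∈ Finset.range (e + 1 + 1), l ^ k) * σ 1 m) := by rw [this]; ring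


/-! ### The function `E_p` and its `q`-expansion -/

/-- The Eisenstein function `E_p(z) = p E₂(pz) - E₂(z)` of weight 2 on `Γ₀(p)`. -/
noncomputable def Ep (p : ℕ) : ℍ → ℂ := fun z => (p : ℂ) * E2 (heckeDiagMatrix p • z) - E2 z

/-- The `q`-expansion coefficients of `E_p`. -/
noncomputable def cE (p : ℕ) (m : ℕ) : ℂ :=
  if m = 0 then (p : ℂ) - 1
  else 24 * ((σ 1 m : ℂ) - if p ∣ m then (p : ℂ) * (σ 1 (m / p) : ℂ) else 0)

theorem hasSum_E2_pmul (p : ℕ) (hp : p ≠ 0) (z : ℍ) :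
    HasSum (fun k : ℕ => (if p ∣ k then (if k / p = 0 then (1 : ℂ) else -24 * (σ 1 (k / p) : ℂ))
      else 0) • cexp (2 * π * I * z) ^ k) (E2 (heckeDiagMatrix p • z)) := by
  have h1 := hasSum_qExpansion_E2 (z := heckeDiagMatrix p • z)
  have hq : cexp (2 * π * I * ((heckeDiagMatrix p • z : ℍ) : ℂ)) = cexp (2 * π * I * z) ^ p := by
    rw [coe_heckeDiagMatrix_smul hp, ← Complex.exp_nat_mul]
    congr 1
    ring
  rw [hq] at h1
  have hinj : Function.Injective (fun m : ℕ => p * m) := fun a b h =>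
    Nat.eq_of_mul_eq_mul_left (Nat.pos_of_ne_zero hp) h
  refine (Function.Injective.hasSum_iff hinj ?_).mp ?_
  · intro k hk
    have hnd : ¬ p ∣ k := fun ⟨m, hm⟩ => hk ⟨m, hm.symm⟩
    simp [hnd]
  · convert h1 using 2 with m
    simp only [Function.comp_apply, dvd_mul_right, if_true,
      Nat.mul_div_cancel_left _ (Nat.pos_of_ne_zero hp), ← pow_mul]

theorem hasSum_Ep (p : ℕ) (hp : p ≠ 0) (z : ℍ) :
    HasSum (fun m : ℕ => cE p m • Function.Periodic.qParam 1 z ^ m) (Ep p z) := by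
  have h1 := (hasSum_E2_pmul p hp z).mul_left (p : ℂ)
  have h2 := hasSum_qExpansion_E2 (z := z)
  have h3 := h1.sub h2
  have hq : Function.Periodic.qParam 1 (z : ℂ) = cexp (2 * π * I * z) := by
    simp [Function.Periodic.qParam]
  rw [hq]
  have h4 : (fun m : ℕ => cE p m • cexp (2 * π * I * z) ^ m) = fun b : ℕ =>
      (p : ℂ) * (if p ∣ b then if b / p = 0 then (1 : ℂ) else -24 * (σ 1 (b / p) : ℂ) else 0) •
        cexp (2 * π * I * z) ^ b -
        (if b = 0 then (1 : ℂ) else -24 * (σ 1 b : ℂ)) • cexp (2 * π * I * z) ^ b := by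
    funext m
    simp only [cE, smul_eq_mul]
    rcases Nat.eq_zero_or_pos m with rfl | hm
    · simp
    · have hm0 : m ≠ 0 := hm.ne'
      by_cases hd : p ∣ m
      · have hmp : m / p ≠ 0 := by
          obtain ⟨t, rfl⟩ := hd
          rw [Nat.mul_div_cancel_left _ (Nat.pos_of_ne_zero hp)]
          rintro rfl
          simp at hm0
        simp only [hm0, hd, if_true, if_false, hmp]
        ring
      · simp only [hm0, hd, if_false]
        ring
  rw [h4]
  exact h3


/-! ### Analytic properties of `E_p` -/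

theorem periodic_of_hasSum {f : ℍ → ℂ} {c : ℕ → ℂ}
    (hf : ∀ τ : ℍ, HasSum (fun m : ℕ => c m • Function.Periodic.qParam 1 τ ^ m) (f τ)) :
    Function.Periodic (f ∘ ofComplex) 1 := by
  intro w
  by_cases hw : 0 < w.im
  · have hw1 : 0 < (w + 1).im := by simpa using hw
    simp only [Function.comp_apply, ofComplex_apply_of_im_pos hw, ofComplex_apply_of_im_pos hw1]
    refine (hf ⟨w + 1, hw1⟩).unique ?_
    have h2 := hf ⟨w, hw⟩
    have hq : Function.Periodic.qParam 1 (w + 1) = Function.Periodic.qParam 1 w := by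
      simp only [Function.Periodic.qParam, ofReal_one, div_one, mul_add, Complex.exp_add, mul_one,
        Complex.exp_two_pi_mul_I]
    simpa only [UpperHalfPlane.coe_mk, hq] using h2
  · have hw' : w.im ≤ 0 := not_lt.mp hw
    have hw1 : (w + 1).im ≤ 0 := by simpa using hw'
    simp only [Function.comp_apply]
    rw [ofComplex_apply_eq_of_im_nonpos hw1 hw']

theorem Ep_periodic (p : ℕ) (hp : p ≠ 0) : Function.Periodic (Ep p ∘ ofComplex) 1 :=
  periodic_of_hasSum (hasSum_Ep p hp)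

theorem Ep_bdd (p : ℕ) (hp : p ≠ 0) : IsBoundedAtImInfty (Ep p) :=
  isBoundedAtImInfty_of_hasSum_qExpansion one_pos (hasSum_Ep p hp)

theorem Ep_eq (p : ℕ) (hp : p ≠ 0) : Ep p = E2 ∣[(2 : ℤ)] heckeDiagMatrix p - E2 := by
  funext z
  simp only [Ep, Pi.sub_apply, slash_heckeDiagMatrix_apply 2 hp]
  norm_num

theorem Ep_mdiff (p : ℕ) (hp : p ≠ 0) : MDiff (Ep p) := by
  rw [Ep_eq p hp]
  exact (E2_mdifferentiable.slash 2 _).sub E2_mdifferentiable

theorem qCoeff_of_hasSum {f : ℍ → ℂ} {c : ℕ → ℂ} (hhol : MDiff f)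
    (hf : ∀ τ : ℍ, HasSum (fun m : ℕ => c m • Function.Periodic.qParam 1 τ ^ m) (f τ)) (m : ℕ) :
    ModularFormClass.qCoeff f m = c m := by
  have hper : Function.Periodic (f ∘ ofComplex) ((1 : ℝ) : ℂ) := by
    simpa using periodic_of_hasSum hf
  have hbdd : IsBoundedAtImInfty f := isBoundedAtImInfty_of_hasSum_qExpansion one_pos hf
  have han : AnalyticAt ℂ (cuspFunction 1 f) 0 :=
    analyticAt_cuspFunction_zero one_pos hper hhol hbdd
  have h1 := (hasFPowerSeriesOnBall_cuspFunction one_pos han hf).hasFPowerSeriesAt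
  have h2 := (hasFPowerSeriesOnBall_cuspFunction one_pos han
    (hasSum_qExpansion one_pos hper hhol hbdd)).hasFPowerSeriesAt
  have h3 := congr_arg (FormalMultilinearSeries.coeff · m) (h1.eq_formalMultilinearSeries h2)
  simp only [FormalMultilinearSeries.coeff_ofScalars] at h3
  exact h3.symm

theorem qCoeff_Ep (p : ℕ) (hp : p ≠ 0) (m : ℕ) : ModularFormClass.qCoeff (Ep p) m = cE p m :=
  qCoeff_of_hasSum (Ep_mdiff p hp) (hasSum_Ep p hp) m

theorem tendsto_of_hasSum {f : ℍ → ℂ} {c : ℕ → ℂ} (hhol : MDiff f)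
    (hf : ∀ τ : ℍ, HasSum (fun m : ℕ => c m • Function.Periodic.qParam 1 τ ^ m) (f τ)) :
    Filter.Tendsto f atImInfty (𝓝 (c 0)) := by
  have hper : Function.Periodic (f ∘ ofComplex) ((1 : ℝ) : ℂ) := by
    simpa using periodic_of_hasSum hf
  have hbdd : IsBoundedAtImInfty f := isBoundedAtImInfty_of_hasSum_qExpansion one_pos hf
  have han : AnalyticAt ℂ (cuspFunction 1 f) 0 :=
    analyticAt_cuspFunction_zero one_pos hper hhol hbdd
  have h0 : cuspFunction 1 f 0 = c 0 := by
    have h1 := (hasFPowerSeriesOnBall_cuspFunction one_pos han hf).hasFPowerSeriesAt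
    have := h1.coeff_zero 1
    simpa [FormalMultilinearSeries.coeff_ofScalars] using this.symm
  have hcomp : (cuspFunction 1 f ∘ fun τ : ℍ => Function.Periodic.qParam 1 τ) = f := by
    funext τ
    simpa using eq_cuspFunction τ one_ne_zero hper
  have := han.continuousAt.tendsto.comp (qParam_tendsto_atImInfty one_pos)
  rw [hcomp, h0] at this
  exact this

theorem tendsto_Ep (p : ℕ) (hp : p ≠ 0) :
    Filter.Tendsto (Ep p) atImInfty (𝓝 ((p : ℂ) - 1)) := by
  have := tendsto_of_hasSum (Ep_mdiff p hp) (hasSum_Ep p hp)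
  simpa [cE] using this


/-! ### `E_p` is a Hecke eigenfunction with the Eisenstein eigenvalues -/

theorem sigma_hecke_C {l : ℕ} (hl : l.Prime) {n : ℕ} (hn : n ≠ 0) :
    ((σ 1 (n * l) : ℕ) : ℂ) + (if l ∣ n then (l : ℂ) * ((σ 1 (n / l) : ℕ) : ℂ) else 0)
      = (1 + (l : ℂ)) * ((σ 1 n : ℕ) : ℂ) := by
  have h := sigma_hecke hl hn
  by_cases hd : l ∣ n
  · rw [if_pos hd] at h ⊢
    exact_mod_cast h
  · rw [if_neg hd] at h ⊢
    exact_mod_cast h

theorem cE_heckeT {p l : ℕ} (hp : p ≠ 0) (hl : l.Prime) (hcop : Nat.Coprime l p) (n : ℕ) :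
    coeffHeckeT 2 l (cE p) n = (1 + (l : ℂ)) * cE p n := by
  have hl0 : l ≠ 0 := hl.ne_zero
  have hpow : ((l : ℂ)) ^ ((2 : ℤ) - 1) = l := by norm_num
  rw [coeffHeckeT_apply, hpow]
  rcases Nat.eq_zero_or_pos n with rfl | hn
  · simp [cE]
    ring
  have hn0 : n ≠ 0 := hn.ne'
  have hnl0 : n * l ≠ 0 := Nat.mul_ne_zero hn0 hl0
  by_cases hpn : p ∣ n
  · obtain ⟨n', rfl⟩ := hpn
    have hn'0 : n' ≠ 0 := by rintro rfl; simp at hn0
    have hppos : 0 < p := Nat.pos_of_ne_zero hp
    have h1 : p ∣ p * n' * l := Dvd.dvd.mul_right (dvd_mul_right p n') l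
    have h2 : p * n' * l / p = n' * l := by
      rw [mul_assoc, Nat.mul_div_cancel_left _ hppos]
    have h3 : p * n' / p = n' := Nat.mul_div_cancel_left _ hppos
    have hS := sigma_hecke_C hl hn0
    have hS' := sigma_hecke_C hl hn'0
    have hdvd : l ∣ p * n' ↔ l ∣ n' := Nat.Coprime.dvd_mul_left hcop
    by_cases hd : l ∣ n'
    · have hd' : l ∣ p * n' := hdvd.mpr hd
      obtain ⟨t, rfl⟩ := hd
      have ht0 : t ≠ 0 := by rintro rfl; simp at hn'0
      have h4 : p * (l * t) / l = p * t := by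
        rw [show p * (l * t) = l * (p * t) by ring, Nat.mul_div_cancel_left _ hl.pos]
      have h5 : l * t / l = t := Nat.mul_div_cancel_left _ hl.pos
      have h6 : p * t ≠ 0 := Nat.mul_ne_zero hp ht0
      have h7 : p * t / p = t := Nat.mul_div_cancel_left _ hppos
      rw [if_pos hd'] at hS ⊢
      rw [if_pos (dvd_mul_right l t)] at hS'
      rw [h4] at hS ⊢
      rw [h5] at hS'
      simp only [cE, hnl0, hn0, h6, if_false, h1, if_true, h2, dvd_mul_right, h3, h7]
      linear_combination 24 * hS - 24 * (p : ℂ) * hS'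
    · have hd' : ¬ l ∣ p * n' := fun h => hd (hdvd.mp h)
      rw [if_neg hd'] at hS ⊢
      rw [if_neg hd] at hS'
      simp only [cE, hnl0, hn0, if_false, h1, if_true, h2, dvd_mul_right, h3]
      linear_combination 24 * hS - 24 * (p : ℂ) * hS'
  · have h1 : ¬ p ∣ n * l := fun h => hpn ((Nat.Coprime.dvd_mul_right hcop.symm).mp h)
    have hS := sigma_hecke_C hl hn0
    by_cases hd : l ∣ n
    · obtain ⟨t, rfl⟩ := hd
      have ht0 : t ≠ 0 := by rintro rfl; simp at hn0
      have h5 : l * t / l = t := Nat.mul_div_cancel_left _ hl.pos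
      have h6 : ¬ p ∣ t := fun h => hpn (Dvd.dvd.mul_left h l)
      rw [if_pos (dvd_mul_right l t)] at hS ⊢
      rw [h5] at hS ⊢
      simp only [cE, hnl0, hn0, ht0, if_false, h1, hpn, h6]
      linear_combination 24 * hS
    · rw [if_neg hd] at hS ⊢
      simp only [cE, hnl0, hn0, if_false, h1, hpn]
      linear_combination 24 * hS

theorem cE_heckeU {p : ℕ} (hp : p.Prime) (n : ℕ) : coeffHeckeU p (cE p) n = cE p n := by
  rw [coeffHeckeU_apply]
  rcases Nat.eq_zero_or_pos n with rfl | hn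
  · simp
  have hn0 : n ≠ 0 := hn.ne'
  have hnp0 : n * p ≠ 0 := Nat.mul_ne_zero hn0 hp.ne_zero
  have h1 : p ∣ n * p := dvd_mul_left p n
  have h2 : n * p / p = n := Nat.mul_div_cancel _ hp.pos
  have hS := sigma_hecke_C hp hn0
  by_cases hd : p ∣ n
  · rw [if_pos hd] at hS
    simp only [cE, hnp0, hn0, if_false, h1, if_true, h2, hd]
    linear_combination 24 * hS
  · rw [if_neg hd] at hS
    simp only [cE, hnp0, hn0, if_false, h1, if_true, h2, hd]
    linear_combination 24 * hS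


theorem heckeT_Ep {p l : ℕ} (hp : p ≠ 0) (hl : l.Prime) (hcop : Nat.Coprime l p) :
    heckeT 2 l (Ep p) = (1 + (l : ℂ)) • Ep p := by
  have hper := Ep_periodic p hp
  have hhol := Ep_mdiff p hp
  have hbdd := Ep_bdd p hp
  have hsum : ∀ τ : ℍ, HasSum (fun m : ℕ => ((1 + (l : ℂ)) * cE p m) •
      Function.Periodic.qParam 1 τ ^ m) (((1 + (l : ℂ)) • Ep p) τ) := by
    intro τ
    simpa [mul_assoc] using (hasSum_Ep p hp τ).mul_left (1 + (l : ℂ))
  have hhol' : MDiff ((1 + (l : ℂ)) • Ep p) := hhol.const_smul _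
  refine UpperHalfPlane.eq_of_forall_qCoeff_eq (ModularForm.periodic_heckeT_comp_ofComplex hper 2 l)
    (ModularForm.mdifferentiable_heckeT hhol 2 l) (ModularForm.isBoundedAtImInfty_heckeT hbdd 2 l)
    (periodic_of_hasSum hsum) hhol' (isBoundedAtImInfty_of_hasSum_qExpansion one_pos hsum)
    fun n => ?_
  rw [UpperHalfPlane.qCoeff_heckeT hper hhol hbdd 2 hl.ne_zero, qCoeff_of_hasSum hhol' hsum]
  have : ModularFormClass.qCoeff (Ep p) = cE p := funext (qCoeff_Ep p hp)
  rw [this, cE_heckeT hp hl hcop]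

theorem heckeU_Ep {p : ℕ} (hp : p.Prime) : heckeU 2 p (Ep p) = Ep p := by
  have hp0 := hp.ne_zero
  have hper := Ep_periodic p hp0
  have hhol := Ep_mdiff p hp0
  have hbdd := Ep_bdd p hp0
  refine UpperHalfPlane.eq_of_forall_qCoeff_eq (ModularForm.periodic_heckeU_comp_ofComplex hper 2 p)
    (ModularForm.mdifferentiable_heckeU hhol 2 p) (ModularForm.isBoundedAtImInfty_heckeU hbdd 2 p)
    hper hhol hbdd fun n => ?_
  rw [UpperHalfPlane.qCoeff_heckeU hper hhol hbdd 2 hp0]
  have : ModularFormClass.qCoeff (Ep p) = cE p := funext (qCoeff_Ep p hp0)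
  rw [this, cE_heckeU hp]

end Fermat.Agent.S16.EpBase
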