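import Mathlib
import Fermat.Agent.S16.EpBase

/-!
# `Γ₀(p)`-invariance of the weight two Eisenstein function and of `Δ(pz)/Δ(z)`

For `γ ∈ Γ₀(p)` the matrix `γ* = diag(p,1) γ diag(p,1)⁻¹` lies in `SL(2,ℤ)`.  We deduce the
weight two transformation law of `Ep p z = p E₂(pz) - E₂(z)` from the quasi-modularity of `E₂`,
and the invariance of `Δ(pz)/Δ(z)`.
-/

namespace Fermat.Agent.S16.EpSlash

open UpperHalfPlane hiding I
open ModularForm EisensteinSeries Complex CongruenceSubgroup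
open scoped MatrixGroups ModularForm Real Manifold Topology

open Fermat.Agent.S16.EpBase

/-- For `γ ∈ Γ₀(p)`, the entries of the conjugate `γ* = diag(p,1) γ diag(p,1)⁻¹ ∈ SL(2,ℤ)`. -/
theorem exists_conj (p : ℕ) (γ : SL(2, ℤ)) (hγ : γ ∈ Gamma0 p) :
    ∃ γ' : SL(2, ℤ), γ 1 0 = p * γ' 1 0 ∧ γ' 1 1 = γ 1 1 ∧ γ' 0 0 = γ 0 0 ∧
      γ' 0 1 = p * γ 0 1 := by
  have hdvd : (p : ℤ) ∣ γ 1 0 := (ZMod.intCast_zmod_eq_zero_iff_dvd _ _).mp (Gamma0_mem.mp hγ)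
  obtain ⟨c', hc'⟩ := hdvd
  have hdet : γ 0 0 * γ 1 1 - γ 0 1 * γ 1 0 = 1 := by
    have := γ.det_coe
    rw [Matrix.det_fin_two] at this
    exact this
  refine ⟨⟨!![γ 0 0, p * γ 0 1; c', γ 1 1], ?_⟩, ?_, ?_, ?_, ?_⟩
  · rw [Matrix.det_fin_two_of]
    rw [hc'] at hdet
    linear_combination hdet
  · simpa using hc'
  · simp
  · simp
  · simp

theorem cd_ne_zero (γ : SL(2, ℤ)) (z : ℍ) : ((γ 1 0 : ℤ) : ℂ) * z + ((γ 1 1 : ℤ) : ℂ) ≠ 0 := by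
  have := UpperHalfPlane.denom_ne_zero
    (Matrix.SpecialLinearGroup.toGL ((Matrix.SpecialLinearGroup.map (Int.castRingHom ℝ)) γ)) z
  rwa [ModularGroup.denom_apply] at this

/-- `diag(p,1) (γ z) = γ* (diag(p,1) z)`. -/
theorem smul_conj (p : ℕ) (hp : p ≠ 0) (γ γ' : SL(2, ℤ)) (h10 : γ 1 0 = p * γ' 1 0)
    (h11 : γ' 1 1 = γ 1 1) (h00 : γ' 0 0 = γ 0 0) (h01 : γ' 0 1 = p * γ 0 1) (z : ℍ) :
    heckeDiagMatrix p • (γ • z) = γ' • (heckeDiagMatrix p • z) := by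
  apply UpperHalfPlane.ext
  have h1 := cd_ne_zero γ z
  have h2 := cd_ne_zero γ' (heckeDiagMatrix p • z)
  rw [coe_heckeDiagMatrix_smul hp] at h2
  rw [coe_heckeDiagMatrix_smul hp, coe_specialLinearGroup_apply, coe_specialLinearGroup_apply,
    coe_heckeDiagMatrix_smul hp]
  simp only [algebraMap_int_eq, eq_intCast, Complex.ofReal_intCast] at h1 h2 ⊢
  rw [h11] at h2 ⊢
  rw [h00, h01, h10] at *
  push_cast at h1 h2 ⊢
  field_simp

/-- The transformation law of `E₂` under `SL(2,ℤ)`, pointwise. -/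
theorem E2_smul (γ : SL(2, ℤ)) (z : ℍ) :
    E2 (γ • z) = ((γ 1 0 : ℤ) * (z : ℂ) + (γ 1 1 : ℤ)) ^ 2 * E2 z
      - (1 / (2 * riemannZeta 2)) * (2 * π * I * (γ 1 0 : ℤ)) * ((γ 1 0 : ℤ) * (z : ℂ) + (γ 1 1 : ℤ)) := by
  have h := congr_fun (E2_slash_action γ) z
  have hne := cd_ne_zero γ z
  rw [SL_slash_apply, ModularGroup.denom_apply] at h
  simp only [Pi.sub_apply, Pi.smul_apply, D2, smul_eq_mul, ModularGroup.denom_apply] at h
  rw [zpow_neg, show ((2 : ℤ)) = ((2 : ℕ) : ℤ) from rfl, zpow_natCast] at h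
  field_simp at h ⊢
  linear_combination h

/-- The weight two transformation law of `Ep p` under `Γ₀(p)`, pointwise. -/
theorem Ep_smul (p : ℕ) (hp : p ≠ 0) (γ : SL(2, ℤ)) (hγ : γ ∈ Gamma0 p) (z : ℍ) :
    Ep p (γ • z) = ((γ 1 0 : ℤ) * (z : ℂ) + (γ 1 1 : ℤ)) ^ 2 * Ep p z := by
  obtain ⟨γ', h10, h11, h00, h01⟩ := exists_conj p γ hγ
  simp only [Ep]
  rw [smul_conj p hp γ γ' h10 h11 h00 h01 z, E2_smul γ' (heckeDiagMatrix p • z), E2_smul γ z,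
    coe_heckeDiagMatrix_smul hp, h11, h10]
  push_cast
  ring

/-- `Ep p` is slash invariant of weight two under `Γ₀(p)`. -/
theorem Ep_slash (p : ℕ) (hp : p ≠ 0) (γ : SL(2, ℤ)) (hγ : γ ∈ Gamma0 p) :
    Ep p ∣[(2 : ℤ)] γ = Ep p := by
  funext z
  rw [slash_action_eq'_iff, Ep_smul p hp γ hγ z]
  norm_cast

/-- The transformation law of `Δ` under `SL(2,ℤ)`, pointwise. -/
theorem discriminant_smul (γ : SL(2, ℤ)) (z : ℍ) :
    discriminant (γ • z) = ((γ 1 0 : ℤ) * (z : ℂ) + (γ 1 1 : ℤ)) ^ 12 * discriminant z := by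
  have h : discriminant ∣[(12 : ℤ)] γ = discriminant :=
    SlashInvariantForm.slash_action_generators_SL2Z discriminant_S_invariant
      discriminant_T_invariant γ
  have h2 := (slash_action_eq'_iff 12 discriminant γ z).mp (congr_fun h z)
  rw [h2]
  norm_cast

/-- The function `Δ(pz)/Δ(z)`. -/
noncomputable def uQ (p : ℕ) : ℍ → ℂ := fun z =>
  discriminant (heckeDiagMatrix p • z) / discriminant z

theorem uQ_ne_zero (p : ℕ) (z : ℍ) : uQ p z ≠ 0 :=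
  div_ne_zero (discriminant_ne_zero _) (discriminant_ne_zero _)

/-- `Δ(pz)/Δ(z)` is invariant under `Γ₀(p)`. -/
theorem uQ_smul (p : ℕ) (hp : p ≠ 0) (γ : SL(2, ℤ)) (hγ : γ ∈ Gamma0 p) (z : ℍ) :
    uQ p (γ • z) = uQ p z := by
  obtain ⟨γ', h10, h11, h00, h01⟩ := exists_conj p γ hγ
  have h1 := cd_ne_zero γ z
  simp only [uQ]
  rw [smul_conj p hp γ γ' h10 h11 h00 h01 z, discriminant_smul γ' (heckeDiagMatrix p • z),
    discriminant_smul γ z, coe_heckeDiagMatrix_smul hp, h11]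
  have h3 : ((γ' 1 0 : ℤ) : ℂ) * ((p : ℂ) * (z : ℂ)) + ((γ 1 1 : ℤ) : ℂ)
      = ((γ 1 0 : ℤ) : ℂ) * (z : ℂ) + ((γ 1 1 : ℤ) : ℂ) := by
    rw [h10]
    push_cast
    ring
  rw [h3]
  have h4 := discriminant_ne_zero z
  field_simp

end Fermat.Agent.S16.EpSlash
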