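import Mathlib
import Fermat.Agent.S16.EpSlash
import Fermat.Agent.S21.Primitive

/-!
# The Eisenstein primitive: `exp(2πi F) = Δ(pz)/Δ(z)`

`Ep p z = p E₂(pz) - E₂(z)` has a primitive `F` on the upper half plane with
`exp(2πi F(z)) = Δ(pz)/Δ(z)`.  Its periods over `Γ₀(p)` are integers, its period along the
translation `T` is `p - 1`, and `Ep p` is a Hecke eigenfunction with the Eisenstein eigenvalues.
-/

namespace Fermat.Agent.S16.EtaQuot

open UpperHalfPlane hiding I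
open ModularForm EisensteinSeries Complex CongruenceSubgroup
open scoped MatrixGroups ModularForm Real Manifold Topology

open Fermat.Agent.S16.EpBase Fermat.Agent.S16.EpSlash

/-- A primitive of `Ep p` on the upper half plane. -/
theorem exists_prim (p : ℕ) (hp : p ≠ 0) :
    ∃ F : ℍ → ℂ, ∀ τ : ℍ, HasDerivAt (F ∘ ofComplex) (Ep p τ) τ := by
  have hfc : DifferentiableOn ℂ (Ep p ∘ ofComplex) Fermat.Agent.S22ES.UH :=
    mdifferentiable_iff.mp (Ep_mdiff p hp)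
  obtain ⟨G0, hG0⟩ := Fermat.Agent.S22ES.exists_primitive hfc
  refine ⟨fun τ => G0 τ, fun τ => ?_⟩
  have h1 : ((fun τ : ℍ => G0 τ) ∘ ofComplex) =ᶠ[𝓝 (τ : ℂ)] G0 :=
    Filter.eventuallyEq_of_mem (Fermat.Agent.S22ES.isOpen_UH.mem_nhds τ.2) (fun w hw => by
      simp only [Function.comp_apply, ofComplex_apply_of_im_pos hw])
  have h2 := hG0 τ τ.2
  simp only [Function.comp_apply, ofComplex_apply] at h2
  exact h2.congr_of_eventuallyEq h1

/-- The derivative of the Dedekind eta function in terms of `E₂`. -/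
theorem hasDerivAt_eta (z : ℍ) : HasDerivAt η (π * I / 12 * E2 z * η z) z := by
  have hz : (z : ℂ) ∈ upperHalfPlaneSet := z.2
  have hd := (differentiableAt_eta_of_mem_upperHalfPlaneSet hz).hasDerivAt
  have hl := logDeriv_eta_eq_E2 z
  rw [logDeriv_apply] at hl
  have hne : η (z : ℂ) ≠ 0 := eta_ne_zero hz
  rwa [(div_eq_iff hne).mp hl] at hd

/-- `exp(2πi F)/(Δ(pz)/Δ(z))` has zero derivative for every primitive `F` of `Ep p`. -/
theorem hasDerivAt_exp_div_uQ (p : ℕ) (hp : p ≠ 0) {F : ℍ → ℂ}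
    (hF : ∀ τ : ℍ, HasDerivAt (F ∘ ofComplex) (Ep p τ) τ) (τ : ℍ) :
    HasDerivAt ((fun z : ℍ => cexp (2 * π * I * F z) / uQ p z) ∘ ofComplex) 0 τ := by
  have hσc : ((heckeDiagMatrix p • τ : ℍ) : ℂ) = p * τ := coe_heckeDiagMatrix_smul hp τ
  have h1 : HasDerivAt (fun w : ℂ => η ((p : ℂ) * w))
      (π * I / 12 * E2 (heckeDiagMatrix p • τ) * η ((p : ℂ) * τ) * p) τ := by
    have h0 := hasDerivAt_eta (heckeDiagMatrix p • τ)
    rw [hσc] at h0
    have h00 : HasDerivAt (fun w : ℂ => (p : ℂ) * w) (p : ℂ) (τ : ℂ) := by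
      simpa using (hasDerivAt_id (τ : ℂ)).const_mul (p : ℂ)
    exact HasDerivAt.comp (τ : ℂ) h0 h00
  have h2 := hasDerivAt_eta τ
  have h3 := h1.pow 24
  have h4 := h2.pow 24
  have ha : η (τ : ℂ) ≠ 0 := eta_ne_zero τ.2
  have hb : η ((p : ℂ) * τ) ≠ 0 := by
    rw [← hσc]
    exact eta_ne_zero (heckeDiagMatrix p • τ).2
  have h5 := h3.div h4 (pow_ne_zero 24 ha)
  have h6 : HasDerivAt (fun w : ℂ => cexp (2 * π * I * (F ∘ ofComplex) w))
      (cexp (2 * π * I * (F ∘ ofComplex) τ) * (2 * π * I * Ep p τ)) τ :=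
    ((hF τ).const_mul (2 * π * I)).cexp
  have hq : η ((p : ℂ) * τ) ^ 24 / η (τ : ℂ) ^ 24 ≠ 0 :=
    div_ne_zero (pow_ne_zero _ hb) (pow_ne_zero _ ha)
  have h7 := h6.div h5 hq
  have heq : ((fun z : ℍ => cexp (2 * π * I * F z) / uQ p z) ∘ ofComplex) =ᶠ[𝓝 (τ : ℂ)]
      fun w : ℂ => cexp (2 * π * I * (F ∘ ofComplex) w) / (η ((p : ℂ) * w) ^ 24 / η w ^ 24) := by
    refine Filter.eventuallyEq_of_mem (Fermat.Agent.S22ES.isOpen_UH.mem_nhds τ.2) (fun w hw => ?_)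
    simp only [Function.comp_apply, uQ, ModularForm.discriminant, ofComplex_apply_of_im_pos hw,
      coe_heckeDiagMatrix_smul hp, UpperHalfPlane.coe_mk]
  refine (h7.congr_of_eventuallyEq heq).congr_deriv ?_
  simp only [Ep, Pi.pow_apply, Pi.div_apply]
  field_simp
  ring

/-- A primitive `F` of `Ep p` with `exp(2πi F) = Δ(pz)/Δ(z)`. -/
theorem exists_F (p : ℕ) (hp : p ≠ 0) :
    ∃ F : ℍ → ℂ, (∀ τ : ℍ, HasDerivAt (F ∘ ofComplex) (Ep p τ) τ) ∧
      ∀ τ : ℍ, cexp (2 * π * I * F τ) = uQ p τ := by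
  obtain ⟨F0, hF0⟩ := exists_prim p hp
  have hconst := Fermat.Agent.S21.Primitive.const_of_hasDerivAt_zero
    (hasDerivAt_exp_div_uQ p hp hF0)
  set c0 : ℂ := cexp (2 * π * I * F0 UpperHalfPlane.I) / uQ p UpperHalfPlane.I with hc0
  have hc0ne : c0 ≠ 0 := div_ne_zero (Complex.exp_ne_zero _) (uQ_ne_zero p _)
  have h2pi : (2 * π * I : ℂ) ≠ 0 := Complex.two_pi_I_ne_zero
  refine ⟨fun τ => F0 τ - Complex.log c0 / (2 * π * I), fun τ => ?_, fun τ => ?_⟩
  · exact (hF0 τ).sub_const _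
  · have h1 := hconst τ UpperHalfPlane.I
    have h3 : cexp (2 * π * I * F0 τ) = c0 * uQ p τ := by
      rw [hc0, ← h1]
      field_simp [uQ_ne_zero p τ]
    show cexp (2 * π * I * (F0 τ - Complex.log c0 / (2 * π * I))) = uQ p τ
    rw [mul_sub, mul_div_cancel₀ _ h2pi, Complex.exp_sub, Complex.exp_log hc0ne, h3]
    field_simp

/-- The periods of `F` over `Γ₀(p)` are integers. -/
theorem period_int (p : ℕ) (hp : p ≠ 0) {F : ℍ → ℂ}
    (hF : ∀ τ : ℍ, HasDerivAt (F ∘ ofComplex) (Ep p τ) τ)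
    (hexp : ∀ τ : ℍ, cexp (2 * π * I * F τ) = uQ p τ) (γ : SL(2, ℤ)) (hγ : γ ∈ Gamma0 p) :
    ∃ m : ℤ, ∀ z : ℍ, F (γ • z) - F z = (m : ℂ) := by
  have hD : ∀ τ : ℍ, HasDerivAt ((fun w : ℍ => F (γ • w) - F w) ∘ ofComplex) 0 τ := by
    intro τ
    have h1 := Fermat.Agent.S21.Primitive.hasDerivAt_comp_smul hF γ τ
    rw [Ep_slash p hp γ hγ] at h1
    have h2 := h1.sub (hF τ)
    rwa [sub_self] at h2
  have hconst := Fermat.Agent.S21.Primitive.const_of_hasDerivAt_zero hD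
  have hone : cexp (2 * π * I * (F (γ • UpperHalfPlane.I) - F UpperHalfPlane.I)) = 1 := by
    rw [mul_sub, Complex.exp_sub, hexp, hexp, uQ_smul p hp γ hγ, div_self (uQ_ne_zero p _)]
  obtain ⟨m, hm⟩ := Complex.exp_eq_one_iff.mp hone
  refine ⟨m, fun z => ?_⟩
  have h1 := hconst z UpperHalfPlane.I
  have h2pi : (2 * π * I : ℂ) ≠ 0 := Complex.two_pi_I_ne_zero
  have h2 : F (γ • z) - F z = F (γ • UpperHalfPlane.I) - F UpperHalfPlane.I := h1
  rw [h2]
  exact mul_left_cancel₀ h2pi (by rw [hm]; ring)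

/-- The period of `F` along the translation `T` is `p - 1`. -/
theorem T_period (p : ℕ) (hp : p ≠ 0) {F : ℍ → ℂ}
    (hF : ∀ τ : ℍ, HasDerivAt (F ∘ ofComplex) (Ep p τ) τ) (τ : ℍ) :
    F (ModularGroup.T • τ) - F τ = (p : ℂ) - 1 := by
  set g : ℂ → ℂ := fun w => (Ep p ∘ ofComplex) w - ((p : ℂ) - 1) with hg
  set G : ℂ → ℂ := fun w => (F ∘ ofComplex) w - ((p : ℂ) - 1) * w with hG
  have hper : ∀ z ∈ Fermat.Agent.S22ES.UH, g (z + ((1 : ℝ) : ℂ)) = g z := by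
    intro z _
    simp only [hg, Complex.ofReal_one]
    rw [Ep_periodic p hp z]
  have hzero : Filter.Tendsto g (Filter.comap Complex.im Filter.atTop) (𝓝 0) := by
    have h1 := (tendsto_Ep p hp).comp tendsto_comap_im_ofComplex
    have h2 := h1.sub_const ((p : ℂ) - 1)
    rwa [sub_self] at h2
  have hGd : ∀ z ∈ Fermat.Agent.S22ES.UH, HasDerivAt G (g z) z := by
    intro z hz
    have h1 := hF ⟨z, hz⟩
    have h2 : HasDerivAt (fun w : ℂ => ((p : ℂ) - 1) * w) ((p : ℂ) - 1) z := by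
      simpa using (hasDerivAt_id z).const_mul ((p : ℂ) - 1)
    have h3 := h1.sub h2
    have h4 : Ep p ⟨z, hz⟩ = (Ep p ∘ ofComplex) z := by
      simp only [Function.comp_apply, ofComplex_apply_of_im_pos hz]
    rw [h4] at h3
    exact h3
  have h := Fermat.Agent.S21.Primitive.primitive_periodic hper hzero hGd τ τ.2
  simp only [hG, Function.comp_apply, Complex.ofReal_one] at h
  have hT : ((ModularGroup.T • τ : ℍ) : ℂ) = (τ : ℂ) + 1 := by
    rw [modular_T_smul, coe_vadd]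
    push_cast
    ring
  rw [← hT, ofComplex_apply, ofComplex_apply, hT] at h
  linear_combination h

end Fermat.Agent.S16.EtaQuot

namespace Fermat.Agent.S16

open CongruenceSubgroup UpperHalfPlane ModularForm
open scoped MatrixGroups ModularForm Manifold

variable (p : ℕ) [Fact p.Prime]

/-- (EQ) The Eisenstein function `E = p E₂(pz) - E₂(z)` and a primitive `F` with
`exp(2πi F) = Δ(pz)/Δ(z)`. -/
theorem exists_eisPrim : ∃ F E : ℍ → ℂ,
    (∀ τ : ℍ, HasDerivAt (F ∘ ofComplex) (E τ) τ) ∧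
    (∀ τ : ℍ, Complex.exp (2 * Real.pi * Complex.I * F τ) =
      ModularForm.discriminant (heckeDiagMatrix p • τ) / ModularForm.discriminant τ) ∧
    (∀ γ : Gamma0 p, ∃ m : ℤ, ∀ z : ℍ, F ((γ : SL(2, ℤ)) • z) - F z = (m : ℂ)) ∧
    (∀ τ : ℍ, F (ModularGroup.T • τ) - F τ = (p : ℂ) - 1) ∧
    (∀ ℓ : ℕ, ℓ.Prime → ℓ ≠ p → heckeT 2 ℓ E = ((ℓ : ℂ) + 1) • E) ∧
    heckeU 2 p E = E := by
  have hp : p.Prime := Fact.out
  have hp0 : p ≠ 0 := hp.ne_zero
  obtain ⟨F, hFd, hexp⟩ := EtaQuot.exists_F p hp0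
  refine ⟨F, EpBase.Ep p, hFd, ?_, ?_, ?_, ?_, ?_⟩
  · intro τ
    rw [hexp τ]
    rfl
  · intro γ
    exact EtaQuot.period_int p hp0 hFd hexp γ γ.2
  · exact EtaQuot.T_period p hp0 hFd
  · intro ℓ hℓ hne
    rw [EpBase.heckeT_Ep hp0 hℓ ((Nat.coprime_primes hℓ hp).mpr hne), add_comm]
  · exact EpBase.heckeU_Ep hp

end Fermat.Agent.S16
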