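import Fermat.Agent.S16.Defs
import Fermat.Agent.S16.Reduce

/-!
# S16 (G): the glue lemma `card_quotient_eq` in the shape of the skeleton
(a restatement of `Reduce.card_eq` with `Defs.piHom` / `Defs.evE`).
-/

set_option autoImplicit false

namespace Fermat.Agent.S16

open ModularCurve CuspForm CongruenceSubgroup

variable (p : ℕ) [Fact p.Prime]

/-- (G) If `evE (ker π) = n ℤ` then the Eisenstein quotient of the Hecke ring has `n` elements. -/
theorem card_quotient_eq (n : ℕ) (hn : 0 < n)
    (h1 : ∀ Q ∈ RingHom.ker (piHom p), (n : ℤ) ∣ evE p Q)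
    (h2 : ∃ Q ∈ RingHom.ker (piHom p), evE p Q = n) :
    Nat.card (↥(heckeLatticeAlgebra p ∅) ⧸
        Ideal.map ((latticeRestrictHom p ∅).toRingHom.comp (heckeEvalForms p 2))
          (eisensteinIdeal p)) = n :=
  Reduce.card_eq p n hn h1 h2

end Fermat.Agent.S16
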