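import Mathlib
import Fermat.Agent.S16.Defs
import Fermat.Agent.S16.TransferT
import Fermat.Agent.S21.Parabolic

/-!
# S16 (N7): `Γ₀(p)` has two cusps

A character `χ : Γ₀(p) → ℂ` that vanishes on `T` vanishes on every parabolic element:
a parabolic `γ` is `± δ T^m δ⁻¹`; either `δ ∈ Γ₀(p)`, or `δ⁻¹ = T^j S h` with `h ∈ Γ₀(p)` and then
`γ = ± h⁻¹ (S⁻¹ T^m S) h` with `p ∣ m`, a power of `T' = [1 0; p 1]`, and `χ(T') = χ(T)` by the
transfer argument of `TransferT.lean`.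
-/

set_option autoImplicit false

namespace Fermat.Agent.S16

open ModularCurve ModularCurve.Period CongruenceSubgroup ModularGroup
open scoped MatrixGroups

namespace Parab

theorem neg_one_mem (N : ℕ) : (-1 : SL(2, ℤ)) ∈ Gamma0 N := by
  rw [Gamma0_mem]
  simp

/-- a `ℂ`-valued character kills `-1`. -/
theorem chi_neg_one (N : ℕ) (χ : Additive (Gamma0 N) →+ ℂ) :
    χ (Additive.ofMul ⟨-1, neg_one_mem N⟩) = 0 := by
  have h2 : (⟨-1, neg_one_mem N⟩ : Gamma0 N) * ⟨-1, neg_one_mem N⟩ = 1 := by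
    apply Subtype.ext
    show (-1 : SL(2, ℤ)) * -1 = 1
    simp
  have h3 : χ (Additive.ofMul ((⟨-1, neg_one_mem N⟩ : Gamma0 N) * ⟨-1, neg_one_mem N⟩)) = 0 := by
    rw [h2]
    exact map_zero χ
  rw [ofMul_mul, map_add] at h3
  linear_combination h3 / 2

theorem S_inv_T_zpow_S_entry (m : ℤ) : (S⁻¹ * T ^ m * S) 1 0 = -m := by
  show ((S⁻¹ * T ^ m * S : SL(2, ℤ)) : Matrix (Fin 2) (Fin 2) ℤ) 1 0 = _
  rw [Matrix.SpecialLinearGroup.coe_mul, Matrix.SpecialLinearGroup.coe_mul,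
    Matrix.SpecialLinearGroup.coe_inv, ModularGroup.coe_S, ModularGroup.coe_T_zpow,
    Matrix.adjugate_fin_two_of]
  simp [Matrix.mul_apply, Fin.sum_univ_two]

theorem S_inv_T_zpow_S (n : ℕ) (k : ℤ) : S⁻¹ * T ^ ((n : ℤ) * k) * S = (sT' n)⁻¹ ^ k := by
  rw [← TransferT.S_inv_T_pow_S, zpow_mul, zpow_natCast]
  have h := conj_zpow (a := S⁻¹) (b := T ^ n) (i := k)
  rw [inv_inv] at h
  exact h.symm

/-- the key case: a conjugate of a power of `T` lying in `Γ₀(p)`. -/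
theorem chi_conj (p : ℕ) [Fact p.Prime] (χ : Additive (Gamma0 p) →+ ℂ)
    (h1 : χ (Additive.ofMul (gT p)) = 0) (δ : SL(2, ℤ)) (m : ℤ)
    (hc : δ * T ^ m * δ⁻¹ ∈ Gamma0 p) :
    χ (Additive.ofMul ⟨δ * T ^ m * δ⁻¹, hc⟩) = 0 := by
  by_cases hδ : δ ∈ Gamma0 p
  · have e : (⟨δ * T ^ m * δ⁻¹, hc⟩ : Gamma0 p) = ⟨δ, hδ⟩ * (gT p) ^ m * ⟨δ, hδ⟩⁻¹ := by
      apply Subtype.ext
      rfl
    rw [e, ofMul_mul, ofMul_mul, ofMul_inv, ofMul_zpow, map_add, map_add, map_neg, map_zsmul, h1]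
    simp
  · have hδ' : δ⁻¹ ∉ Gamma0 p := fun h => hδ (by simpa using inv_mem h)
    obtain ⟨j, h, hh, hj⟩ := TransferT.exists_TS_rep p δ⁻¹ hδ'
    have hδeq : δ = h⁻¹ * S⁻¹ * T ^ (-j) := by
      have : δ = (T ^ j * S * h)⁻¹ := by rw [← hj, inv_inv]
      rw [this, zpow_neg]
      group
    have hconj : δ * T ^ m * δ⁻¹ = h⁻¹ * (S⁻¹ * T ^ m * S) * h := by
      rw [hj, hδeq]
      have hcomm : T ^ (-j) * T ^ m * T ^ j = T ^ m := by
        rw [← zpow_add, ← zpow_add]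
        congr 1
        ring
      calc h⁻¹ * S⁻¹ * T ^ (-j) * T ^ m * (T ^ j * S * h)
          = h⁻¹ * S⁻¹ * (T ^ (-j) * T ^ m * T ^ j) * S * h := by group
        _ = h⁻¹ * (S⁻¹ * T ^ m * S) * h := by rw [hcomm]; group
    have hmem : S⁻¹ * T ^ m * S ∈ Gamma0 p := by
      have e : S⁻¹ * T ^ m * S = h * (δ * T ^ m * δ⁻¹) * h⁻¹ := by
        rw [hconj]
        group
      rw [e]
      exact mul_mem (mul_mem hh hc) (inv_mem hh)
    have hpm : (p : ℤ) ∣ m := by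
      rw [Gamma0_mem, S_inv_T_zpow_S_entry, Int.cast_neg, neg_eq_zero,
        ZMod.intCast_zmod_eq_zero_iff_dvd] at hmem
      exact hmem
    obtain ⟨k, rfl⟩ := hpm
    have e : (⟨δ * T ^ ((p : ℤ) * k) * δ⁻¹, hc⟩ : Gamma0 p)
        = ⟨h, hh⟩⁻¹ * ((gT' p)⁻¹ ^ k) * ⟨h, hh⟩ := by
      apply Subtype.ext
      show δ * T ^ ((p : ℤ) * k) * δ⁻¹ = h⁻¹ * ((sT' p)⁻¹ ^ k) * h
      rw [hconj, S_inv_T_zpow_S]
    rw [e, ofMul_mul, ofMul_mul, ofMul_inv, ofMul_zpow, ofMul_inv, map_add, map_add, map_neg,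
      map_zsmul, map_neg, TransferT.hom_gT'_eq, h1]
    simp

end Parab

/-- (N7) `Γ₀(p)` has two cusps: a character vanishing on `T` is parabolic. -/
theorem mem_parabolicHoms_of_T (p : ℕ) [Fact p.Prime] (χ : Additive (Gamma0 p) →+ ℂ)
    (h1 : χ (Additive.ofMul (gT p)) = 0) :
    χ ∈ parabolicHoms ℂ (Gamma0 p) ℂ := by
  rw [mem_parabolicHoms_iff]
  intro γ hγ
  obtain ⟨δ, m, hδ⟩ := Fermat.Agent.S21.exists_conj_T_zpow (γ : SL(2, ℤ)) hγ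
  rcases hδ with hδ | hδ
  · have hc : δ * T ^ m * δ⁻¹ ∈ Gamma0 p := hδ ▸ γ.2
    have e : γ = ⟨δ * T ^ m * δ⁻¹, hc⟩ := Subtype.ext hδ
    rw [e]
    exact Parab.chi_conj p χ h1 δ m hc
  · have hc : δ * T ^ m * δ⁻¹ ∈ Gamma0 p := by
      have e : δ * T ^ m * δ⁻¹ = (-1 : SL(2, ℤ)) * (γ : SL(2, ℤ)) := by
        rw [hδ]
        simp
      rw [e]
      exact mul_mem (Parab.neg_one_mem p) γ.2
    have e : γ = ⟨-1, Parab.neg_one_mem p⟩ * ⟨δ * T ^ m * δ⁻¹, hc⟩ := by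
      apply Subtype.ext
      show (γ : SL(2, ℤ)) = (-1 : SL(2, ℤ)) * (δ * T ^ m * δ⁻¹)
      rw [hδ]
      simp
    rw [e, ofMul_mul, map_add, Parab.chi_neg_one, Parab.chi_conj p χ h1 δ m hc, add_zero]

end Fermat.Agent.S16
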