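import Mathlib
import Fermat.Agent.S16.Defs

/-!
# S16, Root12 hedge (B1): the period group of an integral equivariant primitive

If `F(γ z) - F(z) ∈ ℤ` is independent of `z` for every `γ ∈ Γ₀(p)` and the period of `T` is
`p - 1`, then the periods form a subgroup `cℤ` of `ℤ` with `c ∣ p - 1`, `c > 0`, and the
generator `c` is attained.
-/

set_option autoImplicit false

namespace Fermat.Agent.S16.Root12B

open CongruenceSubgroup UpperHalfPlane ModularForm
open scoped MatrixGroups ModularForm Manifold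

/-- (B1) the periods of `F` on `Γ₀(p)` form a subgroup `cℤ` of `ℤ` containing `p - 1`. -/
theorem exists_gen (p : ℕ) [Fact p.Prime] (F : ℍ → ℂ)
    (hint : ∀ γ : Gamma0 p, ∃ m : ℤ, ∀ z : ℍ, F ((γ : SL(2, ℤ)) • z) - F z = (m : ℂ))
    (hT : ∀ τ : ℍ, F (ModularGroup.T • τ) - F τ = (p : ℂ) - 1) :
    ∃ (c n' : ℕ) (γ : Gamma0 p), 0 < c ∧ c * n' = p - 1 ∧
      (∀ z : ℍ, F ((γ : SL(2, ℤ)) • z) - F z = ((c : ℤ) : ℂ)) ∧
      ∀ δ : Gamma0 p, ∃ m : ℤ, ∀ z : ℍ,
        F ((δ : SL(2, ℤ)) • z) - F z = (((c : ℤ) * m : ℤ) : ℂ) := by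
  have hp : p.Prime := Fact.out
  -- the period function
  choose per hper using hint
  have huniq : ∀ (γ : Gamma0 p) (m : ℤ), (∀ z : ℍ, F ((γ : SL(2, ℤ)) • z) - F z = (m : ℂ)) →
      per γ = m := by
    intro γ m hm
    have h1 := hper γ UpperHalfPlane.I
    have h2 := hm UpperHalfPlane.I
    have : ((per γ : ℤ) : ℂ) = (m : ℂ) := by rw [← h1, ← h2]
    exact_mod_cast this
  have hmul : ∀ γ δ : Gamma0 p, per (γ * δ) = per γ + per δ := by
    intro γ δ
    refine huniq _ _ fun z => ?_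
    have h1 := hper γ ((δ : SL(2, ℤ)) • z)
    have h2 := hper δ z
    have hsmul : ((γ * δ : Gamma0 p) : SL(2, ℤ)) • z
        = (γ : SL(2, ℤ)) • ((δ : SL(2, ℤ)) • z) := by
      rw [← mul_smul]; rfl
    rw [hsmul]
    push_cast
    linear_combination h1 + h2
  -- the period homomorphism
  let φ : Additive (Gamma0 p) →+ ℤ :=
    { toFun := fun γ => per (Additive.toMul γ)
      map_zero' := by
        have h := hmul 1 1
        rw [mul_one] at h
        show per 1 = 0
        omega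
      map_add' := fun γ δ => hmul (Additive.toMul γ) (Additive.toMul δ) }
  have hφ : ∀ γ : Gamma0 p, φ (Additive.ofMul γ) = per γ := fun _ => rfl
  -- the period of `T`
  have hperT : per (gT p) = (p : ℤ) - 1 := by
    refine huniq _ _ fun z => ?_
    have := hT z
    push_cast
    exact this
  obtain ⟨a, ha⟩ := Int.subgroup_cyclic φ.range
  have hmem : ∀ γ : Gamma0 p, per γ ∈ AddSubgroup.closure ({a} : Set ℤ) := by
    intro γ
    rw [← ha]
    exact ⟨Additive.ofMul γ, hφ γ⟩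
  have hdvd : ∀ γ : Gamma0 p, a ∣ per γ := by
    intro γ
    have := hmem γ
    rw [AddSubgroup.mem_closure_singleton] at this
    obtain ⟨k, hk⟩ := this
    exact ⟨k, by rw [← hk]; simp [mul_comm]⟩
  have hamem : a ∈ φ.range := by
    rw [ha]; exact AddSubgroup.subset_closure rfl
  obtain ⟨γa, hγa⟩ := hamem
  obtain ⟨γa, rfl⟩ := Additive.ofMul.surjective γa
  rw [hφ] at hγa
  -- `a ≠ 0` since `p - 1 ≠ 0`
  have hp1 : (0 : ℤ) < (p : ℤ) - 1 := by
    have := hp.two_le
    have : (2 : ℤ) ≤ (p : ℤ) := by exact_mod_cast this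
    omega
  have ha0 : a ≠ 0 := by
    intro h0
    have := hdvd (gT p)
    rw [h0, zero_dvd_iff, hperT] at this
    omega
  -- choose the sign
  have hcpos : 0 < a.natAbs := Int.natAbs_pos.mpr ha0
  have hcdvd : ∀ γ : Gamma0 p, ((a.natAbs : ℕ) : ℤ) ∣ per γ := fun γ =>
    (Int.natAbs_dvd).mpr (hdvd γ)
  obtain ⟨γc, hγc⟩ : ∃ γc : Gamma0 p, per γc = ((a.natAbs : ℕ) : ℤ) := by
    rcases Int.natAbs_eq a with h | h
    · exact ⟨γa, by rw [hγa]; exact h⟩
    · refine ⟨γa⁻¹, ?_⟩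
      have h1 := hmul γa γa⁻¹
      rw [mul_inv_cancel] at h1
      have h2 : per (1 : Gamma0 p) = 0 := by
        have h := hmul 1 1
        rw [mul_one] at h
        omega
      rw [h2, hγa] at h1
      omega
  -- `c ∣ p - 1`
  obtain ⟨n, hn⟩ := hcdvd (gT p)
  rw [hperT] at hn
  have hn0 : 0 ≤ n := by
    by_contra hneg
    push Not at hneg
    have : ((a.natAbs : ℕ) : ℤ) * n < 0 := mul_neg_of_pos_of_neg (by exact_mod_cast hcpos) hneg
    omega
  refine ⟨a.natAbs, n.toNat, γc, hcpos, ?_, ?_, ?_⟩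
  · have h1 : ((a.natAbs * n.toNat : ℕ) : ℤ) = ((p - 1 : ℕ) : ℤ) := by
      rw [Nat.cast_mul, Int.toNat_of_nonneg hn0, ← hn, Nat.cast_sub hp.one_le]
      simp
    exact_mod_cast h1
  · intro z
    rw [hper γc z, hγc]
  · intro δ
    obtain ⟨k, hk⟩ := hcdvd δ
    refine ⟨k, fun z => ?_⟩
    rw [hper δ z, hk]

end Fermat.Agent.S16.Root12B
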