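import Mathlib
import Fermat.Agent.S16.Defs
import Fermat.Agent.S16.EpSlash

/-!
# S16, Root12 hedge, lemma (B2): the Fricke constant

If `exp(2πi F) = Δ(p·)/Δ`, then `F((S T^j) z) + F((z + j)/p)` is a constant `d` (independent of `j`
and `z`) with `exp(2πi d) = p⁻¹²`:  `uQ(S w) · uQ(w/p) = p⁻¹²` by the weight-12 transformation law
of `Δ`, and a continuous function on the connected space `ℍ` whose exponential is constant is
constant.
-/

set_option autoImplicit false

namespace Fermat.Agent.S16.Root12B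

open CongruenceSubgroup UpperHalfPlane ModularForm
open scoped MatrixGroups ModularForm Manifold

/-- a continuous function on `ℍ` with constant `exp(2πi ·)` is constant. -/
theorem const_of_exp_const (H : ℍ → ℂ) (hH : Continuous H) (c : ℂ)
    (h : ∀ z : ℍ, Complex.exp (2 * Real.pi * Complex.I * H z) = c) :
    ∀ z : ℍ, H z = H UpperHalfPlane.I := by
  have hint : ∀ z : ℍ, ∃ n : ℤ, H z - H UpperHalfPlane.I = (n : ℂ) := by
    intro z
    have h1 : Complex.exp (2 * Real.pi * Complex.I * (H z - H UpperHalfPlane.I)) = 1 := by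
      rw [mul_sub, Complex.exp_sub, h z, h UpperHalfPlane.I]
      exact div_self (by rw [← h z]; exact Complex.exp_ne_zero _)
    obtain ⟨n, hn⟩ := Complex.exp_eq_one_iff.mp h1
    refine ⟨n, ?_⟩
    have h2 : (2 * Real.pi * Complex.I : ℂ) ≠ 0 := Complex.two_pi_I_ne_zero
    have h3 : (2 * Real.pi * Complex.I) * (H z - H UpperHalfPlane.I)
        = (2 * Real.pi * Complex.I) * (n : ℂ) := by rw [hn]; ring
    exact mul_left_cancel₀ h2 h3
  set g : ℍ → ℝ := fun z => (H z - H UpperHalfPlane.I).re with hg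
  have hgc : Continuous g := Complex.continuous_re.comp (hH.sub continuous_const)
  have hg0 : g UpperHalfPlane.I = 0 := by simp [hg]
  have hgint : ∀ z : ℍ, ∃ n : ℤ, g z = (n : ℝ) := by
    intro z
    obtain ⟨n, hn⟩ := hint z
    refine ⟨n, ?_⟩
    show (H z - H UpperHalfPlane.I).re = (n : ℝ)
    rw [hn, Complex.intCast_re]
  intro z
  obtain ⟨n, hn⟩ := hint z
  have hgz : g z = (n : ℝ) := by
    show (H z - H UpperHalfPlane.I).re = (n : ℝ)
    rw [hn, Complex.intCast_re]
  have hn0 : n = 0 := by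
    by_contra hne
    rcases lt_or_gt_of_ne hne with hlt | hgt
    · -- n ≤ -1: g takes the value -1/2
      have h1 : (n : ℝ) ≤ -1 := by exact_mod_cast Int.le_sub_one_of_lt hlt
      obtain ⟨w, hw⟩ := intermediate_value_univ₂ (a := z) (b := UpperHalfPlane.I) hgc
        (continuous_const (y := (-1 / 2 : ℝ))) (by rw [hgz]; linarith) (by rw [hg0]; norm_num)
      obtain ⟨m, hm⟩ := hgint w
      rw [hm] at hw
      have h2 : (2 : ℝ) * m = -1 := by linarith
      have h3 : (2 : ℤ) * m = -1 := by exact_mod_cast h2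
      omega
    · have h1 : (1 : ℝ) ≤ n := by exact_mod_cast Int.add_one_le_of_lt hgt
      obtain ⟨w, hw⟩ := intermediate_value_univ₂ (a := UpperHalfPlane.I) (b := z) hgc
        (continuous_const (y := (1 / 2 : ℝ))) (by rw [hg0]; norm_num) (by rw [hgz]; linarith)
      obtain ⟨m, hm⟩ := hgint w
      rw [hm] at hw
      have h2 : (2 : ℝ) * m = 1 := by linarith
      have h3 : (2 : ℤ) * m = 1 := by exact_mod_cast h2
      omega
  rw [hn0, Int.cast_zero] at hn
  exact sub_eq_zero.mp hn

variable (p : ℕ) [Fact p.Prime]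

/-- `diag(p,1) (S w) = S (w/p)`. -/
theorem diag_smul_S (w : ℍ) :
    heckeDiagMatrix p • (ModularGroup.S • w) = ModularGroup.S • (heckeMatrix p 0 • w) := by
  have hp : p ≠ 0 := (Fact.out : p.Prime).ne_zero
  apply UpperHalfPlane.ext
  rw [coe_heckeDiagMatrix_smul hp, UpperHalfPlane.modular_S_smul,
    UpperHalfPlane.modular_S_smul]
  have hw : (w : ℂ) ≠ 0 := w.ne_zero
  have hpC : (p : ℂ) ≠ 0 := by exact_mod_cast hp
  simp only [coe_heckeMatrix_smul hp]
  push_cast
  rw [add_zero]
  field_simp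

/-- `diag(p,1) (w/p) = w`. -/
theorem diag_smul_heckeMatrix (w : ℍ) : heckeDiagMatrix p • (heckeMatrix p 0 • w) = w := by
  have hp : p ≠ 0 := (Fact.out : p.Prime).ne_zero
  apply UpperHalfPlane.ext
  have hpC : (p : ℂ) ≠ 0 := by exact_mod_cast hp
  rw [coe_heckeDiagMatrix_smul hp, coe_heckeMatrix_smul hp]
  field_simp
  push_cast
  ring

theorem discriminant_S_smul (w : ℍ) :
    discriminant (ModularGroup.S • w) = (w : ℂ) ^ 12 * discriminant w := by
  rw [EpSlash.discriminant_smul]
  simp [ModularGroup.S]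

/-- `uQ(S w) · uQ(w/p) = p⁻¹²`. -/
theorem uQ_S_mul (w : ℍ) :
    EpSlash.uQ p (ModularGroup.S • w) * EpSlash.uQ p (heckeMatrix p 0 • w) = ((p : ℂ) ^ 12)⁻¹ := by
  have hp : p ≠ 0 := (Fact.out : p.Prime).ne_zero
  have hpC : (p : ℂ) ≠ 0 := by exact_mod_cast hp
  have hw : (w : ℂ) ≠ 0 := w.ne_zero
  simp only [EpSlash.uQ]
  rw [diag_smul_S, diag_smul_heckeMatrix, discriminant_S_smul, discriminant_S_smul,
    coe_heckeMatrix_smul hp]
  have h1 := discriminant_ne_zero w
  have h2 := discriminant_ne_zero (heckeMatrix p 0 • w)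
  field_simp
  push_cast
  ring

/-- **(B2)** the Fricke constant. -/
theorem exists_fricke_const (F : ℍ → ℂ) (hcont : Continuous F)
    (hexp : ∀ τ : ℍ, Complex.exp (2 * Real.pi * Complex.I * F τ) =
      ModularForm.discriminant (heckeDiagMatrix p • τ) / ModularForm.discriminant τ) :
    ∃ d : ℂ, Complex.exp (2 * Real.pi * Complex.I * d) = ((p : ℂ) ^ 12)⁻¹ ∧
      ∀ (j : ℕ) (z : ℍ),
        F ((ModularGroup.S * ModularGroup.T ^ j) • z) + F (heckeMatrix p j • z) = d := by
  have hp : p ≠ 0 := (Fact.out : p.Prime).ne_zero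
  set H : ℍ → ℂ := fun w => F (ModularGroup.S • w) + F (heckeMatrix p 0 • w) with hH
  have hHc : Continuous H := by
    have hS : Continuous (fun w : ℍ => ModularGroup.S • w) := by
      show Continuous (fun w : ℍ => (Matrix.SpecialLinearGroup.mapGL ℝ ModularGroup.S) • w)
      exact continuous_const_smul _
    exact (hcont.comp hS).add (hcont.comp (continuous_const_smul _))
  have hHexp : ∀ w : ℍ, Complex.exp (2 * Real.pi * Complex.I * H w) = ((p : ℂ) ^ 12)⁻¹ := by
    intro w
    rw [hH]
    simp only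
    rw [mul_add, Complex.exp_add, hexp, hexp]
    exact uQ_S_mul p w
  have hconst := const_of_exp_const H hHc _ hHexp
  refine ⟨H UpperHalfPlane.I, hHexp _, fun j z => ?_⟩
  have h1 : (ModularGroup.S * ModularGroup.T ^ j) • z
      = ModularGroup.S • (ModularGroup.T ^ j • z) := mul_smul _ _ _
  have h2 : heckeMatrix p j • z = heckeMatrix p 0 • (ModularGroup.T ^ j • z) := by
    apply UpperHalfPlane.ext
    rw [coe_heckeMatrix_smul hp, coe_heckeMatrix_smul hp, ← zpow_natCast,
      ModularGroup.coe_T_zpow_smul_eq]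
    push_cast
    ring
  rw [h1, h2]
  exact hconst (ModularGroup.T ^ j • z)

end Fermat.Agent.S16.Root12B
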