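import Mathlib
import Fermat.Agent.S16.Defs
import Fermat.Agent.S16.CosetsP

/-!
# S16 (N5, hedge `Root12B`), leaf (B3): the trace to level one of a `Γ₀(p)`-invariant function

For a holomorphic `v : ℍ → ℂ` which is invariant under `Γ₀(p)`, the function
`Tr z = v z + ∑_{j<p} v (S T^j z)` is invariant under `SL(2,ℤ)`; if it is bounded at `i∞`
it is a level one modular form of weight `0`, hence constant.
-/

set_option autoImplicit false

namespace Fermat.Agent.S16.Root12B

open ModularCurve CuspForm CongruenceSubgroup UpperHalfPlane ModularForm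
open scoped MatrixGroups ModularForm Manifold

/-- the coset representatives `1`, `S T^j` (`j < p`) of `Γ₀(p) \ SL(2,ℤ)`. -/
noncomputable def rho (p : ℕ) : Option (Fin p) → SL(2, ℤ)
  | none => 1
  | some j => ModularGroup.S * ModularGroup.T ^ (j : ℕ)

theorem rho_mul_inv_mem_iff (p : ℕ) [Fact p.Prime] (i i' : Option (Fin p)) :
    rho p i * (rho p i')⁻¹ ∈ Gamma0 p ↔ i = i' := by
  have hp : p.Prime := Fact.out
  rcases i with _ | i <;> rcases i' with _ | i'
  · simp [rho, one_mem]
  · simp only [rho, one_mul, reduceCtorEq, iff_false]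
    exact CosetsP.ST_inv_not_mem p hp.two_le _
  · simp only [rho, inv_one, mul_one, reduceCtorEq, iff_false]
    intro h
    exact CosetsP.ST_inv_not_mem p hp.two_le _ ((Gamma0 p).inv_mem h)
  · simp only [rho, Option.some.injEq]
    rw [CosetsP.ST_mul_ST_inv_mem_iff p _ _ i.2 i'.2]
    exact ⟨fun h => Fin.ext h, fun h => congrArg _ h⟩

theorem exists_rho (p : ℕ) [Fact p.Prime] (γ : SL(2, ℤ)) :
    ∃ i : Option (Fin p), γ * (rho p i)⁻¹ ∈ Gamma0 p := by
  by_cases hγ : γ ∈ Gamma0 p
  · exact ⟨none, by simpa [rho] using hγ⟩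
  · obtain ⟨j, hj, β, hβ, hγβ⟩ := exists_ST_rep p γ hγ
    refine ⟨some ⟨j, hj⟩, ?_⟩
    have h : γ * (ModularGroup.S * ModularGroup.T ^ j)⁻¹ = β := by
      rw [hγβ]; group
    change γ * (ModularGroup.S * ModularGroup.T ^ j)⁻¹ ∈ Gamma0 p
    rw [h]
    exact hβ

/-- the trace over the cosets, as a sum over `Option (Fin p)`. -/
theorem sum_rho (p : ℕ) (v : ℍ → ℂ) (z : ℍ) :
    ∑ i : Option (Fin p), v (rho p i • z) =
      v z + ∑ j ∈ Finset.range p, v ((ModularGroup.S * ModularGroup.T ^ j) • z) := by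
  rw [Fintype.sum_option,
    ← Fin.sum_univ_eq_sum_range (fun j => v ((ModularGroup.S * ModularGroup.T ^ j) • z)) p]
  simp [rho]

/-- the trace is `SL(2,ℤ)`-invariant. -/
theorem sum_rho_smul (p : ℕ) [Fact p.Prime] (v : ℍ → ℂ)
    (hinv : ∀ γ : SL(2, ℤ), γ ∈ Gamma0 p → ∀ z : ℍ, v (γ • z) = v z) (γ : SL(2, ℤ)) (z : ℍ) :
    ∑ i : Option (Fin p), v (rho p i • (γ • z)) = ∑ i : Option (Fin p), v (rho p i • z) := by
  choose σ hσ using fun i : Option (Fin p) => exists_rho p (rho p i * γ)
  have hinj : Function.Injective σ := by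
    intro i i' h
    have h1 := hσ i
    have h2 := hσ i'
    rw [h] at h1
    have h3 := (Gamma0 p).mul_mem h1 ((Gamma0 p).inv_mem h2)
    have h4 : rho p i * γ * (rho p (σ i'))⁻¹ * (rho p i' * γ * (rho p (σ i'))⁻¹)⁻¹
        = rho p i * (rho p i')⁻¹ := by group
    rw [h4] at h3
    exact (rho_mul_inv_mem_iff p i i').mp h3
  have hbij : Function.Bijective σ := Finite.injective_iff_bijective.mp hinj
  rw [← hbij.sum_comp (fun i => v (rho p i • z))]
  refine Finset.sum_congr rfl fun i _ => ?_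
  have h1 : rho p i • (γ • z) = (rho p i * γ * (rho p (σ i))⁻¹) • (rho p (σ i) • z) := by
    rw [← mul_smul, ← mul_smul, inv_mul_cancel_right]
  rw [h1, hinv _ (hσ i)]

/-- (B3) the trace to level one of a `Γ₀(p)`-invariant holomorphic function is constant as soon
as it is bounded at `i∞`. -/
theorem trace_const (p : ℕ) [Fact p.Prime] (v : ℍ → ℂ) (hv : MDiff v)
    (hinv : ∀ γ : SL(2, ℤ), γ ∈ Gamma0 p → ∀ z : ℍ, v (γ • z) = v z)
    (hbdd : IsBoundedAtImInfty
      (fun z : ℍ => v z + ∑ j ∈ Finset.range p, v ((ModularGroup.S * ModularGroup.T ^ j) • z))) :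
    ∃ C : ℂ, ∀ z : ℍ,
      v z + ∑ j ∈ Finset.range p, v ((ModularGroup.S * ModularGroup.T ^ j) • z) = C := by
  set Tr : ℍ → ℂ := fun z : ℍ =>
    v z + ∑ j ∈ Finset.range p, v ((ModularGroup.S * ModularGroup.T ^ j) • z) with hTr
  have hTr' : Tr = fun z => ∑ i : Option (Fin p), v (rho p i • z) := by
    funext z
    rw [sum_rho]
  have hslash : ∀ γ : SL(2, ℤ), Tr ∣[(0 : ℤ)] γ = Tr := by
    intro γ
    funext z
    rw [ModularForm.SL_slash_apply, neg_zero, zpow_zero, mul_one, hTr']
    exact sum_rho_smul p v hinv γ z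
  have hmd : MDiff Tr := by
    rw [hTr']
    have h1 : (fun z : ℍ => ∑ i : Option (Fin p), v (rho p i • z))
        = ∑ i : Option (Fin p), (v ∣[(0 : ℤ)] (rho p i)) := by
      funext z
      rw [Finset.sum_apply]
      refine Finset.sum_congr rfl fun i _ => ?_
      rw [ModularForm.SL_slash_apply, neg_zero, zpow_zero, mul_one]
    rw [h1]
    refine MDifferentiable.sum fun i _ => ?_
    rw [ModularForm.SL_slash]
    exact hv.slash 0 _
  let f : ModularForm 𝒮ℒ 0 :=
    { toFun := Tr
      slash_action_eq' := by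
        rintro _ ⟨γ, rfl⟩
        have := hslash γ
        rwa [ModularForm.SL_slash] at this
      holo' := hmd
      bdd_at_cusps' := by
        intro c hc
        rw [OnePoint.isBoundedAt_iff_forall_SL2Z hc]
        intro γ _
        rw [hslash γ]
        exact hbdd }
  obtain ⟨C, hC⟩ := ModularFormClass.levelOne_weight_zero_const f
  exact ⟨C, fun z => congrFun hC z⟩

end Fermat.Agent.S16.Root12B
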