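import Mathlib

/-!
# S16 (N5), algebraic inputs

* `coeff_rat_of_pow`: a complex power series `w` with constant term `1` whose `c`-th power has
  rational coefficients has rational coefficients.
* `coeff_rat_inv`: the inverse of a power series with rational coefficients and nonzero constant
  term has rational coefficients.
* `dvd_twelve_of_rat_pow`, `dvd_twelve_of_trace_rel`: the final arithmetic step `c ∣ 12`.
-/

set_option autoImplicit false

namespace Fermat.Agent.S16.Root12Alg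

open PowerSeries

/-- the subfield of rational complex numbers -/
noncomputable def ratC : Subfield ℂ := (algebraMap ℚ ℂ).fieldRange

theorem mem_ratC_iff (x : ℂ) : x ∈ ratC ↔ ∃ r : ℚ, x = (r : ℂ) := by
  rw [ratC, RingHom.mem_fieldRange]
  constructor
  · rintro ⟨r, rfl⟩
    exact ⟨r, rfl⟩
  · rintro ⟨r, rfl⟩
    exact ⟨r, rfl⟩

theorem ratCast_mem_ratC (r : ℚ) : (r : ℂ) ∈ ratC := (mem_ratC_iff _).mpr ⟨r, rfl⟩

theorem natCast_mem_ratC (n : ℕ) : (n : ℂ) ∈ ratC := natCast_mem ratC n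

/-- A complex power series with constant term `1` whose `c`-th power (`c ≥ 1`) has rational
coefficients has rational coefficients. -/
theorem coeff_mem_ratC_of_pow {c : ℕ} (hc : 0 < c) (w : PowerSeries ℂ)
    (h0 : PowerSeries.constantCoeff w = 1)
    (h : ∀ n, PowerSeries.coeff n (w ^ c) ∈ ratC) :
    ∀ n, PowerSeries.coeff n w ∈ ratC := by
  have hkey : (c : ℂ) • (d⁄dX ℂ w * w ^ c) = d⁄dX ℂ (w ^ c) * w := by
    rw [derivative_pow]
    have h1 : w ^ c = w ^ (c - 1) * w := by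
      rw [← pow_succ]
      congr 1
      omega
    rw [Algebra.smul_def]
    have h2 : (algebraMap ℂ (PowerSeries ℂ)) (c : ℂ) = (c : PowerSeries ℂ) := by
      simp
    rw [h2]
    nth_rewrite 1 [h1]
    ring
  have hW0 : PowerSeries.coeff 0 (w ^ c) = 1 := by
    rw [PowerSeries.coeff_zero_eq_constantCoeff_apply, map_pow, h0, one_pow]
  intro n
  induction n using Nat.strong_induction_on with
  | _ n ih =>
    rcases Nat.eq_zero_or_pos n with hn | hn
    · subst hn
      rw [PowerSeries.coeff_zero_eq_constantCoeff_apply, h0]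
      exact one_mem _
    · obtain ⟨m, rfl⟩ : ∃ m, n = m + 1 := ⟨n - 1, by omega⟩
      have hm := congrArg (PowerSeries.coeff m) hkey
      rw [PowerSeries.coeff_smul, PowerSeries.coeff_mul, PowerSeries.coeff_mul] at hm
      have hmem : ((m, 0) : ℕ × ℕ) ∈ Finset.HasAntidiagonal.antidiagonal m := by simp
      rw [← Finset.sum_erase_add _ _ hmem] at hm
      simp only [PowerSeries.coeff_derivative] at hm
      rw [hW0, mul_one] at hm
      -- the remaining sums are rational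
      have hS1 : (∑ x ∈ (Finset.HasAntidiagonal.antidiagonal m).erase (m, 0),
          (PowerSeries.coeff (x.1 + 1)) w * ((x.1 : ℂ) + 1) * (PowerSeries.coeff x.2) (w ^ c))
            ∈ ratC := by
        refine sum_mem fun x hx => ?_
        rw [Finset.mem_erase, Finset.HasAntidiagonal.mem_antidiagonal] at hx
        have hx1 : x.1 + 1 < m + 1 := by
          rcases hx with ⟨h2, h1⟩
          by_contra hcon
          apply h2
          ext <;> simp <;> omega
        refine mul_mem (mul_mem (ih _ hx1) ?_) (h _)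
        exact add_mem (natCast_mem_ratC _) (one_mem _)
      have hS2 : (∑ x ∈ Finset.HasAntidiagonal.antidiagonal m,
          (PowerSeries.coeff (x.1 + 1)) (w ^ c) * ((x.1 : ℂ) + 1) * (PowerSeries.coeff x.2) w)
            ∈ ratC := by
        refine sum_mem fun x hx => ?_
        rw [Finset.HasAntidiagonal.mem_antidiagonal] at hx
        refine mul_mem (mul_mem (h _) ?_) (ih _ (by omega))
        exact add_mem (natCast_mem_ratC _) (one_mem _)
      have hcne : (c : ℂ) ≠ 0 := by exact_mod_cast hc.ne'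
      have hmne : ((m : ℂ) + 1) ≠ 0 := by exact_mod_cast Nat.succ_ne_zero m
      set S1 := ∑ x ∈ (Finset.HasAntidiagonal.antidiagonal m).erase (m, 0),
          (PowerSeries.coeff (x.1 + 1)) w * ((x.1 : ℂ) + 1) * (PowerSeries.coeff x.2) (w ^ c)
      set S2 := ∑ x ∈ Finset.HasAntidiagonal.antidiagonal m,
          (PowerSeries.coeff (x.1 + 1)) (w ^ c) * ((x.1 : ℂ) + 1) * (PowerSeries.coeff x.2) w
      have hsolve : PowerSeries.coeff (m + 1) w = (S2 / c - S1) / ((m : ℂ) + 1) := by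
        field_simp
        linear_combination hm
      rw [hsolve]
      exact div_mem (sub_mem (div_mem hS2 (natCast_mem_ratC c)) hS1)
        (add_mem (natCast_mem_ratC _) (one_mem _))

/-- (R1) A complex power series with constant term `1` whose `c`-th power (`c ≥ 1`) has rational
coefficients has rational coefficients. -/
theorem coeff_rat_of_pow {c : ℕ} (hc : 0 < c) (w : PowerSeries ℂ)
    (h0 : PowerSeries.constantCoeff w = 1)
    (h : ∀ n, ∃ r : ℚ, PowerSeries.coeff n (w ^ c) = (r : ℂ)) :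
    ∀ n, ∃ r : ℚ, PowerSeries.coeff n w = (r : ℂ) := fun n =>
  (mem_ratC_iff _).mp (coeff_mem_ratC_of_pow hc w h0 (fun k => (mem_ratC_iff _).mpr (h k)) n)

/-- rational coefficients = image of `ℚ⟦X⟧` -/
theorem exists_map_eq_of_coeff_rat (w : PowerSeries ℂ)
    (h : ∀ n, ∃ r : ℚ, PowerSeries.coeff n w = (r : ℂ)) :
    ∃ v : PowerSeries ℚ, PowerSeries.map (algebraMap ℚ ℂ) v = w := by
  choose r hr using h
  refine ⟨PowerSeries.mk r, ?_⟩
  ext n
  rw [PowerSeries.coeff_map, PowerSeries.coeff_mk, hr n]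
  rfl

theorem coeff_rat_of_map (v : PowerSeries ℚ) (n : ℕ) :
    ∃ r : ℚ, PowerSeries.coeff n (PowerSeries.map (algebraMap ℚ ℂ) v) = (r : ℂ) :=
  ⟨PowerSeries.coeff n v, by rw [PowerSeries.coeff_map]; rfl⟩

/-- (R1') The inverse of a power series with rational coefficients and nonzero constant term has
rational coefficients. -/
theorem coeff_rat_inv (w : PowerSeries ℂ) (h0 : PowerSeries.constantCoeff w ≠ 0)
    (h : ∀ n, ∃ r : ℚ, PowerSeries.coeff n w = (r : ℂ)) :
    ∀ n, ∃ r : ℚ, PowerSeries.coeff n w⁻¹ = (r : ℂ) := by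
  obtain ⟨v, rfl⟩ := exists_map_eq_of_coeff_rat w h
  have hv0 : PowerSeries.constantCoeff v ≠ 0 := by
    intro hv
    apply h0
    rw [← PowerSeries.coeff_zero_eq_constantCoeff_apply, PowerSeries.coeff_map,
      PowerSeries.coeff_zero_eq_constantCoeff_apply, hv, map_zero]
  have hinv : (PowerSeries.map (algebraMap ℚ ℂ) v)⁻¹ = PowerSeries.map (algebraMap ℚ ℂ) v⁻¹ := by
    rw [PowerSeries.inv_eq_iff_mul_eq_one h0, ← map_mul, PowerSeries.inv_mul_cancel _ hv0, map_one]
  rw [hinv]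
  exact coeff_rat_of_map _

/-- products of power series with rational coefficients have rational coefficients -/
theorem coeff_rat_mul (w₁ w₂ : PowerSeries ℂ)
    (h₁ : ∀ n, ∃ r : ℚ, PowerSeries.coeff n w₁ = (r : ℂ))
    (h₂ : ∀ n, ∃ r : ℚ, PowerSeries.coeff n w₂ = (r : ℂ)) :
    ∀ n, ∃ r : ℚ, PowerSeries.coeff n (w₁ * w₂) = (r : ℂ) := by
  obtain ⟨v₁, rfl⟩ := exists_map_eq_of_coeff_rat w₁ h₁
  obtain ⟨v₂, rfl⟩ := exists_map_eq_of_coeff_rat w₂ h₂
  rw [← map_mul]
  exact coeff_rat_of_map _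

/-- powers of power series with rational coefficients have rational coefficients -/
theorem coeff_rat_pow (w : PowerSeries ℂ) (k : ℕ)
    (h : ∀ n, ∃ r : ℚ, PowerSeries.coeff n w = (r : ℂ)) :
    ∀ n, ∃ r : ℚ, PowerSeries.coeff n (w ^ k) = (r : ℂ) := by
  obtain ⟨v, rfl⟩ := exists_map_eq_of_coeff_rat w h
  rw [← map_pow]
  exact coeff_rat_of_map _

/-- integer coefficients are rational coefficients -/
theorem coeff_rat_of_int (w : PowerSeries ℂ)
    (h : ∀ n, ∃ m : ℤ, PowerSeries.coeff n w = (m : ℂ)) :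
    ∀ n, ∃ r : ℚ, PowerSeries.coeff n w = (r : ℂ) := fun n => by
  obtain ⟨m, hm⟩ := h n
  exact ⟨m, by rw [hm]; simp⟩

/-- (R2) A rational number whose `c`-th power is `± p ^ 12` forces `c ∣ 12`. -/
theorem dvd_twelve_of_rat_pow {p : ℕ} (hp : p.Prime) {c : ℕ} (x : ℚ)
    (h : x ^ c = (p : ℚ) ^ 12 ∨ x ^ c = -(p : ℚ) ^ 12) : c ∣ 12 := by
  have : Fact p.Prime := ⟨hp⟩
  have hval : padicValRat p (x ^ c) = 12 := by
    rcases h with h | h
    · rw [h, padicValRat.pow, padicValRat.self hp.one_lt]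
      norm_num
    · rw [h, padicValRat.neg, padicValRat.pow, padicValRat.self hp.one_lt]
      norm_num
  rw [padicValRat.pow] at hval
  have hdvd : (c : ℤ) ∣ 12 := ⟨padicValRat p x, hval.symm⟩
  exact_mod_cast hdvd

/-- (R2') the last step of (N5): `ω ^ c = 1`, `κ ^ c = p ^ (-12)`, `x` rational and
`ω + κ ω⁻¹ x = 0` force `c ∣ 12`. -/
theorem dvd_twelve_of_trace_rel {p : ℕ} (hp : p.Prime) {c : ℕ} (ω κ : ℂ) (x : ℚ)
    (hω : ω ^ c = 1) (hκ : κ ^ c = ((p : ℂ) ^ 12)⁻¹) (h : ω + κ * ω⁻¹ * (x : ℂ) = 0) :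
    c ∣ 12 := by
  have hp0 : (p : ℂ) ≠ 0 := by exact_mod_cast hp.ne_zero
  have hω0 : ω ≠ 0 := by
    rintro rfl
    rcases Nat.eq_zero_or_pos c with hc | hc
    · subst hc
      rw [pow_zero] at hκ
      have h1 : ((p : ℂ) ^ 12) = 1 := inv_eq_one.mp hκ.symm
      have h2 : p ^ 12 = 1 := by exact_mod_cast h1
      have h3 : 1 < p ^ 12 := Nat.one_lt_pow (by norm_num) hp.one_lt
      omega
    · rw [zero_pow hc.ne'] at hω
      exact zero_ne_one hω
  -- κ x = - ω ^ 2
  have h1 : κ * (x : ℂ) = -ω ^ 2 := by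
    have h2 : ω * (ω + κ * ω⁻¹ * (x : ℂ)) = 0 := by rw [h, mul_zero]
    field_simp at h2
    linear_combination h2
  have h2 : κ ^ c * (x : ℂ) ^ c = (-1) ^ c := by
    rw [← mul_pow, h1, neg_pow, ← pow_mul, mul_comm 2 c, pow_mul, hω, one_pow, mul_one]
  rw [hκ] at h2
  have h3 : (x : ℂ) ^ c = (-1) ^ c * (p : ℂ) ^ 12 := by
    have hp12 : (p : ℂ) ^ 12 ≠ 0 := pow_ne_zero _ hp0
    field_simp at h2
    linear_combination h2
  apply dvd_twelve_of_rat_pow hp x
  rcases Nat.even_or_odd c with hc | hc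
  · left
    rw [hc.neg_one_pow, one_mul] at h3
    exact_mod_cast h3
  · right
    rw [hc.neg_one_pow] at h3
    have : (x : ℂ) ^ c = -((p : ℂ) ^ 12) := by rw [h3]; ring
    exact_mod_cast this

/-- (A) The algebraic heart of (N5): from the power-series data of the trace relation,
`d ∣ 12`. -/
theorem dvd_twelve_of_series (p : ℕ) (hp : p.Prime) (d : ℕ) (hd : 0 < d)
    (a b δ δ' : PowerSeries ℂ)
    (hδ : ∀ n, ∃ r : ℚ, PowerSeries.coeff n δ = (r : ℂ)) (hδ0 : PowerSeries.coeff 0 δ = 1)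
    (hδ' : ∀ n, ∃ r : ℚ, PowerSeries.coeff n δ' = (r : ℂ)) (hδ'0 : PowerSeries.coeff 0 δ' = 1)
    (ha : a ^ d * δ = δ') (hab : a * b = 1)
    (κ : ℂ) (hκ : κ ^ d * (p : ℂ) ^ 12 = 1) (N : ℕ)
    (h : PowerSeries.coeff 0 a + κ * (p : ℂ) * PowerSeries.coeff N b = 0) :
    d ∣ 12 := by
  have hδc : PowerSeries.constantCoeff δ = 1 := by
    rw [← PowerSeries.coeff_zero_eq_constantCoeff_apply]; exact hδ0
  have hδ'c : PowerSeries.constantCoeff δ' = 1 := by
    rw [← PowerSeries.coeff_zero_eq_constantCoeff_apply]; exact hδ'0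
  have hδne : PowerSeries.constantCoeff δ ≠ 0 := by rw [hδc]; exact one_ne_zero
  set ζ : ℂ := PowerSeries.constantCoeff a with hζdef
  -- `ζ ^ d = 1`
  have hζ : ζ ^ d = 1 := by
    have h1 := congrArg PowerSeries.constantCoeff ha
    rw [map_mul, map_pow, hδc, hδ'c, mul_one] at h1
    exact h1
  have hζ0 : ζ ≠ 0 := by
    intro h0
    rw [h0, zero_pow hd.ne'] at hζ
    exact zero_ne_one hζ
  -- `a ^ d = δ' * δ⁻¹`
  have haU : a ^ d = δ' * δ⁻¹ := by
    rw [← ha, mul_assoc, PowerSeries.mul_inv_cancel _ hδne, mul_one]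
  have hU : ∀ n, ∃ r : ℚ, PowerSeries.coeff n (δ' * δ⁻¹) = (r : ℂ) :=
    coeff_rat_mul _ _ hδ' (coeff_rat_inv δ hδne hδ)
  -- `w := ζ⁻¹ a`
  set w : PowerSeries ℂ := PowerSeries.C ζ⁻¹ * a with hwdef
  have hw0 : PowerSeries.constantCoeff w = 1 := by
    rw [hwdef, map_mul, PowerSeries.constantCoeff_C, ← hζdef, inv_mul_cancel₀ hζ0]
  have hwd : w ^ d = δ' * δ⁻¹ := by
    rw [hwdef, mul_pow, ← map_pow, inv_pow, hζ, inv_one, map_one, one_mul, haU]
  have hwrat : ∀ n, ∃ r : ℚ, PowerSeries.coeff n w = (r : ℂ) :=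
    coeff_rat_of_pow hd w hw0 (by rw [hwd]; exact hU)
  have hw0ne : PowerSeries.constantCoeff w ≠ 0 := by rw [hw0]; exact one_ne_zero
  -- `ζ b = w⁻¹`
  have hb : PowerSeries.C ζ * b = w⁻¹ := by
    rw [PowerSeries.eq_inv_iff_mul_eq_one hw0ne, hwdef]
    have : PowerSeries.C ζ * b * (PowerSeries.C ζ⁻¹ * a)
        = (PowerSeries.C ζ * PowerSeries.C ζ⁻¹) * (a * b) := by ring
    rw [this, hab, mul_one, ← map_mul, mul_inv_cancel₀ hζ0, map_one]
  obtain ⟨g, hg⟩ := coeff_rat_inv w hw0ne hwrat N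
  have hbN : ζ * PowerSeries.coeff N b = (g : ℂ) := by
    rw [← hg, ← hb, PowerSeries.coeff_C_mul]
  have hbN' : PowerSeries.coeff N b = ζ⁻¹ * (g : ℂ) := by
    rw [← hbN, ← mul_assoc, inv_mul_cancel₀ hζ0, one_mul]
  have hκ' : κ ^ d = ((p : ℂ) ^ 12)⁻¹ := eq_inv_of_mul_eq_one_left hκ
  refine dvd_twelve_of_trace_rel hp ζ κ ((p : ℚ) * g) hζ hκ' ?_
  have h' : ζ + κ * (p : ℂ) * PowerSeries.coeff N b = 0 := by
    rw [hζdef, ← PowerSeries.coeff_zero_eq_constantCoeff_apply]; exact h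
  rw [hbN'] at h'
  push_cast
  linear_combination h'

end Fermat.Agent.S16.Root12Alg
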