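import Mathlib
import Fermat.Agent.S16.Defs
import Fermat.Agent.S22.TauInt

/-!
# `Δ / q` and `Δ(p z) / q ^ p`

The normalised discriminant `Dt z = Δ(z) / q` (`q = exp (2 π i z)`) and `Dtp p z = Dt (p z)`:
they are `1`-periodic, holomorphic, tend to `1` at `i∞`, never vanish, and their `q`-expansions
have rational (indeed integral) coefficients with constant coefficient `1`.
-/

set_option autoImplicit false

namespace Fermat.Agent.S16.Root12Delta

open UpperHalfPlane ModularForm CongruenceSubgroup SlashInvariantForm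
open scoped MatrixGroups ModularForm Manifold

/-- The normalised discriminant `Δ(z) / q`. -/
noncomputable def Dt (z : ℍ) : ℂ := ModularForm.discriminant z / Function.Periodic.qParam 1 z

/-- The normalised discriminant at `p z`, i.e. `Δ(p z) / q ^ p`. -/
noncomputable def Dtp (p : ℕ) (z : ℍ) : ℂ := Dt (heckeDiagMatrix p • z)

theorem qParam_ne_zero (w : ℂ) : Function.Periodic.qParam 1 w ≠ 0 :=
  Function.Periodic.qParam_ne_zero w

theorem Dt_ne_zero (z : ℍ) : Dt z ≠ 0 :=
  div_ne_zero (ModularForm.discriminant_ne_zero z) (qParam_ne_zero _)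

theorem Dt_eq_tprod (z : ℍ) : Dt z = ∏' n : ℕ, (1 - eta_q n (z : ℂ)) ^ 24 := by
  rw [Dt, ModularForm.discriminant_eq_q_prod, mul_div_cancel_left₀ _ (qParam_ne_zero _)]

theorem qParam_add_one (w : ℂ) :
    Function.Periodic.qParam 1 (w + 1) = Function.Periodic.qParam 1 w := by
  simp only [Function.Periodic.qParam, Complex.ofReal_one, div_one]
  rw [mul_add, Complex.exp_add, mul_one, Complex.exp_two_pi_mul_I, mul_one]

theorem Dt_periodic : Function.Periodic (Dt ∘ ofComplex) 1 := by
  have hΔ : Function.Periodic ((CuspForm.discriminant : ℍ → ℂ) ∘ ofComplex) ((1 : ℝ) : ℂ) :=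
    SlashInvariantFormClass.periodic_comp_ofComplex CuspForm.discriminant
      one_mem_strictPeriods_SL
  intro w
  by_cases hw : 0 < w.im
  · have hw' : 0 < (w + 1).im := by simpa using hw
    have h1 := hΔ w
    simp only [Function.comp_apply, Complex.ofReal_one, CuspForm.coe_discriminant] at h1
    simp only [Function.comp_apply, Dt]
    rw [h1]
    congr 1
    rw [ofComplex_apply_of_im_pos hw', ofComplex_apply_of_im_pos hw]
    exact qParam_add_one w
  · have hw0 : w.im ≤ 0 := not_lt.mp hw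
    have hw' : (w + 1).im ≤ 0 := by simpa using hw0
    simp only [Function.comp_apply, ofComplex_apply_of_im_nonpos hw',
      ofComplex_apply_of_im_nonpos hw0]

theorem Dt_mdiff : MDiff Dt := by
  rw [UpperHalfPlane.mdifferentiable_iff]
  have hΔ : DifferentiableOn ℂ ((CuspForm.discriminant : ℍ → ℂ) ∘ ofComplex) {z | 0 < z.im} :=
    UpperHalfPlane.mdifferentiable_iff.mp CuspForm.discriminant.holo'
  have hq : DifferentiableOn ℂ (fun w : ℂ => Function.Periodic.qParam 1 w) {z | 0 < z.im} := by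
    intro w _
    apply DifferentiableAt.differentiableWithinAt
    simp only [Function.Periodic.qParam]
    fun_prop
  have hdiv := hΔ.div hq (fun w _ => qParam_ne_zero w)
  refine hdiv.congr fun w hw => ?_
  have hw' : 0 < w.im := hw
  simp only [Function.comp_apply, Dt, CuspForm.coe_discriminant, Pi.div_apply]
  rw [ofComplex_apply_of_im_pos hw']

theorem Dt_tendsto : Filter.Tendsto Dt atImInfty (nhds 1) := by
  have h := ModularForm.tendsto_atImInfty_tprod_one_sub_eta_q_pow
  refine h.congr fun z => ?_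
  rw [Dt_eq_tprod]

theorem Dt_bdd : IsBoundedAtImInfty Dt :=
  Dt_tendsto.isBigO_one ℝ

theorem qParam_nat_mul (p : ℕ) (w : ℂ) :
    Function.Periodic.qParam 1 ((p : ℂ) * w) = Function.Periodic.qParam 1 w ^ p := by
  simp only [Function.Periodic.qParam]
  rw [← Complex.exp_nat_mul]
  congr 1
  push_cast
  ring

theorem Dtp_apply (p : ℕ) (hp : 0 < p) (z : ℍ) :
    Dtp p z = ModularForm.discriminant (heckeDiagMatrix p • z) /
      Function.Periodic.qParam 1 z ^ p := by
  rw [Dtp, Dt, coe_heckeDiagMatrix_smul hp.ne', qParam_nat_mul]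

/-- `Dtp p` as a composition with an affine map. -/
theorem Dtp_comp_ofComplex (p : ℕ) (hp : 0 < p) (w : ℂ) (hw : 0 < w.im) :
    (Dtp p ∘ ofComplex) w = (Dt ∘ ofComplex) ((p : ℂ) * w) := by
  have hpw : 0 < ((p : ℂ) * w).im := by
    have : ((p : ℂ) * w).im = p * w.im := by simp
    rw [this]
    positivity
  simp only [Function.comp_apply, Dtp]
  congr 1
  apply UpperHalfPlane.ext
  rw [coe_heckeDiagMatrix_smul hp.ne', ofComplex_apply_of_im_pos hw,
    ofComplex_apply_of_im_pos hpw]

theorem Dtp_periodic (p : ℕ) (hp : 0 < p) : Function.Periodic (Dtp p ∘ ofComplex) 1 := by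
  intro w
  by_cases hw : 0 < w.im
  · have hw' : 0 < (w + 1).im := by simpa using hw
    rw [Dtp_comp_ofComplex p hp _ hw', Dtp_comp_ofComplex p hp _ hw]
    have h := Dt_periodic.nat_mul p ((p : ℂ) * w)
    rw [← h]
    congr 1
    ring
  · have hw0 : w.im ≤ 0 := not_lt.mp hw
    have hw' : (w + 1).im ≤ 0 := by simpa using hw0
    simp only [Function.comp_apply, ofComplex_apply_of_im_nonpos hw',
      ofComplex_apply_of_im_nonpos hw0]

theorem Dtp_mdiff (p : ℕ) (hp : 0 < p) : MDiff (Dtp p) := by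
  rw [UpperHalfPlane.mdifferentiable_iff]
  have hD : DifferentiableOn ℂ (Dt ∘ ofComplex) {z | 0 < z.im} :=
    UpperHalfPlane.mdifferentiable_iff.mp Dt_mdiff
  have hmaps : Set.MapsTo (fun w : ℂ => (p : ℂ) * w) {z | 0 < z.im} {z | 0 < z.im} := by
    intro w hw
    have hw' : 0 < w.im := hw
    show 0 < ((p : ℂ) * w).im
    have : ((p : ℂ) * w).im = p * w.im := by simp
    rw [this]
    positivity
  have hcomp : DifferentiableOn ℂ ((Dt ∘ ofComplex) ∘ fun w : ℂ => (p : ℂ) * w) {z | 0 < z.im} :=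
    hD.comp (by fun_prop) hmaps
  refine hcomp.congr fun w hw => ?_
  exact Dtp_comp_ofComplex p hp w hw

theorem tendsto_heckeDiag_smul (p : ℕ) (hp : 0 < p) :
    Filter.Tendsto (fun z : ℍ => heckeDiagMatrix p • z) atImInfty atImInfty := by
  rw [UpperHalfPlane.atImInfty, Filter.tendsto_comap_iff]
  have him : ∀ z : ℍ, (heckeDiagMatrix p • z).im = p * z.im := by
    intro z
    have h1 : (heckeDiagMatrix p • z).im = ((heckeDiagMatrix p • z : ℍ) : ℂ).im := rfl
    rw [h1, coe_heckeDiagMatrix_smul hp.ne']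
    simp
  have h2 : (UpperHalfPlane.im ∘ fun z : ℍ => heckeDiagMatrix p • z) =
      fun z : ℍ => (p : ℝ) * z.im := by
    funext z
    exact him z
  rw [h2]
  have hp' : (0 : ℝ) < p := by exact_mod_cast hp
  exact (Filter.tendsto_comap (f := UpperHalfPlane.im) (x := Filter.atTop)).const_mul_atTop hp'

theorem Dtp_tendsto (p : ℕ) (hp : 0 < p) : Filter.Tendsto (Dtp p) atImInfty (nhds 1) :=
  Dt_tendsto.comp (tendsto_heckeDiag_smul p hp)

theorem Dtp_bdd (p : ℕ) (hp : 0 < p) : IsBoundedAtImInfty (Dtp p) :=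
  (Dtp_tendsto p hp).isBigO_one ℝ

/-! ### `q`-expansions -/

theorem qExpansion_discriminant_zero :
    (qExpansion 1 ModularForm.discriminant).coeff 0 = 0 := by
  have h := CuspFormClass.qExpansion_coeff_zero CuspForm.discriminant one_pos
    one_mem_strictPeriods_SL
  rwa [CuspForm.coe_discriminant] at h

theorem hasSum_Dt (z : ℍ) :
    HasSum (fun m : ℕ => (qExpansion 1 ModularForm.discriminant).coeff (m + 1) •
      Function.Periodic.qParam 1 z ^ m) (Dt z) := by
  have h1 := ModularForm.hasSum_qExpansion CuspForm.discriminant one_pos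
    one_mem_strictPeriods_SL z
  rw [CuspForm.coe_discriminant] at h1
  have h2 := (hasSum_nat_add_iff' 1).mpr h1
  simp only [Finset.range_one, Finset.sum_singleton, qExpansion_discriminant_zero, zero_mul,
    sub_zero] at h2
  have h3 := h2.div_const (Function.Periodic.qParam 1 (z : ℂ))
  have hq := qParam_ne_zero (z : ℂ)
  have h4 : (fun m : ℕ => (qExpansion 1 ModularForm.discriminant).coeff (m + 1) •
      Function.Periodic.qParam 1 z ^ m) = fun i : ℕ =>
      (PowerSeries.coeff (i + 1)) (qExpansion 1 discriminant) *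
        Function.Periodic.qParam 1 (z : ℂ) ^ (i + 1) / Function.Periodic.qParam 1 (z : ℂ) := by
    funext m
    rw [pow_succ, smul_eq_mul]
    field_simp
  rw [h4]
  exact h3

theorem qExpansion_Dt_coeff (n : ℕ) :
    (qExpansion 1 Dt).coeff n = (qExpansion 1 ModularForm.discriminant).coeff (n + 1) := by
  have hana := analyticAt_cuspFunction_zero one_pos
    (by simpa using Dt_periodic) Dt_mdiff Dt_bdd
  exact (qExpansion_coeff_unique
    (c := fun m => (qExpansion 1 ModularForm.discriminant).coeff (m + 1))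
    (ContinuousMap.mk Dt Dt_mdiff.continuous) one_pos hana hasSum_Dt n).symm

theorem qExpansion_Dt_int (n : ℕ) : ∃ m : ℤ, (qExpansion 1 Dt).coeff n = (m : ℂ) := by
  rw [qExpansion_Dt_coeff]
  exact Fermat.Agent.S22.discriminant_qExpansion_coeff_int (n + 1)

theorem qExpansion_Dt_rat (n : ℕ) : ∃ r : ℚ, (qExpansion 1 Dt).coeff n = (r : ℂ) := by
  obtain ⟨m, hm⟩ := qExpansion_Dt_int n
  exact ⟨(m : ℚ), by rw [hm]; push_cast; rfl⟩

theorem qExpansion_Dt_zero : (qExpansion 1 Dt).coeff 0 = 1 := by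
  have hana := analyticAt_cuspFunction_zero one_pos
    (by simpa using Dt_periodic) Dt_mdiff Dt_bdd
  rw [qExpansion_coeff_zero one_pos hana (by simpa using Dt_periodic)]
  exact Dt_tendsto.limUnder_eq

/-- The candidate coefficients of `Dtp p`. -/
noncomputable def cDtp (p : ℕ) (n : ℕ) : ℂ :=
  if p ∣ n then (qExpansion 1 Dt).coeff (n / p) else 0

theorem hasSum_Dtp (p : ℕ) (hp : 0 < p) (z : ℍ) :
    HasSum (fun n : ℕ => cDtp p n • Function.Periodic.qParam 1 z ^ n) (Dtp p z) := by
  have h1 := UpperHalfPlane.hasSum_qExpansion (h := 1) one_pos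
    (by simpa using Dt_periodic) Dt_mdiff Dt_bdd (heckeDiagMatrix p • z)
  rw [coe_heckeDiagMatrix_smul hp.ne', qParam_nat_mul] at h1
  have hinj : Function.Injective (fun m : ℕ => p * m) :=
    fun x y hxy => Nat.eq_of_mul_eq_mul_left hp hxy
  rw [Dtp, ← hinj.hasSum_iff]
  · convert h1 using 1
    funext m
    simp only [Function.comp_apply, cDtp]
    rw [if_pos (dvd_mul_right _ _), Nat.mul_div_cancel_left _ hp, pow_mul]
  · intro x hx
    have : ¬ p ∣ x := by
      rintro ⟨m, rfl⟩
      exact hx ⟨m, rfl⟩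
    simp only [cDtp]
    rw [if_neg this, zero_smul]

theorem qExpansion_Dtp_coeff (p : ℕ) (hp : 0 < p) (n : ℕ) :
    (qExpansion 1 (Dtp p)).coeff n =
      if p ∣ n then (qExpansion 1 Dt).coeff (n / p) else 0 := by
  have hana := analyticAt_cuspFunction_zero one_pos
    (by simpa using Dtp_periodic p hp) (Dtp_mdiff p hp) (Dtp_bdd p hp)
  exact (qExpansion_coeff_unique (c := cDtp p)
    (ContinuousMap.mk (Dtp p) (Dtp_mdiff p hp).continuous) one_pos hana (hasSum_Dtp p hp) n).symm

theorem qExpansion_Dtp_int (p : ℕ) (hp : 0 < p) (n : ℕ) :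
    ∃ m : ℤ, (qExpansion 1 (Dtp p)).coeff n = (m : ℂ) := by
  rw [qExpansion_Dtp_coeff p hp]
  split_ifs
  · exact qExpansion_Dt_int _
  · exact ⟨0, by simp⟩

theorem qExpansion_Dtp_rat (p : ℕ) (hp : 0 < p) (n : ℕ) :
    ∃ r : ℚ, (qExpansion 1 (Dtp p)).coeff n = (r : ℂ) := by
  obtain ⟨m, hm⟩ := qExpansion_Dtp_int p hp n
  exact ⟨(m : ℚ), by rw [hm]; push_cast; rfl⟩

theorem qExpansion_Dtp_zero (p : ℕ) (hp : 0 < p) : (qExpansion 1 (Dtp p)).coeff 0 = 1 := by
  rw [qExpansion_Dtp_coeff p hp, if_pos (dvd_zero _), Nat.zero_div, qExpansion_Dt_zero]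

end Fermat.Agent.S16.Root12Delta
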