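import Mathlib
import Fermat.Agent.S16.Defs
import Fermat.Agent.S16.Root12Alg
import Fermat.Agent.S16.Root12Delta
import Fermat.Agent.S22.Key

/-!
# S16 (N5, hedge `Root12B`), leaf (B4): the `q`-expansions of a `c`-th root of `Δ(pz)/Δ(z)`

If `v : ℍ → ℂ` is holomorphic, `1`-periodic and `v ^ c = Δ(p z) / Δ(z)` with `c n' = p - 1`, then
`v = ω q^{n'} (1 + a₁ q + ⋯)` and `q^{n'} / v = ω⁻¹ (1 + b₁ q + ⋯)` with `ω ^ c = 1` and rational
`a_m`, `b_m`.
-/

set_option autoImplicit false

namespace Fermat.Agent.S16.Root12B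

open CongruenceSubgroup UpperHalfPlane ModularForm
open scoped MatrixGroups ModularForm Manifold Topology

namespace B4

open Filter Root12Delta

/-- invariance under `T` gives `1`-periodicity of `f ∘ ofComplex` -/
theorem periodic_of_T {f : ℍ → ℂ} (h : ∀ z : ℍ, f (ModularGroup.T • z) = f z) :
    Function.Periodic (f ∘ ofComplex) 1 := by
  intro x
  simp only [Function.comp_apply]
  by_cases hx : 0 < x.im
  · have hx1 : 0 < (x + 1).im := by simpa using hx
    rw [ofComplex_apply_of_im_pos hx1, ofComplex_apply_of_im_pos hx, ← h ⟨x, hx⟩]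
    congr 1
    ext
    rw [UpperHalfPlane.modular_T_smul, UpperHalfPlane.coe_vadd]
    simp [add_comm]
  · have hx1 : ¬ 0 < (x + 1).im := by simpa using hx
    rw [ofComplex_apply_of_im_nonpos (not_lt.mp hx1), ofComplex_apply_of_im_nonpos (not_lt.mp hx)]

/-- a function whose `c`-th power tends to `1` at `i∞` is bounded at `i∞` -/
theorem bdd_of_pow_tendsto {f : ℍ → ℂ} {c : ℕ} (hc : 0 < c)
    (h : Tendsto (fun z => f z ^ c) atImInfty (𝓝 1)) : IsBoundedAtImInfty f := by
  have h1 : ∀ᶠ z in atImInfty, ‖f z ^ c‖ < 2 :=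
    h.norm.eventually (gt_mem_nhds (by norm_num : ‖(1 : ℂ)‖ < 2))
  refine Asymptotics.isBigO_iff.mpr ⟨2, ?_⟩
  filter_upwards [h1] with z hz
  simp only [Pi.one_apply, norm_one, mul_one]
  by_contra hcon
  push Not at hcon
  have h2 : ‖f z‖ ≤ ‖f z‖ ^ c := le_self_pow₀ (by linarith) hc.ne'
  rw [norm_pow] at hz
  linarith

/-- the two `q`-expansion facts for a quotient of the shape `g / q ^ n` -/
theorem mdiff_div_qpow {g : ℍ → ℂ} (hg : MDiff g) (n : ℕ) :
    MDiff (fun z : ℍ => g z / Function.Periodic.qParam 1 z ^ n) := by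
  rw [UpperHalfPlane.mdifferentiable_iff] at hg ⊢
  have h1 : DifferentiableOn ℂ (fun w : ℂ => (g ∘ ofComplex) w / Function.Periodic.qParam 1 w ^ n)
      {z | 0 < z.im} := by
    refine hg.div ?_ (fun w _ => pow_ne_zero _ (qParam_ne_zero w))
    exact ((Function.Periodic.differentiable_qParam (h := 1)).pow n).differentiableOn
  refine h1.congr fun w hw => ?_
  simp only [Function.comp_apply, ofComplex_apply_of_im_pos hw, UpperHalfPlane.coe_mk]

theorem mdiff_qpow_div {g : ℍ → ℂ} (hg : MDiff g) (hg0 : ∀ z, g z ≠ 0) (n : ℕ) :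
    MDiff (fun z : ℍ => Function.Periodic.qParam 1 z ^ n / g z) := by
  rw [UpperHalfPlane.mdifferentiable_iff] at hg ⊢
  have h1 : DifferentiableOn ℂ (fun w : ℂ => Function.Periodic.qParam 1 w ^ n / (g ∘ ofComplex) w)
      {z | 0 < z.im} := by
    refine DifferentiableOn.div ?_ hg (fun w _ => hg0 _)
    exact ((Function.Periodic.differentiable_qParam (h := 1)).pow n).differentiableOn
  refine h1.congr fun w hw => ?_
  simp only [Function.comp_apply, ofComplex_apply_of_im_pos hw, UpperHalfPlane.coe_mk]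

theorem qParam_T (z : ℍ) :
    Function.Periodic.qParam 1 ((ModularGroup.T • z : ℍ) : ℂ) = Function.Periodic.qParam 1 z := by
  rw [UpperHalfPlane.modular_T_smul, UpperHalfPlane.coe_vadd]
  have : ((1 : ℝ) : ℂ) + (z : ℂ) = (z : ℂ) + 1 := by push_cast; ring
  rw [this, qParam_add_one]

end B4

open B4 Root12Delta Root12Alg in
/-- (B4) the `q`-expansions of a holomorphic `1`-periodic `c`-th root `v` of `Δ(p z)/Δ(z)` and of
`q^{n'} / v`, `c n' = p - 1`. -/
theorem exists_series (p : ℕ) [Fact p.Prime] (c n' : ℕ) (hc : 0 < c) (hn : c * n' = p - 1)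
    (v : ℍ → ℂ) (hv : MDiff v) (hper : ∀ z : ℍ, v (ModularGroup.T • z) = v z)
    (hpow : ∀ z : ℍ, v z ^ c =
      ModularForm.discriminant (heckeDiagMatrix p • z) / ModularForm.discriminant z) :
    ∃ (ω : ℂ) (a b : ℕ → ℚ), ω ^ c = 1 ∧ a 0 = 1 ∧ b 0 = 1 ∧
      (∀ z : ℍ, HasSum (fun m : ℕ => ω * (a m : ℂ) * Function.Periodic.qParam 1 z ^ (m + n'))
        (v z)) ∧
      (∀ z : ℍ, HasSum (fun m : ℕ => ω⁻¹ * (b m : ℂ) * Function.Periodic.qParam 1 z ^ m)
        (Function.Periodic.qParam 1 z ^ n' / v z)) := by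
  have hp : p.Prime := Fact.out
  have hp0 : 0 < p := hp.pos
  have hq0 : ∀ z : ℍ, Function.Periodic.qParam 1 (z : ℂ) ≠ 0 := fun z => qParam_ne_zero _
  have hΔ0 : ∀ z : ℍ, ModularForm.discriminant z ≠ 0 := ModularForm.discriminant_ne_zero
  have hv0 : ∀ z : ℍ, v z ≠ 0 := by
    intro z hz
    have := hpow z
    rw [hz, zero_pow hc.ne'] at this
    exact div_ne_zero (hΔ0 _) (hΔ0 _) this.symm
  -- the two functions
  set w : ℍ → ℂ := fun z => v z / Function.Periodic.qParam 1 z ^ n' with hw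
  set w' : ℍ → ℂ := fun z => Function.Periodic.qParam 1 z ^ n' / v z with hw'
  have hww' : w * w' = 1 := by
    funext z
    simp only [hw, hw', Pi.mul_apply, Pi.one_apply]
    field_simp [hv0 z, hq0 z]
  -- the key identity `w ^ c * Dt = Dtp`
  have hpc : p = c * n' + 1 := by have := hp.one_le; omega
  have hkey : ∀ z : ℍ, w z ^ c * Dt z = Dtp p z := by
    intro z
    rw [Dtp_apply p hp0, Dt, hw]
    simp only
    rw [div_pow, hpow z, ← pow_mul, mul_comm n' c]
    have h1 : Function.Periodic.qParam 1 (z : ℂ) ^ p =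
        Function.Periodic.qParam 1 (z : ℂ) ^ (c * n') * Function.Periodic.qParam 1 (z : ℂ) := by
      conv_lhs => rw [hpc, pow_succ]
    rw [h1]
    field_simp [hq0 z, hΔ0 z]
  have hkey' : ∀ z : ℍ, w' z ^ c * Dtp p z = Dt z := by
    intro z
    have h1 : w' z = (w z)⁻¹ := by
      simp only [hw, hw', inv_div]
    rw [h1, inv_pow, ← hkey z]
    have : w z ^ c ≠ 0 := pow_ne_zero _ (div_ne_zero (hv0 z) (pow_ne_zero _ (hq0 z)))
    field_simp
  -- analytic properties
  have hwper : Function.Periodic (w ∘ ofComplex) 1 := by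
    refine periodic_of_T fun z => ?_
    simp only [hw, hper z, qParam_T]
  have hw'per : Function.Periodic (w' ∘ ofComplex) 1 := by
    refine periodic_of_T fun z => ?_
    simp only [hw', hper z, qParam_T]
  have hwhol : MDiff w := mdiff_div_qpow hv n'
  have hw'hol : MDiff w' := mdiff_qpow_div hv hv0 n'
  have hwbdd : IsBoundedAtImInfty w := by
    refine bdd_of_pow_tendsto hc ?_
    have h1 : Filter.Tendsto (fun z => Dtp p z / Dt z) atImInfty (𝓝 (1 / 1)) :=
      (Dtp_tendsto p hp0).div Dt_tendsto one_ne_zero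
    rw [div_one] at h1
    refine h1.congr fun z => ?_
    rw [← hkey z, mul_div_cancel_right₀ _ (Dt_ne_zero z)]
  have hDtp0 : ∀ z : ℍ, Dtp p z ≠ 0 := fun z => Dt_ne_zero _
  have hw'bdd : IsBoundedAtImInfty w' := by
    refine bdd_of_pow_tendsto hc ?_
    have h1 : Filter.Tendsto (fun z => Dt z / Dtp p z) atImInfty (𝓝 (1 / 1)) :=
      Dt_tendsto.div (Dtp_tendsto p hp0) one_ne_zero
    rw [div_one] at h1
    refine h1.congr fun z => ?_
    rw [← hkey' z, mul_div_cancel_right₀ _ (hDtp0 z)]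
  have hper1 : Function.Periodic (w ∘ ofComplex) ((1 : ℝ) : ℂ) := by simpa using hwper
  have hper1' : Function.Periodic (w' ∘ ofComplex) ((1 : ℝ) : ℂ) := by simpa using hw'per
  have hwN : S22.Key.Nice 1 w := analyticAt_cuspFunction_zero one_pos hper1 hwhol hwbdd
  have hw'N : S22.Key.Nice 1 w' := analyticAt_cuspFunction_zero one_pos hper1' hw'hol hw'bdd
  have hDtN : S22.Key.Nice 1 Dt :=
    analyticAt_cuspFunction_zero one_pos (by simpa using Dt_periodic) Dt_mdiff Dt_bdd
  -- the power series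
  set W : PowerSeries ℂ := qExpansion 1 w with hW
  set W' : PowerSeries ℂ := qExpansion 1 w' with hW'
  set δ : PowerSeries ℂ := qExpansion 1 Dt with hδ
  set δ' : PowerSeries ℂ := qExpansion 1 (Dtp p) with hδ'
  have hWW' : W * W' = 1 := by
    rw [hW, hW', ← qExpansion_mul hwN hw'N, hww', qExpansion_one]
  have hWδ : W ^ c * δ = δ' := by
    have hfun : w ^ c * Dt = Dtp p := by
      funext z
      simpa using hkey z
    rw [hW, hδ, ← S22.Key.qExpansion_pow' hwN c, ← qExpansion_mul (hwN.pow c) hDtN, hfun]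
  have hδ0 : PowerSeries.constantCoeff δ = 1 := by
    rw [← PowerSeries.coeff_zero_eq_constantCoeff_apply]; exact qExpansion_Dt_zero
  have hδ'0 : PowerSeries.constantCoeff δ' = 1 := by
    rw [← PowerSeries.coeff_zero_eq_constantCoeff_apply]; exact qExpansion_Dtp_zero p hp0
  set ω : ℂ := PowerSeries.constantCoeff W with hω
  have hωc : ω ^ c = 1 := by
    have := congrArg PowerSeries.constantCoeff hWδ
    rw [map_mul, map_pow, hδ0, hδ'0, mul_one] at this
    exact this
  have hω0 : ω ≠ 0 := by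
    intro h0
    rw [h0, zero_pow hc.ne'] at hωc
    exact zero_ne_one hωc
  -- the normalised series
  set W₁ : PowerSeries ℂ := PowerSeries.C ω⁻¹ * W with hW₁
  have hW₁0 : PowerSeries.constantCoeff W₁ = 1 := by
    rw [hW₁, map_mul, PowerSeries.constantCoeff_C, ← hω, inv_mul_cancel₀ hω0]
  have hW₁c : W₁ ^ c = δ' * δ⁻¹ := by
    have h1 : W₁ ^ c = W ^ c := by
      rw [hW₁, mul_pow, ← map_pow, inv_pow, hωc, inv_one, map_one, one_mul]
    rw [h1, PowerSeries.eq_mul_inv_iff_mul_eq (by rw [hδ0]; exact one_ne_zero)]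
    exact hWδ
  have hrat : ∀ n, ∃ r : ℚ, PowerSeries.coeff n W₁ = (r : ℂ) := by
    refine coeff_rat_of_pow hc W₁ hW₁0 ?_
    rw [hW₁c]
    exact coeff_rat_mul _ _ (qExpansion_Dtp_rat p hp0)
      (coeff_rat_inv δ (by rw [hδ0]; exact one_ne_zero) qExpansion_Dt_rat)
  have hW₁inv : PowerSeries.C ω * W' = W₁⁻¹ := by
    rw [PowerSeries.eq_inv_iff_mul_eq_one (by rw [hW₁0]; exact one_ne_zero), hW₁]
    calc PowerSeries.C ω * W' * (PowerSeries.C ω⁻¹ * W)
        = (PowerSeries.C ω * PowerSeries.C ω⁻¹) * (W * W') := by ring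
      _ = 1 := by rw [hWW', ← map_mul, mul_inv_cancel₀ hω0, map_one, mul_one]
  have hrat' : ∀ n, ∃ r : ℚ, PowerSeries.coeff n (PowerSeries.C ω * W') = (r : ℂ) := by
    rw [hW₁inv]
    exact coeff_rat_inv W₁ (by rw [hW₁0]; exact one_ne_zero) hrat
  choose a ha using hrat
  choose b hb using hrat'
  have hWa : ∀ m, PowerSeries.coeff m W = ω * (a m : ℂ) := by
    intro m
    have := ha m
    rw [hW₁, PowerSeries.coeff_C_mul] at this
    rw [← this, ← mul_assoc, mul_inv_cancel₀ hω0, one_mul]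
  have hW'b : ∀ m, PowerSeries.coeff m W' = ω⁻¹ * (b m : ℂ) := by
    intro m
    have := hb m
    rw [PowerSeries.coeff_C_mul] at this
    rw [← this, ← mul_assoc, inv_mul_cancel₀ hω0, one_mul]
  refine ⟨ω, a, b, hωc, ?_, ?_, ?_, ?_⟩
  · have h1 := ha 0
    rw [PowerSeries.coeff_zero_eq_constantCoeff_apply, hW₁0] at h1
    exact_mod_cast h1.symm
  · have h1 := hb 0
    rw [hW₁inv, PowerSeries.coeff_zero_eq_constantCoeff_apply, PowerSeries.constantCoeff_inv,
      hW₁0, inv_one] at h1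
    exact_mod_cast h1.symm
  · intro z
    have h1 := (hasSum_qExpansion one_pos hper1 hwhol hwbdd z).mul_right
      (Function.Periodic.qParam 1 (z : ℂ) ^ n')
    have h2 : w z * Function.Periodic.qParam 1 (z : ℂ) ^ n' = v z := by
      simp only [hw]
      exact div_mul_cancel₀ _ (pow_ne_zero _ (hq0 z))
    rw [h2] at h1
    refine h1.congr_fun fun m => ?_
    simp only [smul_eq_mul]
    rw [← hW, hWa m, pow_add]
    ring
  · intro z
    have h1 := hasSum_qExpansion one_pos hper1' hw'hol hw'bdd z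
    refine h1.congr_fun fun m => ?_
    simp only [smul_eq_mul]
    rw [← hW', hW'b m]

end Fermat.Agent.S16.Root12B
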