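import Mathlib
import Fermat.Agent.S16.Defs

/-!
# S16 (N5, hedge `Root12B`), leaf (B5): the `U_p`-type sum of a function with a pole at `i∞`

If `q^{n'} h = ∑_m β_m q^m` on `ℍ` with `n' < p`, then
`∑_{j<p} h((z+j)/p) = ∑_k p β_{n'+pk} q^k`.
-/

set_option autoImplicit false

namespace Fermat.Agent.S16.Root12B

open ModularCurve CuspForm CongruenceSubgroup UpperHalfPlane ModularForm
open scoped MatrixGroups ModularForm Manifold

/-- the sum of the powers of a `p`-th root of unity `r ≠ 1`. -/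
theorem sum_pow_eq_zero_of_ne_one {p : ℕ} {r : ℂ} (hr : r ^ p = 1) (hr1 : r ≠ 1) :
    ∑ j ∈ Finset.range p, r ^ j = 0 := by
  have h := mul_geom_sum r p
  rw [hr, sub_self] at h
  rcases mul_eq_zero.mp h with h | h
  · exact absurd (sub_eq_zero.mp h) hr1
  · exact h

/-- (B5) the `U_p`-type sum of a function with a pole of order `n' < p` at `i∞`. -/
theorem hasSum_width (p : ℕ) [Fact p.Prime] (n' : ℕ) (hn : n' < p) (h : ℍ → ℂ) (β : ℕ → ℂ)
    (hsum : ∀ z : ℍ, HasSum (fun m : ℕ => β m * Function.Periodic.qParam 1 z ^ m)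
      (Function.Periodic.qParam 1 z ^ n' * h z)) (z : ℍ) :
    HasSum (fun k : ℕ => (p : ℂ) * β (n' + p * k) * Function.Periodic.qParam 1 z ^ k)
      (∑ j ∈ Finset.range p, h (heckeMatrix p j • z)) := by
  have hp : p.Prime := Fact.out
  have hp0 : p ≠ 0 := hp.ne_zero
  have hpC : (p : ℂ) ≠ 0 := by exact_mod_cast hp0
  set t : ℂ := Complex.exp (2 * Real.pi * Complex.I * z / p) with ht
  set ζ : ℂ := Complex.exp (2 * Real.pi * Complex.I / p) with hζdef
  have ht0 : t ≠ 0 := Complex.exp_ne_zero _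
  have hζ0 : ζ ≠ 0 := Complex.exp_ne_zero _
  have hζ : IsPrimitiveRoot ζ p := Complex.isPrimitiveRoot_exp p hp0
  have hq : ∀ j : ℕ, Function.Periodic.qParam 1 ((heckeMatrix p j • z : ℍ) : ℂ) = t * ζ ^ j := by
    intro j
    simp only [Function.Periodic.qParam, ht, hζdef]
    rw [coe_heckeMatrix_smul hp0, ← Complex.exp_nat_mul, ← Complex.exp_add]
    congr 1
    push_cast
    field_simp
  have htp : t ^ p = Function.Periodic.qParam 1 (z : ℂ) := by
    simp only [Function.Periodic.qParam, ht]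
    rw [← Complex.exp_nat_mul]
    congr 1
    push_cast
    field_simp
  -- expansion at each translate
  have h1 : ∀ j : ℕ, HasSum (fun m : ℕ => β m * (t * ζ ^ j) ^ m * ((t * ζ ^ j) ^ n')⁻¹)
      (h (heckeMatrix p j • z)) := by
    intro j
    have h0 := (hsum (heckeMatrix p j • z)).mul_right
      ((Function.Periodic.qParam 1 ((heckeMatrix p j • z : ℍ) : ℂ) ^ n')⁻¹)
    rw [hq j] at h0
    have hne : (t * ζ ^ j) ^ n' ≠ 0 := pow_ne_zero _ (mul_ne_zero ht0 (pow_ne_zero _ hζ0))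
    have h2 : (t * ζ ^ j) ^ n' * h (heckeMatrix p j • z) * ((t * ζ ^ j) ^ n')⁻¹
        = h (heckeMatrix p j • z) := by
      field_simp
    rw [h2] at h0
    exact h0
  have h2 : HasSum (fun m : ℕ => ∑ j ∈ Finset.range p,
      β m * (t * ζ ^ j) ^ m * ((t * ζ ^ j) ^ n')⁻¹)
      (∑ j ∈ Finset.range p, h (heckeMatrix p j • z)) := hasSum_sum fun j _ => h1 j
  -- the coefficients
  have h3 : ∀ m : ℕ, ∑ j ∈ Finset.range p, β m * (t * ζ ^ j) ^ m * ((t * ζ ^ j) ^ n')⁻¹
      = if m ≡ n' [MOD p] then (p : ℂ) * β m * t ^ m * (t ^ n')⁻¹ else 0 := by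
    intro m
    set r : ℂ := ζ ^ m * (ζ ^ n')⁻¹ with hr
    have hterm : ∀ j : ℕ, β m * (t * ζ ^ j) ^ m * ((t * ζ ^ j) ^ n')⁻¹
        = β m * t ^ m * (t ^ n')⁻¹ * r ^ j := by
      intro j
      rw [hr, mul_pow, mul_pow, mul_pow, mul_inv, inv_pow, ← pow_mul, ← pow_mul, ← pow_mul,
        ← pow_mul, mul_comm j m, mul_comm j n']
      ring
    rw [Finset.sum_congr rfl fun j _ => hterm j, ← Finset.mul_sum]
    have hrz : r = ζ ^ ((m : ℤ) - (n' : ℤ)) := by
      rw [hr, zpow_sub₀ hζ0, zpow_natCast, zpow_natCast, div_eq_mul_inv]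
    have hr1 : r = 1 ↔ m ≡ n' [MOD p] := by
      rw [hrz, hζ.zpow_eq_one_iff_dvd, Nat.modEq_iff_dvd, ← dvd_neg, neg_sub]
    have hrp : r ^ p = 1 := by
      rw [hr, mul_pow, inv_pow, ← pow_mul, ← pow_mul, mul_comm m p, mul_comm n' p, pow_mul,
        pow_mul, hζ.pow_eq_one, one_pow, one_pow, inv_one, mul_one]
    by_cases hm : m ≡ n' [MOD p]
    · rw [if_pos hm, hr1.mpr hm]
      simp
      ring
    · rw [if_neg hm, sum_pow_eq_zero_of_ne_one hrp (fun h => hm (hr1.mp h)), mul_zero]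
  rw [funext h3] at h2
  -- reindex
  have hinj : Function.Injective (fun k : ℕ => n' + p * k) := by
    intro a b hab
    have : p * a = p * b := by simpa using hab
    exact Nat.eq_of_mul_eq_mul_left hp.pos this
  rw [← hinj.hasSum_iff] at h2
  · convert h2 using 1
    funext k
    simp only [Function.comp_apply]
    have hmod : n' + p * k ≡ n' [MOD p] := by
      simp [Nat.ModEq]
    rw [if_pos hmod, ← htp, pow_add, ← pow_mul]
    have hne : t ^ n' ≠ 0 := pow_ne_zero _ ht0
    field_simp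
  · intro m hm
    rw [if_neg]
    intro hmod
    apply hm
    refine ⟨m / p, ?_⟩
    have h4 : m % p = n' := by
      have := hmod
      rw [Nat.ModEq, Nat.mod_eq_of_lt hn] at this
      exact this
    have h5 := Nat.mod_add_div m p
    simp only
    omega

end Fermat.Agent.S16.Root12B
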