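import Mathlib
import Fermat.Agent.S16.Defs
import Fermat.Agent.S16.EpBase

/-!
# S16, Root12 hedge (B6): a constant function has no higher `q`-coefficients
-/

set_option autoImplicit false

namespace Fermat.Agent.S16.Root12B

open CongruenceSubgroup UpperHalfPlane ModularForm
open scoped MatrixGroups ModularForm Manifold

/-- (B6) if `∑ a_m q^m` converges to a constant `C` at every point of `ℍ`, then `a_m = 0`
for all `m > 0`. -/
theorem coeff_eq_zero_of_hasSum_const (a : ℕ → ℂ) (C : ℂ)
    (h : ∀ z : ℍ, HasSum (fun m : ℕ => a m * Function.Periodic.qParam 1 z ^ m) C)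
    (m : ℕ) (hm : 0 < m) : a m = 0 := by
  have hhol : MDiff (fun _ : ℍ => C) := mdifferentiable_const
  have h1 : ModularFormClass.qCoeff (fun _ : ℍ => C) m = a m :=
    EpBase.qCoeff_of_hasSum (f := fun _ : ℍ => C) (c := a) hhol (fun τ => by
      simpa [smul_eq_mul] using h τ) m
  have h2 : ModularFormClass.qCoeff (fun _ : ℍ => C) m = (if m = 0 then C else 0) :=
    EpBase.qCoeff_of_hasSum (f := fun _ : ℍ => C) (c := fun k : ℕ => if k = 0 then C else 0)
      hhol (fun τ => by
        have hs : HasSum (fun k : ℕ => (if k = 0 then C else 0) •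
            Function.Periodic.qParam 1 (τ : ℂ) ^ k) C := by
          have h0 := hasSum_single (f := fun k : ℕ => (if k = 0 then C else 0) •
            Function.Periodic.qParam 1 (τ : ℂ) ^ k) 0 (fun k hk => by simp [hk])
          simpa using h0
        exact hs) m
  rw [h1, if_neg hm.ne'] at h2
  exact h2

end Fermat.Agent.S16.Root12B
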