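import Mathlib
import Fermat.Agent.S16.Root12Alg

/-!
# S16 (N5), hedge leaf (B7): the final arithmetic step `c ∣ 12`
-/

set_option autoImplicit false

namespace Fermat.Agent.S16.Root12B

/-- (B7) `κ ^ c = p ^ (-12)`, `ω ^ c = 1`, `x` rational and `ω + κ ω⁻¹ x = 0` force `c ∣ 12`. -/
theorem dvd_twelve_of_rel (p : ℕ) [Fact p.Prime] (c : ℕ) (_hc : 0 < c) (κ ω : ℂ) (x : ℚ)
    (hκ : κ ^ c = ((p : ℂ) ^ 12)⁻¹) (hω : ω ^ c = 1) (h : ω + κ * ω⁻¹ * (x : ℂ) = 0) :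
    c ∣ 12 :=
  Fermat.Agent.S16.Root12Alg.dvd_twelve_of_trace_rel Fact.out ω κ x hω hκ h

end Fermat.Agent.S16.Root12B
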