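import Mathlib
import Fermat.Agent.S16.Defs
import Fermat.Agent.S16.EpBase
import Fermat.Agent.S16.Root12B1
import Fermat.Agent.S16.Root12B2
import Fermat.Agent.S16.Root12B3
import Fermat.Agent.S16.Root12B4
import Fermat.Agent.S16.Root12B5
import Fermat.Agent.S16.Root12B6
import Fermat.Agent.S16.Root12B7

/-!
# S16 (N5), hedge `Root12B`: the index of the Eisenstein character divides `12`

Assembly of the leaves (B1)-(B7): for `F` with `exp(2πi F) = Δ(pz)/Δ(z)` and integral periods on
`Γ₀(p)` generating `cℤ`, the function `v = exp(2πi F / c)` is `Γ₀(p)`-invariant; its trace to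
level one is a bounded holomorphic `SL(2,ℤ)`-invariant function, hence constant, and the
`q^{n'}`-coefficient (`n' = (p-1)/c`) of the trace gives `ω + κ ω⁻¹ x = 0` with `x` rational,
`ω^c = 1`, `κ^c = p^{-12}`, so `c ∣ 12`.
-/

set_option autoImplicit false

namespace Fermat.Agent.S16.Root12B

open ModularCurve CuspForm CongruenceSubgroup UpperHalfPlane ModularForm
open scoped MatrixGroups ModularForm Manifold


/-- a function on `ℍ` with a complex derivative everywhere is holomorphic. -/
theorem mdiff_of_hasDerivAt (F E : ℍ → ℂ)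
    (hFE : ∀ τ : ℍ, HasDerivAt (F ∘ ofComplex) (E τ) τ) : MDiff F := by
  rw [UpperHalfPlane.mdifferentiable_iff]
  intro w hw
  exact (hFE ⟨w, hw⟩).differentiableAt.differentiableWithinAt

/-- **(N5), hedge.** The index of the Eisenstein character divides `12`
(same statement as the skeleton's `dvd_twelve_of_exp`). -/
theorem dvd_twelve_of_exp' (p : ℕ) [Fact p.Prime] (F E : ℍ → ℂ)
    (hFE : ∀ τ : ℍ, HasDerivAt (F ∘ ofComplex) (E τ) τ)
    (hexp : ∀ τ : ℍ, Complex.exp (2 * Real.pi * Complex.I * F τ) =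
      ModularForm.discriminant (heckeDiagMatrix p • τ) / ModularForm.discriminant τ)
    (hint : ∀ γ : Gamma0 p, ∃ m : ℤ, ∀ z : ℍ, F ((γ : SL(2, ℤ)) • z) - F z = (m : ℂ))
    (hT : ∀ τ : ℍ, F (ModularGroup.T • τ) - F τ = (p : ℂ) - 1) :
    ∃ (γ : Gamma0 p) (m : ℤ),
      (∀ z : ℍ, F ((γ : SL(2, ℤ)) • z) - F z = (m : ℂ)) ∧ m ∣ 12 := by
  have hp : p.Prime := Fact.out
  obtain ⟨c, n', γ₀, hc, hcn, hγ₀, hper⟩ := exists_gen p F hint hT
  refine ⟨γ₀, (c : ℤ), hγ₀, ?_⟩
  suffices h : c ∣ 12 by exact_mod_cast h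
  have hcC : (c : ℂ) ≠ 0 := by exact_mod_cast hc.ne'
  have hFmd : MDiff F := mdiff_of_hasDerivAt F E hFE
  have hFcont : Continuous F := hFmd.continuous
  obtain ⟨d, hd, hdF⟩ := exists_fricke_const p F hFcont hexp
  set v : ℍ → ℂ := fun z => Complex.exp (2 * Real.pi * Complex.I * F z / c) with hv
  have hvmd : MDiff v := by
    rw [UpperHalfPlane.mdifferentiable_iff] at hFmd ⊢
    have h1 : (v ∘ ofComplex) = fun w => Complex.exp (2 * Real.pi * Complex.I * (F ∘ ofComplex) w / c) := rfl
    rw [h1]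
    exact ((hFmd.const_mul _).div_const _).cexp
  have hv0 : ∀ z, v z ≠ 0 := fun z => Complex.exp_ne_zero _
  have hvinv : ∀ γ : SL(2, ℤ), γ ∈ Gamma0 p → ∀ z : ℍ, v (γ • z) = v z := by
    intro γ hγ z
    obtain ⟨m, hm⟩ := hper ⟨γ, hγ⟩
    have h1 : F (γ • z) = F z + (c : ℂ) * m := by
      have := hm z
      push_cast at this
      linear_combination this
    simp only [hv]
    rw [h1]
    have h2 : 2 * (Real.pi : ℂ) * Complex.I * (F z + (c : ℂ) * m) / c
        = 2 * Real.pi * Complex.I * F z / c + m * (2 * Real.pi * Complex.I) := by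
      field_simp
    rw [h2, Complex.exp_add, Complex.exp_int_mul_two_pi_mul_I, mul_one]
  have hTmem : ModularGroup.T ∈ Gamma0 p := (gT p).2
  have hvT : ∀ z : ℍ, v (ModularGroup.T • z) = v z := fun z => hvinv _ hTmem z
  have hvpow : ∀ z : ℍ, v z ^ c =
      ModularForm.discriminant (heckeDiagMatrix p • z) / ModularForm.discriminant z := by
    intro z
    simp only [hv]
    rw [← Complex.exp_nat_mul, ← hexp z]
    congr 1
    field_simp
  obtain ⟨ω, a, b, hω, ha0, hb0, hva, hvb⟩ := exists_series p c n' hc hcn v hvmd hvT hvpow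
  set κ : ℂ := Complex.exp (2 * Real.pi * Complex.I * d / c) with hκ
  have hκc : κ ^ c = ((p : ℂ) ^ 12)⁻¹ := by
    rw [hκ, ← Complex.exp_nat_mul, ← hd]
    congr 1
    field_simp
  have hvST : ∀ (j : ℕ) (z : ℍ),
      v ((ModularGroup.S * ModularGroup.T ^ j) • z) = κ * (1 / v (heckeMatrix p j • z)) := by
    intro j z
    have h1 := hdF j z
    rw [mul_one_div, eq_div_iff (hv0 _)]
    simp only [hv, hκ]
    rw [← Complex.exp_add, ← h1]
    congr 1
    ring
  have hn'lt : n' < p := by
    have h1 : n' ≤ c * n' := Nat.le_mul_of_pos_left n' hc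
    have h2 := hp.pos
    omega
  have hn'pos : 0 < n' := by
    rcases Nat.eq_zero_or_pos n' with h | h
    · rw [h, mul_zero] at hcn
      have := hp.two_le
      omega
    · exact h
  have hB5 := hasSum_width p n' hn'lt (fun z => 1 / v z) (fun m => ω⁻¹ * (b m : ℂ))
    (fun z => by
      rw [mul_one_div]
      exact hvb z)
  set A : ℕ → ℂ := fun k => (if n' ≤ k then ω * (a (k - n') : ℂ) else 0)
    + κ * ((p : ℂ) * (ω⁻¹ * (b (n' + p * k) : ℂ))) with hA
  have hTr : ∀ z : ℍ, HasSum (fun k : ℕ => A k * Function.Periodic.qParam 1 z ^ k)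
      (v z + ∑ j ∈ Finset.range p, v ((ModularGroup.S * ModularGroup.T ^ j) • z)) := by
    intro z
    have h1 : HasSum (fun k : ℕ => (if n' ≤ k then ω * (a (k - n') : ℂ) else 0)
        * Function.Periodic.qParam 1 z ^ k) (v z) := by
      have hinj : Function.Injective (fun m : ℕ => m + n') := add_left_injective n'
      rw [← hinj.hasSum_iff]
      · convert hva z using 1
        funext m
        simp
      · intro k hk
        rw [if_neg, zero_mul]
        intro hle
        exact hk ⟨k - n', by simp only; omega⟩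
    have h2 : HasSum (fun k : ℕ => κ * ((p : ℂ) * (ω⁻¹ * (b (n' + p * k) : ℂ)))
        * Function.Periodic.qParam 1 z ^ k)
        (∑ j ∈ Finset.range p, v ((ModularGroup.S * ModularGroup.T ^ j) • z)) := by
      have h3 := (hB5 z).mul_left κ
      rw [Finset.mul_sum] at h3
      have hsum : ∑ j ∈ Finset.range p, v ((ModularGroup.S * ModularGroup.T ^ j) • z)
          = ∑ i ∈ Finset.range p, κ * (1 / v (heckeMatrix p i • z)) :=
        Finset.sum_congr rfl fun j _ => hvST j z
      rw [hsum]
      have hfun : (fun k : ℕ => κ * ((p : ℂ) * (ω⁻¹ * (b (n' + p * k) : ℂ)))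
            * Function.Periodic.qParam 1 (z : ℂ) ^ k)
          = fun i : ℕ => κ * ((p : ℂ) * (ω⁻¹ * (b (n' + p * i) : ℂ))
            * Function.Periodic.qParam 1 (z : ℂ) ^ i) := by
        funext k
        ring
      rw [hfun]
      exact h3
    have h12 := h1.add h2
    have hfun : (fun k : ℕ => A k * Function.Periodic.qParam 1 (z : ℂ) ^ k)
        = fun k : ℕ => (if n' ≤ k then ω * (a (k - n') : ℂ) else 0)
            * Function.Periodic.qParam 1 (z : ℂ) ^ k
          + κ * ((p : ℂ) * (ω⁻¹ * (b (n' + p * k) : ℂ)))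
            * Function.Periodic.qParam 1 (z : ℂ) ^ k := by
      funext k
      simp only [hA]
      ring
    rw [hfun]
    exact h12
  have hbdd : IsBoundedAtImInfty (fun z : ℍ =>
      v z + ∑ j ∈ Finset.range p, v ((ModularGroup.S * ModularGroup.T ^ j) • z)) :=
    isBoundedAtImInfty_of_hasSum_qExpansion (c := A) one_pos
      (fun z => by simpa [smul_eq_mul] using hTr z)
  obtain ⟨C, hC⟩ := trace_const p v hvmd hvinv hbdd
  have hA0 := coeff_eq_zero_of_hasSum_const A C (fun z => by rw [← hC z]; exact hTr z) n' hn'pos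
  simp only [hA, le_refl, if_true, Nat.sub_self, ha0] at hA0
  refine dvd_twelve_of_rel p c hc κ ω ((p : ℚ) * b (n' + p * n')) hκc hω ?_
  push_cast at hA0 ⊢
  linear_combination hA0

end Fermat.Agent.S16.Root12B
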