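import Mathlib
import Fermat.Agent.S16.Defs
import Fermat.Prelude.Thm_UpperHalfPlane_qCoeff_heckeU
import Fermat.Prelude.Thm_ModularForm_periodic_heckeU_comp_ofComplex
import Fermat.Prelude.Thm_ModularForm_mdifferentiable_heckeU
import Fermat.Prelude.Thm_ModularForm_isBoundedAtImInfty_heckeU

/-!
# S16 (M7): the companion toolkit

* `QGood f`: `f : ℍ → ℂ` is `1`-periodic, holomorphic and bounded at `i∞`; closed under the ring
  operations, with the `q`-coefficient algebra (`QGood.qExpansion_mul`, `QGood.qCoeff_mul`, ...).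
* closure properties of `IsCompanion` (`IsCompanion.add/sub/neg/smul/mul/pow/sq/const`).
* level one: `dil p A = (z ↦ A (p z))` is a companion of a level-one form `A`
  (`isCompanion_dil`), `QGood.dil`, `qCoeff_dil`; `restr N A : ModularForm (Gamma0 N) k`.
* weight two, level `p`: `comp2 p G = -(1/p) U_p G`, `QGood.comp2`, `qCoeff_comp2`,
  `isCompanion_comp2` (from the Fricke identity).
-/

set_option autoImplicit false

namespace Fermat.Agent.S16.Companion

open ModularCurve CuspForm CongruenceSubgroup UpperHalfPlane ModularForm ModularFormClass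
open scoped MatrixGroups ModularForm Manifold

/-- `1`-periodic, holomorphic, bounded at `i∞`. -/
structure QGood (f : ℍ → ℂ) : Prop where
  per : Function.Periodic (f ∘ ofComplex) 1
  hol : MDiff f
  bdd : IsBoundedAtImInfty f

theorem QGood.analytic {f : ℍ → ℂ} (hf : QGood f) : AnalyticAt ℂ (cuspFunction 1 f) 0 :=
  analyticAt_cuspFunction_zero one_pos hf.per hf.hol hf.bdd

theorem QGood.add {f g : ℍ → ℂ} (hf : QGood f) (hg : QGood g) : QGood (f + g) :=
  ⟨fun w => by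
    have h1 := hf.per w
    have h2 := hg.per w
    simp only [Function.comp_apply, Pi.add_apply] at h1 h2 ⊢
    rw [h1, h2], hf.hol.add hg.hol, hf.bdd.add hg.bdd⟩

theorem QGood.neg {f : ℍ → ℂ} (hf : QGood f) : QGood (-f) :=
  ⟨fun w => by
    have h1 := hf.per w
    simp only [Function.comp_apply, Pi.neg_apply] at h1 ⊢
    rw [h1], hf.hol.neg, hf.bdd.neg⟩

theorem QGood.sub {f g : ℍ → ℂ} (hf : QGood f) (hg : QGood g) : QGood (f - g) := by
  rw [sub_eq_add_neg]; exact hf.add hg.neg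

theorem QGood.mul {f g : ℍ → ℂ} (hf : QGood f) (hg : QGood g) : QGood (f * g) :=
  ⟨fun w => by
    have h1 := hf.per w
    have h2 := hg.per w
    simp only [Function.comp_apply, Pi.mul_apply] at h1 h2 ⊢
    rw [h1, h2], hf.hol.mul hg.hol, hf.bdd.mul hg.bdd⟩

theorem QGood.const (c : ℂ) : QGood (fun _ : ℍ => c) :=
  ⟨fun _ => rfl, mdifferentiable_const, Filter.const_boundedAtFilter _ c⟩

theorem QGood.one : QGood (1 : ℍ → ℂ) := QGood.const 1

theorem QGood.zero : QGood (0 : ℍ → ℂ) := QGood.const 0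

theorem QGood.smul (c : ℂ) {f : ℍ → ℂ} (hf : QGood f) : QGood (c • f) := by
  have : c • f = (fun _ : ℍ => c) * f := by funext z; simp
  rw [this]; exact (QGood.const c).mul hf

theorem QGood.const_mul (c : ℂ) {f : ℍ → ℂ} (hf : QGood f) : QGood (fun z => c * f z) :=
  (QGood.const c).mul hf

theorem QGood.pow {f : ℍ → ℂ} (hf : QGood f) (n : ℕ) : QGood (f ^ n) := by
  induction n with
  | zero => simpa using QGood.one
  | succ n ih => rw [pow_succ]; exact ih.mul hf

theorem QGood.sum {ι : Type*} (s : Finset ι) (g : ι → ℍ → ℂ) (hg : ∀ i ∈ s, QGood (g i)) :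
    QGood (∑ i ∈ s, g i) := by
  classical
  induction s using Finset.induction_on with
  | empty => simpa using QGood.zero
  | insert a s ha ih =>
    rw [Finset.sum_insert ha]
    exact (hg a (Finset.mem_insert_self a s)).add
      (ih fun i hi => hg i (Finset.mem_insert_of_mem hi))

/-! ### q-coefficient algebra -/

theorem QGood.qExpansion_add {f g : ℍ → ℂ} (hf : QGood f) (hg : QGood g) :
    qExpansion 1 (f + g) = qExpansion 1 f + qExpansion 1 g :=
  UpperHalfPlane.qExpansion_add hf.analytic hg.analytic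

theorem QGood.qExpansion_sub {f g : ℍ → ℂ} (hf : QGood f) (hg : QGood g) :
    qExpansion 1 (f - g) = qExpansion 1 f - qExpansion 1 g :=
  UpperHalfPlane.qExpansion_sub hf.analytic hg.analytic

theorem QGood.qExpansion_mul {f g : ℍ → ℂ} (hf : QGood f) (hg : QGood g) :
    qExpansion 1 (f * g) = qExpansion 1 f * qExpansion 1 g :=
  UpperHalfPlane.qExpansion_mul hf.analytic hg.analytic

theorem QGood.qExpansion_smul (c : ℂ) {f : ℍ → ℂ} (hf : QGood f) :
    qExpansion 1 (c • f) = c • qExpansion 1 f :=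
  UpperHalfPlane.qExpansion_smul hf.analytic c

theorem QGood.qExpansion_neg {f : ℍ → ℂ} (hf : QGood f) :
    qExpansion 1 (-f) = -qExpansion 1 f :=
  UpperHalfPlane.qExpansion_neg hf.analytic

theorem QGood.qExpansion_pow {f : ℍ → ℂ} (hf : QGood f) (n : ℕ) :
    qExpansion 1 (f ^ n) = qExpansion 1 f ^ n := by
  induction n with
  | zero => simpa using qExpansion_one 1
  | succ n ih => rw [pow_succ, pow_succ, (hf.pow n).qExpansion_mul hf, ih]

theorem QGood.qCoeff_add {f g : ℍ → ℂ} (hf : QGood f) (hg : QGood g) (n : ℕ) :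
    qCoeff (f + g) n = qCoeff f n + qCoeff g n := by
  simp only [qCoeff, hf.qExpansion_add hg, map_add]

theorem QGood.qCoeff_sub {f g : ℍ → ℂ} (hf : QGood f) (hg : QGood g) (n : ℕ) :
    qCoeff (f - g) n = qCoeff f n - qCoeff g n := by
  simp only [qCoeff, hf.qExpansion_sub hg, map_sub]

theorem QGood.qCoeff_neg {f : ℍ → ℂ} (hf : QGood f) (n : ℕ) :
    qCoeff (-f) n = -qCoeff f n := by
  simp only [qCoeff, hf.qExpansion_neg, map_neg]

theorem QGood.qCoeff_smul (c : ℂ) {f : ℍ → ℂ} (hf : QGood f) (n : ℕ) :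
    qCoeff (c • f) n = c * qCoeff f n := by
  simp only [qCoeff, hf.qExpansion_smul c, PowerSeries.coeff_smul, smul_eq_mul]

theorem QGood.qCoeff_const_mul (c : ℂ) {f : ℍ → ℂ} (hf : QGood f) (n : ℕ) :
    qCoeff (fun z => c * f z) n = c * qCoeff f n :=
  hf.qCoeff_smul c n

theorem QGood.qCoeff_mul {f g : ℍ → ℂ} (hf : QGood f) (hg : QGood g) (n : ℕ) :
    qCoeff (f * g) n = ∑ ij ∈ Finset.HasAntidiagonal.antidiagonal n, qCoeff f ij.1 * qCoeff g ij.2 := by
  simp only [qCoeff, hf.qExpansion_mul hg, PowerSeries.coeff_mul]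

theorem qCoeff_const (c : ℂ) (n : ℕ) :
    qCoeff (fun _ : ℍ => c) n = if n = 0 then c else 0 := by
  have h : (fun _ : ℍ => c) = c • (1 : ℍ → ℂ) := by funext z; simp
  rw [h, QGood.one.qCoeff_smul c n]
  simp only [qCoeff, qExpansion_one, PowerSeries.coeff_one]
  split_ifs <;> simp

/-! ### modular forms are `QGood` -/

theorem one_mem_strictPeriods_Gamma0 (N : ℕ) :
    (1 : ℝ) ∈ (Gamma0 N : Subgroup (GL (Fin 2) ℝ)).strictPeriods := by
  rw [strictPeriods_Gamma0]
  exact ⟨1, by simp⟩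

theorem one_mem_strictPeriods_SL : (1 : ℝ) ∈ (𝒮ℒ).strictPeriods := by
  rw [Subgroup.strictPeriods_SL2Z]
  exact ⟨1, by simp⟩

theorem QGood.of_Gamma0 {N : ℕ} {k : ℤ} (G : ModularForm (Gamma0 N) k) :
    QGood (G : ℍ → ℂ) :=
  have : Fact (IsCusp OnePoint.infty (Gamma0 N : Subgroup (GL (Fin 2) ℝ))) :=
    ⟨Subgroup.isCusp_of_mem_strictPeriods one_pos (one_mem_strictPeriods_Gamma0 N)⟩
  ⟨SlashInvariantFormClass.periodic_comp_ofComplex G (one_mem_strictPeriods_Gamma0 N),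
    ModularFormClass.holo G, ModularFormClass.bdd_at_infty G⟩

theorem QGood.of_levelOne {k : ℤ} (A : ModularForm 𝒮ℒ k) : QGood (A : ℍ → ℂ) :=
  ⟨SlashInvariantFormClass.periodic_comp_ofComplex A one_mem_strictPeriods_SL,
    ModularFormClass.holo A, ModularFormClass.bdd_at_infty A⟩

/-! ### closure properties of `IsCompanion` -/

theorem _root_.Fermat.Agent.S16.IsCompanion.add {p : ℕ} {k : ℤ} {H₁ H₁' H₂ H₂' : ℍ → ℂ} (h₁ : IsCompanion p k H₁ H₁')
    (h₂ : IsCompanion p k H₂ H₂') : IsCompanion p k (H₁ + H₂) (H₁' + H₂') := by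
  intro j hj z
  rw [SlashAction.add_slash, Pi.add_apply, h₁ j hj z, h₂ j hj z, Pi.add_apply]

theorem _root_.Fermat.Agent.S16.IsCompanion.neg {p : ℕ} {k : ℤ} {H H' : ℍ → ℂ} (h : IsCompanion p k H H') :
    IsCompanion p k (-H) (-H') := by
  intro j hj z
  rw [SlashAction.neg_slash, Pi.neg_apply, h j hj z, Pi.neg_apply]

theorem _root_.Fermat.Agent.S16.IsCompanion.sub {p : ℕ} {k : ℤ} {H₁ H₁' H₂ H₂' : ℍ → ℂ} (h₁ : IsCompanion p k H₁ H₁')
    (h₂ : IsCompanion p k H₂ H₂') : IsCompanion p k (H₁ - H₂) (H₁' - H₂') := by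
  rw [sub_eq_add_neg, sub_eq_add_neg]
  exact h₁.add h₂.neg

theorem _root_.Fermat.Agent.S16.IsCompanion.smul {p : ℕ} {k : ℤ} {H H' : ℍ → ℂ} (c : ℂ) (h : IsCompanion p k H H') :
    IsCompanion p k (c • H) (c • H') := by
  intro j hj z
  rw [ModularForm.SL_smul_slash, Pi.smul_apply, h j hj z, Pi.smul_apply]

theorem _root_.Fermat.Agent.S16.IsCompanion.const_mul {p : ℕ} {k : ℤ} {H H' : ℍ → ℂ} (c : ℂ) (h : IsCompanion p k H H') :
    IsCompanion p k (fun z => c * H z) (fun z => c * H' z) :=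
  h.smul c

theorem _root_.Fermat.Agent.S16.IsCompanion.mul {p : ℕ} {k₁ k₂ : ℤ} {H₁ H₁' H₂ H₂' : ℍ → ℂ}
    (h₁ : IsCompanion p k₁ H₁ H₁') (h₂ : IsCompanion p k₂ H₂ H₂') :
    IsCompanion p (k₁ + k₂) (H₁ * H₂) (H₁' * H₂') := by
  intro j hj z
  rw [ModularForm.mul_slash_SL2, Pi.mul_apply, h₁ j hj z, h₂ j hj z, Pi.mul_apply]

theorem _root_.Fermat.Agent.S16.IsCompanion.congr_weight {p : ℕ} {k k' : ℤ} {H H' : ℍ → ℂ} (h : IsCompanion p k H H')
    (hk : k = k') : IsCompanion p k' H H' := hk ▸ h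

theorem _root_.Fermat.Agent.S16.IsCompanion.const (p : ℕ) (c : ℂ) :
    IsCompanion p 0 (fun _ : ℍ => c) (fun _ : ℍ => c) := by
  intro j hj z
  have := ModularForm.is_invariant_const (ModularGroup.S * ModularGroup.T ^ j) c
  exact congrFun this z

theorem _root_.Fermat.Agent.S16.IsCompanion.one (p : ℕ) : IsCompanion p 0 (1 : ℍ → ℂ) (1 : ℍ → ℂ) :=
  IsCompanion.const p 1

theorem _root_.Fermat.Agent.S16.IsCompanion.pow {p : ℕ} {k : ℤ} {H H' : ℍ → ℂ} (h : IsCompanion p k H H') (n : ℕ) :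
    IsCompanion p (n * k) (H ^ n) (H' ^ n) := by
  induction n with
  | zero => simpa using IsCompanion.one p
  | succ n ih =>
    rw [pow_succ, pow_succ]
    exact (ih.mul h).congr_weight (by push_cast; ring)

theorem _root_.Fermat.Agent.S16.IsCompanion.sq {p : ℕ} {k : ℤ} {H H' : ℍ → ℂ} (h : IsCompanion p k H H') :
    IsCompanion p (k + k) (H ^ 2) (H' ^ 2) := by
  rw [pow_two, pow_two]
  exact h.mul h

/-! ### level one: `A(z)` and `A(pz)` -/

/-- `z ↦ A (p z)` -/
noncomputable def dil (p : ℕ) (A : ℍ → ℂ) : ℍ → ℂ := fun z => A (heckeDiagMatrix p • z)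

theorem dil_apply (p : ℕ) (A : ℍ → ℂ) (z : ℍ) : dil p A z = A (heckeDiagMatrix p • z) := rfl

theorem im_natCast_mul_pos {p : ℕ} (hp : p ≠ 0) {w : ℂ} (hw : 0 < w.im) :
    0 < ((p : ℂ) * w).im := by
  have hp' : (0 : ℝ) < p := Nat.cast_pos.mpr (Nat.pos_of_ne_zero hp)
  simpa using mul_pos hp' hw

theorem diag_smul_eq {p : ℕ} (hp : p ≠ 0) (z : ℍ) :
    heckeDiagMatrix p • z = ofComplex ((p : ℂ) * z) := by
  ext
  rw [coe_heckeDiagMatrix_smul hp, ofComplex_apply_of_im_pos (im_natCast_mul_pos hp z.im_pos)]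

theorem dil_eq_slash {p : ℕ} (hp : p ≠ 0) (A : ℍ → ℂ) :
    dil p A = A ∣[(1 : ℤ)] heckeDiagMatrix p := by
  funext z
  rw [slash_heckeDiagMatrix_apply 1 hp, dil_apply]
  simp

theorem ofComplex_eq_of_im_nonpos {w w' : ℂ} (hw : w.im ≤ 0) (hw' : w'.im ≤ 0) :
    ofComplex w = ofComplex w' := by
  rw [ofComplex_apply_of_im_nonpos hw, ofComplex_apply_of_im_nonpos hw']

theorem QGood.dil {p : ℕ} (hp : p ≠ 0) {A : ℍ → ℂ} (hA : QGood A) : QGood (dil p A) := by
  refine ⟨fun w => ?_, ?_, ?_⟩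
  · simp only [Function.comp_apply, dil_apply]
    by_cases hw : 0 < w.im
    · have hw' : 0 < (w + 1).im := by simpa using hw
      rw [ofComplex_apply_of_im_pos hw, ofComplex_apply_of_im_pos hw', diag_smul_eq hp,
        diag_smul_eq hp]
      have h := (hA.per.nat_mul p) ((p : ℂ) * w)
      simp only [Function.comp_apply] at h
      rw [← h]
      congr 2
      ring
    · have hw0 : w.im ≤ 0 := not_lt.mp hw
      have hw' : (w + 1).im ≤ 0 := by simpa using hw0
      rw [ofComplex_eq_of_im_nonpos hw' hw0]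
  · rw [dil_eq_slash hp]
    exact hA.hol.slash 1 _
  · have h := hA.bdd
    rw [UpperHalfPlane.isBoundedAtImInfty_iff] at h ⊢
    obtain ⟨M, B, hMB⟩ := h
    refine ⟨M, B, fun z hz => ?_⟩
    rw [dil_apply]
    apply hMB
    have him : (heckeDiagMatrix p • z).im = p * z.im := by
      have := congrArg Complex.im (coe_heckeDiagMatrix_smul hp z)
      simpa using this
    rw [him]
    have hp' : (1 : ℝ) ≤ p := by exact_mod_cast Nat.one_le_iff_ne_zero.mpr hp
    nlinarith [z.im_pos]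

theorem qParam_natCast_mul (p : ℕ) (w : ℂ) :
    Function.Periodic.qParam (1 : ℝ) ((p : ℂ) * w) = Function.Periodic.qParam (1 : ℝ) w ^ p := by
  simp only [Function.Periodic.qParam]
  rw [← Complex.exp_nat_mul]
  congr 1
  push_cast
  ring

theorem dil_hasSum {p : ℕ} (hp : p ≠ 0) {A : ℍ → ℂ} (hA : QGood A) (τ : ℍ) :
    HasSum (fun m : ℕ => (if p ∣ m then qCoeff A (m / p) else 0) •
      Function.Periodic.qParam (1 : ℝ) τ ^ m) (dil p A τ) := by
  have h1 := hasSum_qExpansion (h := 1) one_pos hA.per hA.hol hA.bdd (heckeDiagMatrix p • τ)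
  have hpos : 0 < p := Nat.pos_of_ne_zero hp
  have hinj : Function.Injective (fun n : ℕ => p * n) :=
    fun x y hxy => Nat.eq_of_mul_eq_mul_left hpos hxy
  rw [dil_apply, ← hinj.hasSum_iff]
  · convert h1 using 1
    funext n
    simp only [Function.comp_apply]
    rw [if_pos (dvd_mul_right p n), Nat.mul_div_cancel_left _ hpos, coe_heckeDiagMatrix_smul hp,
      qParam_natCast_mul, ← pow_mul]
    rfl
  · intro x hx
    rw [if_neg, zero_smul]
    rintro ⟨n, rfl⟩
    exact hx ⟨n, rfl⟩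

/-- `q`-coefficients of `z ↦ A (p z)`. -/
theorem qCoeff_dil {p : ℕ} (hp : p ≠ 0) {A : ℍ → ℂ} (hA : QGood A) (m : ℕ) :
    qCoeff (dil p A) m = if p ∣ m then qCoeff A (m / p) else 0 := by
  have hd := hA.dil hp
  have key := qExpansion_coeff_unique (c := fun m : ℕ => if p ∣ m then qCoeff A (m / p) else 0)
    (ContinuousMap.mk (dil p A) hd.hol.continuous) one_pos hd.analytic
    (fun τ => dil_hasSum hp hA τ) m
  exact key.symm

theorem qCoeff_dil_mul {p : ℕ} (hp : p ≠ 0) {A : ℍ → ℂ} (hA : QGood A) (n : ℕ) :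
    qCoeff (dil p A) (p * n) = qCoeff A n := by
  rw [qCoeff_dil hp hA, if_pos (dvd_mul_right p n), Nat.mul_div_cancel_left _ (Nat.pos_of_ne_zero hp)]

theorem qCoeff_dil_of_not_dvd {p : ℕ} (hp : p ≠ 0) {A : ℍ → ℂ} (hA : QGood A) {m : ℕ}
    (hm : ¬ p ∣ m) : qCoeff (dil p A) m = 0 := by
  rw [qCoeff_dil hp hA, if_neg hm]

theorem qCoeff_dil_zero {p : ℕ} (hp : p ≠ 0) {A : ℍ → ℂ} (hA : QGood A) :
    qCoeff (dil p A) 0 = qCoeff A 0 := by
  simpa using qCoeff_dil_mul hp hA 0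

theorem diag_smul_heckeMatrix_smul {p : ℕ} (hp : p ≠ 0) (j : ℕ) (z : ℍ) :
    heckeDiagMatrix p • heckeMatrix p j • z = ofComplex ((z : ℂ) + j) := by
  have hp' : (p : ℂ) ≠ 0 := by exact_mod_cast hp
  have him : 0 < ((z : ℂ) + j).im := by simpa using z.im_pos
  ext
  rw [coe_heckeDiagMatrix_smul hp, coe_heckeMatrix_smul hp, ofComplex_apply_of_im_pos him]
  field_simp

/-- A function invariant under `SL(2, ℤ)` (weight `k`) has companion `z ↦ A (p z)`. -/
theorem isCompanion_dil_of_invariant {p : ℕ} (hp : p ≠ 0) {k : ℤ} {A : ℍ → ℂ}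
    (hinv : ∀ γ : SL(2, ℤ), A ∣[k] γ = A) (hper : Function.Periodic (A ∘ ofComplex) 1) :
    IsCompanion p k A (dil p A) := by
  intro j hj z
  rw [hinv, dil_apply, diag_smul_heckeMatrix_smul hp]
  have h := (hper.nat_mul j) (z : ℂ)
  simp only [Function.comp_apply, mul_one, ofComplex_apply] at h
  exact h.symm

/-- A level-one modular form `A` has companion `z ↦ A (p z)`. -/
theorem isCompanion_dil {p : ℕ} (hp : p ≠ 0) {k : ℤ} (A : ModularForm 𝒮ℒ k) :
    IsCompanion p k (A : ℍ → ℂ) (dil p A) :=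
  isCompanion_dil_of_invariant hp
    (fun γ => SlashInvariantForm.slash_action_eqn A _ ⟨γ, rfl⟩)
    (QGood.of_levelOne A).per

/-- restriction of a level-one form to `Γ₀(N)` -/
noncomputable def restr (N : ℕ) {k : ℤ} (A : ModularForm 𝒮ℒ k) : ModularForm (Gamma0 N) k where
  toFun := A
  slash_action_eq' γ hγ := SlashInvariantForm.slash_action_eqn A γ (Subgroup.map_le_range _ _ hγ)
  holo' := ModularFormClass.holo A
  bdd_at_cusps' hc := ModularFormClass.bdd_at_cusps A (hc.mono (Subgroup.map_le_range _ _))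

@[simp] theorem coe_restr (N : ℕ) {k : ℤ} (A : ModularForm 𝒮ℒ k) :
    (restr N A : ℍ → ℂ) = A := rfl

theorem restr_apply (N : ℕ) {k : ℤ} (A : ModularForm 𝒮ℒ k) (z : ℍ) : restr N A z = A z := rfl

theorem qCoeff_restr (N : ℕ) {k : ℤ} (A : ModularForm 𝒮ℒ k) (n : ℕ) :
    qCoeff (restr N A) n = qCoeff A n := rfl

theorem isCompanion_restr {p : ℕ} (hp : p ≠ 0) {k : ℤ} (A : ModularForm 𝒮ℒ k) :
    IsCompanion p k (restr p A : ℍ → ℂ) (dil p A) :=
  isCompanion_dil hp A

/-! ### weight two, level `p`: the companion `-(1/p) U_p G` -/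

theorem QGood.heckeU {f : ℍ → ℂ} (hf : QGood f) (k : ℤ) (p : ℕ) : QGood (heckeU k p f) :=
  ⟨ModularForm.periodic_heckeU_comp_ofComplex hf.per k p,
    ModularForm.mdifferentiable_heckeU hf.hol k p,
    ModularForm.isBoundedAtImInfty_heckeU hf.bdd k p⟩

theorem qCoeff_heckeU {f : ℍ → ℂ} (hf : QGood f) (k : ℤ) {p : ℕ} (hp : p ≠ 0) (n : ℕ) :
    qCoeff (heckeU k p f) n = qCoeff f (p * n) := by
  rw [UpperHalfPlane.qCoeff_heckeU hf.per hf.hol hf.bdd k hp n, coeffHeckeU_apply, mul_comm]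

/-- The companion candidate `G' = -(1/p) U_p G` of a weight-two form `G` of level `p`. -/
noncomputable def comp2 (p : ℕ) (G : ℍ → ℂ) : ℍ → ℂ := fun z => -(p : ℂ)⁻¹ * heckeU 2 p G z

theorem comp2_apply (p : ℕ) (G : ℍ → ℂ) (z : ℍ) :
    comp2 p G z = -(p : ℂ)⁻¹ * heckeU 2 p G z := rfl

theorem QGood.comp2 {G : ℍ → ℂ} (hG : QGood G) (p : ℕ) : QGood (comp2 p G) :=
  (hG.heckeU 2 p).const_mul _

theorem qCoeff_comp2 {G : ℍ → ℂ} (hG : QGood G) {p : ℕ} (hp : p ≠ 0) (n : ℕ) :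
    qCoeff (comp2 p G) n = -(p : ℂ)⁻¹ * qCoeff G (p * n) := by
  rw [← qCoeff_heckeU hG 2 hp n]
  exact (hG.heckeU 2 p).qCoeff_const_mul _ n

/-- `comp2 p G` is a companion of `G`, given the Fricke identity (`slash_ST_eq`, M5). -/
theorem isCompanion_comp2 {p : ℕ} {G : ℍ → ℂ}
    (hST : ∀ (j : ℕ) (z : ℍ), (G ∣[(2 : ℤ)] (ModularGroup.S * ModularGroup.T ^ j)) z =
      -((p : ℂ)⁻¹) * heckeU 2 p G (heckeMatrix p j • z)) :
    IsCompanion p 2 G (comp2 p G) :=
  fun j _ z => hST j z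

/-! ### powers of a weight-two form, with a weight cast -/

/-- `G ^ n` as a modular form of weight `k = 2 n` (e.g. `k = ((4 : ℕ) : ℤ)`, `n = 2`,
`hk := by norm_num`). -/
noncomputable def powCast {N : ℕ} (G : ModularForm (Gamma0 N) 2) (n : ℕ) (k : ℤ)
    (hk : k = 2 * n) : ModularForm (Gamma0 N) k :=
  ModularForm.mcast (by subst hk; ring) (G.pow n)

@[simp] theorem coe_powCast {N : ℕ} (G : ModularForm (Gamma0 N) 2) (n : ℕ) (k : ℤ)
    (hk : k = 2 * n) : (powCast G n k hk : ℍ → ℂ) = (G : ℍ → ℂ) ^ n := by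
  simp [powCast]

@[simp] theorem powCast_apply {N : ℕ} (G : ModularForm (Gamma0 N) 2) (n : ℕ) (k : ℤ)
    (hk : k = 2 * n) (z : ℍ) : powCast G n k hk z = G z ^ n := by
  rw [coe_powCast]; rfl

theorem _root_.Fermat.Agent.S16.IsCompanion.powCast {p : ℕ} {H H' : ℍ → ℂ}
    (h : IsCompanion p 2 H H') (n : ℕ) (k : ℤ) (hk : k = 2 * n) :
    IsCompanion p k (H ^ n) (H' ^ n) :=
  (h.pow n).congr_weight (by subst hk; ring)

/-! ### a few more `q`-coefficient facts -/

theorem QGood.qCoeff_mul_zero {f g : ℍ → ℂ} (hf : QGood f) (hg : QGood g) :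
    qCoeff (f * g) 0 = qCoeff f 0 * qCoeff g 0 := by
  rw [hf.qCoeff_mul hg]
  simp

theorem QGood.qCoeff_pow_zero {f : ℍ → ℂ} (hf : QGood f) (n : ℕ) :
    qCoeff (f ^ n) 0 = qCoeff f 0 ^ n := by
  induction n with
  | zero =>
    have : (f ^ 0 : ℍ → ℂ) = fun _ => (1 : ℂ) := by funext z; simp
    rw [this, qCoeff_const]; simp
  | succ n ih => rw [pow_succ, (hf.pow n).qCoeff_mul_zero hf, ih, pow_succ]

theorem qCoeff_one (n : ℕ) : qCoeff (1 : ℍ → ℂ) n = if n = 0 then 1 else 0 :=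
  qCoeff_const 1 n

end Fermat.Agent.S16.Companion
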