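import Mathlib
import Fermat.Agent.S16.Defs
import Fermat.Agent.S16.SturmInt
import Fermat.Agent.S16.LocInt
import Fermat.Agent.S22.QExpAffine
import Fermat.Prelude.Thm_UpperHalfPlane_qExpansion_coeff_nat_mul
import Fermat.Prelude.Thm_UpperHalfPlane_qExpansion_prod
import Fermat.Prelude.Thm_CongruenceSubgroup_one_mem_strictPeriods_Gamma0

/-!
# S16 (M8), core: the norm principle, given the norm form

Let `H` be a modular form of weight `k < 12` on `Γ₀(p)` with companion `H'` (so the translates of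
`H` by the non-trivial cosets are `z ↦ H' ((z + j) / p)`), and let `N` be its norm to level one.
If `H ≡ u q` and `H' ≡ u' q^p` modulo `(ℓ, higher order)` with `ℓ`-integral coefficients and
integers `u`, `u'` prime to `ℓ`, we get a contradiction with the Sturm bound mod `ℓ` in level one.
-/

set_option autoImplicit false

namespace Fermat.Agent.S16

open ModularCurve CuspForm CongruenceSubgroup UpperHalfPlane ModularForm
open ModularFormClass
open scoped MatrixGroups ModularForm Manifold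

namespace NormCore

open SturmInt

variable (p : ℕ) [Fact p.Prime]

/-- `exp(2πi j/p)` is a `p`-th root of unity -/
theorem exp_pow_eq_one (j : ℤ) :
    Complex.exp (2 * Real.pi * Complex.I * j / (p : ℕ)) ^ p = 1 := by
  have hp : (p : ℂ) ≠ 0 := by exact_mod_cast (Fact.out : p.Prime).ne_zero
  rw [← Complex.exp_nat_mul]
  have : (p : ℂ) * (2 * Real.pi * Complex.I * j / (p : ℕ)) = j * (2 * Real.pi * Complex.I) := by
    field_simp
  rw [this]
  exact Complex.exp_int_mul_two_pi_mul_I j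

/-- The norm principle, given the norm form `N`. -/
theorem norm_principle_of_normForm (ℓ : ℕ) (hℓ : ℓ.Prime) (k : ℕ) (hk : k < 12)
    (H : ModularForm (Gamma0 p) k) (H' : ℍ → ℂ)
    (hper : Function.Periodic (H' ∘ ofComplex) 1) (hhol : MDiff H')
    (hbdd : IsBoundedAtImInfty H') (hc : IsCompanion p k H H')
    (N : ModularForm 𝒮ℒ (((p + 1 : ℕ) : ℤ) * k))
    (hN : ∀ z : ℍ, N z = H z * ∏ j ∈ Finset.range p,
        ((H : ℍ → ℂ) ∣[(k : ℤ)] (ModularGroup.S * ModularGroup.T ^ j)) z)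
    (hH : ∀ n, IsLocInt ℓ (qCoeff H n)) (hH0 : IsLocDvd ℓ 1 (qCoeff H 0))
    (u : ℤ) (hu : ¬ (ℓ : ℤ) ∣ u) (hH1 : IsLocDvd ℓ 1 (qCoeff H 1 - u))
    (hH' : ∀ n, IsLocInt ℓ (qCoeff H' n)) (hH'0 : ∀ n, n < p → IsLocDvd ℓ 1 (qCoeff H' n))
    (u' : ℤ) (hu' : ¬ (ℓ : ℤ) ∣ u') (hH'p : IsLocDvd ℓ 1 (qCoeff H' p - u')) : False := by
  have hp : p.Prime := Fact.out
  have hp0 : p ≠ 0 := hp.ne_zero
  have hpR : (0 : ℝ) < (p : ℝ) := by exact_mod_cast hp.pos
  have hℓF : Fact ℓ.Prime := ⟨hℓ⟩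
  set R : Subring ℂ := lInt ℓ with hR
  set I : AddSubgroup ℂ := smulIdeal R ((ℓ : ℂ) ^ 1) with hI
  have hRI : IsIdealIn R I := isIdealIn_smulIdeal R (Subring.pow_mem _ (natCast_mem_lInt ℓ ℓ) 1)
  have hmemR : ∀ x : ℂ, IsLocInt ℓ x → x ∈ R := fun x hx => (isLocInt_iff_mem_lInt hℓ x).mp hx
  have hmemI : ∀ x : ℂ, IsLocDvd ℓ 1 x → x ∈ I := fun x hx => (isLocDvd_iff_mem hℓ 1 x).mp hx
  -- the translated companions
  set G : ℕ → ℍ → ℂ := fun j τ =>
    H' (ofComplex ((((1 : ℕ) : ℂ) * (τ : ℂ) + ((j : ℤ) : ℂ)) / ((p : ℕ) : ℂ))) with hGdef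
  have hG : ∀ j, j < p → ∀ z : ℍ,
      ((H : ℍ → ℂ) ∣[(k : ℤ)] (ModularGroup.S * ModularGroup.T ^ j)) z = G j z := by
    intro j hj z
    rw [hc j hj z]
    simp only [hGdef]
    congr 1
    rw [← UpperHalfPlane.ofComplex_apply (heckeMatrix p j • z)]
    congr 1
    rw [coe_heckeMatrix_smul hp0]
    push_cast
    ring
  have hcomp := fun j : ℕ =>
    Fermat.Agent.S22.qExpansion_comp_affine H' hper hhol hbdd 1 p one_pos hp.pos (j : ℤ)
  have hcast : (((1 * p : ℕ) : ℕ) : ℝ) = (p : ℝ) := by rw [one_mul]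
  have hperG : ∀ j, Function.Periodic (G j ∘ ofComplex) (p : ℝ) := by
    intro j
    have := (hcomp j).1
    rw [hcast] at this
    exact this
  have hanaG : ∀ j, AnalyticAt ℂ (cuspFunction (p : ℝ) (G j)) 0 := fun j =>
    analyticAt_cuspFunction_zero hpR (hperG j) (hcomp j).2.1 (hcomp j).2.2.1
  have hcoefG : ∀ j m, (qExpansion (p : ℝ) (G j)).coeff m =
      Complex.exp (2 * Real.pi * Complex.I * (j : ℤ) / (p : ℕ)) ^ m * qCoeff H' m := by
    intro j m
    have := (hcomp j).2.2.2 m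
    rw [hcast] at this
    rw [this, if_pos (by simp)]
    simp [qCoeff]
  -- `H` itself
  have h1mem := CongruenceSubgroup.one_mem_strictPeriods_Gamma0 p
  have : Fact (IsCusp OnePoint.infty
      (Subgroup.map (Matrix.SpecialLinearGroup.mapGL ℝ) (Gamma0 p))) :=
    ⟨Subgroup.isCusp_of_mem_strictPeriods one_pos h1mem⟩
  have hperH : Function.Periodic ((H : ℍ → ℂ) ∘ ofComplex) 1 :=
    SlashInvariantFormClass.periodic_comp_ofComplex H h1mem
  have hholH : MDiff (H : ℍ → ℂ) := ModularFormClass.holo H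
  have hbddH : IsBoundedAtImInfty (H : ℍ → ℂ) := ModularFormClass.bdd_at_infty H
  have hperHp : Function.Periodic ((H : ℍ → ℂ) ∘ ofComplex) (p : ℝ) := by
    have := hperH.nat_mul p
    simpa using this
  have hanaH : AnalyticAt ℂ (cuspFunction (p : ℝ) (H : ℍ → ℂ)) 0 :=
    analyticAt_cuspFunction_zero hpR hperHp hholH hbddH
  have hcoefH : ∀ m, (qExpansion (p : ℝ) (H : ℍ → ℂ)).coeff m =
      if p ∣ m then qCoeff H (m / p) else 0 := by
    intro m
    have := UpperHalfPlane.qExpansion_coeff_nat_mul (h := 1) one_pos hperH hholH hbddH hp.pos m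
    simpa [qCoeff] using this
  -- `N`
  have h1memS : (1 : ℝ) ∈ (𝒮ℒ).strictPeriods := by
    rw [Subgroup.strictPeriods_SL2Z]
    exact ⟨1, by simp⟩
  have hperN : Function.Periodic ((N : ℍ → ℂ) ∘ ofComplex) 1 :=
    SlashInvariantFormClass.periodic_comp_ofComplex N h1memS
  have hcoefN : ∀ m, (qExpansion (p : ℝ) (N : ℍ → ℂ)).coeff m =
      if p ∣ m then (qExpansion 1 N).coeff (m / p) else 0 := by
    intro m
    have := UpperHalfPlane.qExpansion_coeff_nat_mul (h := 1) one_pos hperN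
      (ModularFormClass.holo N) (ModularFormClass.bdd_at_infty N) hp.pos m
    simpa using this
  -- the product formula at width `p`
  have hNfun : (N : ℍ → ℂ) = (H : ℍ → ℂ) * ∏ j ∈ Finset.range p, G j := by
    funext z
    rw [hN z, Pi.mul_apply, Finset.prod_apply]
    congr 1
    exact Finset.prod_congr rfl fun j hj => hG j (Finset.mem_range.mp hj) z
  have hanaP : AnalyticAt ℂ (cuspFunction (p : ℝ) (∏ j ∈ Finset.range p, G j)) 0 := by
    have hperP : Function.Periodic ((∏ j ∈ Finset.range p, G j) ∘ ofComplex) (p : ℝ) := by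
      intro w
      simp only [Function.comp_apply, Finset.prod_apply]
      exact Finset.prod_congr rfl fun j _ => hperG j w
    have hholP : MDiff (∏ j ∈ Finset.range p, G j) :=
      MDifferentiable.prod fun j _ => (hcomp j).2.1
    have hbddP : IsBoundedAtImInfty (∏ j ∈ Finset.range p, G j) := by
      have := Filter.BoundedAtFilter.prod (l := atImInfty) (Finset.range p)
        (f := G) fun j _ => (hcomp j).2.2.1
      exact this
    exact analyticAt_cuspFunction_zero hpR hperP hholP hbddP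
  have hqN : qExpansion (p : ℝ) (N : ℍ → ℂ) =
      qExpansion (p : ℝ) (H : ℍ → ℂ) * ∏ j ∈ Finset.range p, qExpansion (p : ℝ) (G j) := by
    rw [hNfun, qExpansion_mul hanaH hanaP,
      UpperHalfPlane.qExpansion_prod (Finset.range p) fun j _ => hanaG j]
  -- leading terms
  have hleadH : LeadMod R I (qExpansion (p : ℝ) (H : ℍ → ℂ)) p (u : ℂ) := by
    refine ⟨fun i => ?_, fun i hi => ?_, ?_⟩
    · rw [hcoefH]
      split_ifs
      · exact hmemR _ (hH _)
      · exact R.zero_mem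
    · rw [hcoefH]
      split_ifs with hdvd
      · have hi0 : i = 0 := Nat.eq_zero_of_dvd_of_lt hdvd hi
        subst hi0
        simpa using hmemI _ hH0
      · exact I.zero_mem
    · rw [hcoefH, if_pos (dvd_refl p), Nat.div_self hp.pos]
      exact hmemI _ hH1
  have hleadG : ∀ j, LeadMod R I (qExpansion (p : ℝ) (G j)) p (u' : ℂ) := by
    intro j
    have hζ := exp_pow_eq_one p (j : ℤ)
    have hζR : Complex.exp (2 * Real.pi * Complex.I * (j : ℤ) / (p : ℕ)) ∈ R :=
      mem_lInt_of_pow_eq_one ℓ hp.pos hζ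
    refine ⟨fun i => ?_, fun i hi => ?_, ?_⟩
    · rw [hcoefG]
      exact R.mul_mem (R.pow_mem hζR i) (hmemR _ (hH' i))
    · rw [hcoefG]
      exact hRI.mul_mem _ (R.pow_mem hζR i) _ (hmemI _ (hH'0 i hi))
    · rw [hcoefG, hζ, one_mul]
      exact hmemI _ hH'p
  have hleadN : LeadMod R I (qExpansion (p : ℝ) (N : ℍ → ℂ)) (p + ∑ _j ∈ Finset.range p, p)
      ((u : ℂ) * ∏ _j ∈ Finset.range p, (u' : ℂ)) := by
    rw [hqN]
    exact hleadH.mul hRI (LeadMod.prod hRI (Finset.range p) _ _ _ fun j _ => hleadG j)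
  have hdeg : p + ∑ _j ∈ Finset.range p, p = p * (p + 1) := by
    rw [Finset.sum_const, Finset.card_range, smul_eq_mul]
    ring
  rw [hdeg, Finset.prod_const, Finset.card_range] at hleadN
  -- Sturm bound in level one
  have hlow : ∀ i : ℕ, 12 * (i : ℤ) ≤ ((p + 1 : ℕ) : ℤ) * k → (qExpansion 1 N).coeff i ∈ I := by
    intro i hi
    have hik : i < p + 1 := by
      have h1 : (12 : ℤ) * i < 12 * ((p + 1 : ℕ) : ℤ) := by
        have hk' : (k : ℤ) < 12 := by exact_mod_cast hk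
        have hpos : (0 : ℤ) < ((p + 1 : ℕ) : ℤ) := by positivity
        calc (12 : ℤ) * i ≤ ((p + 1 : ℕ) : ℤ) * k := hi
          _ < ((p + 1 : ℕ) : ℤ) * 12 := by exact mul_lt_mul_of_pos_left hk' hpos
          _ = 12 * ((p + 1 : ℕ) : ℤ) := by ring
      have h2 : (i : ℤ) < ((p + 1 : ℕ) : ℤ) := by linarith
      exact_mod_cast h2
    have h3 := hleadN.low (p * i) (Nat.mul_lt_mul_of_pos_left hik hp.pos)
    rw [hcoefN, if_pos (dvd_mul_right p i), Nat.mul_div_cancel_left i hp.pos] at h3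
    exact h3
  have hall := coeff_mem N I hlow (p + 1)
  have h4 : (qExpansion (p : ℝ) (N : ℍ → ℂ)).coeff (p * (p + 1)) ∈ I := by
    rw [hcoefN, if_pos (dvd_mul_right p (p + 1)), Nat.mul_div_cancel_left (p + 1) hp.pos]
    exact hall
  have h5 : (u : ℂ) * (u' : ℂ) ^ p ∈ I := hleadN.coeff_mem_iff.mp h4
  have h6 : (((u * u' ^ p : ℤ)) : ℂ) ∈ I := by
    push_cast
    exact h5
  have h7 : (ℓ : ℤ) ^ 1 ∣ u * u' ^ p := (intCast_mem_smulIdeal_iff ℓ 1 (u * u' ^ p)).mp h6
  rw [pow_one] at h7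
  have hℓZ : Prime (ℓ : ℤ) := Nat.prime_iff_prime_int.mp hℓ
  rcases hℓZ.dvd_or_dvd h7 with h | h
  · exact hu h
  · exact hu' (hℓZ.dvd_of_dvd_pow h)

end NormCore

end Fermat.Agent.S16
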