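import Mathlib
import Fermat.Agent.S16.Defs
import Fermat.Agent.S16.CosetsP
import Fermat.Agent.S16.NormCore

/-!
# S16 (M8): the norm principle (P)

Let `H` be a modular form of weight `k < 12` on `Γ₀(p)` with companion `H'`. If `H ≡ u q` and
`H' ≡ u' q^p` modulo `(ℓ, higher order)` with `ℓ`-integral coefficients and integers `u`, `u'`
prime to `ℓ`, we get a contradiction: the norm of `H` to level one (`exists_normForm`) is a form of
weight `(p+1) k < 12 (p+1)` whose reduction mod `ℓ` has a zero of order `p + 1` at infinity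
(`NormCore.norm_principle_of_normForm`).
-/

set_option autoImplicit false

namespace Fermat.Agent.S16

open ModularCurve CuspForm CongruenceSubgroup UpperHalfPlane ModularForm
open ModularFormClass
open scoped MatrixGroups ModularForm Manifold

variable (p : ℕ) [Fact p.Prime]

/-- (M8) `NormPrinciple.lean`: principle (P). -/
theorem norm_principle (ℓ : ℕ) (hℓ : ℓ.Prime) (k : ℕ) (hk : k < 12)
    (H : ModularForm (Gamma0 p) k) (H' : ℍ → ℂ)
    (hper : Function.Periodic (H' ∘ ofComplex) 1) (hhol : MDiff H')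
    (hbdd : IsBoundedAtImInfty H') (hc : IsCompanion p k H H')
    (hH : ∀ n, IsLocInt ℓ (qCoeff H n)) (hH0 : IsLocDvd ℓ 1 (qCoeff H 0))
    (u : ℤ) (hu : ¬ (ℓ : ℤ) ∣ u) (hH1 : IsLocDvd ℓ 1 (qCoeff H 1 - u))
    (hH' : ∀ n, IsLocInt ℓ (qCoeff H' n)) (hH'0 : ∀ n, n < p → IsLocDvd ℓ 1 (qCoeff H' n))
    (u' : ℤ) (hu' : ¬ (ℓ : ℤ) ∣ u') (hH'p : IsLocDvd ℓ 1 (qCoeff H' p - u')) : False := by
  obtain ⟨N, hN⟩ := exists_normForm p H
  exact NormCore.norm_principle_of_normForm p ℓ hℓ k hk H H' hper hhol hbdd hc N hN hH hH0 u hu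
    hH1 hH' hH'0 u' hu' hH'p

end Fermat.Agent.S16
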