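import Mathlib
import Fermat.Agent.S16.Companion
import Fermat.Agent.S16.LocInt
import Fermat.Agent.S16.NormPrinciple
import Fermat.Agent.S16.Fricke

/-!
# S16 (M9/M10 core): no unit form congruent to `1`

`no_unit_form_core`: let `ℓ^s ∣ p + 1` (`s ≥ 1`), `G ∈ M₂(Γ₀(p))` with `a₀(G) = 1` and
`a_k(G) ≡ 0 mod ℓ^s` for `k > 0`, and let `A` be a level-one form of weight `K = 2a < 12` with
`a₀(A) = 1`, `a_n(A) = ℓ^(s-1) c_n` (`c_n ∈ ℤ`, `n > 0`) and `ℓ ∤ c₁`. Contradiction: apply the norm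
principle to `H = ℓ^{-(s-1)} (G^a - A)` with companion
`H' = ℓ^{-(s-1)} ((-(1/p) U_p G)^a - A(p·))`.
-/

set_option autoImplicit false

namespace Fermat.Agent.S16.UnitCore

open ModularCurve CuspForm CongruenceSubgroup UpperHalfPlane ModularForm ModularFormClass
open scoped MatrixGroups ModularForm Manifold
open Fermat.Agent.S16.Companion

variable {ℓ : ℕ}

/-- `f ≡ 1 mod ℓ^s`, coefficientwise. -/
def Cong1 (ℓ s : ℕ) (f : ℍ → ℂ) : Prop :=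
  IsLocDvd ℓ s (qCoeff f 0 - 1) ∧ ∀ k, 0 < k → IsLocDvd ℓ s (qCoeff f k)

theorem Cong1.isLocInt (hℓ : ℓ.Prime) {s : ℕ} {f : ℍ → ℂ} (h : Cong1 ℓ s f) (n : ℕ) :
    IsLocInt ℓ (qCoeff f n) := by
  rcases Nat.eq_zero_or_pos n with rfl | hn
  · have := (h.1.isLocInt hℓ).add hℓ (isLocInt_one hℓ)
    simpa using this
  · exact (h.2 n hn).isLocInt hℓ

theorem Cong1.mul (hℓ : ℓ.Prime) {s : ℕ} {f g : ℍ → ℂ} (hf : QGood f) (hg : QGood g)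
    (h₁ : Cong1 ℓ s f) (h₂ : Cong1 ℓ s g) : Cong1 ℓ s (f * g) := by
  refine ⟨?_, fun n hn => ?_⟩
  · rw [hf.qCoeff_mul_zero hg]
    have e : qCoeff f 0 * qCoeff g 0 - 1 = (qCoeff f 0 - 1) * qCoeff g 0 + (qCoeff g 0 - 1) := by
      ring
    rw [e]
    exact (h₁.1.mul_right hℓ (h₂.isLocInt hℓ 0)).add hℓ h₂.1
  · rw [hf.qCoeff_mul hg]
    refine IsLocDvd.sum hℓ _ _ fun ij hij => ?_
    rw [Finset.HasAntidiagonal.mem_antidiagonal] at hij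
    rcases Nat.eq_zero_or_pos ij.1 with h0 | hpos
    · have hj : 0 < ij.2 := by omega
      exact IsLocDvd.mul_left hℓ (h₁.isLocInt hℓ _) (h₂.2 _ hj)
    · exact (h₁.2 _ hpos).mul_right hℓ (h₂.isLocInt hℓ _)

theorem Cong1.one (hℓ : ℓ.Prime) (s : ℕ) : Cong1 ℓ s (1 : ℍ → ℂ) := by
  refine ⟨?_, fun n hn => ?_⟩
  · rw [qCoeff_one, if_pos rfl, sub_self]; exact isLocDvd_zero hℓ s
  · rw [qCoeff_one, if_neg hn.ne']; exact isLocDvd_zero hℓ s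

theorem Cong1.pow (hℓ : ℓ.Prime) {s : ℕ} {f : ℍ → ℂ} (hf : QGood f) (h : Cong1 ℓ s f) (a : ℕ) :
    Cong1 ℓ s (f ^ a) := by
  induction a with
  | zero => simpa using Cong1.one hℓ s
  | succ a ih => rw [pow_succ]; exact ih.mul hℓ (hf.pow a) hf h

/-- dividing a multiple of `ℓ^s` (`s ≥ 1`) by `ℓ^(s-1)` leaves a multiple of `ℓ`. -/
theorem isLocDvd_div (hℓ : ℓ.Prime) {s : ℕ} (hs : 1 ≤ s) {x : ℂ} (hx : IsLocDvd ℓ s x) :
    IsLocDvd ℓ 1 (((ℓ : ℂ) ^ (s - 1))⁻¹ * x) := by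
  obtain ⟨y, hy, rfl⟩ := hx
  refine ⟨y, hy, ?_⟩
  have hℓ0 : (ℓ : ℂ) ≠ 0 := by exact_mod_cast hℓ.ne_zero
  obtain ⟨t, rfl⟩ := Nat.exists_eq_add_of_le hs
  have : 1 + t - 1 = t := by omega
  rw [this, pow_add, pow_one]
  field_simp

theorem lam_sub (hℓ : ℓ.Prime) {s : ℕ} (hs : 1 ≤ s) {x : ℂ} (hx : IsLocDvd ℓ s x) (m : ℤ) :
    IsLocDvd ℓ 1 (((ℓ : ℂ) ^ (s - 1))⁻¹ * (x - (ℓ : ℂ) ^ (s - 1) * (m : ℂ)) - ((-m : ℤ) : ℂ)) := by
  have hℓ0 : (ℓ : ℂ) ^ (s - 1) ≠ 0 := pow_ne_zero _ (by exact_mod_cast hℓ.ne_zero)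
  have e : ((ℓ : ℂ) ^ (s - 1))⁻¹ * (x - (ℓ : ℂ) ^ (s - 1) * (m : ℂ)) - ((-m : ℤ) : ℂ) =
      ((ℓ : ℂ) ^ (s - 1))⁻¹ * x := by
    push_cast
    field_simp
    ring
  rw [e]
  exact isLocDvd_div hℓ hs hx

theorem isLocInt_of_sub_int (hℓ : ℓ.Prime) {x : ℂ} {m : ℤ} (h : IsLocDvd ℓ 1 (x - (m : ℂ))) :
    IsLocInt ℓ x := by
  have := (h.isLocInt hℓ).add hℓ (isLocInt_intCast hℓ m)
  simpa using this

/-- **Core of (M9), (M10).** -/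
theorem no_unit_form_core (p : ℕ) [Fact p.Prime] (ℓ : ℕ) (hℓ : ℓ.Prime) (s : ℕ) (hs : 1 ≤ s)
    (hdvd : ℓ ^ s ∣ p + 1) (G : ModularForm (Gamma0 p) 2) (h0 : qCoeff G 0 = 1)
    (hk : ∀ k, 0 < k → IsLocDvd ℓ s (qCoeff G k))
    (a K : ℕ) (hK : K = 2 * a) (hK12 : K < 12) (A : ModularForm 𝒮ℒ (K : ℤ))
    (hA0 : qCoeff A 0 = 1) (c : ℕ → ℤ)
    (hA : ∀ n, 0 < n → qCoeff A n = (ℓ : ℂ) ^ (s - 1) * (c n : ℂ))
    (hc1 : ¬ (ℓ : ℤ) ∣ c 1) : False := by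
  have hp : p.Prime := Fact.out
  have hp0 : p ≠ 0 := hp.ne_zero
  have hpC : (p : ℂ) ≠ 0 := by exact_mod_cast hp0
  have hG : QGood (G : ℍ → ℂ) := QGood.of_Gamma0 G
  have hAg : QGood (A : ℍ → ℂ) := QGood.of_levelOne A
  -- `ℓ ∤ p`
  have hℓp : ¬ ℓ ∣ p := by
    intro h
    have h1 : ℓ ∣ p + 1 := (dvd_pow_self ℓ (by omega : s ≠ 0)).trans hdvd
    have h2 : ℓ ∣ 1 := (Nat.dvd_add_right h).mp h1
    exact hℓ.one_lt.ne' (Nat.dvd_one.mp h2)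
  have hpinv : IsLocInt ℓ (-(p : ℂ)⁻¹) := (isLocInt_inv_natCast hℓ hℓp).neg hℓ
  -- the congruences `G ≡ 1`, `G' ≡ 1`
  have hGc : Cong1 ℓ s (G : ℍ → ℂ) := ⟨by rw [h0, sub_self]; exact isLocDvd_zero hℓ s, hk⟩
  have hG'c : Cong1 ℓ s (comp2 p (G : ℍ → ℂ)) := by
    refine ⟨?_, fun n hn => ?_⟩
    · rw [qCoeff_comp2 hG hp0, mul_zero, h0]
      obtain ⟨t, ht⟩ := hdvd
      have e : -(p : ℂ)⁻¹ * 1 - 1 = (ℓ : ℂ) ^ s * (-(p : ℂ)⁻¹ * (t : ℂ)) := by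
        have h1 : ((p : ℂ) + 1) = (ℓ : ℂ) ^ s * (t : ℂ) := by exact_mod_cast congrArg (Nat.cast (R := ℂ)) ht
        have h2 : -(p : ℂ)⁻¹ * 1 - 1 = -(p : ℂ)⁻¹ * ((p : ℂ) + 1) := by
          field_simp
          ring
        rw [h2, h1]; ring
      exact ⟨-(p : ℂ)⁻¹ * (t : ℂ), hpinv.mul hℓ (isLocInt_natCast hℓ t), e⟩
    · rw [qCoeff_comp2 hG hp0]
      exact IsLocDvd.mul_left hℓ hpinv (hk _ (Nat.mul_pos hp.pos hn))
  have hGa := hGc.pow hℓ hG a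
  have hG'a := hG'c.pow hℓ (hG.comp2 p) a
  -- the forms
  have hK' : (K : ℤ) = 2 * (a : ℤ) := by subst hK; push_cast; ring
  set lam : ℂ := ((ℓ : ℂ) ^ (s - 1))⁻¹ with hlam
  let H : ModularForm (Gamma0 p) (K : ℤ) := lam • (powCast G a (K : ℤ) hK' - restr p A)
  let H' : ℍ → ℂ := lam • (comp2 p (G : ℍ → ℂ) ^ a - dil p (A : ℍ → ℂ))
  have hcoe : (H : ℍ → ℂ) = lam • ((G : ℍ → ℂ) ^ a - (A : ℍ → ℂ)) := by
    funext z
    simp [H]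
  have hcomp : IsCompanion p (K : ℤ) (H : ℍ → ℂ) H' := by
    rw [hcoe]
    exact (((isCompanion_comp2 (fun j z => slash_ST_eq p G j z)).powCast a (K : ℤ) hK').sub
      (isCompanion_dil hp0 A)).smul lam
  have hH'g : QGood H' := (((hG.comp2 p).pow a).sub (hAg.dil hp0)).smul lam
  have hqH : ∀ n, qCoeff (H : ℍ → ℂ) n =
      lam * (qCoeff ((G : ℍ → ℂ) ^ a) n - qCoeff (A : ℍ → ℂ) n) := by
    intro n
    rw [hcoe, ((hG.pow a).sub hAg).qCoeff_smul lam, (hG.pow a).qCoeff_sub hAg]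
  have hqH' : ∀ n, qCoeff H' n = lam * (qCoeff (comp2 p (G : ℍ → ℂ) ^ a) n -
      (if p ∣ n then qCoeff (A : ℍ → ℂ) (n / p) else 0)) := by
    intro n
    rw [(((hG.comp2 p).pow a).sub (hAg.dil hp0)).qCoeff_smul lam,
      ((hG.comp2 p).pow a).qCoeff_sub (hAg.dil hp0), qCoeff_dil hp0 hAg]
  -- coefficient facts
  have hH0 : IsLocDvd ℓ 1 (qCoeff (H : ℍ → ℂ) 0) := by
    rw [hqH, hA0]; exact isLocDvd_div hℓ hs hGa.1
  have hHn : ∀ n, 0 < n → IsLocDvd ℓ 1 (qCoeff (H : ℍ → ℂ) n - ((-c n : ℤ) : ℂ)) := by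
    intro n hn
    rw [hqH, hA n hn]; exact lam_sub hℓ hs (hGa.2 n hn) (c n)
  have hH : ∀ n, IsLocInt ℓ (qCoeff (H : ℍ → ℂ) n) := by
    intro n
    rcases Nat.eq_zero_or_pos n with rfl | hn
    · exact hH0.isLocInt hℓ
    · exact isLocInt_of_sub_int hℓ (hHn n hn)
  have hH'0 : IsLocDvd ℓ 1 (qCoeff H' 0) := by
    rw [hqH', if_pos (dvd_zero p), Nat.zero_div, hA0]; exact isLocDvd_div hℓ hs hG'a.1
  have hH'nd : ∀ n, 0 < n → ¬ p ∣ n → IsLocDvd ℓ 1 (qCoeff H' n) := by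
    intro n hn hpn
    rw [hqH', if_neg hpn, sub_zero]; exact isLocDvd_div hℓ hs (hG'a.2 n hn)
  have hH'd : ∀ n, 0 < n → p ∣ n →
      IsLocDvd ℓ 1 (qCoeff H' n - ((-c (n / p) : ℤ) : ℂ)) := by
    intro n hn hpn
    have hnp : 0 < n / p := Nat.div_pos (Nat.le_of_dvd hn hpn) hp.pos
    rw [hqH', if_pos hpn, hA _ hnp]; exact lam_sub hℓ hs (hG'a.2 n hn) (c (n / p))
  have hH' : ∀ n, IsLocInt ℓ (qCoeff H' n) := by
    intro n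
    rcases Nat.eq_zero_or_pos n with rfl | hn
    · exact hH'0.isLocInt hℓ
    · by_cases hpn : p ∣ n
      · exact isLocInt_of_sub_int hℓ (hH'd n hn hpn)
      · exact (hH'nd n hn hpn).isLocInt hℓ
  have hH'lt : ∀ n, n < p → IsLocDvd ℓ 1 (qCoeff H' n) := by
    intro n hn
    rcases Nat.eq_zero_or_pos n with rfl | hn0
    · exact hH'0
    · exact hH'nd n hn0 (Nat.not_dvd_of_pos_of_lt hn0 hn)
  have hH'p : IsLocDvd ℓ 1 (qCoeff H' p - ((-c 1 : ℤ) : ℂ)) := by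
    have := hH'd p hp.pos dvd_rfl
    rwa [Nat.div_self hp.pos] at this
  have hu : ¬ (ℓ : ℤ) ∣ -c 1 := fun h => hc1 ((dvd_neg).mp h)
  exact norm_principle p ℓ hℓ K hK12 H H' hH'g.per hH'g.hol hH'g.bdd hcomp hH hH0 (-c 1) hu
    (hHn 1 one_pos) hH' hH'lt (-c 1) hu hH'p

/-! ### the Eisenstein series `E₄`, `E₆` -/

open ArithmeticFunction in
theorem qCoeff_E₄ (n : ℕ) (hn : 0 < n) : qCoeff (E₄ : ℍ → ℂ) n = 240 * (sigma 3 n : ℂ) := by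
  have h := EisensteinSeries.E_qExpansion_coeff (by norm_num : 3 ≤ 4) ⟨2, rfl⟩ n
  rw [if_neg hn.ne'] at h
  simp only [qCoeff]
  rw [h]
  norm_num [show bernoulli 4 = -1 / 30 by decide +kernel]

theorem qCoeff_E₄_zero : qCoeff (E₄ : ℍ → ℂ) 0 = 1 :=
  EisensteinSeries.E_qExpansion_coeff_zero (by norm_num : 3 ≤ 4) ⟨2, rfl⟩

open ArithmeticFunction in
theorem qCoeff_E₆ (n : ℕ) (hn : 0 < n) : qCoeff (E₆ : ℍ → ℂ) n = -504 * (sigma 5 n : ℂ) := by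
  have h := EisensteinSeries.E_qExpansion_coeff (by norm_num : 3 ≤ 6) ⟨3, rfl⟩ n
  rw [if_neg hn.ne'] at h
  simp only [qCoeff]
  rw [h]
  norm_num [show bernoulli 6 = 1 / 42 by decide +kernel]

theorem qCoeff_E₆_zero : qCoeff (E₆ : ℍ → ℂ) 0 = 1 :=
  EisensteinSeries.E_qExpansion_coeff_zero (by norm_num : 3 ≤ 6) ⟨3, rfl⟩

/-! ### the three cases -/

open ArithmeticFunction in
/-- (M9) in the skeleton shape. -/
theorem no_unit_form_ge5 (p : ℕ) [Fact p.Prime] (ℓ : ℕ) (hℓ : ℓ.Prime) (h5 : 5 ≤ ℓ)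
    (hdvd : ℓ ∣ p + 1) (G : ModularForm (Gamma0 p) 2) (h0 : qCoeff G 0 = 1)
    (hk : ∀ k, 0 < k → IsLocDvd ℓ 1 (qCoeff G k)) : False := by
  have hdvd' : ℓ ^ 1 ∣ p + 1 := by simpa using hdvd
  rcases eq_or_ne ℓ 5 with rfl | h5'
  · -- `ℓ = 5`: `H = G³ - E₆`
    refine no_unit_form_core p 5 hℓ 1 le_rfl hdvd' G h0 hk 3 6 rfl (by norm_num) E₆ qCoeff_E₆_zero
      (fun n => -504 * (sigma 5 n : ℤ)) (fun n hn => ?_) ?_
    · rw [qCoeff_E₆ n hn]; push_cast; ring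
    · simp only [sigma_one]
      norm_num
  · -- `ℓ ≥ 7`: `H = G² - E₄`
    refine no_unit_form_core p ℓ hℓ 1 le_rfl hdvd' G h0 hk 2 4 rfl (by norm_num) E₄ qCoeff_E₄_zero
      (fun n => 240 * (sigma 3 n : ℤ)) (fun n hn => ?_) ?_
    · rw [qCoeff_E₄ n hn]; push_cast; ring
    · simp only [sigma_one]
      intro h
      have h1 : ℓ ∣ 240 := by
        have : (ℓ : ℤ) ∣ 240 := by simpa using h
        exact_mod_cast this
      have h2 : ℓ ∣ 2 ^ 4 * 3 * 5 := by simpa using h1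
      rcases (Nat.Prime.dvd_mul hℓ).mp h2 with h3 | h3
      · rcases (Nat.Prime.dvd_mul hℓ).mp h3 with h4 | h4
        · have := Nat.le_of_dvd (by norm_num) (hℓ.dvd_of_dvd_pow h4)
          omega
        · have := Nat.le_of_dvd (by norm_num) h4
          omega
      · have := Nat.le_of_dvd (by norm_num) h3
        omega

open ArithmeticFunction in
/-- (M10) in the skeleton shape. -/
theorem no_unit_form_three (p : ℕ) [Fact p.Prime] (hdvd : 9 ∣ p + 1)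
    (G : ModularForm (Gamma0 p) 2) (h0 : qCoeff G 0 = 1)
    (hk : ∀ k, 0 < k → IsLocDvd 3 2 (qCoeff G k)) : False := by
  refine no_unit_form_core p 3 Nat.prime_three 2 (by norm_num) (by simpa using hdvd) G h0 hk 2 4 rfl
    (by norm_num) E₄ qCoeff_E₄_zero (fun n => 80 * (sigma 3 n : ℤ)) (fun n hn => ?_) ?_
  · rw [qCoeff_E₄ n hn]; push_cast; ring
  · simp only [sigma_one]
    norm_num

end Fermat.Agent.S16.UnitCore
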