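import Mathlib
import Fermat.Agent.S16.Defs
import Fermat.Agent.S16.LocInt

/-!
# S16 (M11), power-series core of the case `ℓ = 2`

If `g ≡ 1 mod 8`, `E = 1 + 240 e`, `F = 1 - 504 f` with `f ≡ e mod 8` (all `2`-integral), then
`K = (-3 g⁴ + 10 g² E - 8 g F + E²) / 256` is `2`-integral and `K ≡ e + e² mod 2`.
-/

set_option autoImplicit false

namespace Fermat.Agent.S16.Case2

open PowerSeries

/-- power series with `ℓ`-integral coefficients -/
def LocSer (ℓ : ℕ) (φ : PowerSeries ℂ) : Prop := ∀ n, IsLocInt ℓ (coeff n φ)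

variable {ℓ : ℕ}

theorem LocSer.add (hℓ : ℓ.Prime) {φ ψ : PowerSeries ℂ} (h1 : LocSer ℓ φ) (h2 : LocSer ℓ ψ) :
    LocSer ℓ (φ + ψ) := fun n => by
  rw [map_add]; exact (h1 n).add hℓ (h2 n)

theorem LocSer.neg (hℓ : ℓ.Prime) {φ : PowerSeries ℂ} (h1 : LocSer ℓ φ) :
    LocSer ℓ (-φ) := fun n => by
  rw [map_neg]; exact (h1 n).neg hℓ

theorem LocSer.sub (hℓ : ℓ.Prime) {φ ψ : PowerSeries ℂ} (h1 : LocSer ℓ φ) (h2 : LocSer ℓ ψ) :
    LocSer ℓ (φ - ψ) := fun n => by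
  rw [map_sub]; exact (h1 n).sub hℓ (h2 n)

theorem LocSer.mul (hℓ : ℓ.Prime) {φ ψ : PowerSeries ℂ} (h1 : LocSer ℓ φ) (h2 : LocSer ℓ ψ) :
    LocSer ℓ (φ * ψ) := fun n => by
  rw [coeff_mul]
  exact IsLocInt.sum hℓ _ _ fun i _ => (h1 _).mul hℓ (h2 _)

theorem LocSer.one (hℓ : ℓ.Prime) : LocSer ℓ 1 := fun n => by
  rw [coeff_one]
  split_ifs
  · exact isLocInt_one hℓ
  · exact isLocInt_zero hℓ

theorem LocSer.pow (hℓ : ℓ.Prime) {φ : PowerSeries ℂ} (h1 : LocSer ℓ φ) (n : ℕ) :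
    LocSer ℓ (φ ^ n) := by
  induction n with
  | zero => simpa using LocSer.one hℓ
  | succ n ih => rw [pow_succ]; exact ih.mul hℓ h1

theorem LocSer.natCast (hℓ : ℓ.Prime) (c : ℕ) : LocSer ℓ (c : PowerSeries ℂ) := fun n => by
  have : (c : PowerSeries ℂ) = C (c : ℂ) := (map_natCast (C (R := ℂ)) c).symm
  rw [this, coeff_C]
  split_ifs
  · exact isLocInt_natCast hℓ c
  · exact isLocInt_zero hℓ

theorem LocSer.ofNat (hℓ : ℓ.Prime) (c : ℕ) [c.AtLeastTwo] :
    LocSer ℓ (OfNat.ofNat c : PowerSeries ℂ) := by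
  have : (OfNat.ofNat c : PowerSeries ℂ) = ((c : ℕ) : PowerSeries ℂ) := (Nat.cast_ofNat).symm
  rw [this]; exact LocSer.natCast hℓ c

theorem ofNat_256_ne_zero : (256 : PowerSeries ℂ) ≠ 0 := by
  have h : (256 : PowerSeries ℂ) = C (256 : ℂ) := (map_ofNat (C (R := ℂ)) 256).symm
  rw [h]
  intro h0
  have := congrArg (coeff 0) h0
  simp at this

/-- the polynomial identity -/
theorem poly_identity (x e h : PowerSeries ℂ) :
    -3 * (1 + 8 * x) ^ 4 + 10 * (1 + 8 * x) ^ 2 * (1 + 240 * e)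
        - 8 * (1 + 8 * x) * (1 - 504 * (e + 8 * h)) + (1 + 240 * e) ^ 2 =
      256 * (27 * e + 225 * e ^ 2 + 2 * (63 * h - x ^ 2 - 12 * x ^ 3 - 24 * x ^ 4
        + 75 * e * x + 300 * e * x ^ 2 + 63 * (e + 8 * h) * x)) := by
  ring

/-- existence of a series with prescribed coefficients -/
theorem coeff_mk' (a : ℕ → ℂ) (n : ℕ) : coeff n (PowerSeries.mk a) = a n := coeff_mk n a

/-- **Power-series core of (M11).** -/
theorem main_ps (g E F : PowerSeries ℂ) (m : ℕ) (hm : 1 ≤ m)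
    (hg0 : IsLocDvd 2 3 (coeff 0 g - 1)) (hgk : ∀ n, 0 < n → IsLocDvd 2 3 (coeff n g))
    (s3 s5 : ℕ → ℤ)
    (hE0 : coeff 0 E = 1) (hEn : ∀ n, 0 < n → coeff n E = 240 * (s3 n : ℂ))
    (hF0 : coeff 0 F = 1) (hFn : ∀ n, 0 < n → coeff n F = -504 * (s5 n : ℂ))
    (h8 : ∀ n, (8 : ℤ) ∣ s5 n - s3 n)
    (hlow : ∀ n, 0 < n → n < m → s3 n = 0) (hm1 : s3 m = 1)
    (K : PowerSeries ℂ)
    (hK : 256 * K = -3 * g ^ 4 + 10 * g ^ 2 * E - 8 * g * F + E ^ 2) :
    (∀ n, IsLocInt 2 (coeff n K)) ∧ (∀ n, n < m → IsLocDvd 2 1 (coeff n K)) ∧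
      IsLocDvd 2 1 (coeff m K - 1) := by
  have h2 : Nat.Prime 2 := Nat.prime_two
  -- the auxiliary series
  choose! y hy hy' using hgk
  obtain ⟨y0, hy0, hy0'⟩ := hg0
  choose c hc using h8
  set x : PowerSeries ℂ := PowerSeries.mk fun n => if n = 0 then y0 else y n with hx
  set e : PowerSeries ℂ := PowerSeries.mk fun n => if n = 0 then 0 else (s3 n : ℂ) with he
  set h : PowerSeries ℂ := PowerSeries.mk fun n => if n = 0 then 0 else (c n : ℂ) with hh
  have hxL : LocSer 2 x := fun n => by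
    rw [hx, coeff_mk]
    split_ifs with h0
    · exact hy0
    · exact hy n (Nat.pos_of_ne_zero h0)
  have heL : LocSer 2 e := fun n => by
    rw [he, coeff_mk]
    split_ifs
    · exact isLocInt_zero h2
    · exact isLocInt_intCast h2 _
  have hhL : LocSer 2 h := fun n => by
    rw [hh, coeff_mk]
    split_ifs
    · exact isLocInt_zero h2
    · exact isLocInt_intCast h2 _
  have c8 : (8 : PowerSeries ℂ) = C (8 : ℂ) := (map_ofNat (C (R := ℂ)) 8).symm
  have c240 : (240 : PowerSeries ℂ) = C (240 : ℂ) := (map_ofNat (C (R := ℂ)) 240).symm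
  have c504 : (504 : PowerSeries ℂ) = C (504 : ℂ) := (map_ofNat (C (R := ℂ)) 504).symm
  have hg : g = 1 + 8 * x := by
    ext n
    rw [map_add, c8, coeff_C_mul, hx, coeff_mk, coeff_one]
    by_cases h0 : n = 0
    · subst h0
      simp only [if_true]
      have : (2 : ℂ) ^ 3 = 8 := by norm_num
      have h2' : ((2 : ℕ) : ℂ) = 2 := by norm_num
      rw [h2', this] at hy0'
      linear_combination hy0'
    · simp only [h0, if_false, zero_add]
      have := hy' n (Nat.pos_of_ne_zero h0)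
      have h2' : ((2 : ℕ) : ℂ) = 2 := by norm_num
      rw [this, h2']; norm_num
  have hE : E = 1 + 240 * e := by
    ext n
    rw [map_add, c240, coeff_C_mul, he, coeff_mk, coeff_one]
    by_cases h0 : n = 0
    · subst h0; simp [hE0]
    · simp only [h0, if_false, zero_add]
      exact hEn n (Nat.pos_of_ne_zero h0)
  have hF : F = 1 - 504 * (e + 8 * h) := by
    ext n
    rw [map_sub, c504, coeff_C_mul, map_add, c8, coeff_C_mul, he, hh, coeff_mk, coeff_mk,
      coeff_one]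
    by_cases h0 : n = 0
    · subst h0; simp [hF0]
    · simp only [h0, if_false, zero_sub]
      rw [hFn n (Nat.pos_of_ne_zero h0)]
      have := congrArg (fun z : ℤ => (z : ℂ)) (hc n)
      push_cast at this
      linear_combination (-504 : ℂ) * this
  set Y : PowerSeries ℂ := 63 * h - x ^ 2 - 12 * x ^ 3 - 24 * x ^ 4
        + 75 * e * x + 300 * e * x ^ 2 + 63 * (e + 8 * h) * x with hY
  have hYL : LocSer 2 Y := by
    have n63 := LocSer.ofNat h2 63
    have n12 := LocSer.ofNat h2 12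
    have n24 := LocSer.ofNat h2 24
    have n75 := LocSer.ofNat h2 75
    have n300 := LocSer.ofNat h2 300
    have n8 := LocSer.ofNat h2 8
    rw [hY]
    exact ((((((n63.mul h2 hhL).sub h2 (hxL.pow h2 2)).sub h2 (n12.mul h2 (hxL.pow h2 3))).sub h2
      (n24.mul h2 (hxL.pow h2 4))).add h2 ((n75.mul h2 heL).mul h2 hxL)).add h2
      ((n300.mul h2 heL).mul h2 (hxL.pow h2 2))).add h2
      ((n63.mul h2 (heL.add h2 (n8.mul h2 hhL))).mul h2 hxL)
  have hKeq : K = 27 * e + 225 * e ^ 2 + 2 * Y := by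
    apply mul_left_cancel₀ ofNat_256_ne_zero
    rw [hK, hg, hE, hF, hY]
    exact poly_identity x e h
  have c27 : (27 : PowerSeries ℂ) = C (27 : ℂ) := (map_ofNat (C (R := ℂ)) 27).symm
  have c225 : (225 : PowerSeries ℂ) = C (225 : ℂ) := (map_ofNat (C (R := ℂ)) 225).symm
  have c2 : (2 : PowerSeries ℂ) = C (2 : ℂ) := (map_ofNat (C (R := ℂ)) 2).symm
  have hcoeffK : ∀ n, coeff n K = 27 * coeff n e + 225 * coeff n (e ^ 2) + 2 * coeff n Y := by
    intro n
    rw [hKeq, map_add, map_add, c27, c225, c2, coeff_C_mul, coeff_C_mul, coeff_C_mul]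
  have he_low : ∀ n, n < m → coeff n e = 0 := by
    intro n hn
    rw [he, coeff_mk]
    split_ifs with h0
    · rfl
    · rw [hlow n (Nat.pos_of_ne_zero h0) hn]; simp
  have he_m : coeff m e = 1 := by
    rw [he, coeff_mk, if_neg (by omega), hm1]; simp
  have hesq : ∀ n, n ≤ m → coeff n (e ^ 2) = 0 := by
    intro n hn
    rw [pow_two, coeff_mul]
    apply Finset.sum_eq_zero
    intro ij hij
    have hsum : ij.1 + ij.2 = n := Finset.HasAntidiagonal.mem_antidiagonal.mp hij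
    rcases Nat.lt_or_ge ij.1 m with h1 | h1
    · rw [he_low _ h1, zero_mul]
    · rw [he_low ij.2 (by omega), mul_zero]
  have h2C : ((2 : ℕ) : ℂ) ^ 1 = 2 := by norm_num
  refine ⟨fun n => ?_, fun n hn => ?_, ?_⟩
  · rw [hKeq]
    exact (((LocSer.ofNat h2 27).mul h2 heL).add h2
      ((LocSer.ofNat h2 225).mul h2 (heL.pow h2 2))).add h2 ((LocSer.ofNat h2 2).mul h2 hYL) n
  · refine ⟨coeff n Y, hYL n, ?_⟩
    rw [hcoeffK, he_low n hn, hesq n hn.le, h2C]; ring
  · refine ⟨13 + coeff m Y, (isLocInt_ofNat h2 13).add h2 (hYL m), ?_⟩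
    rw [hcoeffK, he_m, hesq m le_rfl, h2C]; ring

end Fermat.Agent.S16.Case2
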