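import Mathlib
import Fermat.Agent.S16.Defs
import Fermat.Agent.S16.LocInt
import Fermat.Agent.S16.Case2PS
import Fermat.Agent.S16.Fricke
import Fermat.Agent.S16.NormPrinciple
import Fermat.Agent.S16.Companion
import Fermat.Agent.S49.QCoeff

/-!
# S16 (M11): the case `ℓ = 2` of Mazur's constant-term bound

There is no `G ∈ M₂(Γ₀(p))` with `G ≡ 1 mod 8` (coefficientwise, `2`-locally) when `8 ∣ p + 1`:
the weight-`8` form `K = (-3 G⁴ + 10 G² E₄ - 8 G E₆ + E₄²)/256` is `≡ q` at `∞` and its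
companion is `≡ q^p` at the other cusp, which contradicts the norm principle.
-/

set_option autoImplicit false

namespace Fermat.Agent.S16

open ModularCurve CuspForm CongruenceSubgroup UpperHalfPlane ModularForm ModularFormClass
open scoped MatrixGroups ModularForm Manifold

namespace Case2

/-- a function on `ℍ` with a `q`-expansion: `1`-periodic, holomorphic, bounded at `i∞` -/
structure NiceFn (f : ℍ → ℂ) : Prop where
  per : Function.Periodic (f ∘ ofComplex) 1
  hol : MDiff f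
  bdd : IsBoundedAtImInfty f

theorem NiceFn.analytic {f : ℍ → ℂ} (hf : NiceFn f) : AnalyticAt ℂ (cuspFunction 1 f) 0 :=
  analyticAt_cuspFunction_zero one_pos hf.per hf.hol hf.bdd

theorem NiceFn.mul {f g : ℍ → ℂ} (hf : NiceFn f) (hg : NiceFn g) : NiceFn (f * g) where
  per := fun w => by
    have h1 := hf.per w
    have h2 := hg.per w
    simp only [Function.comp_apply, Pi.mul_apply] at h1 h2 ⊢
    rw [h1, h2]
  hol := hf.hol.mul hg.hol
  bdd := hf.bdd.mul hg.bdd

theorem NiceFn.add {f g : ℍ → ℂ} (hf : NiceFn f) (hg : NiceFn g) : NiceFn (f + g) where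
  per := fun w => by
    have h1 := hf.per w
    have h2 := hg.per w
    simp only [Function.comp_apply, Pi.add_apply] at h1 h2 ⊢
    rw [h1, h2]
  hol := hf.hol.add hg.hol
  bdd := hf.bdd.add hg.bdd

theorem NiceFn.smul (c : ℂ) {f : ℍ → ℂ} (hf : NiceFn f) : NiceFn (c • f) where
  per := fun w => by
    have h1 := hf.per w
    simp only [Function.comp_apply, Pi.smul_apply] at h1 ⊢
    rw [h1]
  hol := hf.hol.const_smul c
  bdd := hf.bdd.const_smul_left c

theorem NiceFn.sub {f g : ℍ → ℂ} (hf : NiceFn f) (hg : NiceFn g) : NiceFn (f - g) := by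
  have : f - g = f + (-1 : ℂ) • g := by
    ext z; simp [sub_eq_add_neg]
  rw [this]
  exact hf.add (hg.smul _)

theorem NiceFn.of_modularForm {N : ℕ} {k : ℤ} (f : ModularForm (Gamma0 N) k) :
    NiceFn (f : ℍ → ℂ) where
  per := SlashInvariantFormClass.periodic_comp_ofComplex f (Fermat.Agent.S49.one_mem_sp N)
  hol := ModularFormClass.holo f
  bdd := by
    have : Fact (IsCusp OnePoint.infty
        (Subgroup.map (Matrix.SpecialLinearGroup.mapGL ℝ) (Gamma0 N))) :=
      ⟨Subgroup.isCusp_of_mem_strictPeriods one_pos (Fermat.Agent.S49.one_mem_sp N)⟩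
    exact ModularFormClass.bdd_at_infty f

/-- the weight-`8` combination, at the level of functions -/
noncomputable def Kfun (g e4 e6 : ℍ → ℂ) : ℍ → ℂ :=
  (256 : ℂ)⁻¹ • ((-3 : ℂ) • (g * g * (g * g)) + (10 : ℂ) • (g * g * e4)
    + (-8 : ℂ) • (g * e6) + e4 * e4)

theorem NiceFn.Kfun {g e4 e6 : ℍ → ℂ} (hg : NiceFn g) (h4 : NiceFn e4) (h6 : NiceFn e6) :
    NiceFn (Kfun g e4 e6) :=
  (((((hg.mul hg).mul (hg.mul hg)).smul _).add (((hg.mul hg).mul h4).smul _)).add
    ((hg.mul h6).smul _)).add (h4.mul h4) |>.smul _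

theorem qExpansion_Kfun {g e4 e6 : ℍ → ℂ} (hg : NiceFn g) (h4 : NiceFn e4) (h6 : NiceFn e6) :
    256 * qExpansion 1 (Kfun g e4 e6) =
      -3 * qExpansion 1 g ^ 4 + 10 * qExpansion 1 g ^ 2 * qExpansion 1 e4
        - 8 * qExpansion 1 g * qExpansion 1 e6 + qExpansion 1 e4 ^ 2 := by
  have hgg := hg.mul hg
  have e1 : qExpansion 1 (Kfun g e4 e6) = (256 : ℂ)⁻¹ • ((-3 : ℂ) • (qExpansion 1 g *
      qExpansion 1 g * (qExpansion 1 g * qExpansion 1 g)) + (10 : ℂ) • (qExpansion 1 g *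
      qExpansion 1 g * qExpansion 1 e4) + (-8 : ℂ) • (qExpansion 1 g * qExpansion 1 e6)
      + qExpansion 1 e4 * qExpansion 1 e4) := by
    unfold Kfun
    rw [qExpansion_smul (((((hgg.mul hgg).smul _).add ((hgg.mul h4).smul _)).add
        ((hg.mul h6).smul _)).add (h4.mul h4)).analytic,
      qExpansion_add ((((hgg.mul hgg).smul _).add ((hgg.mul h4).smul _)).add
        ((hg.mul h6).smul _)).analytic (h4.mul h4).analytic,
      qExpansion_add (((hgg.mul hgg).smul _).add ((hgg.mul h4).smul _)).analytic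
        ((hg.mul h6).smul _).analytic,
      qExpansion_add ((hgg.mul hgg).smul _).analytic ((hgg.mul h4).smul _).analytic,
      qExpansion_smul (hgg.mul hgg).analytic, qExpansion_smul (hgg.mul h4).analytic,
      qExpansion_smul (hg.mul h6).analytic, qExpansion_mul hgg.analytic hgg.analytic,
      qExpansion_mul hgg.analytic h4.analytic, qExpansion_mul hg.analytic h6.analytic,
      qExpansion_mul h4.analytic h4.analytic, qExpansion_mul hg.analytic hg.analytic]
  rw [e1]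
  simp only [PowerSeries.smul_eq_C_mul]
  have c256 : (256 : PowerSeries ℂ) = PowerSeries.C (256 : ℂ) :=
    (map_ofNat (PowerSeries.C (R := ℂ)) 256).symm
  have c3 : PowerSeries.C (-3 : ℂ) = -3 := by
    rw [map_neg, map_ofNat]
  have c10 : PowerSeries.C (10 : ℂ) = 10 := map_ofNat (PowerSeries.C (R := ℂ)) 10
  have c8 : PowerSeries.C (-8 : ℂ) = -8 := by
    rw [map_neg, map_ofNat]
  rw [c256, ← mul_assoc, ← map_mul, mul_inv_cancel₀ (by norm_num : (256 : ℂ) ≠ 0), map_one,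
    one_mul, c3, c10, c8]
  ring

theorem isCompanion_Kfun (p : ℕ) {G G' E4 E4' E6 E6' : ℍ → ℂ} (hG : IsCompanion p 2 G G')
    (h4 : IsCompanion p 4 E4 E4') (h6 : IsCompanion p 6 E6 E6') :
    IsCompanion p 8 (Kfun G E4 E6) (Kfun G' E4' E6') := by
  intro j hj z
  have e2 := hG j hj z
  have e4 := h4 j hj z
  have e6 := h6 j hj z
  rw [SL_slash_apply] at e2 e4 e6 ⊢
  set γ : SL(2, ℤ) := ModularGroup.S * ModularGroup.T ^ j with hγ
  set d : ℂ := denom γ z with hd
  have hd0 : d ≠ 0 := denom_ne_zero γ z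
  have d4 : d ^ (-(4 : ℤ)) = d ^ (-(2 : ℤ)) * d ^ (-(2 : ℤ)) := by
    rw [← zpow_add₀ hd0]; norm_num
  have d6 : d ^ (-(6 : ℤ)) = d ^ (-(2 : ℤ)) * d ^ (-(2 : ℤ)) * d ^ (-(2 : ℤ)) := by
    rw [← zpow_add₀ hd0, ← zpow_add₀ hd0]; norm_num
  have d8 : d ^ (-(8 : ℤ)) = d ^ (-(2 : ℤ)) * d ^ (-(2 : ℤ)) * d ^ (-(2 : ℤ)) * d ^ (-(2 : ℤ)) := by
    rw [← zpow_add₀ hd0, ← zpow_add₀ hd0, ← zpow_add₀ hd0]; norm_num
  rw [d4] at e4
  rw [d6] at e6
  rw [d8]
  simp only [Kfun, Pi.smul_apply, Pi.add_apply, Pi.mul_apply, smul_eq_mul]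
  rw [← e2, ← e4, ← e6]
  ring

/-- the weight-`8` combination as a modular form -/
noncomputable def Hform {Γ : Subgroup (GL (Fin 2) ℝ)} [Γ.HasDetOne]
    (G : ModularForm Γ 2) (E4 : ModularForm Γ 4) (E6 : ModularForm Γ 6) :
    ModularForm Γ ((8 : ℕ) : ℤ) :=
  (256 : ℂ)⁻¹ • ((-3 : ℂ) • ModularForm.mcast (a := (2 + 2) + (2 + 2)) (b := ((8 : ℕ) : ℤ))
      (by norm_num) ((G.mul G).mul (G.mul G))
    + (10 : ℂ) • ModularForm.mcast (a := (2 + 2) + 4) (b := ((8 : ℕ) : ℤ))
      (by norm_num) ((G.mul G).mul E4)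
    + (-8 : ℂ) • ModularForm.mcast (a := 2 + 6) (b := ((8 : ℕ) : ℤ)) (by norm_num) (G.mul E6)
    + ModularForm.mcast (a := 4 + 4) (b := ((8 : ℕ) : ℤ)) (by norm_num) (E4.mul E4))

theorem coe_Hform {Γ : Subgroup (GL (Fin 2) ℝ)} [Γ.HasDetOne]
    (G : ModularForm Γ 2) (E4 : ModularForm Γ 4) (E6 : ModularForm Γ 6) :
    (Hform G E4 E6 : ℍ → ℂ) = Kfun G E4 E6 := by
  ext z
  simp only [Hform, Kfun, FunLike.coe_smul, FunLike.coe_add, ModularForm.coe_mcast,
    ModularForm.coe_mul]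

section core

variable (p : ℕ) [Fact p.Prime]

/-- the companion of `G ∈ M₂(Γ₀(p))` -/
noncomputable def Gc (G : ModularForm (Gamma0 p) 2) : ℍ → ℂ :=
  fun z => -((p : ℂ)⁻¹) * heckeU 2 p (G : ℍ → ℂ) z

theorem isCompanion_Gc (G : ModularForm (Gamma0 p) 2) : IsCompanion p 2 G (Gc p G) :=
  fun j _ z => slash_ST_eq p G j z

theorem Gc_eq (G : ModularForm (Gamma0 p) 2) :
    haveI : NeZero p := ⟨(Fact.out : p.Prime).ne_zero⟩
    Gc p G = ((-((p : ℂ)⁻¹)) • ModularForm.heckeULin 2 (dvd_refl p) G :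
      ModularForm (Gamma0 p) 2) := by
  ext z
  simp [Gc]

theorem niceFn_Gc (G : ModularForm (Gamma0 p) 2) : NiceFn (Gc p G) := by
  have : NeZero p := ⟨(Fact.out : p.Prime).ne_zero⟩
  rw [Gc_eq]
  exact NiceFn.of_modularForm _

theorem qCoeff_Gc (G : ModularForm (Gamma0 p) 2) (n : ℕ) :
    qCoeff (Gc p G) n = -((p : ℂ)⁻¹) * qCoeff G (p * n) := by
  have : NeZero p := ⟨(Fact.out : p.Prime).ne_zero⟩
  have h1 : Gc p G = (-((p : ℂ)⁻¹)) • heckeU 2 p (G : ℍ → ℂ) := by
    ext z; simp [Gc]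
  have hU : NiceFn (heckeU 2 p (G : ℍ → ℂ)) :=
    NiceFn.of_modularForm (ModularForm.heckeULin 2 (dvd_refl p) G)
  rw [qCoeff, h1, qExpansion_smul hU.analytic, PowerSeries.coeff_smul]
  have h2 := ModularFormClass.qCoeff_heckeU G (Fermat.Agent.S49.one_mem_sp p)
    (Fact.out : p.Prime).ne_zero n
  rw [qCoeff] at h2
  rw [h2, coeffHeckeU_apply, mul_comm n p, smul_eq_mul]

/-- **(M11), core**: the case `ℓ = 2`, relative to the level-one data `E₄`, `E₆` on `Γ₀(p)`
and their companions. -/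
theorem core (hdvd : 8 ∣ p + 1) (G : ModularForm (Gamma0 p) 2) (h0 : qCoeff G 0 = 1)
    (hk : ∀ k, 0 < k → IsLocDvd 2 3 (qCoeff G k))
    (E4r : ModularForm (Gamma0 p) 4) (E6r : ModularForm (Gamma0 p) 6) (E4p E6p : ℍ → ℂ)
    (c4 : IsCompanion p 4 E4r E4p) (c6 : IsCompanion p 6 E6r E6p)
    (n4 : NiceFn E4p) (n6 : NiceFn E6p)
    (s3 s5 : ℕ → ℤ) (h8 : ∀ n, (8 : ℤ) ∣ s5 n - s3 n) (hs1 : s3 1 = 1)
    (q4 : ∀ n, qCoeff E4r n = if n = 0 then 1 else 240 * (s3 n : ℂ))
    (q6 : ∀ n, qCoeff E6r n = if n = 0 then 1 else -504 * (s5 n : ℂ))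
    (q4p : ∀ n, qCoeff E4p n = if n = 0 then 1 else
      if p ∣ n then 240 * (s3 (n / p) : ℂ) else 0)
    (q6p : ∀ n, qCoeff E6p n = if n = 0 then 1 else
      if p ∣ n then -504 * (s5 (n / p) : ℂ) else 0) : False := by
  have hp : p.Prime := Fact.out
  have h2 : Nat.Prime 2 := Nat.prime_two
  have hodd : ¬ 2 ∣ p := by omega
  set H : ModularForm (Gamma0 p) ((8 : ℕ) : ℤ) := Hform G E4r E6r with hH
  set H' : ℍ → ℂ := Kfun (Gc p G) E4p E6p with hH'
  have nG := NiceFn.of_modularForm G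
  have n4r := NiceFn.of_modularForm E4r
  have n6r := NiceFn.of_modularForm E6r
  have nGc := niceFn_Gc p G
  have nH' : NiceFn H' := nGc.Kfun n4 n6
  have hcomp : IsCompanion p ((8 : ℕ) : ℤ) H H' := by
    rw [hH, coe_Hform]
    exact isCompanion_Kfun p (isCompanion_Gc p G) c4 c6
  -- the expansion at infinity
  have hA := main_ps (qExpansion 1 G) (qExpansion 1 E4r) (qExpansion 1 E6r) 1 le_rfl
    (by
      have : (PowerSeries.coeff 0) (qExpansion 1 (G : ℍ → ℂ)) = 1 := h0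
      rw [this, sub_self]; exact isLocDvd_zero h2 3)
    hk s3 s5
    (by have := q4 0; simpa [qCoeff] using this)
    (fun n hn => by have := q4 n; rw [if_neg (by omega)] at this; exact this)
    (by have := q6 0; simpa [qCoeff] using this)
    (fun n hn => by have := q6 n; rw [if_neg (by omega)] at this; exact this)
    h8 (fun n hn hn1 => by omega) hs1
    (qExpansion 1 (Kfun G E4r E6r)) (qExpansion_Kfun nG n4r n6r)
  -- the expansion of the companion
  obtain ⟨c, hc⟩ := hdvd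
  have hpC : (p : ℂ) ≠ 0 := by exact_mod_cast hp.ne_zero
  have hinvp : IsLocInt 2 (-((p : ℂ)⁻¹)) := (isLocInt_inv_natCast h2 hodd).neg h2
  have hB := main_ps (qExpansion 1 (Gc p G)) (qExpansion 1 E4p) (qExpansion 1 E6p) p hp.one_le
    (by
      have h1 : (PowerSeries.coeff 0) (qExpansion 1 (Gc p G)) = -((p : ℂ)⁻¹) := by
        have := qCoeff_Gc p G 0
        rw [mul_zero, h0, mul_one] at this
        exact this
      rw [h1]
      refine ⟨-((p : ℂ)⁻¹) * c, hinvp.mul h2 (isLocInt_natCast h2 c), ?_⟩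
      have hcC : (p : ℂ) + 1 = 8 * c := by exact_mod_cast congrArg (fun x : ℕ => (x : ℂ)) hc
      have h2C : ((2 : ℕ) : ℂ) ^ 3 = 8 := by norm_num
      rw [h2C]
      field_simp
      linear_combination -hcC)
    (fun n hn => by
      have h1 : (PowerSeries.coeff n) (qExpansion 1 (Gc p G)) =
          -((p : ℂ)⁻¹) * qCoeff G (p * n) := qCoeff_Gc p G n
      rw [h1]
      exact IsLocDvd.mul_left h2 hinvp (hk _ (Nat.mul_pos hp.pos hn)))
    (fun n => if p ∣ n then s3 (n / p) else 0) (fun n => if p ∣ n then s5 (n / p) else 0)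
    (by have := q4p 0; simpa [qCoeff] using this)
    (fun n hn => by
      have := q4p n
      rw [if_neg (by omega)] at this
      rw [show (PowerSeries.coeff n) (qExpansion 1 E4p) = qCoeff E4p n from rfl, this]
      split_ifs <;> simp)
    (by have := q6p 0; simpa [qCoeff] using this)
    (fun n hn => by
      have := q6p n
      rw [if_neg (by omega)] at this
      rw [show (PowerSeries.coeff n) (qExpansion 1 E6p) = qCoeff E6p n from rfl, this]
      split_ifs <;> simp)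
    (fun n => by
      split_ifs
      · exact h8 _
      · simp)
    (fun n hn hnp => by
      rw [if_neg (Nat.not_dvd_of_pos_of_lt hn hnp)])
    (by
      rw [if_pos (dvd_refl p), Nat.div_self hp.pos, hs1])
    (qExpansion 1 H') (qExpansion_Kfun nGc n4 n6)
  have hqH : ∀ n, qCoeff H n = (PowerSeries.coeff n) (qExpansion 1 (Kfun G E4r E6r)) := by
    intro n
    rw [qCoeff, hH, coe_Hform]
  refine norm_principle p 2 h2 8 (by norm_num) H H' nH'.per nH'.hol nH'.bdd hcomp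
    (fun n => by rw [hqH]; exact hA.1 n) (by rw [hqH]; exact hA.2.1 0 (by norm_num))
    1 (by norm_num) (by rw [hqH]; simpa using hA.2.2)
    (fun n => hB.1 n) (fun n hn => hB.2.1 n hn) 1 (by norm_num)
    (by simpa [qCoeff] using hB.2.2)

end core

section final

open ArithmeticFunction

theorem sigma_five_sub_three (n : ℕ) : (8 : ℤ) ∣ (sigma 5 n : ℤ) - (sigma 3 n : ℤ) := by
  rw [sigma_apply, sigma_apply]
  push_cast
  rw [← Finset.sum_sub_distrib]
  apply Finset.dvd_sum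
  intro d _
  have key : ∀ r : ZMod 8, r ^ 5 - r ^ 3 = 0 := by decide
  have h1 := key (d : ZMod 8)
  have h2 : (((d : ℤ) ^ 5 - (d : ℤ) ^ 3 : ℤ) : ZMod 8) = 0 := by
    push_cast
    exact h1
  exact_mod_cast (ZMod.intCast_zmod_eq_zero_iff_dvd _ 8).mp h2

theorem qCoeff_E4 (n : ℕ) :
    qCoeff (E₄ : ℍ → ℂ) n = if n = 0 then 1 else 240 * (((sigma 3 n : ℕ) : ℤ) : ℂ) := by
  have h := EisensteinSeries.E_qExpansion_coeff (by norm_num : 3 ≤ 4) ⟨2, rfl⟩ n
  rw [qCoeff]
  rw [h, show bernoulli 4 = -1 / 30 by decide +kernel]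
  split_ifs
  · rfl
  · push_cast; norm_num

theorem qCoeff_E6 (n : ℕ) :
    qCoeff (E₆ : ℍ → ℂ) n = if n = 0 then 1 else -504 * (((sigma 5 n : ℕ) : ℤ) : ℂ) := by
  have h := EisensteinSeries.E_qExpansion_coeff (by norm_num : 3 ≤ 6) ⟨3, rfl⟩ n
  rw [qCoeff]
  rw [h, show bernoulli 6 = 1 / 42 by decide +kernel]
  split_ifs
  · rfl
  · push_cast; norm_num

theorem niceFn_of_qGood {f : ℍ → ℂ} (h : Companion.QGood f) : NiceFn f := ⟨h.per, h.hol, h.bdd⟩

end final

end Case2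

/-- **(M11)**: no weight-two form on `Γ₀(p)` is `≡ 1 mod 8` when `8 ∣ p + 1`. -/
theorem no_unit_form_two (p : ℕ) [Fact p.Prime] (hdvd : 8 ∣ p + 1)
    (G : ModularForm (Gamma0 p) 2) (h0 : qCoeff G 0 = 1)
    (hk : ∀ k, 0 < k → IsLocDvd 2 3 (qCoeff G k)) : False := by
  have hp : p.Prime := Fact.out
  have g4 := Companion.QGood.of_levelOne E₄
  have g6 := Companion.QGood.of_levelOne E₆
  refine Case2.core p hdvd G h0 hk (Companion.restr p E₄) (Companion.restr p E₆)
    (Companion.dil p E₄) (Companion.dil p E₆)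
    (Companion.isCompanion_restr hp.ne_zero E₄) (Companion.isCompanion_restr hp.ne_zero E₆)
    (Case2.niceFn_of_qGood (g4.dil hp.ne_zero)) (Case2.niceFn_of_qGood (g6.dil hp.ne_zero))
    (fun n => (ArithmeticFunction.sigma 3 n : ℤ)) (fun n => (ArithmeticFunction.sigma 5 n : ℤ))
    Case2.sigma_five_sub_three (by simp) ?_ ?_ ?_ ?_
  · intro n
    rw [Companion.qCoeff_restr]
    exact Case2.qCoeff_E4 n
  · intro n
    rw [Companion.qCoeff_restr]
    exact Case2.qCoeff_E6 n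
  · intro n
    rw [Companion.qCoeff_dil hp.ne_zero g4]
    by_cases hn : n = 0
    · subst hn
      simp [Case2.qCoeff_E4]
    · rw [if_neg hn]
      split_ifs with hd
      · rw [Case2.qCoeff_E4, if_neg]
        intro h0'
        obtain ⟨m, rfl⟩ := hd
        rw [Nat.mul_div_cancel_left _ hp.pos] at h0'
        exact hn (by rw [h0', mul_zero])
      · rfl
  · intro n
    rw [Companion.qCoeff_dil hp.ne_zero g6]
    by_cases hn : n = 0
    · subst hn
      simp [Case2.qCoeff_E6]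
    · rw [if_neg hn]
      split_ifs with hd
      · rw [Case2.qCoeff_E6, if_neg]
        intro h0'
        obtain ⟨m, rfl⟩ := hd
        rw [Nat.mul_div_cancel_left _ hp.pos] at h0'
        exact hn (by rw [h0', mul_zero])
      · rfl

end Fermat.Agent.S16
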