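import Mathlib
import Fermat.Agent.S16.Defs
import Fermat.Agent.S16.LocInt
import Fermat.Agent.S16.NormPrinciple
import Fermat.Agent.S16.Fricke
import Fermat.Agent.S22.QExpAffine
import Fermat.Prelude.Thm_CongruenceSubgroup_one_mem_strictPeriods_Gamma0
import Fermat.Prelude.Thm_ModularFormClass_qCoeff_heckeU
import Fermat.Prelude.Thm_ModularForm_isBoundedAtImInfty_heckeU
import Fermat.Prelude.Thm_ModularForm_mdifferentiable_heckeU
import Fermat.Prelude.Thm_ModularForm_periodic_heckeU_comp_ofComplex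

/-!
# S16 (M9): no unit form, the case `ℓ ≥ 5`

`no_unit_form_ge5`: for a prime `ℓ ≥ 5` dividing `p + 1` there is no modular form `G` of weight 2
on `Γ₀(p)` with `a₀(G) = 1` and `a_k(G) ≡ 0 mod ℓ` for all `k ≥ 1`.

The proof applies the norm principle (M8) to `H = ℓ^{-t} (G^m - A)`, where `A` is a level-one form
of weight `2 m` with integral `q`-expansion `1 + ℓ^t u₀ q + …` (`A = E₄`, `m = 2` for `ℓ ≥ 7`;
`A = E₆`, `m = 3` for `ℓ = 5`), with the companion `H' = ℓ^{-t} (G'^m - A(p ·))`,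
`G' = -p⁻¹ U_p G`.  The general statement `CaseGe5.core` is also used for `ℓ = 3` (`Case3.lean`).
-/

set_option autoImplicit false

namespace Fermat.Agent.S16

open ModularCurve ModularCurve.Period CuspForm CongruenceSubgroup UpperHalfPlane ModularForm
open ModularFormClass
open scoped MatrixGroups ModularForm Manifold

namespace CaseGe5

/-! ### Power series congruent to a constant -/

/-- `f ≡ const mod ℓ^s`: the constant coefficient is `ℓ`-integral and all higher coefficients are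
divisible by `ℓ^s`. -/
def ConstMod (ℓ s : ℕ) (f : PowerSeries ℂ) : Prop :=
  IsLocInt ℓ (PowerSeries.coeff 0 f) ∧ ∀ k, 0 < k → IsLocDvd ℓ s (PowerSeries.coeff k f)

variable {ℓ : ℕ} {s : ℕ}

theorem ConstMod.isLocInt (hℓ : ℓ.Prime) {f : PowerSeries ℂ} (hf : ConstMod ℓ s f) (n : ℕ) :
    IsLocInt ℓ (PowerSeries.coeff n f) := by
  rcases Nat.eq_zero_or_pos n with rfl | hn
  · exact hf.1
  · exact (hf.2 n hn).isLocInt hℓ

theorem ConstMod.one (hℓ : ℓ.Prime) : ConstMod ℓ s (1 : PowerSeries ℂ) := by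
  refine ⟨by simpa using isLocInt_one hℓ, fun k hk => ?_⟩
  rw [PowerSeries.coeff_one, if_neg hk.ne']
  exact isLocDvd_zero hℓ s

theorem ConstMod.mul (hℓ : ℓ.Prime) {f g : PowerSeries ℂ} (hf : ConstMod ℓ s f)
    (hg : ConstMod ℓ s g) : ConstMod ℓ s (f * g) := by
  refine ⟨?_, fun k hk => ?_⟩
  · rw [PowerSeries.coeff_mul]
    simp only [Finset.Nat.antidiagonal_zero, Finset.sum_singleton]
    exact hf.1.mul hℓ hg.1
  · rw [PowerSeries.coeff_mul]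
    refine IsLocDvd.sum hℓ _ _ fun ij hij => ?_
    have hij' : ij.1 + ij.2 = k := Finset.HasAntidiagonal.mem_antidiagonal.mp hij
    rcases Nat.eq_zero_or_pos ij.1 with h1 | h1
    · have h2 : 0 < ij.2 := by omega
      exact IsLocDvd.mul_left hℓ (hf.isLocInt hℓ _) (hg.2 _ h2)
    · exact IsLocDvd.mul_right hℓ (hf.2 _ h1) (hg.isLocInt hℓ _)

theorem ConstMod.pow (hℓ : ℓ.Prime) {f : PowerSeries ℂ} (hf : ConstMod ℓ s f) (m : ℕ) :
    ConstMod ℓ s (f ^ m) := by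
  induction m with
  | zero => simpa using ConstMod.one hℓ
  | succ m ih => rw [pow_succ]; exact ih.mul hℓ hf

theorem coeff_zero_pow (f : PowerSeries ℂ) (m : ℕ) :
    PowerSeries.coeff 0 (f ^ m) = PowerSeries.coeff 0 f ^ m := by
  simp only [PowerSeries.coeff_zero_eq_constantCoeff, map_pow]

/-- dividing an element of `ℓ^{t+1}` by `ℓ^t` -/
theorem isLocDvd_inv_pow_mul (hℓ : ℓ.Prime) (t : ℕ) {x : ℂ} (hx : IsLocDvd ℓ (t + 1) x) :
    IsLocDvd ℓ 1 (((ℓ : ℂ) ^ t)⁻¹ * x) := by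
  obtain ⟨y, hy, rfl⟩ := hx
  refine ⟨y, hy, ?_⟩
  have hℓ0 : ((ℓ : ℂ) ^ t) ≠ 0 := pow_ne_zero _ (by exact_mod_cast hℓ.ne_zero)
  rw [pow_succ, pow_one]
  field_simp

/-- dividing an integer multiple of `ℓ^t` by `ℓ^t` -/
theorem isLocInt_inv_pow_mul_intCast (hℓ : ℓ.Prime) (t : ℕ) {a : ℤ} (ha : (ℓ : ℤ) ^ t ∣ a) :
    IsLocInt ℓ (((ℓ : ℂ) ^ t)⁻¹ * (a : ℂ)) := by
  obtain ⟨b, rfl⟩ := ha
  have hℓ0 : ((ℓ : ℂ) ^ t) ≠ 0 := pow_ne_zero _ (by exact_mod_cast hℓ.ne_zero)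
  have : ((ℓ : ℂ) ^ t)⁻¹ * (((ℓ : ℤ) ^ t * b : ℤ) : ℂ) = (b : ℂ) := by
    push_cast
    field_simp
  rw [this]
  exact isLocInt_intCast hℓ b

/-- coefficients of `ℓ^{-t} (w - B)` for `w ≡ const mod ℓ^{t+1}` and `B` with `n`-th coefficient
`ℓ^t b`: congruent to `-b` mod `ℓ`. -/
theorem coeff_smul_sub (hℓ : ℓ.Prime) (t : ℕ) {w B : PowerSeries ℂ} (hw : ConstMod ℓ (t + 1) w)
    {n : ℕ} (hn : 0 < n) (b : ℤ) (hb : PowerSeries.coeff n B = (((ℓ : ℤ) ^ t * b : ℤ) : ℂ)) :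
    IsLocDvd ℓ 1 (PowerSeries.coeff n (((ℓ : ℂ) ^ t)⁻¹ • (w - B)) - ((-b : ℤ) : ℂ)) := by
  have hℓ0 : ((ℓ : ℂ) ^ t) ≠ 0 := pow_ne_zero _ (by exact_mod_cast hℓ.ne_zero)
  have h1 : PowerSeries.coeff n (((ℓ : ℂ) ^ t)⁻¹ • (w - B)) - ((-b : ℤ) : ℂ) =
      ((ℓ : ℂ) ^ t)⁻¹ * PowerSeries.coeff n w := by
    rw [PowerSeries.coeff_smul, smul_eq_mul, map_sub, hb]
    push_cast
    generalize (ℓ : ℂ) ^ t = L at hℓ0 ⊢
    field_simp
    ring
  rw [h1]
  exact isLocDvd_inv_pow_mul hℓ t (hw.2 n hn)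

theorem isLocInt_of_sub_intCast (hℓ : ℓ.Prime) {x : ℂ} {b : ℤ}
    (h : IsLocDvd ℓ 1 (x - (b : ℂ))) : IsLocInt ℓ x := by
  have := (h.isLocInt hℓ).add hℓ (isLocInt_intCast hℓ b)
  simpa using this

/-- `(-1/p)^m ≡ 1 mod ℓ^s` when `ℓ^s ∣ p + 1`. -/
theorem neg_inv_pow_sub_one (hℓ : ℓ.Prime) {p : ℕ} (hp : p.Prime) (hdvd : ℓ ^ s ∣ p + 1)
    (hs : 0 < s) (m : ℕ) : IsLocInt ℓ (-(p : ℂ)⁻¹) ∧ IsLocDvd ℓ s ((-(p : ℂ)⁻¹) ^ m - 1) := by
  have hℓp : ¬ ℓ ∣ p := by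
    intro h
    have h1 : ℓ ∣ p + 1 := (dvd_pow_self ℓ hs.ne').trans hdvd
    have h2 : ℓ ∣ 1 := (Nat.dvd_add_right h).mp h1
    exact hℓ.one_lt.ne' (Nat.dvd_one.mp h2)
  have hp0 : (p : ℂ) ≠ 0 := by exact_mod_cast hp.ne_zero
  have hinv : IsLocInt ℓ (-(p : ℂ)⁻¹) := (isLocInt_inv_natCast hℓ hℓp).neg hℓ
  refine ⟨hinv, ?_⟩
  have h1 : IsLocDvd ℓ s (-(p : ℂ)⁻¹ - 1) := by
    have h2 : IsLocDvd ℓ s (((p + 1 : ℕ) : ℤ) : ℂ) :=
      isLocDvd_intCast hℓ (by exact_mod_cast hdvd)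
    have h3 := IsLocDvd.mul_right hℓ h2 hinv
    have h4 : (((p + 1 : ℕ) : ℤ) : ℂ) * (-(p : ℂ)⁻¹) = -(p : ℂ)⁻¹ - 1 := by
      push_cast
      field_simp
      ring
    rwa [h4] at h3
  rw [← geom_sum_mul]
  exact IsLocDvd.mul_left hℓ (IsLocInt.sum hℓ _ _ fun i _ => hinv.pow hℓ i) h1

/-- The `H`-side congruences. -/
theorem series_H (hℓ : ℓ.Prime) (t m : ℕ) (g Aser : PowerSeries ℂ) (a : ℕ → ℤ)
    (hg0 : PowerSeries.coeff 0 g = 1)
    (hg : ∀ n, 0 < n → IsLocDvd ℓ (t + 1) (PowerSeries.coeff n g))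
    (hA : ∀ n, PowerSeries.coeff n Aser = (a n : ℂ)) (ha0 : a 0 = 1)
    (ha : ∀ n, 0 < n → (ℓ : ℤ) ^ t ∣ a n) (u₀ : ℤ) (ha1 : a 1 = (ℓ : ℤ) ^ t * u₀) :
    (∀ n, IsLocInt ℓ (PowerSeries.coeff n (((ℓ : ℂ) ^ t)⁻¹ • (g ^ m - Aser)))) ∧
      IsLocDvd ℓ 1 (PowerSeries.coeff 0 (((ℓ : ℂ) ^ t)⁻¹ • (g ^ m - Aser))) ∧
      IsLocDvd ℓ 1 (PowerSeries.coeff 1 (((ℓ : ℂ) ^ t)⁻¹ • (g ^ m - Aser)) - ((-u₀ : ℤ) : ℂ)) := by
  have hgc : ConstMod ℓ (t + 1) g := ⟨by rw [hg0]; exact isLocInt_one hℓ, hg⟩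
  have hw : ConstMod ℓ (t + 1) (g ^ m) := hgc.pow hℓ m
  have h0 : PowerSeries.coeff 0 (((ℓ : ℂ) ^ t)⁻¹ • (g ^ m - Aser)) = 0 := by
    rw [PowerSeries.coeff_smul, smul_eq_mul, map_sub, coeff_zero_pow, hg0, hA, ha0]
    simp
  refine ⟨fun n => ?_, ?_, ?_⟩
  · rcases Nat.eq_zero_or_pos n with rfl | hn
    · rw [h0]; exact isLocInt_zero hℓ
    · obtain ⟨b, hb⟩ := ha n hn
      exact isLocInt_of_sub_intCast hℓ
        (coeff_smul_sub hℓ t hw hn b (by rw [hA, hb]))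
  · rw [h0]; exact isLocDvd_zero hℓ 1
  · exact coeff_smul_sub hℓ t hw one_pos u₀ (by rw [hA, ha1])

/-- The `H'`-side congruences. -/
theorem series_H' (hℓ : ℓ.Prime) {p : ℕ} (hp : p.Prime) (t m : ℕ) (hdvd : ℓ ^ (t + 1) ∣ p + 1)
    (g g' A'ser : PowerSeries ℂ) (a : ℕ → ℤ)
    (hg : ∀ n, 0 < n → IsLocDvd ℓ (t + 1) (PowerSeries.coeff n g))
    (hg' : ∀ n, PowerSeries.coeff n g' = -(p : ℂ)⁻¹ * PowerSeries.coeff (n * p) g)
    (hg0' : PowerSeries.coeff 0 g' = -(p : ℂ)⁻¹)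
    (hA' : ∀ n, PowerSeries.coeff n A'ser = if p ∣ n then (a (n / p) : ℂ) else 0)
    (ha0 : a 0 = 1) (ha : ∀ n, 0 < n → (ℓ : ℤ) ^ t ∣ a n) (u₀ : ℤ)
    (ha1 : a 1 = (ℓ : ℤ) ^ t * u₀) :
    (∀ n, IsLocInt ℓ (PowerSeries.coeff n (((ℓ : ℂ) ^ t)⁻¹ • (g' ^ m - A'ser)))) ∧
      (∀ n, n < p →
        IsLocDvd ℓ 1 (PowerSeries.coeff n (((ℓ : ℂ) ^ t)⁻¹ • (g' ^ m - A'ser)))) ∧
      IsLocDvd ℓ 1
        (PowerSeries.coeff p (((ℓ : ℂ) ^ t)⁻¹ • (g' ^ m - A'ser)) - ((-u₀ : ℤ) : ℂ)) := by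
  obtain ⟨hinv, hz⟩ := neg_inv_pow_sub_one hℓ hp hdvd (Nat.succ_pos t) m
  have hgc : ConstMod ℓ (t + 1) g' := by
    refine ⟨by rw [hg0']; exact hinv, fun n hn => ?_⟩
    rw [hg' n]
    exact IsLocDvd.mul_left hℓ hinv (hg _ (Nat.mul_pos hn hp.pos))
  have hw : ConstMod ℓ (t + 1) (g' ^ m) := hgc.pow hℓ m
  have h0 : IsLocDvd ℓ 1 (PowerSeries.coeff 0 (((ℓ : ℂ) ^ t)⁻¹ • (g' ^ m - A'ser))) := by
    have : PowerSeries.coeff 0 (((ℓ : ℂ) ^ t)⁻¹ • (g' ^ m - A'ser)) =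
        ((ℓ : ℂ) ^ t)⁻¹ * ((-(p : ℂ)⁻¹) ^ m - 1) := by
      rw [PowerSeries.coeff_smul, smul_eq_mul, map_sub, coeff_zero_pow, hg0', hA', if_pos (dvd_zero p),
        Nat.zero_div, ha0]
      simp
    rw [this]
    exact isLocDvd_inv_pow_mul hℓ t hz
  -- the coefficient of `A'ser` at `n > 0` is `ℓ^t b`
  have hB : ∀ n, 0 < n → ∃ b : ℤ, PowerSeries.coeff n A'ser = (((ℓ : ℤ) ^ t * b : ℤ) : ℂ) ∧
      (¬ p ∣ n → b = 0) ∧ (n = p → b = u₀) := by
    intro n hn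
    by_cases hpn : p ∣ n
    · obtain ⟨c, rfl⟩ := hpn
      have hc : 0 < c := Nat.pos_of_mul_pos_left hn
      obtain ⟨b, hb⟩ := ha c hc
      refine ⟨b, ?_, fun h => absurd (dvd_mul_right p c) h, fun h => ?_⟩
      · rw [hA', if_pos (dvd_mul_right p c), Nat.mul_div_cancel_left _ hp.pos, hb]
      · have hc1 : c = 1 := by
          have : p * c = p * 1 := by rw [mul_one]; exact h
          exact Nat.eq_of_mul_eq_mul_left hp.pos this
        subst hc1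
        have hℓ0 : ((ℓ : ℤ) ^ t) ≠ 0 := pow_ne_zero _ (by exact_mod_cast hℓ.ne_zero)
        rw [ha1] at hb
        exact (mul_left_cancel₀ hℓ0 hb).symm
    · refine ⟨0, ?_, fun _ => rfl, fun h => absurd (h ▸ dvd_refl p) hpn⟩
      rw [hA', if_neg hpn]
      simp
  refine ⟨fun n => ?_, fun n hnp => ?_, ?_⟩
  · rcases Nat.eq_zero_or_pos n with rfl | hn
    · exact h0.isLocInt hℓ
    · obtain ⟨b, hb, -, -⟩ := hB n hn
      exact isLocInt_of_sub_intCast hℓ (coeff_smul_sub hℓ t hw hn b hb)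
  · rcases Nat.eq_zero_or_pos n with rfl | hn
    · exact h0
    · obtain ⟨b, hb, hb0, -⟩ := hB n hn
      have hpn : ¬ p ∣ n := fun h => absurd (Nat.le_of_dvd hn h) (not_le.mpr hnp)
      have := coeff_smul_sub hℓ t hw hn b hb
      rw [hb0 hpn] at this
      simpa using this
  · obtain ⟨b, hb, -, hbu⟩ := hB p hp.pos
    have := coeff_smul_sub hℓ t hw hp.pos b hb
    rwa [hbu rfl] at this

/-! ### `1`-periodic holomorphic functions bounded at `i∞` -/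

/-- `1`-periodic, holomorphic, bounded at `i∞`. -/
structure Good (f : ℍ → ℂ) : Prop where
  per : Function.Periodic (f ∘ ofComplex) 1
  hol : MDiff f
  bdd : IsBoundedAtImInfty f

theorem Good.analytic {f : ℍ → ℂ} (hf : Good f) : AnalyticAt ℂ (cuspFunction 1 f) 0 :=
  analyticAt_cuspFunction_zero one_pos hf.per hf.hol hf.bdd

theorem Good.smul (c : ℂ) {f : ℍ → ℂ} (hf : Good f) : Good (c • f) where
  per := fun w => by
    have := hf.per w
    simp only [Function.comp_apply, Pi.smul_apply] at this ⊢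
    rw [this]
  hol := hf.hol.const_smul c
  bdd := hf.bdd.const_smul_left c

theorem Good.sub {f g : ℍ → ℂ} (hf : Good f) (hg : Good g) : Good (f - g) where
  per := fun w => by
    have h1 := hf.per w
    have h2 := hg.per w
    simp only [Function.comp_apply, Pi.sub_apply] at h1 h2 ⊢
    rw [h1, h2]
  hol := hf.hol.sub hg.hol
  bdd := by
    have h : IsBoundedAtImInfty (f + -g) := hf.bdd.add hg.bdd.neg
    rwa [← sub_eq_add_neg] at h

theorem Good.mul {f g : ℍ → ℂ} (hf : Good f) (hg : Good g) : Good (f * g) where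
  per := fun w => by
    have h1 := hf.per w
    have h2 := hg.per w
    simp only [Function.comp_apply, Pi.mul_apply] at h1 h2 ⊢
    rw [h1, h2]
  hol := hf.hol.mul hg.hol
  bdd := hf.bdd.mul hg.bdd

theorem Good.one : Good (1 : ℍ → ℂ) where
  per := fun _ => rfl
  hol := mdifferentiable_const
  bdd := Filter.const_boundedAtFilter _ _

theorem Good.pow {f : ℍ → ℂ} (hf : Good f) (m : ℕ) : Good (f ^ m) := by
  induction m with
  | zero => simpa using Good.one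
  | succ m ih => rw [pow_succ]; exact ih.mul hf

theorem qExpansion_pow_of_good {f : ℍ → ℂ} (hf : Good f) (m : ℕ) :
    qExpansion 1 (f ^ m) = qExpansion 1 f ^ m := by
  induction m with
  | zero => simpa using qExpansion_one 1
  | succ m ih =>
    rw [pow_succ, pow_succ, qExpansion_mul (hf.pow m).analytic hf.analytic, ih]

/-- the `q`-expansion of `c • (f ^ m - g)` -/
theorem qExpansion_smul_pow_sub (c : ℂ) {f g : ℍ → ℂ} (hf : Good f) (hg : Good g) (m : ℕ) :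
    qExpansion 1 (c • (f ^ m - g)) = c • (qExpansion 1 f ^ m - qExpansion 1 g) := by
  rw [qExpansion_smul ((hf.pow m).sub hg).analytic, qExpansion_sub (hf.pow m).analytic hg.analytic,
    qExpansion_pow_of_good hf]

/-! ### Modular forms -/

theorem good_gamma0 (N : ℕ) {K : ℤ} (G : ModularForm (Gamma0 N) K) : Good (G : ℍ → ℂ) where
  per := SlashInvariantFormClass.periodic_comp_ofComplex G
    (CongruenceSubgroup.one_mem_strictPeriods_Gamma0 N)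
  hol := ModularFormClass.holo G
  bdd :=
    have : Fact (IsCusp OnePoint.infty (Gamma0 N : Subgroup (GL (Fin 2) ℝ))) :=
      ⟨Subgroup.isCusp_of_mem_strictPeriods one_pos
        (CongruenceSubgroup.one_mem_strictPeriods_Gamma0 N)⟩
    ModularFormClass.bdd_at_infty G

theorem good_levelOne {K : ℤ} (A : ModularForm 𝒮ℒ K) : Good (A : ℍ → ℂ) where
  per := SlashInvariantFormClass.periodic_comp_ofComplex A one_mem_strictPeriods_SL
  hol := ModularFormClass.holo A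
  bdd := ModularFormClass.bdd_at_infty A

/-- `U_p G` for `G` on `Γ₀(N)` -/
theorem good_heckeU (N : ℕ) {K : ℤ} (G : ModularForm (Gamma0 N) K) (k : ℤ) (p : ℕ) :
    Good (heckeU k p (G : ℍ → ℂ)) where
  per := ModularForm.periodic_heckeU_comp_ofComplex (good_gamma0 N G).per k p
  hol := ModularForm.mdifferentiable_heckeU (good_gamma0 N G).hol k p
  bdd := ModularForm.isBoundedAtImInfty_heckeU (good_gamma0 N G).bdd k p

theorem coeff_heckeU (N : ℕ) {K : ℤ} (G : ModularForm (Gamma0 N) K) {p : ℕ} (hp : p ≠ 0)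
    (n : ℕ) :
    PowerSeries.coeff n (qExpansion 1 (heckeU K p (G : ℍ → ℂ))) =
      PowerSeries.coeff (n * p) (qExpansion 1 (G : ℍ → ℂ)) :=
  ModularFormClass.qCoeff_heckeU G (CongruenceSubgroup.one_mem_strictPeriods_Gamma0 N) hp n

/-! ### The function `z ↦ F (p z)` -/

/-- `z ↦ F (p z)` -/
noncomputable def scale (p : ℕ) (F : ℍ → ℂ) : ℍ → ℂ := fun z => F (heckeDiagMatrix p • z)

theorem heckeDiagMatrix_smul_eq {p : ℕ} (hp : p ≠ 0) (z : ℍ) :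
    heckeDiagMatrix p • z = ofComplex ((p : ℂ) * z) := by
  rw [← coe_heckeDiagMatrix_smul hp z, ofComplex_apply]

theorem scale_eq_aff {p : ℕ} (hp : p ≠ 0) (F : ℍ → ℂ) :
    scale p F = Fermat.Agent.S22.QExpAffine.aff F p 1 0 := by
  funext z
  simp only [scale, Fermat.Agent.S22.QExpAffine.aff, heckeDiagMatrix_smul_eq hp]
  congr 2
  simp

theorem good_scale {p : ℕ} (hp : p ≠ 0) {F : ℍ → ℂ} (hF : Good F) : Good (scale p F) where
  per := by
    intro w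
    by_cases hw : 0 < w.im
    · have hw'' : 0 < (w + 1).im := by simpa using hw
      have key := hF.per.nat_mul p ((p : ℂ) * w)
      simp only [Function.comp_apply] at key
      simp only [scale, Function.comp_apply, heckeDiagMatrix_smul_eq hp,
        ofComplex_apply_of_im_pos hw'', ofComplex_apply_of_im_pos hw]
      rw [← key]
      congr 2
      ring
    · have hw0 : w.im ≤ 0 := not_lt.mp hw
      have hw' : (w + 1).im ≤ 0 := by simpa using hw0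
      simp only [Function.comp_apply, ofComplex_apply_of_im_nonpos hw',
        ofComplex_apply_of_im_nonpos hw0]
  hol := by
    rw [scale_eq_aff hp]
    exact Fermat.Agent.S22.QExpAffine.aff_mdiff F hF.hol p 1 (Nat.pos_of_ne_zero hp) one_pos 0
  bdd := by
    rw [scale_eq_aff hp]
    exact Fermat.Agent.S22.QExpAffine.aff_bdd F hF.bdd p 1 (Nat.pos_of_ne_zero hp) one_pos 0

theorem coeff_scale {p : ℕ} (hp : p ≠ 0) {F : ℍ → ℂ} (hF : Good F) (n : ℕ) :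
    PowerSeries.coeff n (qExpansion 1 (scale p F)) =
      if p ∣ n then PowerSeries.coeff (n / p) (qExpansion 1 F) else 0 := by
  have hG := good_scale hp hF
  set c : ℕ → ℂ := fun n => if p ∣ n then PowerSeries.coeff (n / p) (qExpansion 1 F) else 0
    with hc
  have hsum : ∀ τ : ℍ, HasSum (fun m => c m • Function.Periodic.qParam 1 τ ^ m)
      (scale p F τ) := by
    intro τ
    have h1 := hasSum_qExpansion (h := 1) one_pos hF.per hF.hol hF.bdd (heckeDiagMatrix p • τ)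
    have hq : Function.Periodic.qParam (1 : ℝ) ((heckeDiagMatrix p • τ : ℍ) : ℂ) =
        Function.Periodic.qParam (1 : ℝ) (τ : ℂ) ^ p := by
      rw [coe_heckeDiagMatrix_smul hp]
      simp only [Function.Periodic.qParam]
      rw [← Complex.exp_nat_mul]
      congr 1
      push_cast
      ring
    have hinj : Function.Injective (fun m : ℕ => p * m) :=
      fun x y hxy => Nat.eq_of_mul_eq_mul_left (Nat.pos_of_ne_zero hp) hxy
    rw [← hinj.hasSum_iff]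
    · change HasSum _ (F (heckeDiagMatrix p • τ))
      convert h1 using 1
      funext m
      simp only [Function.comp_apply, hc]
      rw [if_pos (dvd_mul_right p m), Nat.mul_div_cancel_left _ (Nat.pos_of_ne_zero hp), hq,
        ← pow_mul]
    · intro x hx
      have : ¬ p ∣ x := by
        rintro ⟨m, rfl⟩
        exact hx ⟨m, rfl⟩
      simp only [hc, if_neg this, zero_smul]
  exact (qExpansion_coeff_unique (c := c) (ContinuousMap.mk (scale p F) hG.hol.continuous)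
    one_pos hG.analytic hsum n).symm

/-! ### The forms `H` and `H'` -/

theorem gamma0_le (N : ℕ) : (Gamma0 N : Subgroup (GL (Fin 2) ℝ)) ≤ 𝒮ℒ := by
  rintro γ ⟨g, -, rfl⟩
  exact ⟨g, rfl⟩

/-- a level-one form as a form on `Γ₀(N)` -/
noncomputable def restr (N : ℕ) {K : ℤ} (A : ModularForm 𝒮ℒ K) : ModularForm (Gamma0 N) K where
  toFun := A
  slash_action_eq' γ hγ := A.slash_action_eq' γ (gamma0_le N hγ)
  holo' := A.holo'
  bdd_at_cusps' hc := A.bdd_at_cusps' (hc.mono (gamma0_le N))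

theorem restr_coe (N : ℕ) {K : ℤ} (A : ModularForm 𝒮ℒ K) : (restr N A : ℍ → ℂ) = A := rfl

/-- `H = c (G^m - A)` as a modular form of weight `k = 2 m` on `Γ₀(N)`. -/
noncomputable def mkH (N : ℕ) {k m : ℕ} (hkm : k = 2 * m) (c : ℂ) (G : ModularForm (Gamma0 N) 2)
    (A : ModularForm 𝒮ℒ (k : ℤ)) : ModularForm (Gamma0 N) (k : ℤ) :=
  c • (ModularForm.mcast (by rw [hkm]; push_cast; ring) (G.pow m) - restr N A)

theorem mkH_coe (N : ℕ) {k m : ℕ} (hkm : k = 2 * m) (c : ℂ) (G : ModularForm (Gamma0 N) 2)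
    (A : ModularForm 𝒮ℒ (k : ℤ)) :
    (mkH N hkm c G A : ℍ → ℂ) = c • ((G : ℍ → ℂ) ^ m - (A : ℍ → ℂ)) := by
  funext z
  simp [mkH, restr_coe]

/-- `H' = c (G'^m - A(p ·))`, `G' = -p⁻¹ U_p G`. -/
noncomputable def mkH' (p m : ℕ) (c : ℂ) (G A : ℍ → ℂ) : ℍ → ℂ :=
  c • (((-(p : ℂ)⁻¹) • heckeU 2 p G) ^ m - scale p A)

theorem scale_heckeMatrix {p : ℕ} (hp : p ≠ 0) {A : ℍ → ℂ} (hA : Good A) (j : ℕ) (z : ℍ) :
    scale p A (heckeMatrix p j • z) = A z := by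
  have hpC : (p : ℂ) ≠ 0 := by exact_mod_cast hp
  have key := hA.per.nat_mul j (z : ℂ)
  simp only [Function.comp_apply, ofComplex_apply] at key
  rw [scale, heckeDiagMatrix_smul_eq hp, coe_heckeMatrix_smul hp, ← key]
  congr 2
  field_simp

/-- the companion property of `H'` -/
theorem isCompanion_mkH (p : ℕ) [Fact p.Prime] {k m : ℕ} (hkm : k = 2 * m) (c : ℂ)
    (G : ModularForm (Gamma0 p) 2) (A : ModularForm 𝒮ℒ (k : ℤ)) :
    IsCompanion p (k : ℤ) (mkH p hkm c G A) (mkH' p m c G A) := by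
  have hp : p ≠ 0 := (Fact.out : p.Prime).ne_zero
  intro j hj z
  set γ : SL(2, ℤ) := ModularGroup.S * ModularGroup.T ^ j with hγ
  have hG := slash_ST_eq p G j z
  rw [← hγ, SL_slash_apply] at hG
  have hA : ((A : ℍ → ℂ) ∣[(k : ℤ)] γ) z = A z := by
    have := SlashInvariantFormClass.slash_action_eq A (γ : GL (Fin 2) ℝ) ⟨γ, rfl⟩
    rw [SL_slash, this]
  rw [SL_slash_apply] at hA
  rw [SL_slash_apply, mkH_coe]
  simp only [mkH', Pi.smul_apply, Pi.sub_apply, Pi.pow_apply, smul_eq_mul]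
  rw [scale_heckeMatrix hp (good_levelOne A), ← hG, ← hA]
  have hd : denom γ z ^ (-(k : ℤ)) = (denom γ z ^ (-(2 : ℤ))) ^ m := by
    rw [← zpow_natCast, ← zpow_mul]
    congr 1
    rw [hkm]
    push_cast
    ring
  rw [hd]
  ring

/-! ### The core statement -/

/-- **Core of (M9)/(M10).** Let `ℓ^{t+1} ∣ p + 1` and let `A` be a level-one form of weight
`k = 2 m < 12` with integral `q`-expansion `1 + ℓ^t u₀ q + …`, all higher coefficients divisible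
by `ℓ^t`, `ℓ ∤ u₀`. Then there is no form `G` of weight `2` on `Γ₀(p)` with `a₀(G) = 1` and
`a_n(G) ≡ 0 mod ℓ^{t+1}` for all `n ≥ 1`. -/
theorem core (p : ℕ) [Fact p.Prime] (ℓ : ℕ) (hℓ : ℓ.Prime) (t : ℕ)
    (hdvd : ℓ ^ (t + 1) ∣ p + 1) {k m : ℕ} (hkm : k = 2 * m) (hk12 : k < 12)
    (A : ModularForm 𝒮ℒ (k : ℤ)) (a : ℕ → ℤ) (hA : ∀ n, qCoeff A n = (a n : ℂ))
    (ha0 : a 0 = 1) (ha : ∀ n, 0 < n → (ℓ : ℤ) ^ t ∣ a n) (u₀ : ℤ)
    (ha1 : a 1 = (ℓ : ℤ) ^ t * u₀) (hu₀ : ¬ (ℓ : ℤ) ∣ u₀)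
    (G : ModularForm (Gamma0 p) 2) (h0 : qCoeff G 0 = 1)
    (hG : ∀ n, 0 < n → IsLocDvd ℓ (t + 1) (qCoeff G n)) : False := by
  have hp : p.Prime := Fact.out
  set c : ℂ := ((ℓ : ℂ) ^ t)⁻¹ with hc
  have hGg : Good (G : ℍ → ℂ) := good_gamma0 p G
  have hAg : Good (A : ℍ → ℂ) := good_levelOne A
  have hU : Good (heckeU 2 p (G : ℍ → ℂ)) := good_heckeU p G 2 p
  have hG' : Good ((-(p : ℂ)⁻¹) • heckeU 2 p (G : ℍ → ℂ)) := hU.smul _
  have hA' : Good (scale p (A : ℍ → ℂ)) := good_scale hp.ne_zero hAg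
  have hH' : Good (mkH' p m c G A) := ((hG'.pow m).sub hA').smul c
  -- `q`-expansions
  have hqH : qExpansion 1 (mkH p hkm c G A : ℍ → ℂ) =
      c • (qExpansion 1 (G : ℍ → ℂ) ^ m - qExpansion 1 (A : ℍ → ℂ)) := by
    rw [mkH_coe, qExpansion_smul_pow_sub c hGg hAg]
  have hqH' : qExpansion 1 (mkH' p m c G A) =
      c • (qExpansion 1 ((-(p : ℂ)⁻¹) • heckeU 2 p (G : ℍ → ℂ)) ^ m -
        qExpansion 1 (scale p (A : ℍ → ℂ))) := by
    rw [mkH', qExpansion_smul_pow_sub c hG' hA']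
  have hg' : ∀ n, PowerSeries.coeff n (qExpansion 1 ((-(p : ℂ)⁻¹) • heckeU 2 p (G : ℍ → ℂ))) =
      -(p : ℂ)⁻¹ * PowerSeries.coeff (n * p) (qExpansion 1 (G : ℍ → ℂ)) := by
    intro n
    rw [qExpansion_smul hU.analytic, PowerSeries.coeff_smul, smul_eq_mul,
      coeff_heckeU p G hp.ne_zero]
  have hg0' : PowerSeries.coeff 0 (qExpansion 1 ((-(p : ℂ)⁻¹) • heckeU 2 p (G : ℍ → ℂ))) =
      -(p : ℂ)⁻¹ := by
    rw [hg', zero_mul]
    have : PowerSeries.coeff 0 (qExpansion 1 (G : ℍ → ℂ)) = 1 := h0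
    rw [this, mul_one]
  have hA'c : ∀ n, PowerSeries.coeff n (qExpansion 1 (scale p (A : ℍ → ℂ))) =
      if p ∣ n then (a (n / p) : ℂ) else 0 := by
    intro n
    rw [coeff_scale hp.ne_zero hAg]
    split_ifs
    · exact hA _
    · rfl
  obtain ⟨h1, h2, h3⟩ := series_H hℓ t m (qExpansion 1 (G : ℍ → ℂ))
    (qExpansion 1 (A : ℍ → ℂ)) a h0 hG hA ha0 ha u₀ ha1
  obtain ⟨h1', h2', h3'⟩ := series_H' hℓ hp t m hdvd (qExpansion 1 (G : ℍ → ℂ))
    (qExpansion 1 ((-(p : ℂ)⁻¹) • heckeU 2 p (G : ℍ → ℂ))) (qExpansion 1 (scale p (A : ℍ → ℂ))) a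
    hG hg' hg0' hA'c ha0 ha u₀ ha1
  rw [← hc, ← hqH] at h1 h2 h3
  rw [← hc, ← hqH'] at h1' h2' h3'
  have hu : ¬ (ℓ : ℤ) ∣ -u₀ := by rwa [dvd_neg]
  exact norm_principle p ℓ hℓ k hk12 (mkH p hkm c G A) (mkH' p m c G A) hH'.per hH'.hol
    hH'.bdd (isCompanion_mkH p hkm c G A) h1 h2 (-u₀) hu h3 h1' h2' (-u₀) hu h3'

/-! ### The Eisenstein series `E₄`, `E₆` -/

open ArithmeticFunction in
/-- the `q`-expansion of `E₄` is `1 + 240 ∑ σ₃(n) qⁿ` -/
theorem qCoeff_E4 (n : ℕ) :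
    qCoeff (ModularForm.E (k := 4) (by norm_num) : ModularForm 𝒮ℒ ((4 : ℕ) : ℤ)) n =
      (((if n = 0 then 1 else 240 * (sigma 3 n : ℤ)) : ℤ) : ℂ) := by
  have h := EisensteinSeries.E_qExpansion_coeff (k := 4) (by norm_num) ⟨2, rfl⟩ n
  rw [qCoeff, h]
  split_ifs with hn
  · simp
  · norm_num [show bernoulli 4 = -1 / 30 by decide +kernel]

open ArithmeticFunction in
/-- the `q`-expansion of `E₆` is `1 - 504 ∑ σ₅(n) qⁿ` -/
theorem qCoeff_E6 (n : ℕ) :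
    qCoeff (ModularForm.E (k := 6) (by norm_num) : ModularForm 𝒮ℒ ((6 : ℕ) : ℤ)) n =
      (((if n = 0 then 1 else -504 * (sigma 5 n : ℤ)) : ℤ) : ℂ) := by
  have h := EisensteinSeries.E_qExpansion_coeff (k := 6) (by norm_num) ⟨3, rfl⟩ n
  rw [qCoeff, h]
  split_ifs with hn
  · simp
  · norm_num [show bernoulli 6 = 1 / 42 by decide +kernel]

theorem not_dvd_240 {ℓ : ℕ} (hℓ : ℓ.Prime) (h : 5 < ℓ) : ¬ (ℓ : ℤ) ∣ 240 := by
  intro hd
  have hd' : ℓ ∣ 240 := by exact_mod_cast hd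
  have h240 : (240 : ℕ) = 2 ^ 4 * 3 * 5 := by norm_num
  rw [h240] at hd'
  rcases (Nat.Prime.dvd_mul hℓ).mp hd' with h1 | h1
  · rcases (Nat.Prime.dvd_mul hℓ).mp h1 with h2 | h2
    · have := Nat.le_of_dvd (by norm_num) (hℓ.dvd_of_dvd_pow h2)
      omega
    · have := Nat.le_of_dvd (by norm_num) h2
      omega
  · have := Nat.le_of_dvd (by norm_num) h1
    omega

end CaseGe5

variable (p : ℕ) [Fact p.Prime]

open ArithmeticFunction in
/-- (M9) `CaseGe5.lean` -/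
theorem no_unit_form_ge5 (ℓ : ℕ) (hℓ : ℓ.Prime) (h5 : 5 ≤ ℓ) (hdvd : ℓ ∣ p + 1)
    (G : ModularForm (Gamma0 p) 2) (h0 : qCoeff G 0 = 1)
    (hk : ∀ k, 0 < k → IsLocDvd ℓ 1 (qCoeff G k)) : False := by
  have hdvd' : ℓ ^ (0 + 1) ∣ p + 1 := by simpa using hdvd
  rcases eq_or_lt_of_le h5 with h5' | h7
  · -- `ℓ = 5`: `H = G³ - E₆`
    subst h5'
    refine CaseGe5.core p 5 hℓ 0 hdvd' (k := 6) (m := 3) rfl (by norm_num)
      (ModularForm.E (k := 6) (by norm_num))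
      (fun n => if n = 0 then 1 else -504 * (sigma 5 n : ℤ)) CaseGe5.qCoeff_E6 (by simp)
      (fun n _ => by simp) (-504) (by simp) (by norm_num) G h0 hk
  · -- `ℓ ≥ 7`: `H = G² - E₄`
    refine CaseGe5.core p ℓ hℓ 0 hdvd' (k := 4) (m := 2) rfl (by norm_num)
      (ModularForm.E (k := 4) (by norm_num))
      (fun n => if n = 0 then 1 else 240 * (sigma 3 n : ℤ)) CaseGe5.qCoeff_E4 (by simp)
      (fun n _ => by simp) 240 (by simp) (CaseGe5.not_dvd_240 hℓ h7) G h0 hk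

end Fermat.Agent.S16
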