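import Mathlib
import Fermat.Agent.S16.CaseGe5

/-!
# S16 (M10): no unit form, the case `ℓ = 3`

`no_unit_form_three`: if `9 ∣ p + 1` there is no modular form `G` of weight 2 on `Γ₀(p)` with
`a₀(G) = 1` and `a_k(G) ≡ 0 mod 9` for all `k ≥ 1`.  This is `CaseGe5.core` with `ℓ = 3`, `t = 1`,
`A = E₄` (`240 = 3 · 80`), i.e. the norm principle applied to `H = (G² - E₄)/3`.
-/

set_option autoImplicit false

namespace Fermat.Agent.S16

open ModularCurve ModularCurve.Period CuspForm CongruenceSubgroup UpperHalfPlane ModularForm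
open ModularFormClass
open scoped MatrixGroups ModularForm Manifold

variable (p : ℕ) [Fact p.Prime]

open ArithmeticFunction in
/-- (M10) `Case3.lean` -/
theorem no_unit_form_three (hdvd : 9 ∣ p + 1)
    (G : ModularForm (Gamma0 p) 2) (h0 : qCoeff G 0 = 1)
    (hk : ∀ k, 0 < k → IsLocDvd 3 2 (qCoeff G k)) : False := by
  have hdvd' : 3 ^ (1 + 1) ∣ p + 1 := by simpa using hdvd
  refine CaseGe5.core p 3 Nat.prime_three 1 hdvd' (k := 4) (m := 2) rfl (by norm_num)
    (ModularForm.E (k := 4) (by norm_num))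
    (fun n => if n = 0 then 1 else 240 * (sigma 3 n : ℤ)) CaseGe5.qCoeff_E4 (by simp)
    (fun n hn => ?_) 80 (by simp) (by norm_num) G h0 hk
  simp only [if_neg hn.ne']
  exact Dvd.dvd.mul_right (by norm_num) _

end Fermat.Agent.S16
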