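import Mathlib
import Fermat.Agent.S16.Defs
import Fermat.Agent.S16.LocInt
import Fermat.Agent.S16.Fricke
import Fermat.Agent.S16.Companion
import Fermat.Agent.S16.NormPrinciple

/-!
# S16 (M9), hedge: no weight-two form `≡ 1 mod ℓ` on `Γ₀(p)` when `ℓ ∣ p + 1`, `ℓ ≥ 5`

If `G ∈ M₂(Γ₀(p))` has `a₀(G) = 1` and `a_k(G) ≡ 0 mod ℓ` for all `k ≥ 1`, then for a level-one
form `A` of weight `k = 2 n < 12` with integral coefficients, `a₀(A) = 1` and `ℓ ∤ a₁(A)`, the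
form `H = G ^ n - A` and its companion `H' = (-(1/p) U_p G) ^ n - A(p ·)` satisfy the hypotheses
of the norm principle (`norm_principle`), which is absurd. We use `A = E₄` (`ℓ ≥ 7`) and
`A = E₆` (`ℓ = 5`).
-/

set_option autoImplicit false

namespace Fermat.Agent.S16.CaseGe5B

open ModularCurve CuspForm CongruenceSubgroup UpperHalfPlane ModularForm ModularFormClass
open Fermat.Agent.S16.Companion
open scoped MatrixGroups ModularForm Manifold

/-- all coefficients of the power series are `≡ 0 mod ℓ` -/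
def AllDvd (ℓ : ℕ) (f : PowerSeries ℂ) : Prop :=
  ∀ i, IsLocDvd ℓ 1 (PowerSeries.coeff i f)

theorem AllDvd.isLocInt_coeff {ℓ : ℕ} (hℓ : ℓ.Prime) {g : PowerSeries ℂ}
    (hg : AllDvd ℓ (g - 1)) (i : ℕ) : IsLocInt ℓ (PowerSeries.coeff i g) := by
  have h := (hg i).isLocInt hℓ
  rw [map_sub, PowerSeries.coeff_one] at h
  have h2 : PowerSeries.coeff i g =
      (PowerSeries.coeff i g - (if i = 0 then (1 : ℂ) else 0)) + (if i = 0 then (1 : ℂ) else 0) := by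
    ring
  rw [h2]
  refine h.add hℓ ?_
  split_ifs
  · exact isLocInt_one hℓ
  · exact isLocInt_zero hℓ

theorem AllDvd.mul {ℓ : ℕ} (hℓ : ℓ.Prime) {g h : PowerSeries ℂ} (hg : AllDvd ℓ (g - 1))
    (hh : AllDvd ℓ (h - 1)) : AllDvd ℓ (g * h - 1) := by
  intro i
  have h1 : g * h - 1 = (g - 1) * h + (h - 1) := by ring
  rw [h1, map_add, PowerSeries.coeff_mul]
  refine IsLocDvd.add hℓ (IsLocDvd.sum hℓ _ _ fun ij _ => ?_) (hh i)
  exact (hg ij.1).mul_right hℓ (hh.isLocInt_coeff hℓ ij.2)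

theorem AllDvd.pow {ℓ : ℕ} (hℓ : ℓ.Prime) {g : PowerSeries ℂ} (hg : AllDvd ℓ (g - 1)) (n : ℕ) :
    AllDvd ℓ (g ^ n - 1) := by
  induction n with
  | zero =>
    intro i
    simpa using isLocDvd_zero hℓ 1
  | succ n ih =>
    rw [pow_succ]
    exact ih.mul hℓ hg

theorem AllDvd.coeff_of_pos {ℓ : ℕ} {g : PowerSeries ℂ} (hg : AllDvd ℓ (g - 1)) {i : ℕ}
    (hi : i ≠ 0) : IsLocDvd ℓ 1 (PowerSeries.coeff i g) := by
  have h := hg i
  rw [map_sub, PowerSeries.coeff_one, if_neg hi, sub_zero] at h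
  exact h

theorem AllDvd.coeff_zero {ℓ : ℕ} {g : PowerSeries ℂ} (hg : AllDvd ℓ (g - 1)) :
    IsLocDvd ℓ 1 (PowerSeries.coeff 0 g - 1) := by
  have h := hg 0
  rw [map_sub, PowerSeries.coeff_one, if_pos rfl] at h
  exact h

/-- The core: a form `G ≡ 1 mod ℓ` of weight two on `Γ₀(p)`, `ℓ ∣ p + 1`, cannot exist as soon as
there is a level-one form `A` of weight `k = 2 n < 12` with integral coefficients, constant
coefficient `1` and `ℓ ∤ a₁(A)`. -/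
theorem core (p : ℕ) [Fact p.Prime] (ℓ : ℕ) (hℓ : ℓ.Prime) (hℓp : ¬ ℓ ∣ p) (hdvd : ℓ ∣ p + 1)
    (G : ModularForm (Gamma0 p) 2) (h0 : qCoeff G 0 = 1)
    (hk : ∀ k, 0 < k → IsLocDvd ℓ 1 (qCoeff G k))
    (n k : ℕ) (hkn : (k : ℤ) = 2 * n) (hk12 : k < 12)
    (A : ModularForm 𝒮ℒ k) (hA : ∀ i, ∃ m : ℤ, (qExpansion 1 A).coeff i = (m : ℂ))
    (hA0 : (qExpansion 1 A).coeff 0 = 1) (c : ℤ) (hA1 : (qExpansion 1 A).coeff 1 = (c : ℂ))
    (hc : ¬ (ℓ : ℤ) ∣ c) : False := by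
  have hp : p.Prime := Fact.out
  have hp0 : p ≠ 0 := hp.ne_zero
  have hpC : (p : ℂ) ≠ 0 := by exact_mod_cast hp0
  have hG : QGood (G : ℍ → ℂ) := QGood.of_Gamma0 G
  have hAq : QGood (A : ℍ → ℂ) := QGood.of_levelOne A
  have hpinv : IsLocInt ℓ (-(p : ℂ)⁻¹) := (isLocInt_inv_natCast hℓ hℓp).neg hℓ
  -- the power series of `G` is `≡ 1`
  have hg1 : AllDvd ℓ (qExpansion 1 (G : ℍ → ℂ) - 1) := by
    intro i
    rw [map_sub, PowerSeries.coeff_one]
    by_cases hi : i = 0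
    · subst hi
      have : (qExpansion 1 (G : ℍ → ℂ)).coeff 0 = 1 := h0
      rw [if_pos rfl, this, sub_self]
      exact isLocDvd_zero hℓ 1
    · rw [if_neg hi, sub_zero]
      exact hk i (Nat.pos_of_ne_zero hi)
  -- the companion of `G`
  have hGc : QGood (comp2 p (G : ℍ → ℂ)) := hG.comp2 p
  have hgc1 : AllDvd ℓ (qExpansion 1 (comp2 p (G : ℍ → ℂ)) - 1) := by
    intro i
    rw [map_sub, PowerSeries.coeff_one]
    have hci : (qExpansion 1 (comp2 p (G : ℍ → ℂ))).coeff i = -(p : ℂ)⁻¹ * qCoeff G (p * i) :=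
      qCoeff_comp2 hG hp0 i
    rw [hci]
    by_cases hi : i = 0
    · subst hi
      obtain ⟨m, hm⟩ := hdvd
      rw [if_pos rfl, mul_zero, h0]
      refine ⟨-(p : ℂ)⁻¹ * (m : ℂ), hpinv.mul hℓ (isLocInt_natCast hℓ m), ?_⟩
      have hm' : (p : ℂ) + 1 = (ℓ : ℂ) * m := by exact_mod_cast congrArg (fun x : ℕ => (x : ℂ)) hm
      field_simp
      linear_combination -hm'
    · rw [if_neg hi, sub_zero]
      exact IsLocDvd.mul_left hℓ hpinv
        (hk (p * i) (Nat.mul_pos hp.pos (Nat.pos_of_ne_zero hi)))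
  -- the forms `H` and `H'`
  set H : ModularForm (Gamma0 p) k := powCast G n k hkn - restr p A with hHdef
  set H' : ℍ → ℂ := comp2 p (G : ℍ → ℂ) ^ n - dil p (A : ℍ → ℂ) with hH'def
  have hHcoe : (H : ℍ → ℂ) = (G : ℍ → ℂ) ^ n - (A : ℍ → ℂ) := by
    rw [hHdef, FunLike.coe_sub, coe_powCast, coe_restr]
  have hAd : QGood (dil p (A : ℍ → ℂ)) := hAq.dil hp0
  have hH'good : QGood H' := (hGc.pow n).sub hAd
  have hcomp : IsCompanion p k (H : ℍ → ℂ) H' := by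
    have h1 : IsCompanion p 2 (G : ℍ → ℂ) (comp2 p (G : ℍ → ℂ)) :=
      isCompanion_comp2 (slash_ST_eq p G)
    have h2 : IsCompanion p k ((G : ℍ → ℂ) ^ n) (comp2 p (G : ℍ → ℂ) ^ n) := h1.powCast n k hkn
    have h3 : IsCompanion p k (A : ℍ → ℂ) (dil p (A : ℍ → ℂ)) := isCompanion_dil hp0 A
    rw [hHcoe]
    exact h2.sub h3
  have hqH : qExpansion 1 (H : ℍ → ℂ) = qExpansion 1 (G : ℍ → ℂ) ^ n - qExpansion 1 (A : ℍ → ℂ) := by
    rw [hHcoe, (hG.pow n).qExpansion_sub hAq, hG.qExpansion_pow n]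
  have hqH' : qExpansion 1 H' =
      qExpansion 1 (comp2 p (G : ℍ → ℂ)) ^ n - qExpansion 1 (dil p (A : ℍ → ℂ)) := by
    rw [hH'def, (hGc.pow n).qExpansion_sub hAd, hGc.qExpansion_pow n]
  have hgn := hg1.pow hℓ n
  have hgcn := hgc1.pow hℓ n
  have hdil : ∀ m : ℕ, (qExpansion 1 (dil p (A : ℍ → ℂ))).coeff m =
      if p ∣ m then (qExpansion 1 (A : ℍ → ℂ)).coeff (m / p) else 0 :=
    fun m => qCoeff_dil hp0 hAq m
  have hAint : ∀ i, IsLocInt ℓ ((qExpansion 1 (A : ℍ → ℂ)).coeff i) := by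
    intro i
    obtain ⟨m, hm⟩ := hA i
    rw [hm]
    exact isLocInt_intCast hℓ m
  have hu : ¬ (ℓ : ℤ) ∣ -c := by rwa [dvd_neg]
  refine norm_principle p ℓ hℓ k hk12 H H' hH'good.per hH'good.hol hH'good.bdd hcomp ?_ ?_ (-c) hu
    ?_ ?_ ?_ (-c) hu ?_
  · intro m
    change IsLocInt ℓ ((qExpansion 1 (H : ℍ → ℂ)).coeff m)
    rw [hqH, map_sub]
    exact (hgn.isLocInt_coeff hℓ m).sub hℓ (hAint m)
  · change IsLocDvd ℓ 1 ((qExpansion 1 (H : ℍ → ℂ)).coeff 0)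
    rw [hqH, map_sub, hA0]
    exact hgn.coeff_zero
  · change IsLocDvd ℓ 1 ((qExpansion 1 (H : ℍ → ℂ)).coeff 1 - ((-c : ℤ) : ℂ))
    rw [hqH, map_sub, hA1]
    have h1 := hgn.coeff_of_pos (i := 1) one_ne_zero
    have h2 : (PowerSeries.coeff 1) (qExpansion 1 (G : ℍ → ℂ) ^ n) - (c : ℂ) - ((-c : ℤ) : ℂ) =
        (PowerSeries.coeff 1) (qExpansion 1 (G : ℍ → ℂ) ^ n) := by
      push_cast; ring
    rw [h2]
    exact h1
  · intro m
    change IsLocInt ℓ ((qExpansion 1 H').coeff m)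
    rw [hqH', map_sub, hdil]
    refine (hgcn.isLocInt_coeff hℓ m).sub hℓ ?_
    split_ifs
    · exact hAint _
    · exact isLocInt_zero hℓ
  · intro m hm
    change IsLocDvd ℓ 1 ((qExpansion 1 H').coeff m)
    rw [hqH', map_sub, hdil]
    by_cases hm0 : m = 0
    · subst hm0
      rw [if_pos (dvd_zero p), Nat.zero_div, hA0]
      exact hgcn.coeff_zero
    · have hndvd : ¬ p ∣ m := fun h => absurd (Nat.le_of_dvd (Nat.pos_of_ne_zero hm0) h) (by omega)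
      rw [if_neg hndvd, sub_zero]
      exact hgcn.coeff_of_pos hm0
  · change IsLocDvd ℓ 1 ((qExpansion 1 H').coeff p - ((-c : ℤ) : ℂ))
    rw [hqH', map_sub, hdil, if_pos (dvd_refl p), Nat.div_self hp.pos, hA1]
    have h1 := hgcn.coeff_of_pos (i := p) hp0
    have h2 : (PowerSeries.coeff p) (qExpansion 1 (comp2 p (G : ℍ → ℂ)) ^ n) - (c : ℂ)
        - ((-c : ℤ) : ℂ) = (PowerSeries.coeff p) (qExpansion 1 (comp2 p (G : ℍ → ℂ)) ^ n) := by
      push_cast; ring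
    rw [h2]
    exact h1

theorem E4_coeff_int (i : ℕ) : ∃ m : ℤ, (qExpansion 1 E₄).coeff i = (m : ℂ) := by
  rw [EisensteinSeries.E_qExpansion_coeff _ ⟨2, rfl⟩]
  split_ifs
  · exact ⟨1, by simp⟩
  · refine ⟨240 * (ArithmeticFunction.sigma 3 i : ℤ), ?_⟩
    rw [show bernoulli 4 = -1 / 30 by decide +kernel]
    push_cast
    norm_num

theorem E6_coeff_int (i : ℕ) : ∃ m : ℤ, (qExpansion 1 E₆).coeff i = (m : ℂ) := by
  rw [EisensteinSeries.E_qExpansion_coeff _ ⟨3, rfl⟩]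
  split_ifs
  · exact ⟨1, by simp⟩
  · refine ⟨-504 * (ArithmeticFunction.sigma 5 i : ℤ), ?_⟩
    rw [show bernoulli 6 = 1 / 42 by decide +kernel]
    push_cast
    norm_num

/-- (M9), hedge: the skeleton statement of `no_unit_form_ge5`. -/
theorem no_unit_form_ge5_B (p : ℕ) [Fact p.Prime] (ℓ : ℕ) (hℓ : ℓ.Prime) (h5 : 5 ≤ ℓ)
    (hdvd : ℓ ∣ p + 1)
    (G : ModularForm (Gamma0 p) 2) (h0 : qCoeff G 0 = 1)
    (hk : ∀ k, 0 < k → IsLocDvd ℓ 1 (qCoeff G k)) : False := by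
  have hℓp : ¬ ℓ ∣ p := by
    intro h
    have h1 : ℓ ∣ 1 := (Nat.dvd_add_right h).mp hdvd
    have := Nat.le_of_dvd one_pos h1
    omega
  by_cases h5' : ℓ = 5
  · subst h5'
    refine core p 5 hℓ hℓp hdvd G h0 hk 3 6 (by norm_num) (by norm_num) E₆ E6_coeff_int
      (EisensteinSeries.E_qExpansion_coeff_zero _ ⟨3, rfl⟩) (-504) ?_ (by norm_num)
    rw [E₆_qExpansion_coeff_one]
    push_cast
    rfl
  · refine core p ℓ hℓ hℓp hdvd G h0 hk 2 4 (by norm_num) (by norm_num) E₄ E4_coeff_int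
      (EisensteinSeries.E_qExpansion_coeff_zero _ ⟨2, rfl⟩) 240 ?_ ?_
    · rw [E₄_qExpansion_coeff_one]
      push_cast
      rfl
    · intro h
      have h1 : ℓ ∣ 240 := by exact_mod_cast h
      have h2 : (240 : ℕ) = 2 ^ 4 * 3 * 5 := by norm_num
      rw [h2] at h1
      rcases (Nat.Prime.dvd_mul hℓ).mp h1 with h3 | h3
      · rcases (Nat.Prime.dvd_mul hℓ).mp h3 with h4 | h4
        · have := Nat.le_of_dvd (by norm_num) (hℓ.dvd_of_dvd_pow h4)
          omega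
        · have := Nat.le_of_dvd (by norm_num) h4
          omega
      · have := Nat.le_of_dvd (by norm_num) h3
        omega

end Fermat.Agent.S16.CaseGe5B
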