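import Mathlib
import Fermat.Agent.S16.Defs
import Fermat.Agent.S16.Fricke
import Fermat.Agent.S16.ConstTermCore
import Fermat.Agent.S16.NormPrinciple
import Fermat.Prelude.Thm_ModularFormClass_qCoeff_heckeU
import Fermat.Prelude.Thm_UpperHalfPlane_qExpansion_coeff_nat_mul
import Fermat.Agent.S22.QExpAffine
import Fermat.Agent.S22.Key

/-!
# S16 (M7): companion calculus with genuine modular forms on `Γ₀(p)`

* `Gc p G = -p⁻¹ U_p G` as a `ModularForm (Gamma0 p) 2` (via `Fricke.frickeForm`), companion of `G`;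
* for a level-one form `A`: `resLvl p A` (restriction) and `dil p A = A (p ·)` as forms on
  `Γ₀(p)`, `dil p A` is the companion of `resLvl p A`;
* `CPair p k`: pairs `(H, H')` of forms on `Γ₀(p)` with `IsCompanion p k H H'`, closed under
  `+`, `-`, `•`, `*`, with the `q`-expansions `qs`, `qs'` computed by power series algebra;
* `CPair.norm_principle`: the norm principle (M8) for a `CPair`.
-/

set_option autoImplicit false

namespace Fermat.Agent.S16.CompanionMF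

open ModularCurve CuspForm CongruenceSubgroup UpperHalfPlane ModularForm
open ModularFormClass
open scoped MatrixGroups ModularForm Manifold

attribute [local instance] Fricke.neZero_of_prime

section GComp

variable (p : ℕ) [Fact p.Prime]

/-- The companion `-p⁻¹ U_p G` of `G ∈ M₂(Γ₀(p))`, as a modular form on `Γ₀(p)`. -/
noncomputable def Gc (G : ModularForm (Gamma0 p) 2) : ModularForm (Gamma0 p) 2 :=
  (p : ℂ)⁻¹ • Fricke.frickeForm p G

theorem Gc_apply (G : ModularForm (Gamma0 p) 2) (z : ℍ) :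
    Gc p G z = -((p : ℂ)⁻¹) * heckeU 2 p (G : ℍ → ℂ) z := by
  rw [Fricke.heckeU_eq_neg_fricke, Pi.neg_apply, ← Fricke.frickeForm_coe]
  simp [Gc]

theorem isCompanion_Gc (G : ModularForm (Gamma0 p) 2) : IsCompanion p 2 G (Gc p G) := by
  intro j _ z
  rw [slash_ST_eq, Gc_apply]

theorem qCoeff_Gc (G : ModularForm (Gamma0 p) 2) (n : ℕ) :
    qCoeff (Gc p G) n = -((p : ℂ)⁻¹) * qCoeff G (p * n) := by
  have hp : p ≠ 0 := (Fact.out : p.Prime).ne_zero
  have h1 : qCoeff (Gc p G) n = (p : ℂ)⁻¹ * qCoeff (Fricke.frickeForm p G) n := by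
    rw [Gc, ConstTermCore.qCoeff_mf_smul]
  have h2 : (heckeU 2 p (G : ℍ → ℂ)) = ⇑((-1 : ℂ) • Fricke.frickeForm p G) := by
    rw [Fricke.heckeU_eq_neg_fricke, ← Fricke.frickeForm_coe]
    funext z
    simp
  have h3 := ModularFormClass.qCoeff_heckeU G (Fermat.Agent.S49.one_mem_sp p) hp n
  rw [h2, ConstTermCore.qCoeff_mf_smul, coeffHeckeU_apply] at h3
  rw [h1, mul_comm p n, ← h3]
  ring

end GComp

section LevelOne

variable {k : ℤ}

theorem gamma0_le_SL (N : ℕ) : (Gamma0 N : Subgroup (GL (Fin 2) ℝ)) ≤ 𝒮ℒ :=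
  Subgroup.map_le_range _ _

/-- restriction of a level-one form to `Γ₀(N)` -/
noncomputable def resLvl (N : ℕ) (A : ModularForm 𝒮ℒ k) : ModularForm (Gamma0 N) k where
  toFun := A
  slash_action_eq' γ hγ := A.slash_action_eq' γ (gamma0_le_SL N hγ)
  holo' := A.holo'
  bdd_at_cusps' hc := A.bdd_at_cusps' (hc.mono (gamma0_le_SL N))

theorem resLvl_coe (N : ℕ) (A : ModularForm 𝒮ℒ k) : (resLvl N A : ℍ → ℂ) = A := rfl

open scoped Pointwise in
theorem gamma0_le_conj_diag (p : ℕ) [NeZero p] :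
    (Gamma0 p : Subgroup (GL (Fin 2) ℝ)) ≤
      ConjAct.toConjAct (heckeDiagMatrix p)⁻¹ • (𝒮ℒ : Subgroup (GL (Fin 2) ℝ)) := by
  have hp : p ≠ 0 := NeZero.ne p
  intro γ hγ
  obtain ⟨g, hg, rfl⟩ := hγ
  rw [SetLike.mem_coe, Gamma0_mem] at hg
  obtain ⟨e, he⟩ : (p : ℤ) ∣ g 1 0 := (ZMod.intCast_zmod_eq_zero_iff_dvd _ _).mp hg
  have hdet : g 0 0 * g 1 1 - g 0 1 * g 1 0 = 1 := by
    have := g.det_coe
    rw [Matrix.det_fin_two] at this
    exact this
  let g' : SL(2, ℤ) := ⟨!![g 0 0, (p : ℤ) * g 0 1; e, g 1 1], by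
    rw [Matrix.det_fin_two_of]
    rw [he] at hdet
    linear_combination hdet⟩
  rw [map_inv, Subgroup.mem_inv_pointwise_smul_iff, ConjAct.toConjAct_smul]
  refine ⟨g', ?_⟩
  rw [eq_mul_inv_iff_mul_eq]
  apply Matrix.GeneralLinearGroup.ext
  intro a b
  rw [Matrix.GeneralLinearGroup.coe_mul, Matrix.GeneralLinearGroup.coe_mul,
    val_heckeDiagMatrix hp]
  have e1 : ((Matrix.SpecialLinearGroup.mapGL ℝ g' : GL (Fin 2) ℝ) : Matrix (Fin 2) (Fin 2) ℝ)
      = !![(g' 0 0 : ℝ), (g' 0 1 : ℝ); (g' 1 0 : ℝ), (g' 1 1 : ℝ)] := Fricke.val_coe_SL g'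
  have e2 : ((Matrix.SpecialLinearGroup.mapGL ℝ g : GL (Fin 2) ℝ) : Matrix (Fin 2) (Fin 2) ℝ)
      = !![(g 0 0 : ℝ), (g 0 1 : ℝ); (g 1 0 : ℝ), (g 1 1 : ℝ)] := Fricke.val_coe_SL g
  rw [e1, e2]
  have he' : ((g 1 0 : ℤ) : ℝ) = (p : ℝ) * (e : ℝ) := by exact_mod_cast he
  fin_cases a <;> fin_cases b <;>
    simp [Matrix.mul_apply, Fin.sum_univ_two, g', he', mul_comm]

variable (p : ℕ) [Fact p.Prime]

/-- `A ∣[k] diag(p, 1)` as a form on `Γ₀(p)` -/
noncomputable def dilAux (A : ModularForm 𝒮ℒ k) : ModularForm (Gamma0 p) k where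
  toFun := (A : ℍ → ℂ) ∣[k] heckeDiagMatrix p
  slash_action_eq' γ hγ :=
    (ModularForm.translate A (heckeDiagMatrix p)).slash_action_eq' γ (gamma0_le_conj_diag p hγ)
  holo' := (ModularForm.translate A (heckeDiagMatrix p)).holo'
  bdd_at_cusps' hc :=
    (ModularForm.translate A (heckeDiagMatrix p)).bdd_at_cusps' (hc.mono (gamma0_le_conj_diag p))

/-- `z ↦ A (p z)` as a form on `Γ₀(p)` -/
noncomputable def dil (A : ModularForm 𝒮ℒ k) : ModularForm (Gamma0 p) k :=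
  ((p : ℂ) ^ (k - 1))⁻¹ • dilAux p A

theorem dil_apply (A : ModularForm 𝒮ℒ k) (z : ℍ) : dil p A z = A (heckeDiagMatrix p • z) := by
  have hp : p ≠ 0 := (Fact.out : p.Prime).ne_zero
  have hpC : ((p : ℂ) ^ (k - 1)) ≠ 0 := zpow_ne_zero _ (by exact_mod_cast hp)
  have h1 : dil p A z = ((p : ℂ) ^ (k - 1))⁻¹ * ((A : ℍ → ℂ) ∣[k] heckeDiagMatrix p) z := rfl
  rw [h1, slash_heckeDiagMatrix_apply k hp, ← mul_assoc, inv_mul_cancel₀ hpC, one_mul]

/-- `A (p z)` does not depend on the translate: value at `(z + j)/p`. -/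
theorem dil_heckeMatrix_smul (A : ModularForm 𝒮ℒ k) (j : ℕ) (z : ℍ) :
    dil p A (heckeMatrix p j • z) = A z := by
  have hp : p ≠ 0 := (Fact.out : p.Prime).ne_zero
  have hpC : (p : ℂ) ≠ 0 := by exact_mod_cast hp
  rw [dil_apply]
  have hper := SlashInvariantFormClass.periodic_comp_ofComplex A
    Fermat.Agent.S22.Key.one_mem_strictPeriods_SL'
  have h1 : ((heckeDiagMatrix p • (heckeMatrix p j • z) : ℍ) : ℂ) = (z : ℂ) + ((j : ℕ) : ℝ) * (1 : ℝ) := by
    rw [coe_heckeDiagMatrix_smul hp, coe_heckeMatrix_smul hp]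
    push_cast
    field_simp
  have h2 := (hper.nat_mul j) (z : ℂ)
  simp only [Function.comp_apply] at h2
  have h3 : (heckeDiagMatrix p • (heckeMatrix p j • z) : ℍ) =
      ofComplex ((z : ℂ) + ((j : ℕ) : ℝ) * (1 : ℝ)) := by
    rw [← h1, ofComplex_apply]
  rw [h3]
  have h2' : A (ofComplex ((z : ℂ) + ((j : ℕ) : ℝ) * (1 : ℝ))) = A (ofComplex (z : ℂ)) := by
    exact_mod_cast h2
  rw [h2', ofComplex_apply]

theorem isCompanion_dil (A : ModularForm 𝒮ℒ k) : IsCompanion p k (resLvl p A) (dil p A) := by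
  intro j _ z
  rw [dil_heckeMatrix_smul, resLvl_coe, SL_slash]
  have := SlashInvariantFormClass.slash_action_eq A
    ((ModularGroup.S * ModularGroup.T ^ j : SL(2, ℤ)) : GL (Fin 2) ℝ) ⟨_, rfl⟩
  rw [this]

theorem periodic_mf {N : ℕ} (F : ModularForm (Gamma0 N) k) :
    Function.Periodic ((F : ℍ → ℂ) ∘ ofComplex) 1 :=
  SlashInvariantFormClass.periodic_comp_ofComplex F (Fermat.Agent.S49.one_mem_sp N)

theorem mdiff_mf {N : ℕ} (F : ModularForm (Gamma0 N) k) : MDiff (F : ℍ → ℂ) :=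
  ModularFormClass.holo F

theorem bdd_mf {N : ℕ} (F : ModularForm (Gamma0 N) k) : IsBoundedAtImInfty (F : ℍ → ℂ) := by
  have : Fact (IsCusp OnePoint.infty
      (Subgroup.map (Matrix.SpecialLinearGroup.mapGL ℝ) (Gamma0 N))) :=
    ⟨Subgroup.isCusp_of_mem_strictPeriods one_pos (Fermat.Agent.S49.one_mem_sp N)⟩
  exact ModularFormClass.bdd_at_infty F

theorem qCoeff_dil (A : ModularForm 𝒮ℒ k) (n : ℕ) :
    qCoeff (dil p A) n = if p ∣ n then qCoeff A (n / p) else 0 := by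
  have hp : p ≠ 0 := (Fact.out : p.Prime).ne_zero
  have hp0 : 0 < p := Nat.pos_of_ne_zero hp
  have hperA := SlashInvariantFormClass.periodic_comp_ofComplex A
    Fermat.Agent.S22.Key.one_mem_strictPeriods_SL'
  have hholA : MDiff (A : ℍ → ℂ) := ModularFormClass.holo A
  have hbddA : IsBoundedAtImInfty (A : ℍ → ℂ) := ModularFormClass.bdd_at_infty A
  obtain ⟨-, -, -, hco⟩ := Fermat.Agent.S22.qExpansion_comp_affine (A : ℍ → ℂ) hperA hholA hbddA
    p 1 hp0 one_pos 0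
  have hfun : (fun τ : ℍ => (A : ℍ → ℂ) (ofComplex ((p * (τ : ℂ) + (0 : ℤ)) / (1 : ℕ)))) =
      (dil p A : ℍ → ℂ) := by
    funext τ
    rw [dil_apply]
    congr 1
    have : ((p : ℂ) * (τ : ℂ) + ((0 : ℤ) : ℂ)) / ((1 : ℕ) : ℂ) =
        ((heckeDiagMatrix p • τ : ℍ) : ℂ) := by
      rw [coe_heckeDiagMatrix_smul hp]; simp
    rw [this, ofComplex_apply]
  rw [hfun] at hco
  have h2 := UpperHalfPlane.qExpansion_coeff_nat_mul (h := 1) one_pos (periodic_mf (dil p A))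
    (mdiff_mf (dil p A)) (bdd_mf (dil p A)) hp0 (p * n)
  have hcast : (((p * 1 : ℕ) : ℝ)) = (p : ℝ) * 1 := by push_cast; ring
  rw [hcast] at hco
  rw [hco (p * n), if_pos (dvd_mul_right p n), Nat.mul_div_cancel_left n hp0] at h2
  simp only [qCoeff]
  rw [← h2]
  by_cases hpn : p ∣ n
  · obtain ⟨m, rfl⟩ := hpn
    have h3 : p ^ 2 ∣ p * (p * m) := ⟨m, by ring⟩
    have h4 : p * (p * m) / p ^ 2 = m := by
      rw [show p * (p * m) = p ^ 2 * m by ring]
      exact Nat.mul_div_cancel_left m (by positivity)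
    rw [if_pos h3, if_pos (dvd_mul_right p m), h4, Nat.mul_div_cancel_left m hp0]
    simp
  · have h3 : ¬ p ^ 2 ∣ p * n := by
      intro h
      apply hpn
      rw [pow_two] at h
      exact (Nat.mul_dvd_mul_iff_left hp0).mp h
    rw [if_neg h3, if_neg hpn]

end LevelOne


/-! ### Generic facts -/

section Generic

variable {k : ℤ}

theorem nice_mf {N : ℕ} (F : ModularForm (Gamma0 N) k) :
    AnalyticAt ℂ (cuspFunction 1 (F : ℍ → ℂ)) 0 :=
  ModularFormClass.analyticAt_cuspFunction_zero F one_pos (Fermat.Agent.S49.one_mem_sp N)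

theorem qExpansion_mul_mf {N : ℕ} {a b : ℤ} (F : ModularForm (Gamma0 N) a)
    (G : ModularForm (Gamma0 N) b) :
    qExpansion 1 ((F : ℍ → ℂ) * (G : ℍ → ℂ)) = qExpansion 1 F * qExpansion 1 G :=
  ModularForm.qExpansion_mul_coe one_pos (Fermat.Agent.S49.one_mem_sp N) F G

theorem qExpansion_add_mf {N : ℕ} (F G : ModularForm (Gamma0 N) k) :
    qExpansion 1 ((F : ℍ → ℂ) + (G : ℍ → ℂ)) = qExpansion 1 F + qExpansion 1 G :=
  ModularForm.qExpansion_add one_pos (Fermat.Agent.S49.one_mem_sp N) F G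

theorem qExpansion_sub_mf {N : ℕ} (F G : ModularForm (Gamma0 N) k) :
    qExpansion 1 ((F : ℍ → ℂ) - (G : ℍ → ℂ)) = qExpansion 1 F - qExpansion 1 G :=
  ModularForm.qExpansion_sub one_pos (Fermat.Agent.S49.one_mem_sp N) F G

theorem qExpansion_smul_mf {N : ℕ} (c : ℂ) (F : ModularForm (Gamma0 N) k) :
    qExpansion 1 (c • (F : ℍ → ℂ)) = c • qExpansion 1 F :=
  ModularForm.qExpansion_smul one_pos (Fermat.Agent.S49.one_mem_sp N) c F

variable (p : ℕ)

theorem isCompanion_add {H₁ H₂ H₁' H₂' : ℍ → ℂ} (h₁ : IsCompanion p k H₁ H₁')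
    (h₂ : IsCompanion p k H₂ H₂') : IsCompanion p k (H₁ + H₂) (H₁' + H₂') := by
  intro j hj z
  rw [SlashAction.add_slash, Pi.add_apply, h₁ j hj z, h₂ j hj z, Pi.add_apply]

theorem isCompanion_smul (c : ℂ) {H H' : ℍ → ℂ} (h : IsCompanion p k H H') :
    IsCompanion p k (c • H) (c • H') := by
  intro j hj z
  rw [SL_smul_slash, Pi.smul_apply, h j hj z, Pi.smul_apply]

theorem isCompanion_neg {H H' : ℍ → ℂ} (h : IsCompanion p k H H') :
    IsCompanion p k (-H) (-H') := by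
  have := isCompanion_smul p (-1 : ℂ) h
  simpa using this

theorem isCompanion_sub {H₁ H₂ H₁' H₂' : ℍ → ℂ} (h₁ : IsCompanion p k H₁ H₁')
    (h₂ : IsCompanion p k H₂ H₂') : IsCompanion p k (H₁ - H₂) (H₁' - H₂') := by
  have := isCompanion_add p h₁ (isCompanion_neg p h₂)
  simpa [sub_eq_add_neg] using this

theorem isCompanion_mul {k₁ k₂ : ℤ} {H₁ H₂ H₁' H₂' : ℍ → ℂ} (h₁ : IsCompanion p k₁ H₁ H₁')
    (h₂ : IsCompanion p k₂ H₂ H₂') : IsCompanion p (k₁ + k₂) (H₁ * H₂) (H₁' * H₂') := by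
  intro j hj z
  rw [mul_slash_SL2, Pi.mul_apply, h₁ j hj z, h₂ j hj z, Pi.mul_apply]

end Generic

/-! ### Companion pairs -/

section Pairs

variable (p : ℕ)

/-- A pair of modular forms on `Γ₀(p)` of weight `k`, the second being a companion of the
first. -/
structure CPair (k : ℤ) where
  /-- the form -/
  H : ModularForm (Gamma0 p) k
  /-- its companion -/
  H' : ModularForm (Gamma0 p) k
  comp : IsCompanion p k H H'

variable {p}

namespace CPair

variable {k : ℤ}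

/-- `q`-expansion of the form -/
noncomputable def qs (P : CPair p k) : PowerSeries ℂ := qExpansion 1 (P.H : ℍ → ℂ)

/-- `q`-expansion of the companion -/
noncomputable def qs' (P : CPair p k) : PowerSeries ℂ := qExpansion 1 (P.H' : ℍ → ℂ)

theorem coeff_qs (P : CPair p k) (n : ℕ) : PowerSeries.coeff n P.qs = qCoeff P.H n := rfl

theorem coeff_qs' (P : CPair p k) (n : ℕ) : PowerSeries.coeff n P.qs' = qCoeff P.H' n := rfl

/-- sum -/
noncomputable def add (P Q : CPair p k) : CPair p k :=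
  ⟨P.H + Q.H, P.H' + Q.H', isCompanion_add p P.comp Q.comp⟩

/-- difference -/
noncomputable def sub (P Q : CPair p k) : CPair p k :=
  ⟨P.H - Q.H, P.H' - Q.H', isCompanion_sub p P.comp Q.comp⟩

/-- scalar multiple -/
noncomputable def smul (c : ℂ) (P : CPair p k) : CPair p k :=
  ⟨c • P.H, c • P.H', isCompanion_smul p c P.comp⟩

/-- product -/
noncomputable def mul {a b : ℤ} (P : CPair p a) (Q : CPair p b) : CPair p (a + b) :=
  ⟨P.H.mul Q.H, P.H'.mul Q.H', isCompanion_mul p P.comp Q.comp⟩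

/-- change of the (propositionally equal) weight -/
noncomputable def cast {a b : ℤ} (h : a = b) (P : CPair p a) : CPair p b :=
  ⟨ModularForm.mcast h P.H, ModularForm.mcast h P.H', by subst h; exact P.comp⟩

@[simp] theorem qs_add (P Q : CPair p k) : (P.add Q).qs = P.qs + Q.qs :=
  qExpansion_add_mf P.H Q.H

@[simp] theorem qs'_add (P Q : CPair p k) : (P.add Q).qs' = P.qs' + Q.qs' :=
  qExpansion_add_mf P.H' Q.H'

@[simp] theorem qs_sub (P Q : CPair p k) : (P.sub Q).qs = P.qs - Q.qs :=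
  qExpansion_sub_mf P.H Q.H

@[simp] theorem qs'_sub (P Q : CPair p k) : (P.sub Q).qs' = P.qs' - Q.qs' :=
  qExpansion_sub_mf P.H' Q.H'

@[simp] theorem qs_smul (c : ℂ) (P : CPair p k) : (P.smul c).qs = c • P.qs :=
  qExpansion_smul_mf c P.H

@[simp] theorem qs'_smul (c : ℂ) (P : CPair p k) : (P.smul c).qs' = c • P.qs' :=
  qExpansion_smul_mf c P.H'

@[simp] theorem qs_mul {a b : ℤ} (P : CPair p a) (Q : CPair p b) : (P.mul Q).qs = P.qs * Q.qs :=
  qExpansion_mul_mf P.H Q.H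

@[simp] theorem qs'_mul {a b : ℤ} (P : CPair p a) (Q : CPair p b) :
    (P.mul Q).qs' = P.qs' * Q.qs' :=
  qExpansion_mul_mf P.H' Q.H'

@[simp] theorem qs_cast {a b : ℤ} (h : a = b) (P : CPair p a) : (P.cast h).qs = P.qs := rfl

@[simp] theorem qs'_cast {a b : ℤ} (h : a = b) (P : CPair p a) : (P.cast h).qs' = P.qs' := rfl

section Prime

variable [Fact p.Prime]

/-- the pair `(G, -p⁻¹ U_p G)` -/
noncomputable def ofG (G : ModularForm (Gamma0 p) 2) : CPair p 2 :=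
  ⟨G, Gc p G, isCompanion_Gc p G⟩

/-- the pair `(A, A (p ·))` for a level-one form `A` -/
noncomputable def ofLevelOne (A : ModularForm 𝒮ℒ k) : CPair p k :=
  ⟨resLvl p A, dil p A, isCompanion_dil p A⟩

@[simp] theorem qs_ofG (G : ModularForm (Gamma0 p) 2) : (ofG G).qs = qExpansion 1 (G : ℍ → ℂ) := rfl

theorem coeff_qs'_ofG (G : ModularForm (Gamma0 p) 2) (n : ℕ) :
    PowerSeries.coeff n (ofG G).qs' = -((p : ℂ)⁻¹) * qCoeff G (p * n) :=
  qCoeff_Gc p G n

@[simp] theorem qs_ofLevelOne (A : ModularForm 𝒮ℒ k) :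
    (ofLevelOne (p := p) A).qs = qExpansion 1 (A : ℍ → ℂ) := rfl

theorem coeff_qs'_ofLevelOne (A : ModularForm 𝒮ℒ k) (n : ℕ) :
    PowerSeries.coeff n (ofLevelOne (p := p) A).qs' =
      if p ∣ n then PowerSeries.coeff (n / p) (qExpansion 1 (A : ℍ → ℂ)) else 0 :=
  qCoeff_dil p A n

/-- The norm principle (M8) for a companion pair, in terms of the two `q`-expansions. -/
theorem norm_principle (ℓ : ℕ) (hℓ : ℓ.Prime) (k : ℕ) (hk : k < 12) (P : CPair p (k : ℤ))
    (hH : ∀ n, IsLocInt ℓ (PowerSeries.coeff n P.qs))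
    (hH0 : IsLocDvd ℓ 1 (PowerSeries.coeff 0 P.qs))
    (u : ℤ) (hu : ¬ (ℓ : ℤ) ∣ u) (hH1 : IsLocDvd ℓ 1 (PowerSeries.coeff 1 P.qs - u))
    (hH' : ∀ n, IsLocInt ℓ (PowerSeries.coeff n P.qs'))
    (hH'0 : ∀ n, n < p → IsLocDvd ℓ 1 (PowerSeries.coeff n P.qs'))
    (u' : ℤ) (hu' : ¬ (ℓ : ℤ) ∣ u') (hH'p : IsLocDvd ℓ 1 (PowerSeries.coeff p P.qs' - u')) :
    False :=
  Fermat.Agent.S16.norm_principle p ℓ hℓ k hk P.H P.H' (periodic_mf P.H') (mdiff_mf P.H')
    (bdd_mf P.H') P.comp hH hH0 u hu hH1 hH' hH'0 u' hu' hH'p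

end Prime

end CPair

end Pairs

end Fermat.Agent.S16.CompanionMF
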