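import Mathlib
import Fermat.Agent.S16.Defs
import Fermat.Agent.S16.SturmInt
import Fermat.Agent.S16.LocInt

/-!
# S16 (M8a): the Sturm bound modulo `ℓ^s` in level one

If the `q`-coefficients `a_n`, `n < r`, of a level one form of weight `K < 12 r` are divisible by
`ℓ^s` in the ring of `ℓ`-integral algebraic numbers, then all of them are.
-/

set_option autoImplicit false

namespace Fermat.Agent.S16

open CongruenceSubgroup UpperHalfPlane ModularForm
open scoped MatrixGroups ModularForm Manifold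

/-- Sturm bound mod `ℓ^s` in level one (no integrality hypothesis is needed). -/
theorem levelOne_sturm_locDvd (ℓ : ℕ) (hℓ : ℓ.Prime) (s : ℕ) (K : ℤ) (F : ModularForm 𝒮ℒ K)
    (r : ℕ) (hr : K < 12 * r)
    (h0 : ∀ n, n < r → IsLocDvd ℓ s ((qExpansion 1 F).coeff n)) :
    ∀ n, IsLocDvd ℓ s ((qExpansion 1 F).coeff n) := by
  intro n
  rw [isLocDvd_iff_mem hℓ]
  refine SturmInt.coeff_mem F _ (fun i hi => ?_) n
  rw [← isLocDvd_iff_mem hℓ]
  refine h0 i ?_
  have : (12 : ℤ) * i < 12 * r := lt_of_le_of_lt hi hr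
  omega

/-- (M8a) Sturm bound mod `ℓ` in level one. -/
theorem levelOne_sturm_locInt (ℓ : ℕ) (hℓ : ℓ.Prime) (K : ℤ) (F : ModularForm 𝒮ℒ K)
    (hF : ∀ n, IsLocInt ℓ ((qExpansion 1 F).coeff n)) (r : ℕ) (hr : K < 12 * r)
    (h0 : ∀ n, n < r → IsLocDvd ℓ 1 ((qExpansion 1 F).coeff n)) :
    ∀ n, IsLocDvd ℓ 1 ((qExpansion 1 F).coeff n) :=
  levelOne_sturm_locDvd ℓ hℓ 1 K F r hr h0

end Fermat.Agent.S16
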