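import Mathlib
import Fermat.Agent.S16.Defs
import Fermat.Agent.S16.CosetsP
import Fermat.Agent.S16.Root12Alg
import Fermat.Agent.S16.Root12Delta

/-!
# S16 (N5): the index of the Eisenstein character divides 12

If `F` is a holomorphic logarithm of `Δ(pz)/Δ(z)` (up to `2πi`) whose periods on `Γ₀(p)` are
integers, then some period divides `12`.
-/

set_option autoImplicit false

namespace Fermat.Agent.S16

open ModularCurve ModularCurve.Period CuspForm CongruenceSubgroup UpperHalfPlane ModularForm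
open ModularFormClass
open scoped MatrixGroups ModularForm Manifold

variable (p : ℕ) [Fact p.Prime]

namespace Root12

/-- reduction to a positive generator `d` of the group of periods -/
theorem exists_generator (F : ℍ → ℂ)
    (hint : ∀ γ : Gamma0 p, ∃ m : ℤ, ∀ z : ℍ, F ((γ : SL(2, ℤ)) • z) - F z = (m : ℂ))
    (hT : ∀ τ : ℍ, F (ModularGroup.T • τ) - F τ = (p : ℂ) - 1) :
    ∃ (d n' : ℕ) (γ₀ : Gamma0 p) (c : ℤ), 0 < d ∧ d * n' = p - 1 ∧ c.natAbs = d ∧
      (∀ z : ℍ, F ((γ₀ : SL(2, ℤ)) • z) - F z = (c : ℂ)) ∧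
      ∀ γ : Gamma0 p, ∃ k : ℤ, ∀ z : ℍ, F ((γ : SL(2, ℤ)) • z) - F z = (d : ℂ) * k := by
  have hp : p.Prime := Fact.out
  choose Φ hΦ using hint
  have hmul : ∀ a b : Gamma0 p, Φ (a * b) = Φ a + Φ b := by
    intro a b
    have h1 := hΦ (a * b) UpperHalfPlane.I
    have h2 := hΦ a ((b : SL(2, ℤ)) • UpperHalfPlane.I)
    have h3 := hΦ b UpperHalfPlane.I
    rw [Subgroup.coe_mul, mul_smul] at h1
    have : ((Φ (a * b) : ℤ) : ℂ) = ((Φ a + Φ b : ℤ) : ℂ) := by
      rw [← h1]
      push_cast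
      rw [← h2, ← h3]
      ring
    exact_mod_cast this
  let φ : Additive (Gamma0 p) →+ ℤ :=
    AddMonoidHom.mk' (fun γ => Φ (Additive.toMul γ)) (fun a b => hmul _ _)
  have hφ : ∀ γ : Gamma0 p, φ (Additive.ofMul γ) = Φ γ := fun γ => rfl
  obtain ⟨⟨c, hc⟩, hgen⟩ := IsAddCyclic.exists_generator (α := φ.range)
  obtain ⟨γ₀, hγ₀⟩ := hc
  have hk : ∀ γ : Gamma0 p, ∃ k : ℤ, Φ γ = k * c := by
    intro γ
    have hmem : (⟨φ (Additive.ofMul γ), ⟨_, rfl⟩⟩ : φ.range) ∈
        AddSubgroup.zmultiples (⟨c, ⟨γ₀, hγ₀⟩⟩ : φ.range) := hgen _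
    obtain ⟨k, hk⟩ := AddSubgroup.mem_zmultiples_iff.mp hmem
    refine ⟨k, ?_⟩
    have := congrArg Subtype.val hk
    simpa [hφ] using this.symm
  have hΦT : Φ (gT p) = (p : ℤ) - 1 := by
    have h1 := hΦ (gT p) UpperHalfPlane.I
    have h2 := hT UpperHalfPlane.I
    have : ((Φ (gT p) : ℤ) : ℂ) = (((p : ℤ) - 1 : ℤ) : ℂ) := by
      rw [← h1]
      push_cast
      exact h2
    exact_mod_cast this
  obtain ⟨kT, hkT⟩ := hk (gT p)
  have hp1 : (1 : ℤ) ≤ (p : ℤ) - 1 := by
    have := hp.two_le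
    omega
  have hc0 : c ≠ 0 := by
    rintro rfl
    rw [hΦT, mul_zero] at hkT
    omega
  refine ⟨c.natAbs, kT.natAbs, Additive.toMul γ₀, c, Int.natAbs_pos.mpr hc0, ?_, rfl, ?_, ?_⟩
  · have h1 : ((p : ℤ) - 1).natAbs = p - 1 := by
      have := hp.two_le
      omega
    rw [← h1, ← hΦT, hkT, Int.natAbs_mul, mul_comm]
  · intro z
    have := hΦ (Additive.toMul γ₀) z
    rw [this]
    have h2 : Φ (Additive.toMul γ₀) = c := hγ₀
    rw [h2]
  · intro γ
    obtain ⟨k, hk⟩ := hk γ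
    refine ⟨k * c.sign, fun z => ?_⟩
    rw [hΦ γ z, hk]
    have h3 : (c.natAbs : ℤ) * c.sign = c := by
      rw [mul_comm]; exact Int.sign_mul_natAbs c
    have h4 : ((c.natAbs : ℕ) : ℂ) = ((c.natAbs : ℤ) : ℂ) := (Int.cast_natCast _).symm
    rw [h4, ← Int.cast_mul]
    congr 1
    rw [mul_left_comm, h3]


attribute [local instance] CosetsP.neZero_of_prime

local notation "Δ" => ModularForm.discriminant

/-! ### The function `v = exp(2πi F / d)` -/

/-- `v = exp(2πi F / d)` -/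
noncomputable def vf (F : ℍ → ℂ) (d : ℕ) (z : ℍ) : ℂ :=
  Complex.exp (2 * Real.pi * Complex.I * F z / d)

theorem vf_ne_zero (F : ℍ → ℂ) (d : ℕ) (z : ℍ) : vf F d z ≠ 0 := Complex.exp_ne_zero _

theorem vf_pow (F : ℍ → ℂ) (d : ℕ) (hd : 0 < d) (z : ℍ) :
    vf F d z ^ d = Complex.exp (2 * Real.pi * Complex.I * F z) := by
  have hd' : (d : ℂ) ≠ 0 := by exact_mod_cast hd.ne'
  rw [vf, ← Complex.exp_nat_mul]
  congr 1
  field_simp

theorem vf_smul (F : ℍ → ℂ) (d : ℕ) (hd : 0 < d) (γ : SL(2, ℤ)) (k : ℤ)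
    (h : ∀ z : ℍ, F (γ • z) - F z = (d : ℂ) * k) (z : ℍ) : vf F d (γ • z) = vf F d z := by
  have hd' : (d : ℂ) ≠ 0 := by exact_mod_cast hd.ne'
  have h1 : F (γ • z) = F z + (d : ℂ) * k := by rw [← h z]; ring
  rw [vf, vf, h1]
  have : 2 * Real.pi * Complex.I * (F z + d * k) / d =
      2 * Real.pi * Complex.I * F z / d + k * (2 * Real.pi * Complex.I) := by
    field_simp
  rw [this, Complex.exp_add, Complex.exp_int_mul_two_pi_mul_I, mul_one]

theorem vf_mdiff (F : ℍ → ℂ) (hF : ∀ τ : ℍ, DifferentiableAt ℂ (F ∘ ofComplex) τ) (d : ℕ) :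
    MDiff (vf F d) := by
  rw [UpperHalfPlane.mdifferentiable_iff]
  intro z hz
  have h1 : DifferentiableAt ℂ (F ∘ ofComplex) z := hF ⟨z, hz⟩
  apply DifferentiableAt.differentiableWithinAt
  have h2 : (vf F d ∘ ofComplex) =
      fun w => Complex.exp (2 * Real.pi * Complex.I * (F ∘ ofComplex) w / d) := rfl
  rw [h2]
  exact ((h1.const_mul _).div_const _).cexp

/-! ### The Fricke relation -/

theorem disc_S (z : ℍ) : Δ (ModularGroup.S • z) = (z : ℂ) ^ 12 * Δ z := by
  have h := congrFun discriminant_S_invariant z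
  rw [SL_slash_apply] at h
  have hz : (z : ℂ) ≠ 0 := z.ne_zero
  have hd : denom ModularGroup.S z = z := by
    simp [denom, ModularGroup.coe_S, Matrix.SpecialLinearGroup.toGL]
  rw [hd] at h
  rw [← h, zpow_neg, mul_comm]
  rw [show ((z : ℂ) ^ (12 : ℤ)) = (z : ℂ) ^ 12 from by norm_cast]
  field_simp

theorem diag_fricke (z : ℍ) : heckeDiagMatrix p • frickeW p z = ModularGroup.S • z := by
  have hp : p.Prime := Fact.out
  apply UpperHalfPlane.ext
  rw [coe_heckeDiagMatrix_smul hp.ne_zero, coe_frickeW, UpperHalfPlane.modular_S_smul]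
  have hz : (z : ℂ) ≠ 0 := z.ne_zero
  have hp' : (p : ℂ) ≠ 0 := by exact_mod_cast hp.ne_zero
  field_simp

theorem fricke_eq (z : ℍ) : frickeW p z = ModularGroup.S • (heckeDiagMatrix p • z) := by
  have hp : p.Prime := Fact.out
  apply UpperHalfPlane.ext
  rw [coe_frickeW, UpperHalfPlane.modular_S_smul]
  change -1 / ((p : ℂ) * z) = (-((heckeDiagMatrix p • z : ℍ) : ℂ))⁻¹
  rw [coe_heckeDiagMatrix_smul hp.ne_zero]
  have hz : (z : ℂ) ≠ 0 := z.ne_zero
  have hp' : (p : ℂ) ≠ 0 := by exact_mod_cast hp.ne_zero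
  field_simp

theorem u_fricke (z : ℍ) :
    (Δ (heckeDiagMatrix p • frickeW p z) / Δ (frickeW p z)) *
      (Δ (heckeDiagMatrix p • z) / Δ z) = ((p : ℂ) ^ 12)⁻¹ := by
  have hp : p.Prime := Fact.out
  have hz : (z : ℂ) ≠ 0 := z.ne_zero
  have hp' : (p : ℂ) ≠ 0 := by exact_mod_cast hp.ne_zero
  rw [diag_fricke, fricke_eq, disc_S, disc_S, coe_heckeDiagMatrix_smul hp.ne_zero]
  have h1 := discriminant_ne_zero z
  have h2 := discriminant_ne_zero (heckeDiagMatrix p • z)
  field_simp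

theorem continuous_frickeW : Continuous (frickeW p) := by
  have hp : p.Prime := Fact.out
  have hp' : (p : ℂ) ≠ 0 := by exact_mod_cast hp.ne_zero
  refine UpperHalfPlane.isEmbedding_coe.continuous_iff.mpr ?_
  change Continuous (fun z : ℍ => -1 / ((p : ℂ) * z))
  exact continuous_const.div (continuous_const.mul UpperHalfPlane.continuous_coe)
    (fun z => mul_ne_zero hp' z.ne_zero)

theorem exists_kappa (v : ℍ → ℂ) (d : ℕ) (hd : 0 < d) (hvc : Continuous v)
    (hvpow : ∀ z : ℍ, v z ^ d = Δ (heckeDiagMatrix p • z) / Δ z) :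
    ∃ κ : ℂ, κ ^ d * (p : ℂ) ^ 12 = 1 ∧ ∀ z : ℍ, v (frickeW p z) * v z = κ := by
  have hp : p.Prime := Fact.out
  have hp' : (p : ℂ) ≠ 0 := by exact_mod_cast hp.ne_zero
  set g : ℍ → ℂ := fun z => v (frickeW p z) * v z with hg
  have hgc : Continuous g := (hvc.comp (continuous_frickeW p)).mul hvc
  have hgpow : ∀ z : ℍ, g z ^ d = ((p : ℂ) ^ 12)⁻¹ := by
    intro z
    rw [hg]
    simp only
    rw [mul_pow, hvpow, hvpow, u_fricke]
  set T : Set ℂ := {x | x ^ d = ((p : ℂ) ^ 12)⁻¹} with hT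
  have hfin : T.Finite := by
    refine Set.Finite.subset (Polynomial.nthRoots d (((p : ℂ) ^ 12)⁻¹)).toFinset.finite_toSet ?_
    intro x hx
    have hx' : x ^ d = ((p : ℂ) ^ 12)⁻¹ := hx
    simpa [Polynomial.mem_nthRoots hd] using hx'
  have hconst : ∀ z : ℍ, g z = g UpperHalfPlane.I := fun z =>
    isPreconnected_univ.constant_of_mapsTo (T := T) hfin.isDiscrete hgc.continuousOn
      (fun z _ => hgpow z) (Set.mem_univ z) (Set.mem_univ _)
  refine ⟨g UpperHalfPlane.I, ?_, hconst⟩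
  rw [hgpow]
  exact inv_mul_cancel₀ (pow_ne_zero _ hp')

/-! ### The trace to level one -/

/-- a `Γ₀(p)`-invariant function as a slash invariant form of weight `0` -/
noncomputable def vS (v : ℍ → ℂ)
    (hv : ∀ (γ : Gamma0 p) (z : ℍ), v ((γ : SL(2, ℤ)) • z) = v z) :
    SlashInvariantForm (Gamma0 p : Subgroup (GL (Fin 2) ℝ)) 0 where
  toFun := v
  slash_action_eq' γ hγ := by
    obtain ⟨x, hx, rfl⟩ := hγ
    ext z
    have h1 := hv ⟨x, hx⟩ z
    have h2 := SL_slash_apply (k := 0) v x z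
    simp only [neg_zero, zpow_zero, mul_one] at h2
    rw [← h1, ← h2]
    rfl

theorem quotientFunc_mk_toSL' {N : ℕ} {k : ℤ}
    (H : SlashInvariantForm (Gamma0 N : Subgroup (GL (Fin 2) ℝ)) k) (x : SL(2, ℤ)) :
    SlashInvariantForm.quotientFunc H (QuotientGroup.mk (CosetsP.toSL x) : Fermat.Agent.S22.Q N)
      = (H : ℍ → ℂ) ∣[k] x⁻¹ := by
  have hinv : ((x⁻¹ : SL(2, ℤ)) : GL (Fin 2) ℝ) = (Matrix.SpecialLinearGroup.mapGL ℝ x)⁻¹ :=
    map_inv (Matrix.SpecialLinearGroup.mapGL ℝ) x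
  change SlashInvariantForm.quotientFunc H ⟦CosetsP.toSL x⟧ = _
  rw [SlashInvariantForm.quotientFunc_mk, SL_slash, hinv]
  rfl

theorem trace_apply (v : ℍ → ℂ)
    (hv : ∀ (γ : Gamma0 p) (z : ℍ), v ((γ : SL(2, ℤ)) • z) = v z) (z : ℍ) :
    SlashInvariantForm.trace 𝒮ℒ (vS p v hv) z =
      v z + ∑ j ∈ Finset.range p, v ((ModularGroup.S * ModularGroup.T ^ j) • z) := by
  rw [SlashInvariantForm.coe_trace, Finset.sum_apply,
    CosetsP.sum_Q p (fun q => SlashInvariantForm.quotientFunc (vS p v hv) q z)]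
  simp only [quotientFunc_mk_toSL', inv_one, inv_inv]
  have h0 : ∀ (x : SL(2, ℤ)) (w : ℍ), ((vS p v hv : ℍ → ℂ) ∣[(0 : ℤ)] x) w = v (x • w) := by
    intro x w
    have h2 := SL_slash_apply (k := 0) (vS p v hv : ℍ → ℂ) x w
    simp only [neg_zero, zpow_zero, mul_one] at h2
    exact h2
  simp only [h0, one_smul]

/-- the trace, if bounded at `i∞`, is constant -/
theorem exists_const (v : ℍ → ℂ) (hvm : MDiff v)
    (hv : ∀ (γ : Gamma0 p) (z : ℍ), v ((γ : SL(2, ℤ)) • z) = v z)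
    (hb : IsBoundedAtImInfty
      (fun z : ℍ => v z + ∑ j ∈ Finset.range p, v ((ModularGroup.S * ModularGroup.T ^ j) • z))) :
    ∃ C : ℂ, ∀ z : ℍ,
      v z + ∑ j ∈ Finset.range p, v ((ModularGroup.S * ModularGroup.T ^ j) • z) = C := by
  have hfun : (SlashInvariantForm.trace 𝒮ℒ (vS p v hv) : ℍ → ℂ) =
      fun z : ℍ => v z + ∑ j ∈ Finset.range p, v ((ModularGroup.S * ModularGroup.T ^ j) • z) :=
    funext fun z => trace_apply p v hv z
  let f : ModularForm 𝒮ℒ 0 :=
    { toSlashInvariantForm := SlashInvariantForm.trace 𝒮ℒ (vS p v hv)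
      holo' := by
        rw [SlashInvariantForm.coe_trace]
        exact .sum (Quotient.forall.mpr fun ⟨r, hr⟩ _ => hvm.slash 0 r⁻¹)
      bdd_at_cusps' := fun {c} hc => by
        rw [OnePoint.isBoundedAt_iff_forall_SL2Z hc]
        intro γ _
        have hγ : (γ : GL (Fin 2) ℝ) ∈ 𝒮ℒ := ⟨γ, rfl⟩
        have h1 := (SlashInvariantForm.trace 𝒮ℒ (vS p v hv)).slash_action_eq' _ hγ
        rw [SL_slash]
        change IsBoundedAtImInfty
          ((SlashInvariantForm.trace 𝒮ℒ (vS p v hv) : ℍ → ℂ) ∣[(0 : ℤ)] (γ : GL (Fin 2) ℝ))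
        have h2 : ((SlashInvariantForm.trace 𝒮ℒ (vS p v hv) : ℍ → ℂ) ∣[(0 : ℤ)]
            (γ : GL (Fin 2) ℝ)) = (SlashInvariantForm.trace 𝒮ℒ (vS p v hv) : ℍ → ℂ) := h1
        rw [h2, hfun]
        exact hb }
  obtain ⟨C, hC⟩ := ModularFormClass.levelOne_weight_zero_const f
  refine ⟨C, fun z => ?_⟩
  have h1 := congrFun hC z
  have h2 := trace_apply p v hv z
  rw [← h2]
  exact h1


/-! ### Generic lemmas on functions on `ℍ` -/

theorem periodic_of_vadd (f : ℍ → ℂ) (hf : ∀ z : ℍ, f ((1 : ℝ) +ᵥ z) = f z) :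
    Function.Periodic (f ∘ ofComplex) 1 := by
  intro w
  by_cases hw : 0 < w.im
  · have hw' : 0 < (w + 1).im := by simpa using hw
    simp only [Function.comp_apply, ofComplex_apply_of_im_pos hw', ofComplex_apply_of_im_pos hw]
    rw [← hf ⟨w, hw⟩]
    congr 1
    apply UpperHalfPlane.ext
    simp [add_comm]
  · have hw0 : w.im ≤ 0 := not_lt.mp hw
    have hw' : (w + 1).im ≤ 0 := by simpa using hw0
    simp only [Function.comp_apply, ofComplex_apply_of_im_nonpos hw',
      ofComplex_apply_of_im_nonpos hw0]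

theorem mdiff_mul {f g : ℍ → ℂ} (hf : MDiff f) (hg : MDiff g) : MDiff (fun z => f z * g z) := by
  rw [UpperHalfPlane.mdifferentiable_iff] at hf hg ⊢
  exact hf.mul hg

theorem mdiff_inv {f : ℍ → ℂ} (hf : MDiff f) (h0 : ∀ z, f z ≠ 0) :
    MDiff (fun z => (f z)⁻¹) := by
  rw [UpperHalfPlane.mdifferentiable_iff] at hf ⊢
  exact hf.inv (fun w _ => h0 _)

theorem mdiff_coe {g : ℂ → ℂ} (hg : Differentiable ℂ g) : MDiff (fun z : ℍ => g (z : ℂ)) := by
  rw [UpperHalfPlane.mdifferentiable_iff]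
  refine hg.differentiableOn.congr (fun w hw => ?_)
  simp [Function.comp_apply, ofComplex_apply_of_im_pos hw]

theorem bdd_of_pow_tendsto (f : ℍ → ℂ) (d : ℕ) (hd : 0 < d)
    (h : Filter.Tendsto (fun z => f z ^ d) atImInfty (nhds 1)) : IsBoundedAtImInfty f := by
  have h1 : ∀ᶠ z in atImInfty, ‖f z ^ d - 1‖ < 1 := by
    have := h.eventually (Metric.ball_mem_nhds (1 : ℂ) one_pos)
    filter_upwards [this] with z hz
    simpa [dist_eq_norm] using hz
  refine Asymptotics.IsBigO.of_bound 2 ?_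
  filter_upwards [h1] with z hz
  have h2 : ‖f z‖ ^ d < 2 := by
    have := norm_sub_norm_le (f z ^ d) 1
    rw [norm_pow, norm_one] at this
    linarith
  have h3 : ‖f z‖ ≤ 2 := by
    by_contra hcon
    rw [not_le] at hcon
    have h4 : (1 : ℝ) ≤ ‖f z‖ := by linarith
    have := le_self_pow₀ h4 hd.ne'
    linarith
  simpa using h3

theorem nice_one : AnalyticAt ℂ (cuspFunction 1 (1 : ℍ → ℂ)) 0 :=
  analyticAt_cuspFunction_zero one_pos (fun _ => rfl) mdifferentiable_const
    (Filter.const_boundedAtFilter _ (1 : ℂ))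

theorem nice_pow {g : ℍ → ℂ} (hg : AnalyticAt ℂ (cuspFunction 1 g) 0) (n : ℕ) :
    AnalyticAt ℂ (cuspFunction 1 (g ^ n)) 0 ∧ qExpansion 1 (g ^ n) = qExpansion 1 g ^ n := by
  induction n with
  | zero => exact ⟨by simpa using nice_one, by simpa using qExpansion_one 1⟩
  | succ n ih =>
    rw [pow_succ, pow_succ]
    refine ⟨?_, by rw [qExpansion_mul ih.1 hg, ih.2]⟩
    rw [cuspFunction_mul ih.1.continuousAt hg.continuousAt]
    exact ih.1.mul hg

/-! ### Sums of roots of unity and the `q`-parameter at `(z + j) / p` -/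

theorem sigma_eq {ζ : ℂ} {N : ℕ} (hζ : IsPrimitiveRoot ζ N) (hN : 0 < N) (n' : ℕ) (hn' : n' < N)
    (m : ℕ) :
    ∑ j ∈ Finset.range N, (ζ ^ j) ^ m * ((ζ ^ j) ^ n')⁻¹ = if m % N = n' then (N : ℂ) else 0 := by
  have hζ0 : ζ ≠ 0 := hζ.ne_zero hN.ne'
  set x := ζ ^ m * (ζ ^ n')⁻¹ with hx
  have hterm : ∀ j, (ζ ^ j) ^ m * ((ζ ^ j) ^ n')⁻¹ = x ^ j := by
    intro j
    rw [hx, mul_pow, inv_pow, ← pow_mul, ← pow_mul, ← pow_mul, ← pow_mul, mul_comm j m,
      mul_comm j n']
  simp only [hterm]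
  have hmod : ζ ^ m = ζ ^ (m % N) := by
    conv_lhs => rw [← Nat.mod_add_div m N, pow_add, pow_mul, hζ.pow_eq_one, one_pow, mul_one]
  split_ifs with h
  · have hx1 : x = 1 := by
      rw [hx, hmod, h]
      exact mul_inv_cancel₀ (pow_ne_zero _ hζ0)
    simp [hx1]
  · have hx1 : x ≠ 1 := by
      intro hx1
      apply h
      have h2 : ζ ^ (m % N) = ζ ^ n' := by
        rw [← hmod]
        rw [hx] at hx1
        exact (mul_inv_eq_one₀ (pow_ne_zero _ hζ0)).mp hx1
      exact hζ.pow_inj (Nat.mod_lt _ hN) hn' h2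
    have hxp : x ^ N = 1 := by
      rw [hx, mul_pow, inv_pow, ← pow_mul, ← pow_mul, mul_comm m N, mul_comm n' N, pow_mul,
        pow_mul, hζ.pow_eq_one, one_pow, one_pow, inv_one, mul_one]
    have h3 := geom_sum_mul x N
    rw [hxp, sub_self] at h3
    exact (mul_eq_zero.mp h3).resolve_right (sub_ne_zero.mpr hx1)

theorem qParam_hecke (z : ℍ) (j : ℕ) :
    Function.Periodic.qParam 1 ((heckeMatrix p j • z : ℍ) : ℂ) =
      Complex.exp (2 * Real.pi * Complex.I / p) ^ j * Function.Periodic.qParam p (z : ℂ) := by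
  have hp : p.Prime := Fact.out
  have hp' : (p : ℂ) ≠ 0 := by exact_mod_cast hp.ne_zero
  rw [coe_heckeMatrix_smul hp.ne_zero]
  simp only [Function.Periodic.qParam]
  rw [← Complex.exp_nat_mul, ← Complex.exp_add]
  congr 1
  push_cast
  field_simp
  ring

theorem qParam_pow (z : ℂ) :
    Function.Periodic.qParam p z ^ p = Function.Periodic.qParam 1 z := by
  have hp : p.Prime := Fact.out
  have hp' : (p : ℂ) ≠ 0 := by exact_mod_cast hp.ne_zero
  simp only [Function.Periodic.qParam]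
  rw [← Complex.exp_nat_mul]
  congr 1
  push_cast
  field_simp

theorem fricke_hecke (z : ℍ) (j : ℕ) :
    frickeW p (heckeMatrix p j • z) = (ModularGroup.S * ModularGroup.T ^ j) • z := by
  have hp : p.Prime := Fact.out
  have hp' : (p : ℂ) ≠ 0 := by exact_mod_cast hp.ne_zero
  apply UpperHalfPlane.ext
  rw [coe_frickeW, coe_heckeMatrix_smul hp.ne_zero, mul_smul, UpperHalfPlane.modular_S_smul]
  change _ = (-((ModularGroup.T ^ j • z : ℍ) : ℂ))⁻¹
  rw [← zpow_natCast, UpperHalfPlane.modular_T_zpow_smul]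
  have h1 : (((((j : ℕ) : ℤ) : ℝ) +ᵥ z : ℍ) : ℂ) = (j : ℂ) + z := by
    rw [UpperHalfPlane.coe_vadd]
    push_cast
    rfl
  rw [h1]
  have h2 : (z : ℂ) + j ≠ 0 := by
    intro h
    have := congrArg Complex.im h
    simp at this
    exact z.im_pos.ne' this
  have h3 : (j : ℂ) + z ≠ 0 := by rwa [add_comm]
  field_simp
  ring

/-- summing a `q`-series over the points `(z + j) / p` -/
theorem hasSum_sum_B (B : ℍ → ℂ) (b : ℕ → ℂ)
    (hB : ∀ z : ℍ, HasSum (fun m => b m * Function.Periodic.qParam 1 (z : ℂ) ^ m) (B z))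
    (n' : ℕ) (hn' : n' < p) (z : ℍ) :
    HasSum (fun i => (p : ℂ) * b (n' + p * i) * Function.Periodic.qParam 1 (z : ℂ) ^ i)
      (∑ j ∈ Finset.range p, B (heckeMatrix p j • z) /
        Function.Periodic.qParam 1 ((heckeMatrix p j • z : ℍ) : ℂ) ^ n') := by
  have hp : p.Prime := Fact.out
  set ζ : ℂ := Complex.exp (2 * Real.pi * Complex.I / p) with hζdef
  set t : ℂ := Function.Periodic.qParam p (z : ℂ) with htdef
  have hζ : IsPrimitiveRoot ζ p := Complex.isPrimitiveRoot_exp p hp.ne_zero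
  have hζ0 : ζ ≠ 0 := Complex.exp_ne_zero _
  have ht0 : t ≠ 0 := Complex.exp_ne_zero _
  have h1 : ∀ j ∈ Finset.range p,
      HasSum (fun m => ((ζ ^ j) ^ n')⁻¹ * (b m * (ζ ^ j * t) ^ m))
        (((ζ ^ j) ^ n')⁻¹ * B (heckeMatrix p j • z)) := by
    intro j _
    have := (hB (heckeMatrix p j • z)).mul_left (((ζ ^ j) ^ n')⁻¹)
    rwa [qParam_hecke] at this
  have h2 := hasSum_sum h1
  have h3 : (fun m => ∑ j ∈ Finset.range p, ((ζ ^ j) ^ n')⁻¹ * (b m * (ζ ^ j * t) ^ m)) =
      fun m => b m * t ^ m * (if m % p = n' then (p : ℂ) else 0) := by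
    funext m
    rw [← sigma_eq hζ hp.pos n' hn' m, Finset.mul_sum]
    apply Finset.sum_congr rfl
    intro j _
    rw [mul_pow]
    ring
  rw [h3] at h2
  have hinj : Function.Injective (fun i : ℕ => n' + p * i) := by
    intro x y hxy
    have : p * x = p * y := Nat.add_left_cancel hxy
    exact Nat.eq_of_mul_eq_mul_left hp.pos this
  have h4 : HasSum ((fun m => b m * t ^ m * (if m % p = n' then (p : ℂ) else 0)) ∘
      (fun i : ℕ => n' + p * i))
      (∑ j ∈ Finset.range p, ((ζ ^ j) ^ n')⁻¹ * B (heckeMatrix p j • z)) := by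
    rw [hinj.hasSum_iff]
    · exact h2
    · intro m hm
      have hne : m % p ≠ n' := by
        intro h
        apply hm
        refine ⟨m / p, ?_⟩
        simp only
        rw [← h]
        exact Nat.mod_add_div m p
      simp [hne]
  have h5 := h4.mul_left ((t ^ n')⁻¹)
  have e1 : (fun i => (t ^ n')⁻¹ *
      ((fun m => b m * t ^ m * (if m % p = n' then (p : ℂ) else 0)) ∘
        (fun i : ℕ => n' + p * i)) i) =
      fun i => (p : ℂ) * b (n' + p * i) * Function.Periodic.qParam 1 (z : ℂ) ^ i := by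
    funext i
    simp only [Function.comp_apply]
    have hmod : (n' + p * i) % p = n' := by
      rw [Nat.add_mul_mod_self_left, Nat.mod_eq_of_lt hn']
    rw [if_pos hmod, pow_add, pow_mul, qParam_pow]
    field_simp
  have e2 : (t ^ n')⁻¹ * ∑ j ∈ Finset.range p, ((ζ ^ j) ^ n')⁻¹ * B (heckeMatrix p j • z) =
      ∑ j ∈ Finset.range p, B (heckeMatrix p j • z) /
        Function.Periodic.qParam 1 ((heckeMatrix p j • z : ℍ) : ℂ) ^ n' := by
    rw [Finset.mul_sum]
    apply Finset.sum_congr rfl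
    intro j _
    rw [qParam_hecke, ← hζdef, ← htdef, mul_pow]
    field_simp
  rw [e1, e2] at h5
  exact h5

/-! ### The main argument -/

open Root12Delta in
/-- A nowhere vanishing holomorphic `Γ₀(p)`-invariant `d`-th root of `Δ(pz)/Δ(z)` forces
`d ∣ 12`. -/
theorem dvd_twelve_of_unit (v : ℍ → ℂ) (d n' : ℕ) (hd : 0 < d) (hdn : d * n' = p - 1)
    (hv0 : ∀ z : ℍ, v z ≠ 0) (hvm : MDiff v)
    (hv : ∀ (γ : Gamma0 p) (z : ℍ), v ((γ : SL(2, ℤ)) • z) = v z)
    (hvpow : ∀ z : ℍ, v z ^ d = Δ (heckeDiagMatrix p • z) / Δ z) : d ∣ 12 := by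
  have hp : p.Prime := Fact.out
  have hn'pos : 0 < n' := by
    rcases Nat.eq_zero_or_pos n' with h | h
    · rw [h, mul_zero] at hdn
      have := hp.two_le
      omega
    · exact h
  have hn'lt : n' < p := by
    have h1 : n' ≤ p - 1 := by
      rw [← hdn]
      exact Nat.le_mul_of_pos_left _ hd
    have := hp.two_le
    omega
  obtain ⟨κ, hκ, hκv⟩ := exists_kappa p v d hd hvm.continuous hvpow
  set q : ℍ → ℂ := fun z => Function.Periodic.qParam 1 (z : ℂ) with hq
  have hq0 : ∀ z, q z ≠ 0 := fun z => Complex.exp_ne_zero _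
  set A : ℍ → ℂ := fun z => v z * (q z ^ n')⁻¹ with hA
  set B : ℍ → ℂ := fun z => (v z)⁻¹ * q z ^ n' with hB
  -- periodicity
  have hvT : ∀ z : ℍ, v ((1 : ℝ) +ᵥ z) = v z := by
    intro z
    have := hv (gT p) z
    rwa [show ((gT p : Gamma0 p) : SL(2, ℤ)) = ModularGroup.T from rfl,
      UpperHalfPlane.modular_T_smul] at this
  have hqT : ∀ z : ℍ, q ((1 : ℝ) +ᵥ z) = q z := by
    intro z
    simp only [hq, UpperHalfPlane.coe_vadd, Function.Periodic.qParam, Complex.ofReal_one,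
      div_one]
    rw [mul_add, mul_one, Complex.exp_add, Complex.exp_two_pi_mul_I, one_mul]
  have hAper : Function.Periodic (A ∘ ofComplex) 1 :=
    periodic_of_vadd A (fun z => by simp only [hA, hvT, hqT])
  have hBper : Function.Periodic (B ∘ ofComplex) 1 :=
    periodic_of_vadd B (fun z => by simp only [hB, hvT, hqT])
  have hqm : MDiff (fun z : ℍ => q z ^ n') :=
    mdiff_coe (g := fun w => Function.Periodic.qParam 1 w ^ n')
      (by unfold Function.Periodic.qParam; fun_prop)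
  have hAm : MDiff A := mdiff_mul hvm (mdiff_inv hqm (fun z => pow_ne_zero _ (hq0 z)))
  have hBm : MDiff B := mdiff_mul (mdiff_inv hvm hv0) hqm
  have hAB : ∀ z, A z * B z = 1 := by
    intro z
    have h1 := hv0 z
    have h2 := hq0 z
    simp only [hA, hB]
    field_simp
  -- `A ^ d * Dt = Dtp`
  have hAD : ∀ z, A z ^ d * Dt z = Dtp p z := by
    intro z
    have h1 := discriminant_ne_zero z
    have h2 := hq0 z
    have hpp : q z ^ p = q z ^ (p - 1) * q z := by
      rw [← pow_succ, Nat.sub_add_cancel hp.one_le]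
    rw [Dtp_apply p hp.pos, Dt]
    simp only [hA]
    rw [mul_pow, hvpow, inv_pow, ← pow_mul, mul_comm n' d, hdn]
    change _ = _ / q z ^ p
    rw [hpp]
    change Δ (heckeDiagMatrix p • z) / Δ z * (q z ^ (p - 1))⁻¹ * (Δ z / q z) = _
    field_simp
  have hAt : Filter.Tendsto (fun z => A z ^ d) atImInfty (nhds 1) := by
    have h1 := (Dtp_tendsto p hp.pos).div Dt_tendsto one_ne_zero
    rw [div_one] at h1
    refine h1.congr (fun z => ?_)
    change Dtp p z / Dt z = A z ^ d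
    rw [← hAD z]
    exact mul_div_cancel_right₀ _ (Dt_ne_zero z)
  have hAb : IsBoundedAtImInfty A := bdd_of_pow_tendsto A d hd hAt
  have hBt : Filter.Tendsto (fun z => B z ^ d) atImInfty (nhds 1) := by
    have h1 := hAt.inv₀ one_ne_zero
    rw [inv_one] at h1
    refine h1.congr (fun z => ?_)
    have : B z = (A z)⁻¹ := eq_inv_of_mul_eq_one_right (hAB z)
    rw [this, inv_pow]
  have hBb : IsBoundedAtImInfty B := bdd_of_pow_tendsto B d hd hBt
  have hAa := analyticAt_cuspFunction_zero one_pos hAper hAm hAb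
  have hBa := analyticAt_cuspFunction_zero one_pos hBper hBm hBb
  have hDa := analyticAt_cuspFunction_zero one_pos Dt_periodic Dt_mdiff
    (Dt_tendsto.isBigO_one ℝ)
  set a := qExpansion 1 A with ha
  set b := qExpansion 1 B with hb
  have hab : a * b = 1 := by
    rw [ha, hb, ← qExpansion_mul hAa hBa, show A * B = 1 from funext hAB, qExpansion_one]
  have had : a ^ d * qExpansion 1 Dt = qExpansion 1 (Dtp p) := by
    rw [ha, ← (nice_pow hAa d).2, ← qExpansion_mul (nice_pow hAa d).1 hDa]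
    congr 1
    funext z
    exact hAD z
  -- `q`-series of `A`, `B` and of the trace
  have hAs : ∀ z : ℍ, HasSum (fun m => a.coeff m * q z ^ m) (A z) := fun z =>
    hasSum_qExpansion one_pos hAper hAm hAb z
  have hBs : ∀ z : ℍ, HasSum (fun m => b.coeff m * q z ^ m) (B z) := fun z =>
    hasSum_qExpansion one_pos hBper hBm hBb z
  set c : ℕ → ℂ := fun i =>
    (if n' ≤ i then a.coeff (i - n') else 0) + κ * ((p : ℂ) * b.coeff (n' + p * i)) with hc
  have htr : ∀ z : ℍ, HasSum (fun i => c i • Function.Periodic.qParam 1 (z : ℂ) ^ i)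
      (v z + ∑ j ∈ Finset.range p, v ((ModularGroup.S * ModularGroup.T ^ j) • z)) := by
    intro z
    have h1 : HasSum (fun i => (if n' ≤ i then a.coeff (i - n') else 0) * q z ^ i) (v z) := by
      have h := (hAs z).mul_right (q z ^ n')
      have hv' : A z * q z ^ n' = v z := by
        have h2 := hq0 z
        simp only [hA]
        field_simp
      rw [hv'] at h
      have hinj : Function.Injective (fun m : ℕ => m + n') := add_left_injective n'
      rw [← hinj.hasSum_iff]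
      · have e : ((fun i => (if n' ≤ i then a.coeff (i - n') else 0) * q z ^ i) ∘
            fun m : ℕ => m + n') = fun m => a.coeff m * q z ^ m * q z ^ n' := by
          funext m
          simp only [Function.comp_apply]
          rw [if_pos (Nat.le_add_left _ _), Nat.add_sub_cancel, pow_add, mul_assoc]
        rw [e]
        exact h
      · intro i hi
        have hni : ¬ n' ≤ i := fun hle => hi ⟨i - n', Nat.sub_add_cancel hle⟩
        rw [if_neg hni, zero_mul]
    have h2 := (hasSum_sum_B p B (fun m => b.coeff m) hBs n' hn'lt z).mul_left κ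
    have h3 : κ * ∑ j ∈ Finset.range p, B (heckeMatrix p j • z) /
          Function.Periodic.qParam 1 ((heckeMatrix p j • z : ℍ) : ℂ) ^ n' =
        ∑ j ∈ Finset.range p, v ((ModularGroup.S * ModularGroup.T ^ j) • z) := by
      rw [Finset.mul_sum]
      apply Finset.sum_congr rfl
      intro j _
      rw [← fricke_hecke p]
      have h4 := hκv (heckeMatrix p j • z)
      have h5 := hv0 (heckeMatrix p j • z)
      have h6 := hq0 (heckeMatrix p j • z)
      rw [← h4]
      change _ * ((v (heckeMatrix p j • z))⁻¹ * q (heckeMatrix p j • z) ^ n' /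
        q (heckeMatrix p j • z) ^ n') = _
      field_simp
    rw [h3] at h2
    have h7 := h1.add h2
    have e : (fun i => c i • Function.Periodic.qParam 1 (z : ℂ) ^ i) = fun i =>
        (if n' ≤ i then a.coeff (i - n') else 0) * q z ^ i +
          κ * ((p : ℂ) * b.coeff (n' + p * i) * Function.Periodic.qParam 1 (z : ℂ) ^ i) := by
      funext i
      simp only [hc, smul_eq_mul, hq]
      ring
    rw [e]
    exact h7
  have hbd := isBoundedAtImInfty_of_hasSum_qExpansion one_pos htr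
  obtain ⟨C, hC⟩ := exists_const p v hvm hv hbd
  have hCa : AnalyticAt ℂ (cuspFunction 1 (fun _ : ℍ => C)) 0 :=
    analyticAt_cuspFunction_zero one_pos (fun _ => rfl) mdifferentiable_const
      (Filter.const_boundedAtFilter _ C)
  have hC1 : ∀ z : ℍ, HasSum (fun i => c i • Function.Periodic.qParam 1 (z : ℂ) ^ i)
      ((fun _ : ℍ => C) z) := fun z => by
    have := htr z
    rwa [hC z] at this
  have hC2 : ∀ z : ℍ, HasSum
      (fun i => (if i = 0 then C else 0) • Function.Periodic.qParam 1 (z : ℂ) ^ i)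
      ((fun _ : ℍ => C) z) := fun z => by
    have h := hasSum_ite_eq (0 : ℕ) C
    have e : (fun i : ℕ => (if i = 0 then C else 0) • Function.Periodic.qParam 1 (z : ℂ) ^ i) =
        fun i : ℕ => if i = 0 then C else 0 := by
      funext i
      by_cases hi : i = 0
      · simp [hi]
      · simp [hi]
    rw [e]
    exact h
  have e1 := qExpansion_coeff_unique (ContinuousMap.const ℍ C) one_pos hCa hC1 n'
  have e2 := qExpansion_coeff_unique (ContinuousMap.const ℍ C) one_pos hCa hC2 n'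
  have hcn : c n' = 0 := by
    rw [e1, ← e2, if_neg hn'pos.ne']
  have hfin : PowerSeries.coeff 0 a + κ * (p : ℂ) * PowerSeries.coeff (n' + p * n') b = 0 := by
    have h := hcn
    simp only [hc, le_refl, if_true, Nat.sub_self] at h
    rw [← h]
    ring
  exact Root12Alg.dvd_twelve_of_series p hp d hd a b _ _ qExpansion_Dt_rat qExpansion_Dt_zero
    (qExpansion_Dtp_rat p hp.pos) (qExpansion_Dtp_zero p hp.pos) had hab κ hκ (n' + p * n') hfin

end Root12

open Root12 in
/-- (N5) the index of the Eisenstein character divides 12. -/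
theorem dvd_twelve_of_exp (F E : ℍ → ℂ)
    (hFE : ∀ τ : ℍ, HasDerivAt (F ∘ ofComplex) (E τ) τ)
    (hexp : ∀ τ : ℍ, Complex.exp (2 * Real.pi * Complex.I * F τ) =
      ModularForm.discriminant (heckeDiagMatrix p • τ) / ModularForm.discriminant τ)
    (hint : ∀ γ : Gamma0 p, ∃ m : ℤ, ∀ z : ℍ, F ((γ : SL(2, ℤ)) • z) - F z = (m : ℂ))
    (hT : ∀ τ : ℍ, F (ModularGroup.T • τ) - F τ = (p : ℂ) - 1) :
    ∃ (γ : Gamma0 p) (m : ℤ),
      (∀ z : ℍ, F ((γ : SL(2, ℤ)) • z) - F z = (m : ℂ)) ∧ m ∣ 12 := by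
  obtain ⟨d, n', γ₀, c, hd, hdn, hcd, hγ₀, hall⟩ := exists_generator p F hint hT
  refine ⟨γ₀, c, hγ₀, ?_⟩
  have h12 : d ∣ 12 := by
    refine dvd_twelve_of_unit p (vf F d) d n' hd hdn (vf_ne_zero F d)
      (vf_mdiff F (fun τ => (hFE τ).differentiableAt) d) ?_ ?_
    · intro γ z
      obtain ⟨k, hk⟩ := hall γ
      exact vf_smul F d hd γ k hk z
    · intro z
      rw [vf_pow F d hd, hexp]
  rw [← Int.natAbs_dvd, hcd]
  exact_mod_cast h12

end Fermat.Agent.S16
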