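import Mathlib
import Fermat.Agent.S16.Root12Alg

/-!
# S16 (N5), weight 12 route: the power series algebra

`A` is the `q`-expansion of `H = v Δ` (`v` a `c`-th root of `Δ(p·)/Δ`), `A'` the one of the
companion `H' = κ Δ(p·)/v`, `D`, `Dp` the integral `q`-expansions of `Δ` and `Δ(p·)`.
The relations `A ^ c = Dp * D ^ (c - 1)`, `A * A' = κ Dp D` and the trace relation
`a_n(H) + p a_{pn}(H') = (a_1(H) + p a_p(H')) τ(n)` imply `c ∣ 12`.
-/

set_option autoImplicit false

namespace Fermat.Agent.S16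

namespace Root12WAlg

open PowerSeries

/-- comparing `X`-adic factorisations -/
theorem X_pow_mul_eq {K : Type*} [Field K] {a b : ℕ} {f g : PowerSeries K}
    (hf : constantCoeff f ≠ 0) (hg : constantCoeff g ≠ 0) (h : X ^ a * f = X ^ b * g) :
    a = b ∧ f = g := by
  have hX : ∀ n : ℕ, (X : PowerSeries K) ^ n ≠ 0 := fun n => pow_ne_zero n X_ne_zero
  rcases lt_trichotomy a b with hab | hab | hab
  · exfalso
    obtain ⟨d, rfl⟩ := Nat.exists_eq_add_of_lt hab
    rw [show a + d + 1 = a + (d + 1) by ring, pow_add, mul_assoc] at h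
    have h2 := mul_left_cancel₀ (hX a) h
    apply hf
    rw [h2, pow_succ]
    simp
  · subst hab
    exact ⟨rfl, mul_left_cancel₀ (hX a) h⟩
  · exfalso
    obtain ⟨d, rfl⟩ := Nat.exists_eq_add_of_lt hab
    rw [show b + d + 1 = b + (d + 1) by ring, pow_add, mul_assoc] at h
    have h2 := mul_left_cancel₀ (hX b) h
    apply hg
    rw [← h2, pow_succ]
    simp

/-- The algebraic core of the weight 12 route. -/
theorem dvd_twelve_of_trace (p : ℕ) (hp : p.Prime) (c : ℕ) (hc : 0 < c)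
    (A A' : PowerSeries ℂ) (D Dp : PowerSeries ℤ)
    (hD0 : coeff 0 D = 0) (hD1 : coeff 1 D = 1)
    (hDp0 : ∀ i, i < p → coeff i Dp = 0) (hDp1 : coeff p Dp = 1)
    (κ : ℂ) (hκ : κ ^ c = ((p : ℂ) ^ 12)⁻¹)
    (hA : A ^ c = PowerSeries.map (Int.castRingHom ℂ) Dp *
      PowerSeries.map (Int.castRingHom ℂ) D ^ (c - 1))
    (hAA' : A * A' = C κ * (PowerSeries.map (Int.castRingHom ℂ) Dp *
      PowerSeries.map (Int.castRingHom ℂ) D))
    (htr : coeff 0 A + (p : ℂ) * coeff 0 A' = 0 →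
      ∀ n, coeff n A + (p : ℂ) * coeff (p * n) A' =
        (coeff 1 A + (p : ℂ) * coeff p A') * ((coeff n D : ℤ) : ℂ)) :
    c ∣ 12 := by
  classical
  have hX : ∀ n : ℕ, (X : PowerSeries ℂ) ^ n ≠ 0 := fun n => pow_ne_zero n X_ne_zero
  -- `D = X * D₁`, `Dp = X ^ p * Dp₁`
  set D₁ : PowerSeries ℤ := PowerSeries.mk fun n => coeff (n + 1) D with hD₁
  set Dp₁ : PowerSeries ℤ := PowerSeries.mk fun n => coeff (n + p) Dp with hDp₁
  have hDX : D = X * D₁ := by
    ext n
    cases n with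
    | zero => simp [hD0]
    | succ n => simp [PowerSeries.coeff_succ_X_mul, hD₁]
  have hDpX : Dp = X ^ p * Dp₁ := by
    ext n
    rw [PowerSeries.coeff_X_pow_mul']
    split_ifs with h
    · simp [hDp₁, Nat.sub_add_cancel h]
    · exact hDp0 n (not_le.mp h)
  have hD₁0 : constantCoeff D₁ = 1 := by
    rw [← PowerSeries.coeff_zero_eq_constantCoeff_apply, hD₁, PowerSeries.coeff_mk]
    simpa using hD1
  have hDp₁0 : constantCoeff Dp₁ = 1 := by
    rw [← PowerSeries.coeff_zero_eq_constantCoeff_apply, hDp₁, PowerSeries.coeff_mk]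
    simpa using hDp1
  set φ := PowerSeries.map (Int.castRingHom ℂ) with hφ
  have hφX : φ (X : PowerSeries ℤ) = X := PowerSeries.map_X _
  have hφint : ∀ (B : PowerSeries ℤ) (n : ℕ), ∃ m : ℤ, coeff n (φ B) = (m : ℂ) := fun B n =>
    ⟨coeff n B, by rw [hφ, PowerSeries.coeff_map]; rfl⟩
  have hφ0 : ∀ B : PowerSeries ℤ, constantCoeff B = 1 → constantCoeff (φ B) = 1 := by
    intro B hB
    rw [← PowerSeries.coeff_zero_eq_constantCoeff_apply, hφ, PowerSeries.coeff_map,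
      PowerSeries.coeff_zero_eq_constantCoeff_apply, hB]
    simp
  set B₁ : PowerSeries ℤ := Dp₁ * D₁ ^ (c - 1) with hB₁
  have hB₁0 : constantCoeff B₁ = 1 := by simp [hB₁, hD₁0, hDp₁0]
  have hA2 : A ^ c = X ^ (p + (c - 1)) * φ B₁ := by
    rw [hA, hDX, hDpX, hB₁, map_mul, map_mul, map_mul, map_pow, map_pow, hφX]
    ring
  have hA0 : A ≠ 0 := by
    rintro rfl
    rw [zero_pow hc.ne'] at hA2
    have h1 : constantCoeff (φ B₁) = 1 := hφ0 B₁ hB₁0
    have h2 : φ B₁ ≠ 0 := by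
      intro h
      rw [h] at h1
      simp at h1
    exact mul_ne_zero (hX _) h2 hA2.symm
  set e := A.order.toNat with he
  set A₁ := divXPowOrder A with hA₁
  have hAfac : X ^ e * A₁ = A := X_pow_order_mul_divXPowOrder
  have hA₁0 : constantCoeff A₁ ≠ 0 := by
    rw [hA₁, constantCoeff_divXPowOrder]
    exact coeff_order hA0
  have hA3 : X ^ (e * c) * A₁ ^ c = X ^ (p + (c - 1)) * φ B₁ := by
    rw [← hA2, ← hAfac, mul_pow, pow_mul]
  obtain ⟨hec, hA₁c⟩ := X_pow_mul_eq (by rw [map_pow]; exact pow_ne_zero c hA₁0)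
    (by rw [hφ0 B₁ hB₁0]; exact one_ne_zero) hA3
  set ω := constantCoeff A₁ with hω
  have hωc : ω ^ c = 1 := by
    have := congrArg constantCoeff hA₁c
    rwa [map_pow, hφ0 B₁ hB₁0] at this
  have hω0 : ω ≠ 0 := hA₁0
  set R := C ω⁻¹ * A₁ with hR
  have hR0 : constantCoeff R = 1 := by
    rw [hR, map_mul, PowerSeries.constantCoeff_C, ← hω]
    exact inv_mul_cancel₀ hω0
  have hRc : R ^ c = φ B₁ := by
    rw [hR, mul_pow, hA₁c, ← map_pow, inv_pow, hωc, inv_one, map_one, one_mul]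
  have hRrat : ∀ n, ∃ r : ℚ, coeff n R = (r : ℂ) :=
    Root12Alg.coeff_rat_of_pow hc R hR0 fun n => by
      rw [hRc]
      obtain ⟨m, hm⟩ := hφint B₁ n
      exact ⟨m, by rw [hm]; simp⟩
  have hAeq : A = X ^ e * (C ω * R) := by
    rw [hR, ← mul_assoc (C ω), ← map_mul, mul_inv_cancel₀ hω0, map_one, one_mul, hAfac]
  -- bounds on `e`
  have hp2 := hp.two_le
  have he2 : 2 ≤ e := by
    by_contra hlt
    have : e * c ≤ 1 * c := Nat.mul_le_mul_right c (by omega)
    omega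
  have hep : e ≤ p := by
    by_contra hlt
    have h1 : (p + 1) * c ≤ e * c := Nat.mul_le_mul_right c (by omega)
    have h2 : p ≤ p * c := Nat.le_mul_of_pos_right p hc
    have h3 : (p + 1) * c = p * c + c := by ring
    omega
  -- the companion series
  set D₂ : PowerSeries ℤ := Dp₁ * D₁ with hD₂
  have hRinv : R * R⁻¹ = 1 := PowerSeries.mul_inv_cancel R (by rw [hR0]; exact one_ne_zero)
  set R' := φ D₂ * R⁻¹ with hR'
  have hR'rat : ∀ n, ∃ r : ℚ, coeff n R' = (r : ℂ) :=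
    Root12Alg.coeff_rat_mul _ _ (Root12Alg.coeff_rat_of_int _ (hφint D₂))
      (Root12Alg.coeff_rat_inv R (by rw [hR0]; exact one_ne_zero) hRrat)
  have hA'eq : A' = X ^ (p + 1 - e) * (C (κ * ω⁻¹) * R') := by
    have h1 : X ^ e * (C ω * R * A') = X ^ e * (X ^ (p + 1 - e) * (C κ * φ D₂)) := by
      have h2 : (X : PowerSeries ℂ) ^ e * X ^ (p + 1 - e) = X ^ p * X := by
        rw [← pow_add, ← pow_succ]
        congr 1
        omega
      calc X ^ e * (C ω * R * A') = A * A' := by rw [hAeq]; ring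
        _ = C κ * (φ Dp * φ D) := hAA'
        _ = X ^ p * X * (C κ * φ D₂) := by
          rw [hDX, hDpX, hD₂, map_mul, map_mul, map_mul, map_pow, hφX]
          ring
        _ = X ^ e * (X ^ (p + 1 - e) * (C κ * φ D₂)) := by rw [← h2]; ring
    have h3 := mul_left_cancel₀ (hX e) h1
    calc A' = C ω⁻¹ * R⁻¹ * (C ω * R * A') := by
          have : C ω⁻¹ * R⁻¹ * (C ω * R * A') = (C ω⁻¹ * C ω) * (R * R⁻¹) * A' := by ring
          rw [this, hRinv, ← map_mul, inv_mul_cancel₀ hω0, map_one, one_mul, one_mul]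
      _ = C ω⁻¹ * R⁻¹ * (X ^ (p + 1 - e) * (C κ * φ D₂)) := by rw [h3]
      _ = X ^ (p + 1 - e) * (C (κ * ω⁻¹) * R') := by
          rw [hR', show (C (κ * ω⁻¹) : PowerSeries ℂ) = C κ * C ω⁻¹ from map_mul _ _ _]
          ring
  -- coefficients
  have hcA1 : coeff 1 A = 0 := by
    rw [hAeq, PowerSeries.coeff_X_pow_mul', if_neg (by omega)]
  have hcAe : coeff e A = ω := by
    rw [hAeq, PowerSeries.coeff_X_pow_mul', if_pos le_rfl, Nat.sub_self,
      PowerSeries.coeff_zero_eq_constantCoeff_apply, map_mul, PowerSeries.constantCoeff_C, hR0,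
      mul_one]
  have hcA' : ∀ m, p + 1 - e ≤ m → coeff m A' = κ * ω⁻¹ * coeff (m - (p + 1 - e)) R' := by
    intro m hm
    rw [hA'eq, PowerSeries.coeff_X_pow_mul', if_pos hm, PowerSeries.coeff_C_mul]
  have hpe : p + 1 - e ≤ p * e := by
    have : p * 2 ≤ p * e := Nat.mul_le_mul_left p he2
    omega
  obtain ⟨r₁, hr₁⟩ := hR'rat (p - (p + 1 - e))
  obtain ⟨r₂, hr₂⟩ := hR'rat (p * e - (p + 1 - e))
  have hcA0 : coeff 0 A = 0 := by
    rw [hAeq, PowerSeries.coeff_X_pow_mul', if_neg (by omega)]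
  have hcA'0 : coeff 0 A' = 0 := by
    rw [hA'eq, PowerSeries.coeff_X_pow_mul', if_neg (by omega)]
  have h := htr (by rw [hcA0, hcA'0]; ring) e
  rw [hcA1, hcAe, hcA' p (by omega), hcA' (p * e) hpe, hr₁, hr₂] at h
  refine Root12Alg.dvd_twelve_of_trace_rel hp ω κ ((p : ℚ) * (r₂ - r₁ * (coeff e D : ℤ))) hωc hκ ?_
  push_cast
  linear_combination h

end Root12WAlg

end Fermat.Agent.S16
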