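import Mathlib
import Fermat.Agent.S16.Defs
import Fermat.Agent.S16.NormCore
import Fermat.Agent.S22.Key

/-!
# S16: the trace principle

Let `H` be a modular form of weight `k` on `Γ₀(p)` with companion `H'` (the translates of `H` by
the non-trivial cosets are `z ↦ H' ((z + j) / p)`), and let `N` be its trace to level one. Then
`a_n(N) = a_n(H) + p · a_{pn}(H')`.
-/

set_option autoImplicit false

namespace Fermat.Agent.S16

open ModularCurve CuspForm CongruenceSubgroup UpperHalfPlane ModularForm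
open ModularFormClass
open scoped MatrixGroups ModularForm Manifold

namespace TraceCoeff

open Fermat.Agent.S22 Fermat.Agent.S22.Key

variable (p : ℕ) [Fact p.Prime]

/-- The `q`-coefficients of the trace of `H` to level one. -/
theorem trace_coeff (k : ℕ) (H : ModularForm (Gamma0 p) k) (H' : ℍ → ℂ)
    (hper : Function.Periodic (H' ∘ ofComplex) 1) (hhol : MDiff H')
    (hbdd : IsBoundedAtImInfty H') (hc : IsCompanion p k H H')
    (N : ModularForm 𝒮ℒ k)
    (hN : ∀ z : ℍ, N z = H z + ∑ j ∈ Finset.range p,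
        ((H : ℍ → ℂ) ∣[(k : ℤ)] (ModularGroup.S * ModularGroup.T ^ j)) z) (n : ℕ) :
    (qExpansion 1 N).coeff n = qCoeff H n + (p : ℂ) * qCoeff H' (p * n) := by
  have hp : p.Prime := Fact.out
  have hp0 : p ≠ 0 := hp.ne_zero
  have hpR : (0 : ℝ) < (p : ℝ) := by exact_mod_cast hp.pos
  -- the translated companions
  set G : ℕ → ℍ → ℂ := fun j τ =>
    H' (ofComplex ((((1 : ℕ) : ℂ) * (τ : ℂ) + ((j : ℤ) : ℂ)) / ((p : ℕ) : ℂ))) with hGdef
  have hG : ∀ j, j < p → ∀ z : ℍ,
      ((H : ℍ → ℂ) ∣[(k : ℤ)] (ModularGroup.S * ModularGroup.T ^ j)) z = G j z := by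
    intro j hj z
    rw [hc j hj z]
    simp only [hGdef]
    congr 1
    rw [← UpperHalfPlane.ofComplex_apply (heckeMatrix p j • z)]
    congr 1
    rw [coe_heckeMatrix_smul hp0]
    push_cast
    ring
  have hcomp := fun j : ℕ =>
    Fermat.Agent.S22.qExpansion_comp_affine H' hper hhol hbdd 1 p one_pos hp.pos (j : ℤ)
  have hcast : (((1 * p : ℕ) : ℕ) : ℝ) = (p : ℝ) := by rw [one_mul]
  have hperG : ∀ j, Function.Periodic (G j ∘ ofComplex) (p : ℝ) := by
    intro j
    have := (hcomp j).1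
    rw [hcast] at this
    exact this
  have hanaG : ∀ j, AnalyticAt ℂ (cuspFunction (p : ℝ) (G j)) 0 := fun j =>
    analyticAt_cuspFunction_zero hpR (hperG j) (hcomp j).2.1 (hcomp j).2.2.1
  have hcoefG : ∀ j m, (qExpansion (p : ℝ) (G j)).coeff m =
      Complex.exp (2 * Real.pi * Complex.I * (j : ℤ) / (p : ℕ)) ^ m * qCoeff H' m := by
    intro j m
    have := (hcomp j).2.2.2 m
    rw [hcast] at this
    rw [this, if_pos (by simp)]
    simp [qCoeff]
  -- `H` itself
  have h1mem := CongruenceSubgroup.one_mem_strictPeriods_Gamma0 p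
  have : Fact (IsCusp OnePoint.infty
      (Subgroup.map (Matrix.SpecialLinearGroup.mapGL ℝ) (Gamma0 p))) :=
    ⟨Subgroup.isCusp_of_mem_strictPeriods one_pos h1mem⟩
  have hperH : Function.Periodic ((H : ℍ → ℂ) ∘ ofComplex) 1 :=
    SlashInvariantFormClass.periodic_comp_ofComplex H h1mem
  have hholH : MDiff (H : ℍ → ℂ) := ModularFormClass.holo H
  have hbddH : IsBoundedAtImInfty (H : ℍ → ℂ) := ModularFormClass.bdd_at_infty H
  have hperHp : Function.Periodic ((H : ℍ → ℂ) ∘ ofComplex) (p : ℝ) := by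
    have := hperH.nat_mul p
    simpa using this
  have hanaH : AnalyticAt ℂ (cuspFunction (p : ℝ) (H : ℍ → ℂ)) 0 :=
    analyticAt_cuspFunction_zero hpR hperHp hholH hbddH
  have hcoefH : ∀ m, (qExpansion (p : ℝ) (H : ℍ → ℂ)).coeff m =
      if p ∣ m then qCoeff H (m / p) else 0 := by
    intro m
    have := UpperHalfPlane.qExpansion_coeff_nat_mul (h := 1) one_pos hperH hholH hbddH hp.pos m
    simpa [qCoeff] using this
  -- `N`
  have h1memS : (1 : ℝ) ∈ (𝒮ℒ).strictPeriods := by
    rw [Subgroup.strictPeriods_SL2Z]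
    exact ⟨1, by simp⟩
  have hperN : Function.Periodic ((N : ℍ → ℂ) ∘ ofComplex) 1 :=
    SlashInvariantFormClass.periodic_comp_ofComplex N h1memS
  have hcoefN : ∀ m, (qExpansion (p : ℝ) (N : ℍ → ℂ)).coeff m =
      if p ∣ m then (qExpansion 1 N).coeff (m / p) else 0 := by
    intro m
    have := UpperHalfPlane.qExpansion_coeff_nat_mul (h := 1) one_pos hperN
      (ModularFormClass.holo N) (ModularFormClass.bdd_at_infty N) hp.pos m
    simpa using this
  -- the sum formula at width `p`
  have hNfun : (N : ℍ → ℂ) = (H : ℍ → ℂ) + ∑ j ∈ Finset.range p, G j := by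
    funext z
    rw [hN z, Pi.add_apply, Finset.sum_apply]
    congr 1
    exact Finset.sum_congr rfl fun j hj => hG j (Finset.mem_range.mp hj) z
  have hqN : qExpansion (p : ℝ) (N : ℍ → ℂ) =
      qExpansion (p : ℝ) (H : ℍ → ℂ) + ∑ j ∈ Finset.range p, qExpansion (p : ℝ) (G j) := by
    rw [hNfun, qExpansion_add hanaH (Nice.sum (Finset.range p) G fun j _ => hanaG j),
      qExpansion_sum' (Finset.range p) G fun j _ => hanaG j]
  have h1 := congrArg (fun f : PowerSeries ℂ => f.coeff (p * n)) hqN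
  simp only [map_add, map_sum] at h1
  rw [hcoefN, if_pos (dvd_mul_right p n), Nat.mul_div_cancel_left n hp.pos, hcoefH,
    if_pos (dvd_mul_right p n), Nat.mul_div_cancel_left n hp.pos] at h1
  rw [h1]
  congr 1
  have h2 : ∀ j ∈ Finset.range p, (qExpansion (p : ℝ) (G j)).coeff (p * n) =
      qCoeff H' (p * n) := by
    intro j _
    rw [hcoefG, pow_mul, NormCore.exp_pow_eq_one p (j : ℤ), one_pow, one_mul]
  rw [Finset.sum_congr rfl h2, Finset.sum_const, Finset.card_range, nsmul_eq_mul]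

end TraceCoeff

end Fermat.Agent.S16
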