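import Mathlib
import Fermat.Agent.S16.Defs
import Fermat.Agent.S16.CosetsP
import Fermat.Agent.S16.EpSlash
import Fermat.Agent.S16.TraceCoeff
import Fermat.Agent.S16.Root12WAlg
import Fermat.Agent.S16.SturmInt
import Fermat.Agent.S22.Key

/-!
# S16 (N5), weight 12 route: the index of the Eisenstein character divides 12

Let `v` be a `Γ₀(p)`-invariant holomorphic `c`-th root of `Δ(p z)/Δ(z)`. Then `H = v Δ` is a cusp
form of weight 12 on `Γ₀(p)` with companion `H' = κ Δ(p·)/v`; its trace to level one is a multiple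
of `Δ`, and comparing `q`-coefficients gives `c ∣ 12`.
-/

set_option autoImplicit false

namespace Fermat.Agent.S16

open ModularCurve CuspForm CongruenceSubgroup UpperHalfPlane ModularForm
open ModularFormClass
open scoped MatrixGroups ModularForm Manifold

namespace Root12W

open Fermat.Agent.S22 Fermat.Agent.S22.Key

local notation "Δ" => ModularForm.discriminant

/-! ### General helpers -/

/-- `1`-periodicity from `T`-invariance -/
theorem periodic_of_T (f : ℍ → ℂ) (h : ∀ z : ℍ, f (ModularGroup.T • z) = f z) :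
    Function.Periodic (f ∘ ofComplex) 1 := by
  intro w
  by_cases hw : 0 < w.im
  · have hw' : 0 < (w + 1).im := by simpa using hw
    simp only [Function.comp_apply, ofComplex_apply_of_im_pos hw', ofComplex_apply_of_im_pos hw]
    rw [← h ⟨w, hw⟩]
    congr 1
    apply UpperHalfPlane.ext
    rw [UpperHalfPlane.modular_T_smul, UpperHalfPlane.coe_vadd]
    simp [add_comm]
  · have hw0 : w.im ≤ 0 := not_lt.mp hw
    have hw' : (w + 1).im ≤ 0 := by simpa using hw0
    simp only [Function.comp_apply, ofComplex_apply_of_im_nonpos hw',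
      ofComplex_apply_of_im_nonpos hw0]

/-- a root of a function bounded at `i∞` is bounded at `i∞` -/
theorem bdd_of_pow {f g : ℍ → ℂ} {c : ℕ} (hc : 0 < c) (h : ∀ z, f z ^ c = g z)
    (hg : IsBoundedAtImInfty g) : IsBoundedAtImInfty f := by
  rw [UpperHalfPlane.isBoundedAtImInfty_iff] at hg ⊢
  obtain ⟨M, A, hMA⟩ := hg
  refine ⟨max M 1, A, fun z hz => ?_⟩
  have h1 := hMA z hz
  rw [← h z, norm_pow] at h1
  by_cases h2 : ‖f z‖ ≤ 1
  · exact h2.trans (le_max_right _ _)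
  · push Not at h2
    exact ((le_self_pow₀ h2.le hc.ne').trans h1).trans (le_max_left _ _)

theorem gamma0_le_SL (p : ℕ) : (Gamma0 p : Subgroup (GL (Fin 2) ℝ)) ≤ 𝒮ℒ := by
  rintro _ ⟨g, -, rfl⟩
  exact ⟨g, rfl⟩

/-- slash of `v Δ` by an element of `SL(2,ℤ)` -/
theorem slash_mul_disc (v : ℍ → ℂ) (γ : SL(2, ℤ)) (z : ℍ) :
    ((v * Δ) ∣[(12 : ℤ)] γ) z = v (γ • z) * Δ z := by
  have h : Δ ∣[(12 : ℤ)] γ = Δ :=
    SlashInvariantForm.slash_action_generators_SL2Z discriminant_S_invariant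
      discriminant_T_invariant γ
  have h2 := congrFun h z
  rw [SL_slash_apply] at h2 ⊢
  rw [Pi.mul_apply, mul_assoc, h2]

variable (p : ℕ) [Fact p.Prime]

/-! ### `Δ(p z)` -/

/-- `Δ(p z)` -/
noncomputable def Dp (z : ℍ) : ℂ := Δ (heckeDiagMatrix p • z)

theorem Dp_ne_zero (z : ℍ) : Dp p z ≠ 0 := discriminant_ne_zero _

theorem Dp_eq_G : Dp p = ConjQExp.G p 1 0 := by
  have hp0 : p ≠ 0 := (Fact.out : p.Prime).ne_zero
  funext τ
  simp only [Dp, ConjQExp.G]
  congr 1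
  have h3 : ((p : ℂ) * (τ : ℂ) + ((0 : ℤ) : ℂ)) / ((1 : ℕ) : ℂ) =
      ((ModularForm.heckeDiagMatrix p • τ : ℍ) : ℂ) := by
    rw [ModularForm.coe_heckeDiagMatrix_smul hp0]
    simp
  rw [h3, ofComplex_apply]

theorem Dp_T (z : ℍ) : Dp p (ModularGroup.T • z) = Dp p z := by
  have hp0 : p ≠ 0 := (Fact.out : p.Prime).ne_zero
  have hT : ModularGroup.T ∈ Gamma0 p := by rw [Gamma0_mem]; simp [ModularGroup.T]
  have h1 := EpSlash.uQ_smul p hp0 ModularGroup.T hT z
  have h2 : Δ (ModularGroup.T • z) = Δ z := by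
    rw [EpSlash.discriminant_smul]
    simp [ModularGroup.T]
  simp only [EpSlash.uQ] at h1
  rw [h2] at h1
  have h3 := discriminant_ne_zero z
  simp only [Dp]
  field_simp at h1
  exact h1

theorem Dp_periodic : Function.Periodic (Dp p ∘ ofComplex) 1 := periodic_of_T _ (Dp_T p)

theorem Dp_mdiff : MDiff (Dp p) := by
  have hp : p.Prime := Fact.out
  rw [Dp_eq_G]
  exact (ConjQExp.G_props hp.pos one_pos (Nat.mul_one p) 0).2.1

theorem Dp_bdd : IsBoundedAtImInfty (Dp p) := by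
  have hp : p.Prime := Fact.out
  rw [Dp_eq_G]
  exact (ConjQExp.G_props hp.pos one_pos (Nat.mul_one p) 0).2.2.1

theorem Dp_nice : Nice 1 (Dp p) :=
  analyticAt_cuspFunction_zero one_pos (Dp_periodic p) (Dp_mdiff p) (Dp_bdd p)

theorem Dp_coeff (n : ℕ) :
    (qExpansion 1 (Dp p)).coeff n = if p ∣ n then (ConjQExp.tau (n / p) : ℂ) else 0 := by
  have hp : p.Prime := Fact.out
  have h1 := UpperHalfPlane.qExpansion_coeff_nat_mul (h := 1) one_pos (Dp_periodic p) (Dp_mdiff p)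
    (Dp_bdd p) hp.pos (p * n)
  rw [if_pos (dvd_mul_right p n), Nat.mul_div_cancel_left n hp.pos] at h1
  have h2 := (ConjQExp.G_props hp.pos one_pos (Nat.mul_one p) 0).2.2.2 (p * n)
  rw [← Dp_eq_G] at h2
  have h3 : ((p : ℕ) : ℝ) * 1 = ((p : ℕ) : ℝ) := mul_one _
  rw [h3] at h1
  rw [← h1, h2]
  have h4 : p ^ 2 ∣ p * n ↔ p ∣ n := by
    rw [pow_two]
    exact Nat.mul_dvd_mul_iff_left hp.pos
  have h5 : p * n / p ^ 2 = n / p := by
    rw [pow_two, Nat.mul_div_mul_left n p hp.pos]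
  simp only [h4, h5]
  split_ifs
  · simp
  · rfl

/-- the integral `q`-expansion of `Δ(p z)` -/
noncomputable def DpS : PowerSeries ℤ :=
  PowerSeries.mk fun n => if p ∣ n then ConjQExp.tau (n / p) else 0

theorem qExpansion_Dp : qExpansion 1 (Dp p) = PowerSeries.map (Int.castRingHom ℂ) (DpS p) := by
  ext n
  rw [Dp_coeff, PowerSeries.coeff_map, DpS, PowerSeries.coeff_mk]
  split_ifs <;> simp

theorem DpS_coeff_lt (i : ℕ) (hi : i < p) : PowerSeries.coeff i (DpS p) = 0 := by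
  rw [DpS, PowerSeries.coeff_mk]
  split_ifs with h
  · have : i = 0 := Nat.eq_zero_of_dvd_of_lt h hi
    subst this
    simpa using ConjQExp.tau_zero
  · rfl

theorem DpS_coeff_self : PowerSeries.coeff p (DpS p) = 1 := by
  have hp : p.Prime := Fact.out
  rw [DpS, PowerSeries.coeff_mk, if_pos (dvd_refl p), Nat.div_self hp.pos]
  exact ConjQExp.tau_one


/-! ### The Fricke involution -/

theorem frickeW_eq (z : ℍ) : frickeW p z = ModularGroup.S • (heckeDiagMatrix p • z) := by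
  have hp0 : p ≠ 0 := (Fact.out : p.Prime).ne_zero
  have hpC : (p : ℂ) ≠ 0 := by exact_mod_cast hp0
  apply UpperHalfPlane.ext
  rw [coe_frickeW, UpperHalfPlane.modular_S_smul]
  change _ = (-((heckeDiagMatrix p • z : ℍ) : ℂ))⁻¹
  rw [coe_heckeDiagMatrix_smul hp0]
  have := z.ne_zero
  field_simp

theorem heckeDiag_frickeW (z : ℍ) : heckeDiagMatrix p • frickeW p z = ModularGroup.S • z := by
  have hp0 : p ≠ 0 := (Fact.out : p.Prime).ne_zero
  have hpC : (p : ℂ) ≠ 0 := by exact_mod_cast hp0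
  apply UpperHalfPlane.ext
  rw [coe_heckeDiagMatrix_smul hp0, coe_frickeW, UpperHalfPlane.modular_S_smul]
  change _ = (-(z : ℂ))⁻¹
  have := z.ne_zero
  field_simp

theorem disc_S (z : ℍ) : Δ (ModularGroup.S • z) = (z : ℂ) ^ 12 * Δ z := by
  rw [EpSlash.discriminant_smul]
  simp [ModularGroup.S]

theorem uQ_fricke (z : ℍ) :
    (Dp p (frickeW p z) / Δ (frickeW p z)) * (Dp p z / Δ z) = ((p : ℂ) ^ 12)⁻¹ := by
  have hp0 : p ≠ 0 := (Fact.out : p.Prime).ne_zero
  have hpC : (p : ℂ) ≠ 0 := by exact_mod_cast hp0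
  simp only [Dp]
  rw [heckeDiag_frickeW, frickeW_eq, disc_S, disc_S, coe_heckeDiagMatrix_smul hp0]
  have h1 := discriminant_ne_zero z
  have h2 := discriminant_ne_zero (heckeDiagMatrix p • z)
  have h3 := z.ne_zero
  field_simp

theorem continuous_frickeW : Continuous (frickeW p) := by
  rw [UpperHalfPlane.isEmbedding_coe.continuous_iff]
  have : (UpperHalfPlane.coe ∘ frickeW p) = fun z : ℍ => -1 / ((p : ℂ) * z) := by
    funext z; rfl
  rw [this]
  refine Continuous.div continuous_const (continuous_const.mul UpperHalfPlane.continuous_coe) ?_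
  intro z
  exact mul_ne_zero (by exact_mod_cast (Fact.out : p.Prime).ne_zero) z.ne_zero

/-- the Fricke constant of a root of `Δ(p z)/Δ(z)` -/
theorem exists_kappa (c : ℕ) (hc : 0 < c) (v : ℍ → ℂ) (hcont : Continuous v)
    (hpow : ∀ z : ℍ, v z ^ c = Dp p z / Δ z) :
    ∃ κ : ℂ, κ ^ c = ((p : ℂ) ^ 12)⁻¹ ∧ ∀ z : ℍ, v (frickeW p z) * v z = κ := by
  set K : ℍ → ℂ := fun z => v (frickeW p z) * v z with hK
  have hKpow : ∀ z, K z ^ c = ((p : ℂ) ^ 12)⁻¹ := by
    intro z
    simp only [hK]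
    rw [mul_pow, hpow, hpow]
    exact uQ_fricke p z
  have hKcont : Continuous K := (hcont.comp (continuous_frickeW p)).mul hcont
  have hdisc : IsDiscrete {x : ℂ | x ^ c = ((p : ℂ) ^ 12)⁻¹} := by
    have hfin : {x : ℂ | x ^ c = ((p : ℂ) ^ 12)⁻¹}.Finite := by
      refine Set.Finite.subset (Polynomial.nthRoots c (((p : ℂ) ^ 12)⁻¹)).toFinset.finite_toSet ?_
      intro x hx
      simp only [Finset.mem_coe, Multiset.mem_toFinset]
      exact (Polynomial.mem_nthRoots hc).mpr hx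
    exact hfin.isDiscrete
  refine ⟨K UpperHalfPlane.I, hKpow _, fun z => ?_⟩
  exact isPreconnected_univ.constant_of_mapsTo hdisc hKcont.continuousOn
    (fun w _ => hKpow w) (Set.mem_univ z) (Set.mem_univ _)

theorem T_pow_smul (j : ℕ) (z : ℍ) :
    ModularGroup.T ^ j • z = heckeDiagMatrix p • (heckeMatrix p j • z) := by
  have hp0 : p ≠ 0 := (Fact.out : p.Prime).ne_zero
  have hpC : (p : ℂ) ≠ 0 := by exact_mod_cast hp0
  apply UpperHalfPlane.ext
  rw [coe_heckeDiagMatrix_smul hp0, coe_heckeMatrix_smul hp0]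
  have h := UpperHalfPlane.modular_T_zpow_smul z (j : ℤ)
  rw [zpow_natCast] at h
  rw [h, UpperHalfPlane.coe_vadd]
  push_cast
  field_simp
  ring

theorem ST_smul_eq (j : ℕ) (z : ℍ) :
    (ModularGroup.S * ModularGroup.T ^ j) • z = frickeW p (heckeMatrix p j • z) := by
  rw [frickeW_eq, mul_smul, T_pow_smul p j z]

theorem Dp_heckeMatrix (j : ℕ) (z : ℍ) : Dp p (heckeMatrix p j • z) = Δ z := by
  simp only [Dp]
  rw [← T_pow_smul p j z, EpSlash.discriminant_smul]
  have h := ModularGroup.coe_T_zpow (j : ℤ)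
  rw [zpow_natCast] at h
  have h10 : (ModularGroup.T ^ j : SL(2, ℤ)) 1 0 = 0 := by
    have := congrFun (congrFun h 1) 0
    simpa using this
  have h11 : (ModularGroup.T ^ j : SL(2, ℤ)) 1 1 = 1 := by
    have := congrFun (congrFun h 1) 1
    simpa using this
  rw [h10, h11]
  simp

theorem bdd_pow {f : ℍ → ℂ} (hf : IsBoundedAtImInfty f) (n : ℕ) : IsBoundedAtImInfty (f ^ n) := by
  induction n with
  | zero =>
    rw [pow_zero]
    exact Filter.const_boundedAtFilter atImInfty (1 : ℂ)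
  | succ n ih =>
    rw [pow_succ]
    exact Filter.BoundedAtFilter.mul ih hf

/-- slash of `v Δ` by an element of `SL(2,ℤ)`, any spelling of the weight -/
theorem slash_mul_disc' (k : ℤ) (hk : k = 12) (v : ℍ → ℂ) (γ : SL(2, ℤ)) (z : ℍ) :
    ((v * Δ) ∣[k] γ) z = v (γ • z) * Δ z := by
  subst hk
  exact slash_mul_disc v γ z

/-- level one, weight 12: a form with vanishing constant term is a multiple of `Δ` -/
theorem levelOne_twelve (K : ℤ) (hK : K = 12) (N : ModularForm 𝒮ℒ K)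
    (h0 : (qExpansion 1 N).coeff 0 = 0) (n : ℕ) :
    (qExpansion 1 N).coeff n = (qExpansion 1 N).coeff 1 * (ConjQExp.tau n : ℂ) := by
  subst hK
  set a := (qExpansion 1 N).coeff 1 with ha
  set Dm : ModularForm 𝒮ℒ 12 := ModularFormClass.modularForm CuspForm.discriminant with hDm
  have hDmcoe : (Dm : ℍ → ℂ) = Δ := rfl
  set g : ModularForm 𝒮ℒ 12 := N - a • Dm with hg
  have hniceN : Nice 1 (N : ℍ → ℂ) := Nice.of_modularForm one_pos one_mem_strictPeriods_SL' N
  have hniceD : Nice 1 (Dm : ℍ → ℂ) := Nice.of_modularForm one_pos one_mem_strictPeriods_SL' Dm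
  have hgc : ∀ i, (qExpansion 1 g).coeff i =
      (qExpansion 1 N).coeff i - a * (ConjQExp.tau i : ℂ) := by
    intro i
    have h1 : (g : ℍ → ℂ) = (N : ℍ → ℂ) - a • (Dm : ℍ → ℂ) := rfl
    rw [h1, UpperHalfPlane.qExpansion_sub hniceN (hniceD.smul a),
      UpperHalfPlane.qExpansion_smul hniceD a, hDmcoe, map_sub, PowerSeries.coeff_smul,
      ConjQExp.coeff_discriminant, smul_eq_mul]
  have hmem := SturmInt.coeff_mem g ⊥ (fun i hi => by
    rw [AddSubgroup.mem_bot, hgc]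
    have hi1 : i ≤ 1 := by omega
    interval_cases i
    · rw [h0, ConjQExp.tau_zero]; simp
    · rw [ConjQExp.tau_one]; simp [ha]) n
  rw [AddSubgroup.mem_bot, hgc] at hmem
  exact sub_eq_zero.mp hmem


/-! ### The main argument -/

/-- A `Γ₀(p)`-invariant holomorphic `c`-th root of `Δ(p z)/Δ(z)` exists only if `c ∣ 12`. -/
theorem dvd_twelve_of_root (c : ℕ) (hc : 0 < c) (v : ℍ → ℂ) (hv_md : MDiff v)
    (hv_sm : ∀ γ : SL(2, ℤ), γ ∈ Gamma0 p → ∀ z : ℍ, v (γ • z) = v z)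
    (hv_pow : ∀ z : ℍ, v z ^ c = Dp p z / Δ z) : c ∣ 12 := by
  have hp : p.Prime := Fact.out
  have hp0 : p ≠ 0 := hp.ne_zero
  have hpC : (p : ℂ) ≠ 0 := by exact_mod_cast hp0
  obtain ⟨d, rfl⟩ : ∃ d, c = d + 1 := ⟨c - 1, by omega⟩
  have hT : ModularGroup.T ∈ Gamma0 p := by rw [Gamma0_mem]; simp [ModularGroup.T]
  have hv_ne : ∀ z, v z ≠ 0 := by
    intro z h
    have := hv_pow z
    rw [h, zero_pow hc.ne'] at this
    exact div_ne_zero (Dp_ne_zero p z) (discriminant_ne_zero z) this.symm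
  obtain ⟨κ, hκc, hκ⟩ := exists_kappa p (d + 1) hc v hv_md.continuous hv_pow
  -- the companion
  set H' : ℍ → ℂ := fun z => κ * Dp p z / v z with hH'
  have hH'T : ∀ z, H' (ModularGroup.T • z) = H' z := by
    intro z
    simp only [hH']
    rw [Dp_T, hv_sm ModularGroup.T hT z]
  have hH'per : Function.Periodic (H' ∘ ofComplex) 1 := periodic_of_T H' hH'T
  have hH'md : MDiff H' := by
    have h1 : MDiff (fun z : ℍ => κ * Dp p z) := mdifferentiable_const.mul (Dp_mdiff p)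
    exact h1.div hv_md hv_ne
  have hH'pow : ∀ z, H' z ^ (d + 1) = κ ^ (d + 1) * (Dp p z ^ d * Δ z) := by
    intro z
    simp only [hH']
    rw [div_pow, mul_pow, hv_pow]
    have h1 := Dp_ne_zero p z
    have h2 := discriminant_ne_zero z
    field_simp
    ring
  have hH'bdd : IsBoundedAtImInfty H' := by
    refine bdd_of_pow hc hH'pow ?_
    exact Filter.BoundedAtFilter.mul (Filter.const_boundedAtFilter atImInfty (κ ^ (d + 1)))
      (Filter.BoundedAtFilter.mul (bdd_pow (Dp_bdd p) d) ConjQExp.disc_bdd)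
  -- the companion identity
  have hcomp : ∀ (j : ℕ) (z : ℍ),
      v ((ModularGroup.S * ModularGroup.T ^ j) • z) * Δ z = H' (heckeMatrix p j • z) := by
    intro j z
    rw [ST_smul_eq p j z]
    have h1 := hκ (heckeMatrix p j • z)
    simp only [hH']
    rw [Dp_heckeMatrix p j z, eq_div_iff (hv_ne _)]
    linear_combination (Δ z) * h1
  -- boundedness of `v Δ`
  have hHpow : ∀ z, (v z * Δ z) ^ (d + 1) = Dp p z * Δ z ^ d := by
    intro z
    rw [mul_pow, hv_pow]
    have h2 := discriminant_ne_zero z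
    field_simp
    ring
  have hHbdd : IsBoundedAtImInfty (v * Δ) := by
    refine bdd_of_pow hc (g := fun z => Dp p z * Δ z ^ d) (fun z => hHpow z) ?_
    exact Filter.BoundedAtFilter.mul (Dp_bdd p) (bdd_pow ConjQExp.disc_bdd d)
  have h12 : ((12 : ℕ) : ℤ) = 12 := by norm_num
  have hbddslash : ∀ γ : SL(2, ℤ), IsBoundedAtImInfty ((v * Δ) ∣[((12 : ℕ) : ℤ)] γ) := by
    intro γ
    by_cases hγ : γ ∈ Gamma0 p
    · have : (v * Δ) ∣[((12 : ℕ) : ℤ)] γ = v * Δ := by
        funext z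
        rw [slash_mul_disc' _ h12, hv_sm γ hγ z, Pi.mul_apply]
      rw [this]
      exact hHbdd
    · obtain ⟨j, hj, β, hβ, rfl⟩ := exists_ST_rep p γ hγ
      have : (v * Δ) ∣[((12 : ℕ) : ℤ)] (β * ModularGroup.S * ModularGroup.T ^ j) =
          Fermat.Agent.S22.QExpAffine.aff H' 1 p (j : ℤ) := by
        funext z
        rw [slash_mul_disc' _ h12, mul_assoc, mul_smul, hv_sm β hβ, hcomp j z]
        simp only [Fermat.Agent.S22.QExpAffine.aff]
        congr 1
        rw [← UpperHalfPlane.ofComplex_apply (heckeMatrix p j • z)]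
        congr 1
        rw [coe_heckeMatrix_smul hp0]
        push_cast
        ring
      rw [this]
      exact Fermat.Agent.S22.QExpAffine.aff_bdd H' hH'bdd 1 p one_pos hp.pos (j : ℤ)
  -- the modular form `H = v Δ`
  let H : ModularForm (Gamma0 p) ((12 : ℕ) : ℤ) :=
    { toFun := v * Δ
      slash_action_eq' := by
        rintro _ ⟨γ, hγ, rfl⟩
        funext z
        have h1 := slash_mul_disc' _ h12 v γ z
        rw [hv_sm γ hγ z] at h1
        exact h1
      holo' := hv_md.mul ConjQExp.disc_mdiff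
      bdd_at_cusps' := by
        intro c' hc'
        have hc'' : IsCusp c' 𝒮ℒ := hc'.mono (gamma0_le_SL p)
        rw [OnePoint.isBoundedAt_iff_forall_SL2Z hc'']
        intro γ _
        exact hbddslash γ }
  have hHcoe : (H : ℍ → ℂ) = v * Δ := rfl
  have hcompanion : IsCompanion p ((12 : ℕ) : ℤ) H H' := by
    intro j hj z
    rw [hHcoe, slash_mul_disc' _ h12]
    exact hcomp j z
  obtain ⟨N, hN⟩ := exists_traceForm p H
  have htrc := TraceCoeff.trace_coeff p 12 H H' hH'per hH'md hH'bdd hcompanion N hN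
  -- `q`-expansions
  have h1mem := CongruenceSubgroup.one_mem_strictPeriods_Gamma0 p
  have hniceH : Nice 1 (H : ℍ → ℂ) := Nice.of_modularForm one_pos h1mem H
  have hniceH' : Nice 1 H' := analyticAt_cuspFunction_zero one_pos hH'per hH'md hH'bdd
  have hniceΔ : Nice 1 Δ :=
    analyticAt_cuspFunction_zero one_pos ConjQExp.disc_periodic ConjQExp.disc_mdiff
      ConjQExp.disc_bdd
  have hfun1 : (H : ℍ → ℂ) ^ (d + 1) = Dp p * Δ ^ d := by
    funext z
    rw [hHcoe]
    exact hHpow z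
  have hfun2 : (H : ℍ → ℂ) * H' = κ • (Dp p * Δ) := by
    funext z
    rw [hHcoe]
    simp only [Pi.mul_apply, Pi.smul_apply, smul_eq_mul, hH']
    have := hv_ne z
    field_simp
  have hA : qExpansion 1 (H : ℍ → ℂ) ^ (d + 1) =
      PowerSeries.map (Int.castRingHom ℂ) (DpS p) *
        PowerSeries.map (Int.castRingHom ℂ) TauInt.serC ^ (d + 1 - 1) := by
    rw [← qExpansion_pow' hniceH (d + 1), hfun1, qExpansion_mul (Dp_nice p) (hniceΔ.pow d),
      qExpansion_pow' hniceΔ d, qExpansion_Dp, TauInt.qExpansion_discriminant_eq,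
      Nat.add_sub_cancel]
  have hAA' : qExpansion 1 (H : ℍ → ℂ) * qExpansion 1 H' =
      PowerSeries.C κ * (PowerSeries.map (Int.castRingHom ℂ) (DpS p) *
        PowerSeries.map (Int.castRingHom ℂ) TauInt.serC) := by
    rw [← qExpansion_mul hniceH hniceH', hfun2, qExpansion_smul ((Dp_nice p).mul hniceΔ) κ,
      qExpansion_mul (Dp_nice p) hniceΔ, qExpansion_Dp, TauInt.qExpansion_discriminant_eq,
      PowerSeries.smul_eq_C_mul]
  refine Root12WAlg.dvd_twelve_of_trace p hp (d + 1) hc (qExpansion 1 (H : ℍ → ℂ))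
    (qExpansion 1 H') TauInt.serC (DpS p) ConjQExp.tau_zero ConjQExp.tau_one (DpS_coeff_lt p)
    (DpS_coeff_self p) κ hκc hA hAA' ?_
  intro h0 n
  have hN0 : (qExpansion 1 N).coeff 0 = 0 := by
    rw [htrc 0]
    simpa [qCoeff] using h0
  have h1 := levelOne_twelve _ h12 N hN0 n
  rw [htrc n, htrc 1] at h1
  simpa [qCoeff, ConjQExp.tau] using h1


/-! ### The period group -/

omit [Fact p.Prime] in
/-- The periods of `F` on `Γ₀(p)` form a cyclic group with a nonzero generator. -/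
theorem exists_gen (hp1 : 1 < p) (F : ℍ → ℂ)
    (hint : ∀ γ : Gamma0 p, ∃ m : ℤ, ∀ z : ℍ, F ((γ : SL(2, ℤ)) • z) - F z = (m : ℂ))
    (hT : ∀ τ : ℍ, F (ModularGroup.T • τ) - F τ = (p : ℂ) - 1) :
    ∃ (γ₀ : Gamma0 p) (a : ℤ), a ≠ 0 ∧
      (∀ z : ℍ, F ((γ₀ : SL(2, ℤ)) • z) - F z = (a : ℂ)) ∧
      ∀ γ : Gamma0 p, ∃ m : ℤ, ∀ z : ℍ, F ((γ : SL(2, ℤ)) • z) - F z = ((a * m : ℤ) : ℂ) := by
  choose per hper using hint
  have hadd : ∀ γ δ : Gamma0 p, per (γ * δ) = per γ + per δ := by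
    intro γ δ
    have h1 := hper (γ * δ) UpperHalfPlane.I
    have h2 := hper γ ((δ : SL(2, ℤ)) • UpperHalfPlane.I)
    have h3 := hper δ UpperHalfPlane.I
    have h4 : ((γ * δ : Gamma0 p) : SL(2, ℤ)) • UpperHalfPlane.I =
        (γ : SL(2, ℤ)) • ((δ : SL(2, ℤ)) • UpperHalfPlane.I) := by
      rw [Subgroup.coe_mul, mul_smul]
    rw [h4] at h1
    have : ((per (γ * δ) : ℤ) : ℂ) = ((per γ + per δ : ℤ) : ℂ) := by
      push_cast
      rw [← h1, ← h2, ← h3]
      ring
    exact_mod_cast this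
  let φ : Additive (Gamma0 p) →+ ℤ :=
    AddMonoidHom.mk' (fun γ => per (Additive.toMul γ)) (fun γ δ => hadd _ _)
  obtain ⟨a, ha⟩ := Int.subgroup_cyclic φ.range
  have hmem : ∀ γ : Gamma0 p, per γ ∈ AddSubgroup.closure {a} := by
    intro γ
    rw [← ha]
    exact ⟨Additive.ofMul γ, rfl⟩
  have ha_mem : a ∈ φ.range := by
    rw [ha]
    exact AddSubgroup.subset_closure rfl
  obtain ⟨γ₀', hγ₀⟩ := ha_mem
  have hperT : per (gT p) = (p : ℤ) - 1 := by
    have h1 := hper (gT p) UpperHalfPlane.I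
    have h2 := hT UpperHalfPlane.I
    have h3 : ((gT p : Gamma0 p) : SL(2, ℤ)) = ModularGroup.T := rfl
    rw [h3, h2] at h1
    have : ((per (gT p) : ℤ) : ℂ) = (((p : ℤ) - 1 : ℤ) : ℂ) := by
      push_cast
      exact h1.symm
    exact_mod_cast this
  have ha0 : a ≠ 0 := by
    rintro rfl
    have h1 := hmem (gT p)
    rw [hperT, AddSubgroup.mem_closure_singleton] at h1
    obtain ⟨k, hk⟩ := h1
    simp at hk
    have : (1 : ℤ) < p := by exact_mod_cast hp1
    omega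
  refine ⟨Additive.toMul γ₀', a, ha0, fun z => ?_, fun γ => ?_⟩
  · have h1 := hper (Additive.toMul γ₀') z
    rw [h1]
    have h2 : per (Additive.toMul γ₀') = a := hγ₀
    rw [h2]
  · have h1 := hmem γ
    rw [AddSubgroup.mem_closure_singleton] at h1
    obtain ⟨k, hk⟩ := h1
    refine ⟨k, fun z => ?_⟩
    rw [hper γ z, ← hk, smul_eq_mul, mul_comm]

/-! ### The root attached to a primitive -/

/-- the root `exp(2πi F / c)` -/
noncomputable def rt (F : ℍ → ℂ) (a : ℤ) (z : ℍ) : ℂ :=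
  Complex.exp (2 * Real.pi * Complex.I * F z / (a.natAbs : ℂ))

omit [Fact p.Prime] in
theorem rt_mdiff (F E : ℍ → ℂ) (a : ℤ)
    (hFE : ∀ τ : ℍ, HasDerivAt (F ∘ ofComplex) (E τ) τ) : MDiff (rt F a) := by
  have hF : MDiff F := by
    rw [UpperHalfPlane.mdifferentiable_iff]
    intro w hw
    have := (hFE ⟨w, hw⟩).differentiableAt
    exact this.differentiableWithinAt
  rw [UpperHalfPlane.mdifferentiable_iff] at hF ⊢
  have h1 : (rt F a ∘ ofComplex) =
      fun w : ℂ => Complex.exp (2 * Real.pi * Complex.I * (F ∘ ofComplex) w / (a.natAbs : ℂ)) := by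
    funext w
    rfl
  rw [h1]
  exact (((differentiableOn_const _).mul hF).div_const _).cexp

theorem rt_pow (F : ℍ → ℂ) (a : ℤ) (ha : a ≠ 0)
    (hexp : ∀ τ : ℍ, Complex.exp (2 * Real.pi * Complex.I * F τ) =
      ModularForm.discriminant (heckeDiagMatrix p • τ) / ModularForm.discriminant τ) (z : ℍ) :
    rt F a z ^ a.natAbs = Dp p z / Δ z := by
  have hc : (a.natAbs : ℂ) ≠ 0 := by exact_mod_cast Int.natAbs_ne_zero.mpr ha
  rw [rt, ← Complex.exp_nat_mul, mul_div_cancel₀ _ hc, hexp z]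
  rfl

omit [Fact p.Prime] in
theorem rt_smul (F : ℍ → ℂ) (a : ℤ) (ha : a ≠ 0)
    (hper : ∀ γ : Gamma0 p, ∃ m : ℤ, ∀ z : ℍ,
      F ((γ : SL(2, ℤ)) • z) - F z = ((a * m : ℤ) : ℂ))
    (γ : SL(2, ℤ)) (hγ : γ ∈ Gamma0 p) (z : ℍ) : rt F a (γ • z) = rt F a z := by
  obtain ⟨m, hm⟩ := hper ⟨γ, hγ⟩
  have h1 : F (γ • z) = F z + ((a * m : ℤ) : ℂ) := by
    have := hm z
    linear_combination this
  obtain ⟨k, hk⟩ : ((a.natAbs : ℤ)) ∣ a * m := (Int.natAbs_dvd.mpr (dvd_refl a)).mul_right m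
  simp only [rt]
  rw [h1, hk]
  have hc0 : a.natAbs ≠ 0 := Int.natAbs_ne_zero.mpr ha
  generalize a.natAbs = c at hc0 ⊢
  have hc : (c : ℂ) ≠ 0 := by exact_mod_cast hc0
  have h2 : 2 * (Real.pi : ℂ) * Complex.I * (F z + (((c : ℤ) * k : ℤ) : ℂ)) / (c : ℂ)
      = 2 * Real.pi * Complex.I * F z / (c : ℂ) + k * (2 * Real.pi * Complex.I) := by
    push_cast
    field_simp
  rw [h2, Complex.exp_add, Complex.exp_int_mul_two_pi_mul_I, mul_one]

/-! ### The theorem -/

/-- (N5), weight 12 route: the statement of `dvd_twelve_of_exp`. -/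
theorem dvd_twelve_of_exp_w (F E : ℍ → ℂ)
    (hFE : ∀ τ : ℍ, HasDerivAt (F ∘ ofComplex) (E τ) τ)
    (hexp : ∀ τ : ℍ, Complex.exp (2 * Real.pi * Complex.I * F τ) =
      ModularForm.discriminant (heckeDiagMatrix p • τ) / ModularForm.discriminant τ)
    (hint : ∀ γ : Gamma0 p, ∃ m : ℤ, ∀ z : ℍ, F ((γ : SL(2, ℤ)) • z) - F z = (m : ℂ))
    (hT : ∀ τ : ℍ, F (ModularGroup.T • τ) - F τ = (p : ℂ) - 1) :
    ∃ (γ : Gamma0 p) (m : ℤ),
      (∀ z : ℍ, F ((γ : SL(2, ℤ)) • z) - F z = (m : ℂ)) ∧ m ∣ 12 := by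
  have hp : p.Prime := Fact.out
  obtain ⟨γ₀, a, ha0, hγ₀, hper⟩ := exists_gen p hp.one_lt F hint hT
  refine ⟨γ₀, a, hγ₀, ?_⟩
  have hc : 0 < a.natAbs := Int.natAbs_pos.mpr ha0
  have h12 : a.natAbs ∣ 12 :=
    dvd_twelve_of_root p a.natAbs hc (rt F a) (rt_mdiff F E a hFE)
      (fun γ hγ z => rt_smul p F a ha0 hper γ hγ z) (fun z => rt_pow p F a ha0 hexp z)
  have h : ((a.natAbs : ℕ) : ℤ) ∣ 12 := by exact_mod_cast h12
  exact Int.natAbs_dvd.mp h

end Root12W

end Fermat.Agent.S16
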