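import Mathlib

/-!
# S16 (N5 helper): roots of power series with coefficients in a subfield

If `w` is a power series with constant coefficient `1` over a field `L` and `w ^ c` has all its
coefficients in a subfield `K` (with `c ≠ 0` in `L`), then `w` has all its coefficients in `K`.
-/

set_option autoImplicit false

namespace Fermat.Agent.S16.RootSeries

open PowerSeries

section general

variable {L : Type*} [Field L]

/-- A power series whose coefficients lie in a subfield comes from the subfield. -/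
theorem exists_map_eq (K : Subfield L) (a : PowerSeries L) (h : ∀ n, coeff n a ∈ K) :
    ∃ a' : PowerSeries K, PowerSeries.map K.subtype a' = a := by
  refine ⟨PowerSeries.mk fun n => ⟨coeff n a, h n⟩, ?_⟩
  ext n
  simp

/-- The coefficients of a power of a power series with coefficients in `K` lie in `K`. -/
theorem coeff_pow_mem (K : Subfield L) (a : PowerSeries L) (h : ∀ n, coeff n a ∈ K) (c n : ℕ) :
    coeff n (a ^ c) ∈ K := by
  obtain ⟨a', rfl⟩ := exists_map_eq K a h
  rw [← map_pow, PowerSeries.coeff_map]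
  exact (coeff n (a' ^ c)).2

/-- The coefficients of a product of power series with coefficients in `K` lie in `K`. -/
theorem coeff_mul_mem (K : Subfield L) (a b : PowerSeries L) (ha : ∀ n, coeff n a ∈ K)
    (hb : ∀ n, coeff n b ∈ K) (n : ℕ) : coeff n (a * b) ∈ K := by
  obtain ⟨a', rfl⟩ := exists_map_eq K a ha
  obtain ⟨b', rfl⟩ := exists_map_eq K b hb
  rw [← map_mul, PowerSeries.coeff_map]
  exact (coeff n (a' * b')).2

/-- binomial expansion to first order. -/
theorem add_pow_succ_eq {R : Type*} [CommRing R] (a b : R) (c : ℕ) :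
    ∃ k : R, (a + b) ^ (c + 1) = a ^ (c + 1) + (c + 1 : ℕ) * a ^ c * b + b ^ 2 * k := by
  induction c with
  | zero => exact ⟨0, by simp⟩
  | succ c ih =>
    obtain ⟨k, hk⟩ := ih
    refine ⟨(c + 1 : ℕ) * a ^ c + k * a + k * b, ?_⟩
    rw [pow_succ, hk]
    push_cast
    ring

/-- **Roots of power series.**  If `w` has constant coefficient `1` and `w ^ c` has coefficients
in the subfield `K`, where `c ≠ 0` in `L`, then `w` has coefficients in `K`. -/
theorem coeff_mem_of_pow (K : Subfield L) {c : ℕ} (hc : (c : L) ≠ 0) (w : PowerSeries L)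
    (h0 : constantCoeff w = 1) (h : ∀ n, coeff n (w ^ c) ∈ K) : ∀ n, coeff n w ∈ K := by
  obtain ⟨c, rfl⟩ : ∃ d, c = d + 1 := by
    rcases c with _ | d
    · simp at hc
    · exact ⟨d, rfl⟩
  intro n
  induction n using Nat.strong_induction_on with
  | _ n ih =>
    rcases Nat.eq_zero_or_pos n with rfl | hn
    · rw [coeff_zero_eq_constantCoeff_apply, h0]
      exact K.one_mem
    -- the truncation `a` and the tail `b = X ^ n * r`
    set a : PowerSeries L := ((trunc n w : Polynomial L) : PowerSeries L) with ha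
    have hacoeff : ∀ m, coeff m a = if m < n then coeff m w else 0 := fun m => by
      rw [ha, Polynomial.coeff_coe, coeff_trunc]
    have haK : ∀ m, coeff m a ∈ K := fun m => by
      rw [hacoeff]
      split_ifs with hm
      · exact ih m hm
      · exact K.zero_mem
    have hdvd : (X : PowerSeries L) ^ n ∣ w - a := by
      rw [X_pow_dvd_iff]
      intro m hm
      rw [map_sub, hacoeff, if_pos hm, sub_self]
    obtain ⟨r, hr⟩ := hdvd
    have hr0 : coeff n w = constantCoeff r := by
      have h1 : coeff n (w - a) = coeff n w := by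
        rw [map_sub, hacoeff, if_neg (lt_irrefl n), sub_zero]
      rw [← h1, hr, coeff_X_pow_mul', if_pos le_rfl, Nat.sub_self,
        coeff_zero_eq_constantCoeff_apply]
    have ha0 : constantCoeff a = 1 := by
      rw [← coeff_zero_eq_constantCoeff_apply, hacoeff, if_pos hn,
        coeff_zero_eq_constantCoeff_apply, h0]
    obtain ⟨k, hk⟩ := add_pow_succ_eq a (X ^ n * r) c
    have hw : w = a + X ^ n * r := by rw [← hr]; ring
    have hpow : w ^ (c + 1) = a ^ (c + 1) + X ^ n * (((c + 1 : ℕ) : PowerSeries L) * a ^ c * r) +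
        X ^ n * (X ^ n * (r ^ 2 * k)) := by
      calc w ^ (c + 1) = (a + X ^ n * r) ^ (c + 1) := by rw [← hw]
        _ = _ := by rw [hk]; ring
    have t1 : coeff n (X ^ n * (((c + 1 : ℕ) : PowerSeries L) * a ^ c * r)) =
        ((c + 1 : ℕ) : L) * coeff n w := by
      rw [coeff_X_pow_mul', if_pos le_rfl, Nat.sub_self, coeff_zero_eq_constantCoeff_apply,
        map_mul, map_mul, map_pow, ha0, one_pow, mul_one, map_natCast, hr0]
    have t2 : coeff n (X ^ n * (X ^ n * (r ^ 2 * k)) : PowerSeries L) = 0 := by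
      rw [coeff_X_pow_mul', if_pos le_rfl, Nat.sub_self, coeff_zero_eq_constantCoeff_apply,
        map_mul, map_pow, constantCoeff_X, zero_pow hn.ne', zero_mul]
    have key : coeff n (w ^ (c + 1)) = coeff n (a ^ (c + 1)) + ((c + 1 : ℕ) : L) * coeff n w := by
      conv_lhs => rw [hpow]
      rw [map_add, map_add, t1, t2, add_zero]
    have hsol : coeff n w =
        (coeff n (w ^ (c + 1)) - coeff n (a ^ (c + 1))) / ((c + 1 : ℕ) : L) := by
      rw [key]
      field_simp
      ring
    rw [hsol]
    exact K.div_mem (K.sub_mem (h n) (coeff_pow_mem K a haK _ n)) (natCast_mem K _)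

end general

/-! ### rational coefficients over `ℂ` -/

section rat

/-- `x` is (the image of) a rational number. -/
theorem mem_fieldRange_iff {x : ℂ} : x ∈ (algebraMap ℚ ℂ).fieldRange ↔ ∃ r : ℚ, x = (r : ℂ) := by
  constructor
  · rintro ⟨r, rfl⟩
    exact ⟨r, rfl⟩
  · rintro ⟨r, rfl⟩
    exact ⟨r, rfl⟩

/-- **Rational roots.**  If `w ∈ ℂ⟦X⟧` has constant coefficient `1` and `w ^ c` (`c ≠ 0`) has
rational coefficients, then `w` has rational coefficients. -/
theorem coeff_rat_of_pow {c : ℕ} (hc : c ≠ 0) (w : PowerSeries ℂ) (h0 : constantCoeff w = 1)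
    (h : ∀ n, ∃ r : ℚ, coeff n (w ^ c) = (r : ℂ)) : ∀ n, ∃ r : ℚ, coeff n w = (r : ℂ) := by
  intro n
  rw [← mem_fieldRange_iff]
  exact coeff_mem_of_pow (algebraMap ℚ ℂ).fieldRange (Nat.cast_ne_zero.mpr hc) w h0
    (fun m => mem_fieldRange_iff.mpr (h m)) n

/-- The inverse of a power series with rational coefficients and constant coefficient `1` has
rational coefficients. -/
theorem coeff_rat_inv (w : PowerSeries ℂ) (h0 : constantCoeff w = 1)
    (h : ∀ n, ∃ r : ℚ, coeff n w = (r : ℂ)) : ∀ n, ∃ r : ℚ, coeff n w⁻¹ = (r : ℂ) := by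
  obtain ⟨a, rfl⟩ := exists_map_eq (algebraMap ℚ ℂ).fieldRange w
    (fun m => mem_fieldRange_iff.mpr (h m))
  have ha0 : constantCoeff a ≠ 0 := by
    intro h0'
    have : constantCoeff (PowerSeries.map (algebraMap ℚ ℂ).fieldRange.subtype a) = 0 := by
      rw [← coeff_zero_eq_constantCoeff_apply, PowerSeries.coeff_map,
        coeff_zero_eq_constantCoeff_apply, h0', map_zero]
    rw [h0] at this
    exact one_ne_zero this
  have hw0 : constantCoeff (PowerSeries.map (algebraMap ℚ ℂ).fieldRange.subtype a) ≠ 0 := by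
    rw [h0]; exact one_ne_zero
  have hinv : (PowerSeries.map (algebraMap ℚ ℂ).fieldRange.subtype a)⁻¹ =
      PowerSeries.map (algebraMap ℚ ℂ).fieldRange.subtype a⁻¹ := by
    symm
    rw [PowerSeries.eq_inv_iff_mul_eq_one hw0, ← map_mul, PowerSeries.inv_mul_cancel _ ha0,
      map_one]
  intro n
  rw [← mem_fieldRange_iff, hinv, PowerSeries.coeff_map]
  exact (coeff n a⁻¹).2

/-- integer coefficients are rational. -/
theorem coeff_rat_of_int {f : PowerSeries ℂ} (h : ∀ n, ∃ m : ℤ, coeff n f = (m : ℂ)) :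
    ∀ n, ∃ r : ℚ, coeff n f = (r : ℂ) := fun n => by
  obtain ⟨m, hm⟩ := h n
  exact ⟨m, by rw [hm]; push_cast; rfl⟩

/-- **Rational roots of an integral series**, with the inverse: if `w(0) = 1` and `w ^ c` has
integer coefficients then `w` and `w⁻¹` have rational coefficients. -/
theorem coeff_rat_of_pow_int {c : ℕ} (hc : c ≠ 0) (w : PowerSeries ℂ) (h0 : constantCoeff w = 1)
    (h : ∀ n, ∃ m : ℤ, coeff n (w ^ c) = (m : ℂ)) :
    (∀ n, ∃ r : ℚ, coeff n w = (r : ℂ)) ∧ ∀ n, ∃ r : ℚ, coeff n w⁻¹ = (r : ℂ) := by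
  have h1 := coeff_rat_of_pow hc w h0 (coeff_rat_of_int h)
  exact ⟨h1, coeff_rat_inv w h0 h1⟩

end rat

end Fermat.Agent.S16.RootSeries
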